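import Fermat.Agent.LT.Geo.Setup
import Fermat.Agent.LT.E.Av

/-!
# Invariance of the normalised absolute values under ring isomorphisms
-/

set_option autoImplicit false
set_option linter.unusedSectionVars false

open NumberField IsDedekindDomain Matrix
open Fermat.Agent.LT.D

namespace Fermat.LT

section

variable {F F' : Type} [Field F] [NumberField F] [Field F'] [NumberField F'] (e : F ≃+* F')

theorem asIdeal_plEquiv (w : Pl F) :
    (plEquiv e w).asIdeal = w.asIdeal.map (RingOfIntegers.mapRingEquiv e) := by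
  exact Ideal.comap_symm (RingOfIntegers.mapRingEquiv e)

theorem mem_plEquiv_pow (w : Pl F) (n : ℕ) (x : 𝓞 F) :
    RingOfIntegers.mapRingEquiv e x ∈ (plEquiv e w).asIdeal ^ n ↔ x ∈ w.asIdeal ^ n := by
  rw [asIdeal_plEquiv, ← Ideal.map_pow]
  constructor
  · intro h
    have h2 : RingOfIntegers.mapRingEquiv e x ∈
        (w.asIdeal ^ n).comap (RingOfIntegers.mapRingEquiv e).symm := by
      rw [Ideal.comap_symm]; exact h
    rw [Ideal.mem_comap] at h2
    simpa using h2
  · exact Ideal.mem_map_of_mem _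

theorem absNorm_plEquiv (w : Pl F) :
    Ideal.absNorm (plEquiv e w).asIdeal = Ideal.absNorm w.asIdeal := by
  rw [Ideal.absNorm_apply, Ideal.absNorm_apply, Submodule.cardQuot_apply, Submodule.cardQuot_apply]
  exact (Nat.card_congr (Ideal.quotientEquiv _ _ (RingOfIntegers.mapRingEquiv e)
    (asIdeal_plEquiv e w)).toEquiv).symm

theorem qv_plEquiv (w : Pl F) : qv (plEquiv e w) = qv w := by
  unfold qv
  rw [absNorm_plEquiv]

theorem intValuation_plEquiv (w : Pl F) (x : 𝓞 F) :
    (plEquiv e w).intValuation (RingOfIntegers.mapRingEquiv e x) = w.intValuation x := by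
  by_cases hx : x = 0
  · subst hx
    rw [map_zero, map_zero, map_zero]
  have hx' : RingOfIntegers.mapRingEquiv e x ≠ 0 := by
    rwa [Ne, map_eq_zero_iff _ (RingOfIntegers.mapRingEquiv e).injective]
  have key : ∀ n : ℕ, (plEquiv e w).intValuation (RingOfIntegers.mapRingEquiv e x) ≤
      WithZero.exp (-(n : ℤ)) ↔ w.intValuation x ≤ WithZero.exp (-(n : ℤ)) := by
    intro n
    rw [HeightOneSpectrum.intValuation_le_pow_iff_mem,
      HeightOneSpectrum.intValuation_le_pow_iff_mem, mem_plEquiv_pow]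
  have h1 := (plEquiv e w).intValuation_eq_exp_neg_multiplicity hx'
  have h2 := w.intValuation_eq_exp_neg_multiplicity hx
  apply le_antisymm
  · rw [h2]
    exact (key _).mpr h2.le
  · rw [h1]
    exact (key _).mp h1.le

theorem valuation_plEquiv (w : Pl F) (x : F) :
    (plEquiv e w).valuation F' (e x) = w.valuation F x := by
  obtain ⟨a, b, hb, rfl⟩ := IsFractionRing.div_surjective (A := 𝓞 F) x
  have h : ∀ a : 𝓞 F, e (algebraMap (𝓞 F) F a) =
      algebraMap (𝓞 F') F' (RingOfIntegers.mapRingEquiv e a) := fun a => rfl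
  rw [map_div₀, map_div₀, map_div₀, h, h, HeightOneSpectrum.valuation_of_algebraMap,
    HeightOneSpectrum.valuation_of_algebraMap, HeightOneSpectrum.valuation_of_algebraMap,
    HeightOneSpectrum.valuation_of_algebraMap, intValuation_plEquiv, intValuation_plEquiv]

theorem av_plEquiv (w : Pl F) (x : F) : av (plEquiv e w) (e x) = av w x := by
  have h : ∀ (F : Type) [Field F] [NumberField F] (w : Pl F) (x : F), av w x =
      WithZeroMulInt.toNNReal
        (ne_zero_of_lt (NumberField.HeightOneSpectrum.one_lt_absNorm_nnreal w))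
        (w.valuation F x) := fun F _ _ w x => rfl
  have key : ∀ (a b : NNReal) (ha : a ≠ 0) (hb : b ≠ 0), a = b →
      WithZeroMulInt.toNNReal ha = WithZeroMulInt.toNNReal hb := by
    rintro a _ ha hb rfl; rfl
  rw [h F', h F, valuation_plEquiv]
  congr 2
  exact key _ _ _ _ (by rw [absNorm_plEquiv])

end

section

variable {K L : Type} [Field K] [NumberField K] [Field L] [NumberField L] [Algebra K L]
  (C : Cub K L)

theorem av_pl (w : Pl L) (x : L) : av (pl C w) (C.σ x) = av w x := av_plEquiv (C.σ : L ≃+* L) w x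

theorem qv_pl (w : Pl L) : qv (pl C w) = qv w := qv_plEquiv (C.σ : L ≃+* L) w

theorem av_σ_of_fix {w : Pl L} (h : pl C w = w) (x : L) : av w (C.σ x) = av w x := by
  have := av_pl C w x
  rwa [h] at this

theorem nm_pl (w : Pl L) (g : Matrix (Fin 2) (Fin 2) L) : nm (pl C w) (C.s g) = nm w g := by
  unfold nm
  simp only [Cub.s_apply, av_pl]

theorem intGL_pl (w : Pl L) (g : G2 L) : C.S g ∈ intGL (pl C w) ↔ g ∈ intGL w := by
  change nm (pl C w) (C.s g.1) ≤ 1 ∧ nm (pl C w) ((C.S g)⁻¹).1 ≤ 1 ↔ _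
  rw [← map_inv]
  change nm (pl C w) (C.s g.1) ≤ 1 ∧ nm (pl C w) (C.s (g⁻¹).1) ≤ 1 ↔ _
  rw [nm_pl, nm_pl]
  rfl

theorem stdH_pl (w : Pl L) (g : G2 L) : C.S g ∈ stdH (pl C w) ↔ g ∈ stdH w := by
  change nm (pl C w) (C.s g.1) * nm (pl C w) ((C.S g)⁻¹).1 ≤ 1 ↔ _
  rw [← map_inv]
  change nm (pl C w) (C.s g.1) * nm (pl C w) (C.s (g⁻¹).1) ≤ 1 ↔ _
  rw [nm_pl, nm_pl]
  rfl

end

end Fermat.LT
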