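import Fermat.Agent.LT.Geo.PureMul
import Fermat.Agent.LT.B.XInst
import Fermat.Agent.LT.B.FinKer
import Fermat.Agent.LT.B.Comp

/-!
# Operator calculus for pure tensors (LT, PMUL)

* `Pure.cKer` : `k.ker` is a continuous properly supported kernel;
* `opX w t` : the operator of a local function at `w`; `opX_T1 : opX w (T1 w) = TX w`;
* `Pure.ker_insL`, `Pure.appK_insL : R(t *_w k) = T_t R(k)`;
* `Pure.ker_insAL`, `Pure.appK_insAL : R(g *_i k) = RX i g R(k)`;
* `Pure.appK_mul : R(k k') = R(k) R(k')`;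
* `compC_sum_ker` : composition of finite linear combinations.
-/

set_option autoImplicit false
set_option linter.unusedSectionVars false

open NumberField IsDedekindDomain Matrix MeasureTheory Set
open Fermat.LT.GeoDatum (acomp)
open Fermat.Agent.LT.B (upd upd_same upd_ne upd_self upd_injective upd_eq_of appK CKer compC TX TY
  RX updI continuous_ch_coord isCompact_boxI continuous_coord continuous_coordI)
open Fermat.Agent.LT.CArch (IsTest kfun kopH)

namespace Fermat.LT

variable {F : Type} [Field F] [NumberField F] {D : Datum F}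

namespace Pure

variable (k k' k'' : Pure D)

theorem continuous_kerI_pure : Continuous fun p : XI D.toArch × XI D.toArch => k.kerI p.1 p.2 := by
  unfold kerI
  refine continuous_finsetProd _ fun i _ => ?_
  exact (k.a_cont i).comp (((continuous_coordI D.toArch i).comp continuous_fst).prodMk
    ((continuous_coordI D.toArch i).comp continuous_snd))

theorem continuous_ker_pure : Continuous fun p : X D × X D => k.ker p.1 p.2 := by
  unfold ker
  refine Continuous.mul ?_ ?_
  · exact k.continuous_kerI_pure.comp ((continuous_fst.comp continuous_fst).prodMk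
      (continuous_fst.comp continuous_snd))
  · have h1 : Continuous (Function.uncurry k.kerY) := continuous_of_discreteTopology
    exact h1.comp ((continuous_snd.comp continuous_fst).prodMk (continuous_snd.comp continuous_snd))

theorem ch_le_of_kerI {R : ℝ} (hR : ∀ i P Q, k.a i P Q ≠ 0 → H3.ch P Q ≤ R) {x y : XI D.toArch}
    (h : k.kerI x y ≠ 0) (i : D.I) : H3.ch (x i) (y i) ≤ R := by
  apply hR i
  intro h0
  exact h (Finset.prod_eq_zero (Finset.mem_univ i) h0)

theorem supp_pure (K : Set (X D)) (hK : IsCompact K) :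
    ∃ C' : Set (X D), IsCompact C' ∧ ∀ x ∈ K, ∀ y ∉ C', k.ker x y = 0 := by
  classical
  obtain ⟨R, hR⟩ := k.a_supp
  obtain ⟨P0⟩ : Nonempty H3 := inferInstance
  have hM : ∀ i : D.I, ∃ M : ℝ, ∀ x ∈ K, H3.ch P0 (x.1 i) ≤ M := by
    intro i
    have hc := continuous_ch_coord (D := D) P0 i
    obtain ⟨M, hM⟩ := (hK.image hc).bddAbove
    exact ⟨M, fun x hx => hM ⟨x, hx, rfl⟩⟩
  choose M hM using hM
  have hK2 : ((fun x : X D => x.2) '' K).Finite :=
    (hK.image continuous_snd).finite_of_discrete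
  let S : Set (Y D.toLevel) := ⋃ y ∈ (fun x : X D => x.2) '' K, {y' | k.kerY y y' ≠ 0}
  have hS : S.Finite := hK2.biUnion fun y _ => k.isFinTest.fin y
  refine ⟨{x : XI D.toArch | ∀ i, x i ∈ H3.ball P0 (2 * (M i * R))} ×ˢ S,
    (isCompact_boxI _ _ _).prod hS.isCompact, ?_⟩
  intro x hx y hy
  by_contra hne
  obtain ⟨h1, h2⟩ := mul_ne_zero_iff.1 (show k.kerI x.1 y.1 * k.kerY x.2 y.2 ≠ 0 from hne)
  apply hy
  refine ⟨fun i => ?_, mem_iUnion₂.2 ⟨x.2, ⟨x, hx, rfl⟩, h2⟩⟩
  rw [H3.mem_ball]
  have h4 := Fermat.Agent.LT.B.ch_le_two_mul P0 (x.1 i) (y.1 i)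
  have h5 : H3.ch (x.1 i) (y.1 i) ≤ R := k.ch_le_of_kerI hR h1 i
  have h6 := H3.one_le_ch P0 (x.1 i)
  have h7 := H3.one_le_ch (x.1 i) (y.1 i)
  have h8 := hM i x hx
  calc H3.ch P0 (y.1 i) ≤ 2 * (H3.ch P0 (x.1 i) * H3.ch (x.1 i) (y.1 i)) := h4
    _ ≤ 2 * (M i * R) := by
      have : H3.ch P0 (x.1 i) * H3.ch (x.1 i) (y.1 i) ≤ M i * R :=
        mul_le_mul h8 h5 (by linarith) (by linarith)
      linarith

/-- Kernels of pure tensors are continuous and properly supported. -/
theorem cKer : CKer (PG F) k.ker where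
  cont := k.continuous_ker_pure
  inv := k.ker_smul_PG
  supp := k.supp_pure

theorem integrable_ker_mul {φ : X D → ℂ} (hφ : Continuous φ) (x : X D) :
    Integrable fun y => k.ker x y * φ y := by
  obtain ⟨C', hC', h⟩ := k.supp_pure {x} isCompact_singleton
  refine Continuous.integrable_of_hasCompactSupport ?_ (HasCompactSupport.intro hC' fun y hy => ?_)
  · exact (k.continuous_ker_pure.comp (continuous_const.prodMk continuous_id)).mul hφ
  · rw [h x rfl y hy, zero_mul]

end Pure

section hecke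

variable {w : Pl F} {t t' : G2 F → ℂ}

/-- The operator of a local function `t` at `w`. -/
noncomputable def opX (w : Pl F) (t : G2 F → ℂ) (φ : X D → ℂ) (x : X D) : ℂ :=
  ∑ᶠ z : Yl D.toLevel w, kw (D.H w) t (x.2 w) z * φ (x.1, upd x.2 w z)

theorem opX_eq_sum (ht : BiInv (D.H w) t) (ht' : FinS (D.H w) t) (φ : X D → ℂ) (x : X D) :
    opX w t φ x = ∑ z ∈ (rowFin_kw ht ht' (x.2 w)).toFinset,
      kw (D.H w) t (x.2 w) z * φ (x.1, upd x.2 w z) := by
  refine finsum_eq_sum_of_support_subset _ fun z hz => ?_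
  rw [Finset.mem_coe, Set.Finite.mem_toFinset]
  exact left_ne_zero_of_mul hz

theorem opX_unitF (φ : X D → ℂ) : opX w (unitF (D.H w)) φ = φ := by
  funext x
  unfold opX
  rw [← unitK_eq_kw, finsum_eq_single _ (x.2 w), unitK_self, one_mul, upd_self]
  intro z hz
  rw [unitK_ne fun h => hz h.symm, zero_mul]

/-- `opX` is multiplicative. -/
theorem opX_convF (ht : BiInv (D.H w) t) (hs : FinS (D.H w) t) (ht' : BiInv (D.H w) t')
    (hs' : FinS (D.H w) t') (φ : X D → ℂ) :
    opX w (convF (D.H w) t t') φ = opX w t (opX w t' φ) := by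
  classical
  funext x
  rw [opX_eq_sum ht hs]
  have e : ∀ z, opX w t' φ (x.1, upd x.2 w z) =
      ∑ᶠ z', kw (D.H w) t' z z' * φ (x.1, upd x.2 w z') := by
    intro z
    unfold opX
    refine finsum_congr fun z' => ?_
    rw [upd_same, Fermat.Agent.LT.B.upd_upd]
  simp only [e]
  have hfin : ∀ z, (Function.support fun z' => kw (D.H w) t' z z' *
      φ (x.1, upd x.2 w z')).Finite := fun z => (rowFin_kw ht' hs').mul_right z _
  unfold opX
  rw [kw_convF ht ht']
  have e2 : ∀ z', kcomp (kw (D.H w) t) (kw (D.H w) t') (x.2 w) z' * φ (x.1, upd x.2 w z') =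
      ∑ z ∈ (rowFin_kw ht hs (x.2 w)).toFinset, kw (D.H w) t (x.2 w) z *
        (kw (D.H w) t' z z' * φ (x.1, upd x.2 w z')) := by
    intro z'
    rw [kcomp_eq_sum (S := (rowFin_kw ht hs (x.2 w)).toFinset) (fun z hz => by
      rw [Set.Finite.mem_toFinset]; exact hz), Finset.sum_mul]
    exact Finset.sum_congr rfl fun z _ => mul_assoc _ _ _
  rw [finsum_congr e2, finsum_sum_comm]
  · refine Finset.sum_congr rfl fun z _ => ?_
    rw [← smul_eq_mul, smul_finsum]
    exact finsum_congr fun z' => by rw [smul_eq_mul]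
  · intro z _
    exact (hfin z).subset fun z' hz' => right_ne_zero_of_mul hz'

theorem opX_add (ht : BiInv (D.H w) t) (hs : FinS (D.H w) t) (φ ψ : X D → ℂ) :
    opX w t (fun x => φ x + ψ x) = fun x => opX w t φ x + opX w t ψ x := by
  funext x
  rw [opX_eq_sum ht hs, opX_eq_sum ht hs, opX_eq_sum ht hs, ← Finset.sum_add_distrib]
  exact Finset.sum_congr rfl fun z _ => mul_add _ _ _

theorem opX_smul (c : ℂ) (φ : X D → ℂ) :
    opX w t (fun x => c * φ x) = fun x => c * opX w t φ x := by
  funext x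
  unfold opX
  rw [← smul_eq_mul c, smul_finsum]
  exact finsum_congr fun x => by rw [smul_eq_mul, mul_left_comm]

theorem continuous_opX (ht : BiInv (D.H w) t) (hs : FinS (D.H w) t) {φ : X D → ℂ}
    (hφ : Continuous φ) : Continuous (opX w t φ) := by
  rw [continuous_prod_of_discrete_right]
  intro y
  have e : (fun P : XI D.toArch => opX w t φ (P, y)) = fun P =>
      ∑ z ∈ (rowFin_kw ht hs (y w)).toFinset, kw (D.H w) t (y w) z * φ (P, upd y w z) := by
    funext P
    exact opX_eq_sum ht hs φ (P, y)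
  change Continuous fun P : XI D.toArch => opX w t φ (P, y)
  rw [e]
  refine continuous_finsetSum _ fun z _ => continuous_const.mul ?_
  exact hφ.comp (continuous_id.prodMk continuous_const)

theorem upd_smul (g : G2 F) {U : Level F} (y : Y U) (w : Pl F) (z : Yl U w) :
    upd (g • y) w (g • z) = g • upd y w z := by
  refine Y.ext' fun v => ?_
  rw [G2_smul_apply]
  by_cases h : v = w
  · subst h; rw [upd_same, upd_same]
  · rw [upd_ne _ h, upd_ne _ h, G2_smul_apply]

/-- `opX` preserves invariant functions. -/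
theorem opX_inv (ht : BiInv (D.H w) t) {φ : X D → ℂ} (hφ : ∀ (γ : PG F) x, φ (γ • x) = φ x)
    (γ : PG F) (x : X D) : opX w t φ (γ • x) = opX w t φ x := by
  obtain ⟨g, rfl⟩ := Matrix.ProjGenLinGroup.mk_surjective γ
  change opX w t φ (g • x) = _
  unfold opX
  rw [← finsum_comp_equiv (MulAction.toPerm g)]
  refine finsum_congr fun z => ?_
  rw [MulAction.toPerm_apply]
  change kw (D.H w) t ((g • x.2) w) (g • z) * φ (g • x.1, upd (g • x.2) w (g • z)) = _
  rw [G2_smul_apply, kw_smul ht, upd_smul]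
  congr 1
  exact hφ (pmk g) (x.1, upd x.2 w z)

end hecke

namespace Pure

variable (k k' : Pure D) (w : Pl F) {t : G2 F → ℂ} (ht : BiInv (D.H w) t)
  (ht' : FinS (D.H w) t)

theorem offY_upd_left (w : Pl F) (x y : Y D.toLevel) (z : Yl D.toLevel w) :
    k.offY w (upd x w z) y = k.offY w x y := by
  classical
  unfold offY
  refine finprod_congr fun v => ?_
  split_ifs with h
  · rfl
  · rw [upd_ne x h]

theorem offY_upd_right (w : Pl F) (x y : Y D.toLevel) (z : Yl D.toLevel w) :
    k.offY w x (upd y w z) = k.offY w x y := by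
  classical
  unfold offY
  refine finprod_congr fun v => ?_
  split_ifs with h
  · rfl
  · rw [upd_ne y h]

/-- the kernel of a left insertion -/
theorem ker_insL (x y : X D) : (k.insL w ht ht').ker x y = opX w t (fun x => k.ker x y) x := by
  unfold insL opX
  rw [ker_setF, kw_convF ht (k.f_bi w)]
  have e : ∀ z, kw (D.H w) t (x.2 w) z * k.ker (x.1, upd x.2 w z) y =
      kw (D.H w) t (x.2 w) z * kw (D.H w) (k.f w) z (y.2 w) *
        (k.kerI x.1 y.1 * k.offY w x.2 y.2) := by
    intro z
    rw [k.ker_eq_offY w]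
    change kw (D.H w) t (x.2 w) z * (kw (D.H w) (k.f w) ((upd x.2 w z) w) (y.2 w) *
      (k.kerI x.1 y.1 * k.offY w (upd x.2 w z) y.2)) = _
    rw [upd_same, offY_upd_left, mul_assoc]
  rw [finsum_congr e]
  unfold kcomp
  rw [finsum_mul' _ _ ((rowFin_kw ht ht').mul_right (x.2 w) _)]

/-- the kernel of a right insertion -/
theorem ker_insR (x y : X D) : (k.insR w ht ht').ker x y =
    ∑ᶠ z, k.ker x (y.1, upd y.2 w z) * kw (D.H w) t z (y.2 w) := by
  unfold insR
  rw [ker_setF, kw_convF (k.f_bi w) ht]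
  have e : ∀ z, k.ker x (y.1, upd y.2 w z) * kw (D.H w) t z (y.2 w) =
      kw (D.H w) (k.f w) (x.2 w) z * kw (D.H w) t z (y.2 w) *
        (k.kerI x.1 y.1 * k.offY w x.2 y.2) := by
    intro z
    rw [k.ker_eq_offY w]
    change kw (D.H w) (k.f w) (x.2 w) ((upd y.2 w z) w) *
      (k.kerI x.1 y.1 * k.offY w x.2 (upd y.2 w z)) * kw (D.H w) t z (y.2 w) = _
    rw [upd_same, offY_upd_right]
    ring
  rw [finsum_congr e]
  unfold kcomp
  rw [finsum_mul' _ _ ((rowFin_kw (k.f_bi w) (k.f_fin w)).mul_right (x.2 w) _)]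

/-- **Left insertions and operators.** -/
theorem appK_insL {φ : X D → ℂ} (hφ : Continuous φ) :
    appK volume (k.insL w ht ht').ker φ = opX w t (appK volume k.ker φ) := by
  funext x
  rw [opX_eq_sum ht ht']
  unfold appK
  have e : ∀ y, (k.insL w ht ht').ker x y * φ y =
      ∑ z ∈ (rowFin_kw ht ht' (x.2 w)).toFinset, kw (D.H w) t (x.2 w) z *
        (k.ker (x.1, upd x.2 w z) y * φ y) := by
    intro y
    rw [ker_insL, opX_eq_sum ht ht', Finset.sum_mul]
    exact Finset.sum_congr rfl fun z _ => mul_assoc _ _ _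
  simp only [e]
  rw [integral_finsetSum _ fun z _ => (k.integrable_ker_mul hφ _).const_mul _]
  exact Finset.sum_congr rfl fun z _ => integral_const_mul _ _

end Pure

section T1

variable {w : Pl F}

/-- a function of the distance -/
noncomputable def sphF (w : Pl F) (a : ℕ → ℂ) (g : G2 F) : ℂ := a (Fermat.Agent.LT.CTree.dn w g)

theorem biInv_sphF {H : Subgroup (G2 F)} (hH : H ≤ stdH w) (a : ℕ → ℂ) : BiInv H (sphF w a) := by
  intro h hh h' hh' g
  unfold sphF
  rw [Fermat.Agent.LT.CTree.dn_mul_right w _ (hH hh'), Fermat.Agent.LT.CTree.dn_mul_left w (hH hh)]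

theorem T1_eq_sphF : T1 w = sphF w Fermat.Agent.LT.CTree.δ₁ := by
  funext g
  unfold T1 sphF Fermat.Agent.LT.CTree.δ₁
  have h : nm w g.1 * nm w (g⁻¹).1 = qv w ↔ Fermat.Agent.LT.CTree.dn w g = 1 := by
    rw [Fermat.Agent.LT.CTree.dn_eq_iff, pow_one]
    rfl
  by_cases h1 : nm w g.1 * nm w (g⁻¹).1 = qv w
  · rw [if_pos h1, if_pos (h.mp h1)]
  · rw [if_neg h1, if_neg fun h2 => h1 (h.mpr h2)]

theorem unitF_stdH_eq : unitF (stdH w) = sphF w Fermat.Agent.LT.CTree.δ₀ := by
  funext g
  unfold unitF sphF Fermat.Agent.LT.CTree.δ₀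
  by_cases h1 : g ∈ stdH w
  · rw [if_pos h1, if_pos ((Fermat.Agent.LT.CTree.dn_eq_zero_iff w g).mpr h1)]
  · rw [if_neg h1, if_neg fun h2 => h1 ((Fermat.Agent.LT.CTree.dn_eq_zero_iff w g).mp h2)]

theorem kw_sphF (U : Level F) (a : ℕ → ℂ) (y y' : Yl U w) :
    kw (U.H w) (sphF w a) y y' = a (Fermat.Agent.LT.CTree.dY w y y') := by
  obtain ⟨y, rfl⟩ := QuotientGroup.mk_surjective y
  obtain ⟨y', rfl⟩ := QuotientGroup.mk_surjective y'
  rw [kw_mk (biInv_sphF (U.le_std w) a), Fermat.Agent.LT.CTree.dY_mk]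
  rfl

theorem finS_sphF (U : Level F) {a : ℕ → ℂ} (ha : a.support.Finite) :
    FinS (U.H w) (sphF w a) := by
  have h2 : ∃ N : ℕ, ∀ n, a n ≠ 0 → n ≤ N := by
    obtain ⟨N, hN⟩ := ha.bddAbove
    exact ⟨N, fun n hn => hN hn⟩
  obtain ⟨N, hN⟩ := h2
  refine (dlY_finite w ((1 : G2 F) : Yl U w) (qv w ^ N)).subset fun c hc => ?_
  obtain ⟨g, hg⟩ := QuotientGroup.mk_surjective c
  have h1 : kw (U.H w) (sphF w a) ((1 : G2 F) : Yl U w) c ≠ 0 := by
    rw [kw_one_left' (biInv_sphF (U.le_std w) a)]
    exact hc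
  rw [← hg, kw_one_left (biInv_sphF (U.le_std w) a)] at h1
  rw [Set.mem_ofPred_eq, ← hg, dlY_mk, inv_one, one_mul]
  have h3 : dl w g = qv w ^ Fermat.Agent.LT.CTree.dn w g := Fermat.Agent.LT.CTree.dd_eq_pow w g
  rw [h3]
  exact pow_le_pow_right₀ (one_lt_qv w).le (hN _ h1)

theorem biInv_T1_of_le {H : Subgroup (G2 F)} (hH : H ≤ stdH w) : BiInv H (T1 w) := by
  rw [T1_eq_sphF]
  exact biInv_sphF hH _

theorem finS_T1_lvl (U : Level F) (w : Pl F) : FinS (U.H w) (T1 w) := by
  rw [T1_eq_sphF]
  exact finS_sphF U Fermat.Agent.LT.CTree.δ₁_support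

/-- the operator of a function of the distance is the local Hecke operator -/
theorem opX_sphF (a : ℕ → ℂ) (φ : X D → ℂ) (x : X D) :
    opX w (sphF w a) φ x =
      Fermat.Agent.LT.CTree.Tl w a (fun z => φ (x.1, upd x.2 w z)) (x.2 w) := by
  unfold opX Fermat.Agent.LT.CTree.Tl
  exact finsum_congr fun z => by rw [kw_sphF]

theorem opX_T1 (φ : X D → ℂ) : opX w (T1 w) φ = TX w φ := by
  funext x
  rw [T1_eq_sphF, opX_sphF]
  rfl

end T1

/-! ### Archimedean insertions -/

section arch

theorem updI_fst_self (x : X D) (i : D.I) (R : H3) : (updI x i R).1 i = R :=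
  Function.update_self (β := fun _ : D.I => H3) i R x.1

theorem updI_fst_ne (x : X D) {i j : D.I} (h : j ≠ i) (R : H3) : (updI x i R).1 j = x.1 j :=
  Function.update_of_ne (β := fun _ : D.I => H3) h R x.1

theorem continuous_updI (x : X D) (i : D.I) : Continuous fun R : H3 => updI x i R := by
  refine Continuous.prodMk ?_ continuous_const
  change Continuous fun R : H3 => (Function.update (β := fun _ : D.I => H3) x.1 i R : D.I → H3)
  exact continuous_const.update i continuous_id

/-- The operator of a point pair invariant in the variable `i`. -/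
noncomputable def opI (i : D.I) (b : H3 → H3 → ℂ) (φ : X D → ℂ) (x : X D) : ℂ :=
  ∫ R : H3, b (x.1 i) R * φ (updI x i R)

theorem opI_radK (i : D.I) (g : ℝ → ℂ) (φ : X D → ℂ) : opI i (radK g) φ = RX i g φ := rfl

end arch

namespace Pure

variable (k k' : Pure D) (i : D.I) {b : H3 → H3 → ℂ} (hb : PPI b)

theorem ker_updI (x y : X D) (R : H3) : k.ker (updI x i R) y =
    k.a i R (y.1 i) * (k.offI i x.1 y.1 * k.kerY x.2 y.2) := by
  rw [k.ker_eq_offI i, updI_fst_self]
  have h : k.offI i (updI x i R).1 y.1 = k.offI i x.1 y.1 := by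
    unfold offI
    refine Finset.prod_congr rfl fun j hj => ?_
    rw [updI_fst_ne x (Finset.ne_of_mem_erase hj)]
  rw [h]
  rfl

/-- the kernel of an archimedean insertion -/
theorem ker_insAL (x y : X D) : (k.insAL i hb).ker x y = opI i b (fun x => k.ker x y) x := by
  unfold insAL opI
  rw [ker_setA]
  simp only [ker_updI, ← mul_assoc]
  rw [integral_mul_const, integral_mul_const]
  rfl

/-- **Archimedean insertions and operators.** -/
theorem appK_insAL {φ : X D → ℂ} (hφ : Continuous φ) :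
    appK volume (k.insAL i hb).ker φ = opI i b (appK volume k.ker φ) := by
  funext x
  unfold appK opI
  have e1 : ∀ y, (k.insAL i hb).ker x y * φ y =
      ∫ R : H3, b (x.1 i) R * (k.ker (updI x i R) y * φ y) := by
    intro y
    rw [ker_insAL]
    unfold opI
    rw [← integral_mul_const]
    simp only [mul_assoc]
  have e2 : ∀ R : H3, b (x.1 i) R * ∫ y, k.ker (updI x i R) y * φ y =
      ∫ y, b (x.1 i) R * (k.ker (updI x i R) y * φ y) := fun R => (integral_const_mul _ _).symm
  simp only [e1, e2]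
  obtain ⟨R₀, hR₀⟩ := hb.supp
  obtain ⟨C', hC', hC⟩ := k.supp_pure ((fun R => updI x i R) '' H3.ball (x.1 i) R₀)
    ((H3.isCompact_ball _ _).image (continuous_updI x i))
  refine integral_integral_swap ?_
  refine Continuous.integrable_of_hasCompactSupport ?_
    (HasCompactSupport.intro (hC'.prod (H3.isCompact_ball (x.1 i) R₀)) fun p hp => ?_)
  · refine Continuous.mul ?_ (Continuous.mul ?_ (hφ.comp continuous_fst))
    · exact (hb.cont_right (x.1 i)).comp continuous_snd
    · exact k.continuous_ker_pure.comp (((continuous_updI x i).comp continuous_snd).prodMk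
        continuous_fst)
  · change b (x.1 i) p.2 * (k.ker (updI x i p.2) p.1 * φ p.1) = 0
    by_cases h1 : p.2 ∈ H3.ball (x.1 i) R₀
    · have h2 : p.1 ∉ C' := fun h => hp ⟨h, h1⟩
      rw [hC _ ⟨p.2, h1, rfl⟩ _ h2, zero_mul, mul_zero]
    · have h3 : b (x.1 i) p.2 = 0 := by
        by_contra h0
        exact h1 (hR₀ _ _ h0)
      rw [h3, zero_mul]

/-- **Products and operators.** -/
theorem appK_mul {φ : X D → ℂ} (hφ : Continuous φ) :
    appK volume (k.mul k').ker φ = appK volume k.ker (appK volume k'.ker φ) := by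
  funext x
  unfold appK
  have e1 : ∀ y, (k.mul k').ker x y * φ y = ∫ z, k.ker x z * (k'.ker z y * φ y) := by
    intro y
    rw [← (ker_mul k k' x y).2, ← integral_mul_const]
    simp only [mul_assoc]
  have e2 : ∀ z, k.ker x z * ∫ y, k'.ker z y * φ y = ∫ y, k.ker x z * (k'.ker z y * φ y) :=
    fun z => (integral_const_mul _ _).symm
  simp only [e1, e2]
  obtain ⟨C₁, hC₁, h₁⟩ := k.supp_pure {x} isCompact_singleton
  obtain ⟨C₂, hC₂, h₂⟩ := k'.supp_pure C₁ hC₁
  refine integral_integral_swap ?_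
  refine Continuous.integrable_of_hasCompactSupport ?_
    (HasCompactSupport.intro (hC₂.prod hC₁) fun p hp => ?_)
  · refine Continuous.mul ?_ (Continuous.mul ?_ (hφ.comp continuous_fst))
    · exact k.continuous_ker_pure.comp (continuous_const.prodMk continuous_snd)
    · exact k'.continuous_ker_pure.comp (continuous_snd.prodMk continuous_fst)
  · change k.ker x p.2 * (k'.ker p.2 p.1 * φ p.1) = 0
    by_cases h1 : p.2 ∈ C₁
    · have h2 : p.1 ∉ C₂ := fun h => hp ⟨h, h1⟩
      rw [h₂ _ h1 _ h2, zero_mul, mul_zero]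
    · rw [h₁ x rfl _ h1, zero_mul]

theorem continuous_appK {φ : X D → ℂ} (hφ : Continuous φ) :
    Continuous (appK volume k.ker φ) := by
  rw [continuous_iff_continuousAt]
  intro x₀
  obtain ⟨K, hK, hx₀⟩ := exists_compact_mem_nhds x₀
  obtain ⟨C', hC', h⟩ := k.supp_pure K hK
  have hc : ContinuousOn (fun x : X D => ∫ y, k.ker x y * φ y) K := by
    refine continuousOn_integral_of_compact_support (k := C') hC' ?_ ?_
    · apply Continuous.continuousOn
      exact k.continuous_ker_pure.mul (hφ.comp continuous_snd)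
    · intro x y hx hy
      rw [h x hx y hy, zero_mul]
  exact hc.continuousAt hx₀

end Pure

/-! ### Finite linear combinations -/

section sums

variable {J J' : Type*} (S : Finset J) (S' : Finset J') (c : J → ℂ) (c' : J' → ℂ)
  (k : J → Pure D) (k' : J' → Pure D)

/-- Composition of finite linear combinations of pure tensors. -/
theorem sum_ker_mul (x y : X D) :
    ∫ z : X D, (∑ j ∈ S, c j * (k j).ker x z) * (∑ j ∈ S', c' j * (k' j).ker z y) =
      ∑ j ∈ S, ∑ j' ∈ S', c j * c' j' * ((k j).mul (k' j')).ker x y := by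
  have e : ∀ z : X D, (∑ j ∈ S, c j * (k j).ker x z) * (∑ j ∈ S', c' j * (k' j).ker z y) =
      ∑ j ∈ S, ∑ j' ∈ S', c j * c' j' * ((k j).ker x z * (k' j').ker z y) := by
    intro z
    rw [Finset.sum_mul_sum]
    exact Finset.sum_congr rfl fun j _ => Finset.sum_congr rfl fun j' _ => by ring
  simp only [e]
  rw [integral_finsetSum _ fun j _ => integrable_finsetSum _ fun j' _ =>
    ((k j).ker_mul (k' j') x y).1.const_mul _]
  refine Finset.sum_congr rfl fun j _ => ?_
  rw [integral_finsetSum _ fun j' _ => ((k j).ker_mul (k' j') x y).1.const_mul _]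
  refine Finset.sum_congr rfl fun j' _ => ?_
  rw [integral_const_mul, ((k j).ker_mul (k' j') x y).2]

/-- The same in terms of `compC`. -/
theorem compC_sum_ker (x y : X D) :
    compC (ProbabilityTheory.Kernel.const (X D) (volume : Measure (X D)))
      (fun x z => ∑ j ∈ S, c j * (k j).ker x z) (fun z y => ∑ j ∈ S', c' j * (k' j).ker z y) x y =
      ∑ j ∈ S, ∑ j' ∈ S', c j * c' j' * ((k j).mul (k' j')).ker x y := by
  unfold compC
  rw [ProbabilityTheory.Kernel.const_apply]
  exact sum_ker_mul S S' c c' k k' x y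

theorem appK_sum_ker {φ : X D → ℂ} (hφ : Continuous φ) :
    appK volume (fun x y => ∑ j ∈ S, c j * (k j).ker x y) φ =
      fun x => ∑ j ∈ S, c j * appK volume (k j).ker φ x := by
  funext x
  unfold appK
  have e : ∀ y, (∑ j ∈ S, c j * (k j).ker x y) * φ y =
      ∑ j ∈ S, c j * ((k j).ker x y * φ y) := fun y => by
    rw [Finset.sum_mul]
    exact Finset.sum_congr rfl fun j _ => mul_assoc _ _ _
  simp only [e]
  rw [integral_finsetSum _ fun j _ => ((k j).integrable_ker_mul hφ x).const_mul _]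
  exact Finset.sum_congr rfl fun j _ => integral_const_mul _ _

theorem isTestKer_sum_ker (h : ∀ j ∈ S, ∀ i, RadK ((k j).a i)) :
    Fermat.Agent.LT.B.IsTestKer (fun x y => ∑ j ∈ S, c j * (k j).ker x y) := by
  classical
  induction S using Finset.induction_on with
  | empty =>
    refine ⟨Empty, inferInstance, fun j => j.elim, fun j => j.elim, fun j => j.elim,
      fun j => j.elim, fun x y => ?_⟩
    simp
  | insert j S hj ih =>
    have e : (fun x y : X D => ∑ j ∈ insert j S, c j * (k j).ker x y) =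
        fun x y => c j * (k j).ker x y + ∑ j ∈ S, c j * (k j).ker x y := by
      funext x y
      exact Finset.sum_insert hj
    rw [e]
    exact (((k j).isTestKer (h j (Finset.mem_insert_self j S))).const_mul (c j)).add
      (ih fun i hi => h i (Finset.mem_insert_of_mem hi))

/-- automorphic kernels of finite linear combinations (all sums are finite) -/
theorem autK_ker_summable (k : Pure D) (x y : X D) :
    Summable fun γ : PG F => k.ker x (γ • y) := by
  obtain ⟨C', hC', h⟩ := k.supp_pure {x} isCompact_singleton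
  have hfin := Fermat.Agent.LT.B.finite_smul_mem (Γ := PG F) hC' y
  refine summable_of_hasFiniteSupport (hfin.subset fun γ hγ => ?_)
  by_contra hc
  exact hγ (h x rfl _ hc)

theorem autK_sum_ker (x y : X D) :
    Fermat.Agent.LT.B.autK (fun x y => ∑ j ∈ S, c j * (k j).ker x y) x y =
      ∑ j ∈ S, c j * Fermat.Agent.LT.B.autK (k j).ker x y := by
  unfold Fermat.Agent.LT.B.autK
  rw [Summable.tsum_finsetSum fun j _ => (autK_ker_summable (k j) x y).mul_left _]
  exact Finset.sum_congr rfl fun j _ => tsum_mul_left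

end sums

end Fermat.LT
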