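import Fermat.Agent.LT.Geo.PPI
import Fermat.Agent.LT.CArch.OnH3

/-!
# More on composition of point pair invariants (LT, PMUL)

* `PPI.zero/add/smul/sum`;
* `norm_acomp_le`, bilinearity of `acomp`;
* `radK g` : the kernel `kfun g (ch P Q)`; `RadK a` : `a` is of this form with `g` a test function;
  `acomp_radK : acomp (radK g₁) (radK g₂) = radK (cv g₁ g₂)`.
-/

set_option autoImplicit false
set_option linter.unusedSectionVars false

open MeasureTheory Matrix Complex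

namespace Fermat.LT

open Fermat.LT.GeoDatum (acomp)
open Fermat.Agent.LT.CArch (IsTest kfun cv)

variable {a a' b b' c : H3 → H3 → ℂ}

theorem PPI.zero : PPI fun _ _ => 0 where
  inv _ _ _ := rfl
  cont := continuous_const
  supp := ⟨0, fun _ _ h => absurd rfl h⟩

theorem PPI.add (ha : PPI a) (hb : PPI b) : PPI fun P Q => a P Q + b P Q where
  inv g P Q := by rw [ha.inv, hb.inv]
  cont := ha.cont.add hb.cont
  supp := by
    obtain ⟨R₁, h₁⟩ := ha.supp
    obtain ⟨R₂, h₂⟩ := hb.supp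
    refine ⟨max R₁ R₂, fun P Q h => ?_⟩
    by_cases h0 : a P Q = 0
    · have : b P Q ≠ 0 := fun h1 => h (by rw [h0, h1, add_zero])
      exact (h₂ P Q this).trans (le_max_right _ _)
    · exact (h₁ P Q h0).trans (le_max_left _ _)

theorem PPI.smul (t : ℂ) (ha : PPI a) : PPI fun P Q => t * a P Q where
  inv g P Q := by rw [ha.inv]
  cont := continuous_const.mul ha.cont
  supp := by
    obtain ⟨R₁, h₁⟩ := ha.supp
    exact ⟨R₁, fun P Q h => h₁ P Q (right_ne_zero_of_mul h)⟩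

theorem PPI.sum {J : Type*} (S : Finset J) {a : J → H3 → H3 → ℂ} (ha : ∀ j ∈ S, PPI (a j)) :
    PPI fun P Q => ∑ j ∈ S, a j P Q := by
  classical
  induction S using Finset.induction_on with
  | empty => simpa using PPI.zero
  | insert j S hj ih =>
    have h1 := (ha j (Finset.mem_insert_self j S)).add
      (ih fun i hi => ha i (Finset.mem_insert_of_mem hi))
    have e : (fun P Q => ∑ j ∈ insert j S, a j P Q) = fun P Q => a j P Q + ∑ j ∈ S, a j P Q := by
      funext P Q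
      exact Finset.sum_insert hj
    rw [e]
    exact h1

/-- a radial kernel -/
theorem PPI.radial {Φ : ℝ → ℂ} (hΦ : ContinuousOn Φ (Set.Ici 1))
    (hs : ∃ V : ℝ, ∀ v, V ≤ v → Φ v = 0) : PPI fun P Q => Φ (H3.ch P Q) where
  inv g P Q := by rw [H3.ch_smul]
  cont := hΦ.comp_continuous H3.continuous_ch fun p => H3.one_le_ch _ _
  supp := by
    obtain ⟨V, hV⟩ := hs
    refine ⟨V, fun P Q h => ?_⟩
    by_contra hc
    exact h (hV _ (not_le.mp hc).le)

theorem acomp_add_left (ha : PPI a) (ha' : PPI a') (hb : PPI b) :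
    acomp (fun P Q => a P Q + a' P Q) b = fun P Q => acomp a b P Q + acomp a' b P Q := by
  funext P Q
  unfold GeoDatum.acomp
  rw [← integral_add (ha.integrable_acomp hb P Q) (ha'.integrable_acomp hb P Q)]
  simp only [add_mul]

theorem acomp_add_right (ha : PPI a) (hb : PPI b) (hb' : PPI b') :
    acomp a (fun P Q => b P Q + b' P Q) = fun P Q => acomp a b P Q + acomp a b' P Q := by
  funext P Q
  unfold GeoDatum.acomp
  rw [← integral_add (ha.integrable_acomp hb P Q) (ha.integrable_acomp hb' P Q)]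
  simp only [mul_add]

theorem acomp_smul_left (t : ℂ) (a b : H3 → H3 → ℂ) :
    acomp (fun P Q => t * a P Q) b = fun P Q => t * acomp a b P Q := by
  funext P Q
  unfold GeoDatum.acomp
  rw [← integral_const_mul]
  simp only [mul_assoc]

theorem acomp_smul_right (t : ℂ) (a b : H3 → H3 → ℂ) :
    acomp a (fun P Q => t * b P Q) = fun P Q => t * acomp a b P Q := by
  funext P Q
  unfold GeoDatum.acomp
  rw [← integral_const_mul]
  simp only [mul_left_comm]

theorem acomp_sum_left {J : Type*} (S : Finset J) {a : J → H3 → H3 → ℂ}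
    (ha : ∀ j ∈ S, PPI (a j)) (hb : PPI b) :
    acomp (fun P Q => ∑ j ∈ S, a j P Q) b = fun P Q => ∑ j ∈ S, acomp (a j) b P Q := by
  funext P Q
  unfold GeoDatum.acomp
  rw [← integral_finsetSum S fun j hj => (ha j hj).integrable_acomp hb P Q]
  simp only [Finset.sum_mul]

theorem acomp_sum_right {J : Type*} (S : Finset J) (ha : PPI a) {b : J → H3 → H3 → ℂ}
    (hb : ∀ j ∈ S, PPI (b j)) :
    acomp a (fun P Q => ∑ j ∈ S, b j P Q) = fun P Q => ∑ j ∈ S, acomp a (b j) P Q := by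
  funext P Q
  unfold GeoDatum.acomp
  rw [← integral_finsetSum S fun j hj => ha.integrable_acomp (hb j hj) P Q]
  simp only [Finset.mul_sum]

/-- `|a|`, as a kernel -/
noncomputable def absK (a : H3 → H3 → ℂ) (P Q : H3) : ℂ := ((‖a P Q‖ : ℝ) : ℂ)

theorem PPI.absK (ha : PPI a) : PPI (absK a) := ha.norm

theorem acomp_absK (a b : H3 → H3 → ℂ) (P Q : H3) :
    acomp (absK a) (absK b) P Q = ((∫ R, ‖a P R‖ * ‖b R Q‖ : ℝ) : ℂ) := by
  unfold GeoDatum.acomp absK
  simp only [← Complex.ofReal_mul]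
  exact integral_ofReal

theorem norm_acomp_le (a b : H3 → H3 → ℂ) (P Q : H3) :
    ‖acomp a b P Q‖ ≤ (acomp (absK a) (absK b) P Q).re := by
  rw [acomp_absK, Complex.ofReal_re]
  refine (norm_integral_le_integral_norm _).trans (le_of_eq ?_)
  simp only [norm_mul]

theorem norm_acomp_le' (a b : H3 → H3 → ℂ) (P Q : H3) :
    ‖acomp a b P Q‖ ≤ ‖acomp (absK a) (absK b) P Q‖ :=
  (norm_acomp_le a b P Q).trans (Complex.re_le_norm _)

theorem acomp_absK_nonneg (a b : H3 → H3 → ℂ) (P Q : H3) :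
    0 ≤ (acomp (absK a) (absK b) P Q).re ∧ (acomp (absK a) (absK b) P Q).im = 0 := by
  rw [acomp_absK]
  refine ⟨?_, Complex.ofReal_im _⟩
  rw [Complex.ofReal_re]
  exact integral_nonneg fun R => mul_nonneg (norm_nonneg _) (norm_nonneg _)

/-- explicit support of a composition -/
theorem acomp_supp_le {R₁ R₂ : ℝ} (h₁ : ∀ P Q, a P Q ≠ 0 → H3.ch P Q ≤ R₁)
    (h₂ : ∀ P Q, b P Q ≠ 0 → H3.ch P Q ≤ R₂) (P Q : H3) (h : acomp a b P Q ≠ 0) :
    H3.ch P Q ≤ 2 * (R₁ * R₂) := by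
  obtain ⟨R, hR⟩ : ∃ R, a P R * b R Q ≠ 0 := by
    by_contra hcon
    push Not at hcon
    apply h
    unfold GeoDatum.acomp
    simp [hcon]
  have e1 := h₁ _ _ (left_ne_zero_of_mul hR)
  have e2 := h₂ _ _ (right_ne_zero_of_mul hR)
  have e3 := Fermat.Agent.LT.B.ch_le_two_mul P R Q
  have e4 := H3.one_le_ch P R
  have e5 := H3.one_le_ch R Q
  have e6 : H3.ch P R * H3.ch R Q ≤ R₁ * R₂ := mul_le_mul e1 e2 (by linarith) (by linarith)
  linarith

section radial

/-- the radial kernel attached to `g` -/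
noncomputable def radK (g : ℝ → ℂ) (P Q : H3) : ℂ := kfun g (H3.ch P Q)

/-- smooth radial kernels with compact support -/
def RadK (a : H3 → H3 → ℂ) : Prop := ∃ g : ℝ → ℂ, IsTest g ∧ a = radK g

theorem radK_ppi {g : ℝ → ℂ} (hg : IsTest g) : PPI (radK g) := by
  obtain ⟨V, -, hV⟩ := hg.exists_kfun_eq_zero
  exact PPI.radial (Fermat.Agent.LT.CArch.kfun_continuousOn hg.evenSmooth) ⟨V, hV⟩

theorem RadK.ppi (h : RadK a) : PPI a := by
  obtain ⟨g, hg, rfl⟩ := h
  exact radK_ppi hg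

/-- composition of radial kernels -/
theorem acomp_radK {g₁ g₂ : ℝ → ℂ} (h₁ : IsTest g₁) (h₂ : IsTest g₂) :
    acomp (radK g₁) (radK g₂) = radK (cv g₁ g₂) := by
  funext P Q
  exact Fermat.Agent.LT.CArch.integral_kfun_mul_kfun h₁ h₂ P Q

theorem RadK.acomp (h : RadK a) (h' : RadK b) : RadK (acomp a b) := by
  obtain ⟨g, hg, rfl⟩ := h
  obtain ⟨g', hg', rfl⟩ := h'
  exact ⟨_, hg.cv hg', acomp_radK hg hg'⟩

theorem RadK.add (h : RadK a) (h' : RadK b) : RadK fun P Q => a P Q + b P Q := by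
  obtain ⟨g, hg, rfl⟩ := h
  obtain ⟨g', hg', rfl⟩ := h'
  refine ⟨_, hg.add hg', ?_⟩
  funext P Q
  exact (Fermat.Agent.LT.CArch.kfun_add hg.evenSmooth hg'.evenSmooth _).symm

theorem RadK.smul (t : ℂ) (h : RadK a) : RadK fun P Q => t * a P Q := by
  obtain ⟨g, hg, rfl⟩ := h
  refine ⟨_, hg.const_mul t, ?_⟩
  funext P Q
  exact (Fermat.Agent.LT.CArch.kfun_const_mul hg.evenSmooth t _).symm

theorem RadK.exists_smooth (h : RadK a) : ∃ Φ : ℝ → ℂ, ContDiffOn ℝ (↑(⊤ : ℕ∞)) Φ (Set.Ici 1) ∧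
    (∃ V : ℝ, ∀ v, V ≤ v → Φ v = 0) ∧ ∀ P Q, a P Q = Φ (H3.ch P Q) := by
  obtain ⟨g, hg, rfl⟩ := h
  obtain ⟨V, -, hV⟩ := hg.exists_kfun_eq_zero
  exact ⟨kfun g, Fermat.Agent.LT.CArch.kfun_contDiffOn hg.evenSmooth, ⟨V, hV⟩, fun _ _ => rfl⟩

open Fermat.Agent.LT.B in
/-- products of smooth compactly supported radial functions are test functions -/
theorem isArchTest_prod' {ι : Type*} [Fintype ι] {Φ : ι → ℝ → ℂ}
    (h1 : ∀ i, ContDiffOn ℝ (↑(⊤ : ℕ∞)) (Φ i) (Set.Ici 1))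
    (h2 : ∀ i, ∃ V : ℝ, ∀ v, V ≤ v → Φ i v = 0) :
    IsArchTest (fun c : ι → ℝ => ∏ i, Φ i (c i)) := by
  refine ⟨?_, ?_⟩
  · refine contDiffOn_prod fun i _ => ?_
    have h3 : ContDiffOn ℝ (↑(⊤ : ℕ∞)) (fun c : ι → ℝ => c i) (Set.Ici 1) :=
      (contDiff_apply ℝ ℝ i).contDiffOn
    exact (h1 i).comp h3 fun c hc => hc i
  · choose V hV using h2
    refine ⟨∑ i, |V i|, fun c _ hi => ?_⟩
    obtain ⟨i, hi⟩ := hi
    refine Finset.prod_eq_zero (Finset.mem_univ i) (hV i _ (le_trans ?_ hi))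
    refine (le_abs_self _).trans ?_
    exact Finset.single_le_sum (f := fun i => |V i|) (fun j _ => abs_nonneg _) (Finset.mem_univ i)

end radial

end Fermat.LT
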