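import Fermat.Agent.LT.Geo.ConvF
import Fermat.Agent.LT.CTree.Tree

/-!
# LT, geometric side: sums over paths of length three; Cartan decomposition
-/

set_option autoImplicit false
set_option linter.unusedSectionVars false

open NumberField IsDedekindDomain Matrix
open Fermat.Agent.LT.D

namespace Fermat.LT

section paths

variable {A : Type}

/-- the sum over paths of length three -/
theorem finsum_pair {κ κ' κ'' : A → A → ℂ} (h : RowFin κ) (h' : RowFin κ') (a b : A) :
    {p : A × A | κ a p.1 * κ' p.1 p.2 * κ'' p.2 b ≠ 0}.Finite ∧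
    ∑ᶠ p : A × A, κ a p.1 * κ' p.1 p.2 * κ'' p.2 b = kcomp (kcomp κ κ') κ'' a b := by
  classical
  set s := (h a).toFinset with hs
  set t := s.biUnion fun x => (h' x).toFinset with ht
  have h1 : ∀ x, κ a x ≠ 0 → x ∈ s := fun x hx => (h a).mem_toFinset.mpr hx
  have h2 : ∀ x ∈ s, ∀ y, κ' x y ≠ 0 → y ∈ t := fun x hx y hy =>
    Finset.mem_biUnion.mpr ⟨x, hx, (h' x).mem_toFinset.mpr hy⟩
  have hsub : {p : A × A | κ a p.1 * κ' p.1 p.2 * κ'' p.2 b ≠ 0} ⊆ ((s ×ˢ t : Finset (A × A)) :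
      Set (A × A)) := by
    rintro ⟨x, y⟩ hp
    have e1 := left_ne_zero_of_mul hp
    rw [Finset.mem_coe, Finset.mem_product]
    have hx := h1 x (left_ne_zero_of_mul e1)
    exact ⟨hx, h2 x hx y (right_ne_zero_of_mul e1)⟩
  refine ⟨(Finset.finite_toSet _).subset hsub, ?_⟩
  have h3 : ∀ y, kcomp κ κ' a y ≠ 0 → y ∈ t := by
    intro y hy
    rw [kcomp_eq_sum h1] at hy
    obtain ⟨x, hx, hxy⟩ := Finset.exists_ne_zero_of_sum_ne_zero hy
    exact h2 x hx y (right_ne_zero_of_mul hxy)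
  rw [finsum_eq_sum_of_support_subset _ hsub, Finset.sum_product_right, kcomp_eq_sum h3]
  refine Finset.sum_congr rfl fun y _ => ?_
  rw [kcomp_eq_sum h1, Finset.sum_mul]

end paths

section symm

variable {F : Type} [Field F] {H : Subgroup (G2 F)} {f : G2 F → ℂ}

/-- symmetric pairs: `g⁻¹ ∈ H g H` -/
def SymmPair (H : Subgroup (G2 F)) : Prop := ∀ g : G2 F, ∃ h ∈ H, ∃ h' ∈ H, g⁻¹ = h * g * h'

theorem SymmPair.symF (hH : SymmPair H) (hf : BiInv H f) : SymF f := by
  intro g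
  obtain ⟨h, hh, h', hh', e⟩ := hH g
  rw [e, hf h hh h' hh']

end symm

section cartan

variable {F : Type} [Field F]

/-- the Weyl element -/
def wey : G2 F := Matrix.GeneralLinearGroup.mkOfDetNeZero !![0, 1; 1, 0] (by simp)

theorem wey_val : (wey : G2 F).1 = !![0, 1; 1, 0] := rfl

theorem wey_mul_wey : (wey : G2 F) * wey = 1 := by
  apply Units.ext
  rw [Units.val_mul, wey_val]
  ext i j
  fin_cases i <;> fin_cases j <;> simp

theorem dg_inv_eq (d : Fˣ) : (dg d)⁻¹ = sc d⁻¹ * wey * dg d * wey := by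
  rw [inv_eq_iff_mul_eq_one]
  apply Units.ext
  rw [mul_assoc, mul_assoc, ← mul_assoc (dg d), ← sc_comm, mul_assoc, sc_mul_val]
  simp only [Units.val_mul, wey_val, dg]
  ext i j
  fin_cases i <;> fin_cases j <;>
    simp [Matrix.GeneralLinearGroup.mkOfDetNeZero]

variable [NumberField F] {w : Pl F}

theorem un_mem {x : F} (hx : av w x ≤ 1) : un x ∈ intGL w := by
  refine ⟨?_, ?_⟩
  · change nm w !![1, x; 0, 1] ≤ 1
    simp [nm, hx]
  · rw [← un_neg]
    change nm w !![1, -x; 0, 1] ≤ 1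
    simp [nm, hx]

theorem wey_mem : (wey : G2 F) ∈ intGL w := by
  have h : (wey : G2 F)⁻¹ = wey := by rw [inv_eq_iff_mul_eq_one, wey_mul_wey]
  refine ⟨?_, ?_⟩
  · rw [wey_val]; simp [nm]
  · rw [h, wey_val]; simp [nm]

/-- Cartan decomposition -/
theorem exists_cartan (w : Pl F) (g : G2 F) :
    ∃ (d : Fˣ) (h h' : G2 F), h ∈ stdH w ∧ h' ∈ stdH w ∧ g = h * dg d * h' := by
  obtain ⟨a, b, h₀, hh₀, rfl⟩ := Fermat.Agent.LT.CTree.exists_tri w g
  have hun : ∀ {x : F}, av w x ≤ 1 → un x ∈ stdH w := fun hx => intGL_le_stdH w (un_mem hx)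
  have hwe : (wey : G2 F) ∈ stdH w := intGL_le_stdH w wey_mem
  rcases le_or_gt (av w b) 1 with hb | hb
  · exact ⟨a, un b, h₀, hun hb, hh₀, rfl⟩
  · rcases le_or_gt (av w b) (av w a) with hba | hba
    · refine ⟨a, 1, un (b / a) * h₀, one_mem _, mul_mem (hun ?_) hh₀, ?_⟩
      · rw [map_div₀]
        exact div_le_one_of_le₀ hba ((av w).nonneg _)
      · rw [one_mul, ← mul_assoc]
        congr 1
        apply Units.ext
        rw [Fermat.Agent.LT.CTree.tri_val, Units.val_mul, Fermat.Agent.LT.CTree.un_val, Fermat.Agent.LT.CTree.dg_val]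
        ext i j
        fin_cases i <;> fin_cases j <;> simp [mul_div_cancel₀]
    · have hb0 : b ≠ 0 := by
        rintro rfl
        rw [map_zero] at hb
        exact absurd hb (by norm_num)
      have ha0 : (a : F) ≠ 0 := a.ne_zero
      refine ⟨Units.mk0 (-a / b ^ 2) (by simp [ha0, hb0]), sc (Units.mk0 b hb0) * wey * un b⁻¹,
        wey * un (a / b) * wey * h₀, mul_mem (mul_mem (scal_le_stdH w (sc_mem _)) hwe) (hun ?_),
        mul_mem (mul_mem (mul_mem hwe (hun ?_)) hwe) hh₀, ?_⟩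
      · rw [map_inv₀]
        exact inv_le_one_of_one_le₀ hb.le
      · rw [map_div₀]
        exact div_le_one_of_le₀ hba.le ((av w).nonneg _)
      · rw [← mul_assoc]
        congr 1
        apply Units.ext
        rw [mul_assoc, mul_assoc, mul_assoc, sc_mul_val]
        simp only [Units.val_mul, wey_val, Fermat.Agent.LT.CTree.tri_val, Fermat.Agent.LT.CTree.un_val, Fermat.Agent.LT.CTree.dg_val,
          Units.val_mk0]
        ext i j
        fin_cases i <;> fin_cases j <;> simp <;> field_simp <;> ring_nf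
        exact Or.inr trivial

theorem symmPair_stdH (w : Pl F) : SymmPair (stdH w) := by
  intro g
  obtain ⟨d, h, h', hh, hh', e⟩ := exists_cartan w g
  have hwe : (wey : G2 F) ∈ stdH w := intGL_le_stdH w wey_mem
  have hsc : sc d⁻¹ ∈ stdH w := scal_le_stdH w (sc_mem _)
  have e1 : dg d = h⁻¹ * g * h'⁻¹ := by rw [e]; group
  refine ⟨h'⁻¹ * (sc d⁻¹ * wey) * h⁻¹, mul_mem (mul_mem (inv_mem hh') (mul_mem hsc hwe))
    (inv_mem hh), h'⁻¹ * wey * h⁻¹, mul_mem (mul_mem (inv_mem hh') hwe) (inv_mem hh), ?_⟩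
  have e2 : g⁻¹ = h'⁻¹ * (dg d)⁻¹ * h⁻¹ := by rw [e]; group
  rw [e2, dg_inv_eq, e1]
  group

end cartan

end Fermat.LT
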