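import Fermat.Agent.LT.Geo.LKerComp
import Fermat.Agent.LT.Geo.Acomp
import Fermat.Agent.LT.Geo.Conv
import Fermat.Agent.LT.A.XMeas

/-!
# Products of pure tensors (LT, PMUL)

* `Pure.mul k k'`, `Pure.kerY_mul`, `Pure.kerI_mul`, `Pure.ker_mul` (integrability and the
  composition formula);
* `Pure.isTestKer` : if all archimedean components are `RadK`, `k.ker` is a test kernel;
* `Pure.insF`, `Pure.insA` : insertion of a Hecke operator / an archimedean operator;
* `Pure.norm_ker_mul_le`.
-/

set_option autoImplicit false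
set_option linter.unusedSectionVars false

open NumberField IsDedekindDomain Matrix MeasureTheory
open Fermat.LT.GeoDatum (acomp)

namespace Fermat.LT

variable {F : Type} [Field F] [NumberField F] {D : Datum F}

namespace Pure

variable (k k' k'' : Pure D)

theorem ext' {k k' : Pure D} (ha : k.a = k'.a) (hf : k.f = k'.f) : k = k' := by
  cases k; cases k'; subst ha; subst hf; rfl

theorem ppi (i : D.I) : PPI (k.a i) where
  inv := k.a_inv i
  cont := k.a_cont i
  supp := by
    obtain ⟨R, hR⟩ := k.a_supp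
    exact ⟨R, hR i⟩

/-- constructor from `PPI`s -/
noncomputable def mk' (a : D.I → H3 → H3 → ℂ) (ha : ∀ i, PPI (a i)) (f : Pl F → G2 F → ℂ)
    (f_bi : ∀ w, BiInv (D.H w) (f w)) (f_fin : ∀ w, FinS (D.H w) (f w))
    (f_one : {w | f w ≠ unitF (D.H w)}.Finite) : Pure D where
  a := a
  f := f
  a_inv i := (ha i).inv
  a_cont i := (ha i).cont
  a_supp := by
    choose R hR using fun i => (ha i).supp
    refine ⟨∑ i, |R i|, fun i P Q h => (hR i P Q h).trans ((le_abs_self _).trans ?_)⟩
    exact Finset.single_le_sum (f := fun i => |R i|) (fun _ _ => abs_nonneg _) (Finset.mem_univ i)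
  f_bi := f_bi
  f_fin := f_fin
  f_one := f_one

/-- The product of pure tensors. -/
noncomputable def mul : Pure D :=
  mk' (fun i => acomp (k.a i) (k'.a i)) (fun i => (k.ppi i).acomp (k'.ppi i))
    (fun w => convF (D.H w) (k.f w) (k'.f w))
    (fun w => biInv_convF (k.f_bi w) (k'.f_bi w))
    (fun w => finS_convF (k.f_bi w) (k'.f_bi w) (k.f_fin w) (k'.f_fin w)) (by
      refine (k.f_one.union k'.f_one).subset fun w hw => ?_
      by_contra hc
      simp only [Set.mem_union, Set.mem_ofPred_eq, not_or, not_not] at hc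
      apply hw
      rw [hc.1, hc.2, convF_unitF_left (biInv_unitF _)])

theorem mul_a (i : D.I) : (k.mul k').a i = acomp (k.a i) (k'.a i) := rfl

theorem mul_f (w : Pl F) : (k.mul k').f w = convF (D.H w) (k.f w) (k'.f w) := rfl

theorem mul_assoc' : (k.mul k').mul k'' = k.mul (k'.mul k'') := by
  apply ext'
  · funext i
    exact acomp_assoc (k.ppi i) (k'.ppi i) (k''.ppi i)
  · funext w
    exact convF_assoc (k.f_bi w) (k'.f_bi w) (k''.f_bi w) (k.f_fin w) (k'.f_fin w)

/-- commutativity, when the finite components commute -/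
theorem mul_comm' (h : ∀ w, convF (D.H w) (k.f w) (k'.f w) = convF (D.H w) (k'.f w) (k.f w)) :
    k.mul k' = k'.mul k := by
  apply ext'
  · funext i
    exact acomp_comm (k.ppi i) (k'.ppi i)
  · funext w
    exact h w

theorem toLKer_mul_ker : (k.mul k').kerY = (k.toLKer.comp k'.toLKer).ker := by
  funext x y
  unfold kerY LKer.ker
  refine finprod_congr fun w => ?_
  rw [mul_f, kw_convF (k.f_bi w) (k'.f_bi w)]
  rfl

/-- composition of the finite kernels -/
theorem kerY_mul (x y : Y D.toLevel) :
    ∑ᶠ z : Y D.toLevel, k.kerY x z * k'.kerY z y = (k.mul k').kerY x y := by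
  rw [toLKer_mul_ker]
  exact (LKer.ker_comp k.toLKer k'.toLKer x y).2

theorem kerY_mul_finite (x y : Y D.toLevel) :
    {z : Y D.toLevel | k.kerY x z * k'.kerY z y ≠ 0}.Finite :=
  (LKer.ker_comp k.toLKer k'.toLKer x y).1

theorem integrable_kerY_mul (x y : Y D.toLevel) :
    Integrable fun z : Y D.toLevel => k.kerY x z * k'.kerY z y := by
  change Integrable _ (Measure.count : Measure (Y D.toLevel))
  rw [integrable_count_iff]
  exact summable_of_hasFiniteSupport ((kerY_mul_finite k k' x y).subset fun z hz => by simpa using hz)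

theorem integral_kerY_mul (x y : Y D.toLevel) :
    ∫ z : Y D.toLevel, k.kerY x z * k'.kerY z y = (k.mul k').kerY x y := by
  have h := integrable_kerY_mul k k' x y
  change Integrable _ (Measure.count : Measure (Y D.toLevel)) at h
  change ∫ z, k.kerY x z * k'.kerY z y ∂(Measure.count : Measure (Y D.toLevel)) = _
  have h2 : ∑' z : Y D.toLevel, k.kerY x z * k'.kerY z y =
      ∑ᶠ z : Y D.toLevel, k.kerY x z * k'.kerY z y :=
    tsum_eq_finsum (kerY_mul_finite k k' x y)
  rw [integral_countable h, ← kerY_mul, ← h2]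
  refine tsum_congr fun z => ?_
  simp [Measure.real]

theorem kerI_mul_eq (x y z : XI D.toArch) : k.kerI x z * k'.kerI z y =
    ∏ i, (fun (i : D.I) (R : H3) => k.a i (x i) R * k'.a i R (y i)) i (z i) := by
  unfold kerI
  rw [← Finset.prod_mul_distrib]

theorem integrable_kerI_mul (x y : XI D.toArch) :
    Integrable fun z : XI D.toArch => k.kerI x z * k'.kerI z y := by
  simp only [kerI_mul_eq]
  exact Integrable.fintype_prod (fun i => (k.ppi i).integrable_acomp (k'.ppi i) (x i) (y i))

theorem integral_kerI_mul (x y : XI D.toArch) :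
    ∫ z : XI D.toArch, k.kerI x z * k'.kerI z y = (k.mul k').kerI x y := by
  simp only [kerI_mul_eq]
  exact integral_fintype_prod_eq_prod
    (fun (i : D.I) (R : H3) => k.a i (x i) R * k'.a i R (y i))

/-- **The composition formula.** -/
theorem ker_mul (x y : X D) :
    Integrable (fun z : X D => k.ker x z * k'.ker z y) ∧
      ∫ z : X D, k.ker x z * k'.ker z y = (k.mul k').ker x y := by
  have e : (fun z : X D => k.ker x z * k'.ker z y) = fun z : X D =>
      (fun z : XI D.toArch => k.kerI x.1 z * k'.kerI z y.1) z.1 *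
      (fun z : Y D.toLevel => k.kerY x.2 z * k'.kerY z y.2) z.2 := by
    funext z
    unfold ker
    ring
  rw [e]
  refine ⟨(integrable_kerI_mul k k' x.1 y.1).mul_prod (integrable_kerY_mul k k' x.2 y.2), ?_⟩
  have h := integral_prod_mul (μ := (volume : Measure (XI D.toArch)))
    (ν := (volume : Measure (Y D.toLevel))) (fun z => k.kerI x.1 z * k'.kerI z y.1)
    (fun z => k.kerY x.2 z * k'.kerY z y.2)
  rw [integral_kerI_mul, integral_kerY_mul] at h
  exact h

/-! ### Test kernels -/

/-- Pure tensors with radial archimedean components give test kernels. -/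
theorem isTestKer (h : ∀ i, RadK (k.a i)) : Fermat.Agent.LT.B.IsTestKer k.ker := by
  choose Φ h1 h2 h3 using fun i => (h i).exists_smooth
  refine ⟨Unit, inferInstance, fun _ c => ∏ i, Φ i (c i), fun _ => k.kerY,
    fun _ => isArchTest_prod' h1 h2, fun _ => k.isFinTest, fun x y => ?_⟩
  rw [Fintype.sum_unique]
  unfold ker kerI
  congr 1
  exact Finset.prod_congr rfl fun i _ => h3 i _ _

theorem mul_rad (h : ∀ i, RadK (k.a i)) (h' : ∀ i, RadK (k'.a i)) (i : D.I) :
    RadK ((k.mul k').a i) := (h i).acomp (h' i)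

/-- `ker_smul` for `PGL₂` -/
theorem ker_smul_PG (γ : PG F) (x y : X D) : k.ker (γ • x) (γ • y) = k.ker x y := by
  obtain ⟨g, rfl⟩ := Matrix.ProjGenLinGroup.mk_surjective γ
  exact k.ker_smul g x y

/-! ### Changing one component -/

open Classical in
/-- Replace the finite component at `w`. -/
noncomputable def setF (w : Pl F) (f : G2 F → ℂ) (hf : BiInv (D.H w) f)
    (hf' : FinS (D.H w) f) : Pure D where
  a := k.a
  f := Function.update k.f w f
  a_inv := k.a_inv
  a_cont := k.a_cont
  a_supp := k.a_supp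
  f_bi v := by
    by_cases h : v = w
    · subst h; rw [Function.update_self]; exact hf
    · rw [Function.update_of_ne h]; exact k.f_bi v
  f_fin v := by
    by_cases h : v = w
    · subst h; rw [Function.update_self]; exact hf'
    · rw [Function.update_of_ne h]; exact k.f_fin v
  f_one := by
    refine (k.f_one.union (Set.finite_singleton w)).subset fun v hv => ?_
    by_cases h : v = w
    · exact Or.inr h
    · refine Or.inl ?_
      rw [Set.mem_ofPred_eq, Function.update_of_ne h] at hv
      exact hv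

open Classical in
/-- Replace the archimedean component at `i`. -/
noncomputable def setA (i : D.I) (b : H3 → H3 → ℂ) (hb : PPI b) : Pure D :=
  mk' (Function.update k.a i b) (fun j => by
    by_cases h : j = i
    · subst h; rw [Function.update_self]; exact hb
    · rw [Function.update_of_ne h]; exact k.ppi j) k.f k.f_bi k.f_fin k.f_one

section set

variable {w v : Pl F} {f f' : G2 F → ℂ} {hf : BiInv (D.H w) f} {hf' : FinS (D.H w) f}
  {i j : D.I} {b b' : H3 → H3 → ℂ} {hb : PPI b}

theorem setF_f : (k.setF w f hf hf').f w = f := by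
  classical
  exact Function.update_self w f k.f

theorem setF_f_ne (h : v ≠ w) : (k.setF w f hf hf').f v = k.f v := by
  classical
  exact Function.update_of_ne h f k.f

theorem setF_a : (k.setF w f hf hf').a = k.a := rfl

theorem setA_a : (k.setA i b hb).a i = b := by
  classical
  exact Function.update_self i b k.a

theorem setA_a_ne (h : j ≠ i) : (k.setA i b hb).a j = k.a j := by
  classical
  exact Function.update_of_ne h b k.a

theorem setA_f : (k.setA i b hb).f = k.f := rfl

/-- the product of the local kernels outside `w` -/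
noncomputable def offY (w : Pl F) (x y : Y D.toLevel) : ℂ := by
  classical
  exact ∏ᶠ v, if v = w then 1 else kw (D.H v) (k.f v) (x v) (y v)

theorem kerY_eq_off (w : Pl F) (x y : Y D.toLevel) :
    k.kerY x y = kw (D.H w) (k.f w) (x w) (y w) * k.offY w x y := by
  classical
  have e : ∀ v, kw (D.H v) (k.f v) (x v) (y v) =
      (if v = w then kw (D.H v) (k.f v) (x v) (y v) else 1) *
      (if v = w then 1 else kw (D.H v) (k.f v) (x v) (y v)) := by
    intro v
    split_ifs <;> simp
  have h1 := k.kerY_mulSupport x y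
  have e2 : (∏ᶠ v, if v = w then kw (D.H v) (k.f v) (x v) (y v) else 1) =
      kw (D.H w) (k.f w) (x w) (y w) := by
    rw [finprod_eq_single _ w fun v hv => if_neg hv, if_pos rfl]
  unfold kerY offY
  rw [finprod_congr e, finprod_mul_distrib, e2]
  · refine h1.subset fun v hv => ?_
    rw [Function.mem_mulSupport] at hv ⊢
    split_ifs at hv with h
    · exact hv
    · exact absurd rfl hv
  · refine h1.subset fun v hv => ?_
    rw [Function.mem_mulSupport] at hv ⊢
    split_ifs at hv with h
    · exact absurd rfl hv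
    · exact hv

theorem offY_setF (x y : Y D.toLevel) : (k.setF w f hf hf').offY w x y = k.offY w x y := by
  classical
  unfold offY
  refine finprod_congr fun v => ?_
  split_ifs with h
  · rfl
  · rw [setF_f_ne k h]

theorem kerY_setF (x y : Y D.toLevel) :
    (k.setF w f hf hf').kerY x y = kw (D.H w) f (x w) (y w) * k.offY w x y := by
  rw [kerY_eq_off _ w, offY_setF, setF_f]

/-- the product of the local kernels outside `i` -/
noncomputable def offI (i : D.I) (x y : XI D.toArch) : ℂ := ∏ j ∈ Finset.univ.erase i,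
  k.a j (x j) (y j)

theorem kerI_eq_off (i : D.I) (x y : XI D.toArch) :
    k.kerI x y = k.a i (x i) (y i) * k.offI i x y := by
  unfold kerI offI
  exact (Finset.mul_prod_erase Finset.univ (fun j => k.a j (x j) (y j)) (Finset.mem_univ i)).symm

theorem offI_setA (x y : XI D.toArch) : (k.setA i b hb).offI i x y = k.offI i x y := by
  unfold offI
  refine Finset.prod_congr rfl fun j hj => ?_
  rw [setA_a_ne k (Finset.ne_of_mem_erase hj)]

theorem kerI_setA (x y : XI D.toArch) :
    (k.setA i b hb).kerI x y = b (x i) (y i) * k.offI i x y := by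
  rw [kerI_eq_off _ i, offI_setA, setA_a]

theorem ker_setF (x y : X D) : (k.setF w f hf hf').ker x y =
    kw (D.H w) f (x.2 w) (y.2 w) * (k.kerI x.1 y.1 * k.offY w x.2 y.2) := by
  unfold ker
  rw [kerY_setF]
  change k.kerI x.1 y.1 * _ = _
  ring

theorem ker_setA (x y : X D) : (k.setA i b hb).ker x y =
    b (x.1 i) (y.1 i) * (k.offI i x.1 y.1 * k.kerY x.2 y.2) := by
  unfold ker
  rw [kerI_setA]
  change _ * k.kerY x.2 y.2 = _
  ring

theorem ker_eq_offY (w : Pl F) (x y : X D) : k.ker x y =
    kw (D.H w) (k.f w) (x.2 w) (y.2 w) * (k.kerI x.1 y.1 * k.offY w x.2 y.2) := by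
  unfold ker
  rw [kerY_eq_off _ w]
  ring

theorem ker_eq_offI (i : D.I) (x y : X D) : k.ker x y =
    k.a i (x.1 i) (y.1 i) * (k.offI i x.1 y.1 * k.kerY x.2 y.2) := by
  unfold ker
  rw [kerI_eq_off _ i]
  ring

theorem setF_self : k.setF w (k.f w) (k.f_bi w) (k.f_fin w) = k := by
  classical
  exact ext' rfl (Function.update_eq_self w k.f)

end set

/-! ### Insertions -/

section ins

variable (w : Pl F) {t : G2 F → ℂ} (ht : BiInv (D.H w) t) (ht' : FinS (D.H w) t)
  (i : D.I) {b : H3 → H3 → ℂ} (hb : PPI b)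

/-- left insertion of `t` at `w` -/
noncomputable def insL : Pure D :=
  k.setF w (convF (D.H w) t (k.f w)) (biInv_convF ht (k.f_bi w))
    (finS_convF ht (k.f_bi w) ht' (k.f_fin w))

/-- right insertion of `t` at `w` -/
noncomputable def insR : Pure D :=
  k.setF w (convF (D.H w) (k.f w) t) (biInv_convF (k.f_bi w) ht)
    (finS_convF (k.f_bi w) ht (k.f_fin w) ht')

/-- left insertion of `b` at `i` -/
noncomputable def insAL : Pure D := k.setA i (acomp b (k.a i)) (hb.acomp (k.ppi i))

/-- right insertion of `b` at `i` -/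
noncomputable def insAR : Pure D := k.setA i (acomp (k.a i) b) ((k.ppi i).acomp hb)

theorem insL_f : (k.insL w ht ht').f w = convF (D.H w) t (k.f w) := setF_f k

theorem insL_f_ne {v : Pl F} (h : v ≠ w) : (k.insL w ht ht').f v = k.f v := setF_f_ne k h

theorem insL_a : (k.insL w ht ht').a = k.a := rfl

theorem insR_f : (k.insR w ht ht').f w = convF (D.H w) (k.f w) t := setF_f k

theorem insR_f_ne {v : Pl F} (h : v ≠ w) : (k.insR w ht ht').f v = k.f v := setF_f_ne k h

theorem insR_a : (k.insR w ht ht').a = k.a := rfl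

theorem insAL_a : (k.insAL i hb).a i = acomp b (k.a i) := setA_a k

theorem insAL_a_ne {j : D.I} (h : j ≠ i) : (k.insAL i hb).a j = k.a j := setA_a_ne k h

theorem insAL_f : (k.insAL i hb).f = k.f := rfl

theorem insAR_a : (k.insAR i hb).a i = acomp (k.a i) b := setA_a k

theorem insAR_a_ne {j : D.I} (h : j ≠ i) : (k.insAR i hb).a j = k.a j := setA_a_ne k h

theorem insAR_f : (k.insAR i hb).f = k.f := rfl

theorem insAL_eq_insAR : k.insAL i hb = k.insAR i hb := by
  refine ext' (?_ : _ = _) (by rfl)
  funext j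
  by_cases h : j = i
  · subst h; rw [insAL_a, insAR_a, acomp_comm hb (k.ppi j)]
  · rw [insAL_a_ne k i hb h, insAR_a_ne k i hb h]

theorem insL_rad (h : ∀ i, RadK (k.a i)) (i : D.I) : RadK ((k.insL w ht ht').a i) := h i

theorem insR_rad (h : ∀ i, RadK (k.a i)) (i : D.I) : RadK ((k.insR w ht ht').a i) := h i

theorem insAL_rad (h : ∀ i, RadK (k.a i)) (hb' : RadK b) (j : D.I) :
    RadK ((k.insAL i hb).a j) := by
  by_cases hj : j = i
  · subst hj; rw [insAL_a]; exact hb'.acomp (h j)
  · rw [insAL_a_ne k i hb hj]; exact h j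

/-- left insertions and products -/
theorem insL_mul : (k.insL w ht ht').mul k' = (k.mul k').insL w ht ht' := by
  refine ext' (by rfl) (?_ : _ = _)
  funext v
  by_cases h : v = w
  · subst h
    rw [mul_f, insL_f, insL_f, mul_f, convF_assoc ht (k.f_bi v) (k'.f_bi v) ht' (k.f_fin v)]
  · rw [mul_f, insL_f_ne k w ht ht' h, insL_f_ne _ w ht ht' h, mul_f]

theorem mul_insR : k.mul (k'.insR w ht ht') = (k.mul k').insR w ht ht' := by
  refine ext' (by rfl) (?_ : _ = _)
  funext v
  by_cases h : v = w
  · subst h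
    rw [mul_f, insR_f, insR_f, mul_f, convF_assoc (k.f_bi v) (k'.f_bi v) ht (k.f_fin v)
      (k'.f_fin v)]
  · rw [mul_f, insR_f_ne k' w ht ht' h, insR_f_ne _ w ht ht' h, mul_f]

theorem insAL_mul : (k.insAL i hb).mul k' = (k.mul k').insAL i hb := by
  refine ext' (?_ : _ = _) (by rfl)
  funext j
  by_cases h : j = i
  · subst h
    rw [mul_a, insAL_a, insAL_a, mul_a, acomp_assoc hb (k.ppi j) (k'.ppi j)]
  · rw [mul_a, insAL_a_ne k i hb h, insAL_a_ne _ i hb h, mul_a]

theorem mul_insAR : k.mul (k'.insAR i hb) = (k.mul k').insAR i hb := by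
  refine ext' (?_ : _ = _) (by rfl)
  funext j
  by_cases h : j = i
  · subst h
    rw [mul_a, insAR_a, insAR_a, mul_a, acomp_assoc (k.ppi j) (k'.ppi j) hb]
  · rw [mul_a, insAR_a_ne k' i hb h, insAR_a_ne _ i hb h, mul_a]

/-- insertion of the unit -/
theorem insL_unitF : k.insL w (biInv_unitF (D.H w)) finS_unitF = k := by
  refine ext' (by rfl) (?_ : _ = _)
  funext v
  by_cases h : v = w
  · subst h; rw [insL_f, convF_unitF_left (k.f_bi v)]
  · rw [insL_f_ne k w _ _ h]

end ins

/-! ### Absolute values -/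

theorem abs_f (w : Pl F) : k.abs.f w = absF (k.f w) := rfl

theorem abs_a (i : D.I) : k.abs.a i = absK (k.a i) := rfl

theorem kerY_abs (x y : Y D.toLevel) : k.abs.kerY x y = ((‖k.kerY x y‖ : ℝ) : ℂ) := by
  classical
  have h := k.kerY_mulSupport x y
  have h1 : (Function.mulSupport fun w => kw (D.H w) (k.abs.f w) (x w) (y w)) ⊆ h.toFinset := by
    intro w hw
    rw [Set.Finite.coe_toFinset]
    intro h0
    apply hw
    have h0' : kw (D.H w) (k.f w) (x w) (y w) = 1 := h0
    change ((‖kw (D.H w) (k.f w) (x w) (y w)‖ : ℝ) : ℂ) = 1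
    rw [h0', norm_one, Complex.ofReal_one]
  have h2 : (Function.mulSupport fun w => kw (D.H w) (k.f w) (x w) (y w)) ⊆ h.toFinset := by
    rw [Set.Finite.coe_toFinset]
  unfold kerY
  rw [finprod_eq_prod_of_mulSupport_subset _ h1, finprod_eq_prod_of_mulSupport_subset _ h2,
    norm_prod, Complex.ofReal_prod]
  rfl

theorem kerI_abs (x y : XI D.toArch) : k.abs.kerI x y = ((‖k.kerI x y‖ : ℝ) : ℂ) := by
  unfold kerI
  rw [norm_prod, Complex.ofReal_prod]
  rfl

theorem ker_abs (x y : X D) : k.abs.ker x y = ((‖k.ker x y‖ : ℝ) : ℂ) := by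
  unfold ker
  rw [kerY_abs, kerI_abs, norm_mul, Complex.ofReal_mul]

/-- `|k * k'| ≤ |k| * |k'|` -/
theorem norm_ker_mul_le (x y : X D) :
    ‖(k.mul k').ker x y‖ ≤ ((k.abs.mul k'.abs).ker x y).re := by
  rw [← (ker_mul k k' x y).2, ← (ker_mul k.abs k'.abs x y).2]
  have e : ∀ z : X D, k.abs.ker x z * k'.abs.ker z y =
      ((‖k.ker x z * k'.ker z y‖ : ℝ) : ℂ) := by
    intro z
    rw [ker_abs, ker_abs, norm_mul, Complex.ofReal_mul]
  simp only [e]
  have h : ∫ z : X D, ((‖k.ker x z * k'.ker z y‖ : ℝ) : ℂ) =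
      ((∫ z : X D, ‖k.ker x z * k'.ker z y‖ : ℝ) : ℂ) := integral_ofReal
  rw [h, Complex.ofReal_re]
  exact norm_integral_le_integral_norm _

end Pure

end Fermat.LT
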