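import Mathlib

/-!
# Sums of product functions over fibres of maps between restricted products
-/

set_option autoImplicit false
set_option linter.unusedSectionVars false

namespace Fermat.LT.RP

variable {V : Type*} {A B : V → Type*} {R : Type*} [CommSemiring R] [NoZeroDivisors R]
  [Nontrivial R] (a0 : ∀ v, A v) (b0 : ∀ v, B v) (P : ∀ v, A v → B v) (F : ∀ v, A v → R)
  (G : ∀ v, B v → R)

/-- good indices -/
structure Good (v : V) : Prop where
  base : P v (a0 v) = b0 v
  one : F v (a0 v) = 1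
  uniq : ∀ y, F v y ≠ 0 → P v y = b0 v → y = a0 v

/-- the local fibre sums -/
structure Loc (v : V) : Prop where
  fin : ∀ z, {y | P v y = z ∧ F v y ≠ 0}.Finite
  sum : ∀ z, ∑ᶠ y ∈ {y | P v y = z ∧ F v y ≠ 0}, F v y = G v z

variable {a0 b0 P F G}

omit [NoZeroDivisors R] in
theorem Good.set_eq {v : V} (h : Good a0 b0 P F v) :
    {y | P v y = b0 v ∧ F v y ≠ 0} = {a0 v} := by
  ext y
  simp only [Set.mem_ofPred_eq, Set.mem_singleton_iff]
  constructor
  · rintro ⟨h1, h2⟩; exact h.uniq y h2 h1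
  · rintro rfl; exact ⟨h.base, by rw [h.one]; exact one_ne_zero⟩

omit [NoZeroDivisors R] in
theorem Good.G_eq {v : V} (h : Good a0 b0 P F v) (hl : Loc P F G v) : G v (b0 v) = 1 := by
  rw [← hl.sum, h.set_eq, finsum_mem_singleton, h.one]

/-- the fibre in the restricted product -/
def Fib (a0 : ∀ v, A v) (P : ∀ v, A v → B v) (F : ∀ v, A v → R) (z : ∀ v, B v) :
    Set (∀ v, A v) :=
  {y | {v | y v ≠ a0 v}.Finite ∧ (∀ v, P v (y v) = z v) ∧ ∀ v, F v (y v) ≠ 0}

/-- **Sums over fibres of maps between restricted products.** -/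
theorem sum_fib (hl : ∀ v, Loc P F G v) (hg : {v | ¬ Good a0 b0 P F v}.Finite)
    {z : ∀ v, B v} (hz : {v | z v ≠ b0 v}.Finite) :
    (Fib a0 P F z).Finite ∧ ∑ᶠ y ∈ Fib a0 P F z, ∏ᶠ v, F v (y v) = ∏ᶠ v, G v (z v) := by
  classical
  set T : Finset V := (hg.union hz).toFinset with hT
  have hTn : ∀ v, v ∉ T → Good a0 b0 P F v ∧ z v = b0 v := by
    intro v hv
    rw [hT, Set.Finite.mem_toFinset, Set.mem_union, not_or] at hv
    exact ⟨not_not.mp hv.1, not_not.mp hv.2⟩
  set S : ∀ v : T, Finset (A v) := fun v => ((hl v).fin (z v)).toFinset with hS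
  have hmS : ∀ (v : T) (y : A v), y ∈ S v ↔ P v y = z v ∧ F v y ≠ 0 := by
    intro v y
    rw [hS, Set.Finite.mem_toFinset]; rfl
  let e : (∀ v : T, A v) → ∀ v, A v := fun x v => if h : v ∈ T then x ⟨v, h⟩ else a0 v
  have he1 : ∀ (x : ∀ v : T, A v) (v : V) (h : v ∈ T), e x v = x ⟨v, h⟩ := fun x v h => dif_pos h
  have he2 : ∀ (x : ∀ v : T, A v) (v : V) (h : v ∉ T), e x v = a0 v := fun x v h => dif_neg h
  have hbij : Set.BijOn e (Fintype.piFinset S : Finset (∀ v : T, A v)) (Fib a0 P F z) := by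
    refine ⟨?_, ?_, ?_⟩
    · intro x hx
      rw [Finset.mem_coe, Fintype.mem_piFinset] at hx
      refine ⟨?_, ?_, ?_⟩
      · refine T.finite_toSet.subset fun v hv => ?_
        by_contra h
        exact hv (he2 x v h)
      · intro v
        by_cases h : v ∈ T
        · rw [he1 x v h]; exact ((hmS ⟨v, h⟩ _).mp (hx _)).1
        · rw [he2 x v h, (hTn v h).1.base, (hTn v h).2]
      · intro v
        by_cases h : v ∈ T
        · rw [he1 x v h]; exact ((hmS ⟨v, h⟩ _).mp (hx _)).2
        · rw [he2 x v h, (hTn v h).1.one]; exact one_ne_zero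
    · intro x _ x' _ hxx
      funext v
      have := congrFun hxx v.1
      rwa [he1 x v.1 v.2, he1 x' v.1 v.2] at this
    · intro y hy
      refine ⟨fun v => y v, ?_, ?_⟩
      · rw [Finset.mem_coe, Fintype.mem_piFinset]
        intro v
        exact (hmS v _).mpr ⟨hy.2.1 v, hy.2.2 v⟩
      · funext v
        by_cases h : v ∈ T
        · exact he1 (fun w : T => y w) v h
        · refine (he2 (fun w : T => y w) v h).trans ?_
          refine ((hTn v h).1.uniq _ (hy.2.2 v) ?_).symm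
          rw [hy.2.1 v, (hTn v h).2]
  refine ⟨hbij.image_eq ▸ (Finset.finite_toSet _).image e, ?_⟩
  have hF : ∀ x : ∀ v : T, A v, ∏ᶠ v, F v (e x v) = ∏ v : T, F v (x v) := by
    intro x
    rw [finprod_eq_prod_of_mulSupport_subset (s := T) _ ?_]
    · rw [← Finset.prod_coe_sort T]
      exact Finset.prod_congr rfl fun v _ => by rw [he1 x v.1 v.2]
    · intro v hv
      by_contra h
      apply hv
      rw [Finset.mem_coe] at h
      change F v (e x v) = 1
      rw [he2 x v h, (hTn v h).1.one]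
  have h1 : ∑ᶠ y ∈ Fib a0 P F z, ∏ᶠ v, F v (y v) =
      ∑ᶠ x ∈ (Fintype.piFinset S : Finset (∀ v : T, A v)), ∏ v : T, F v (x v) := by
    have := finsum_mem_eq_of_bijOn (f := fun x : ∀ v : T, A v => ∏ v : T, F v (x v))
      (g := fun y : ∀ v, A v => ∏ᶠ v, F v (y v)) e hbij (fun x _ => (hF x).symm)
    rw [← this]
    rfl
  have h2 : ∑ᶠ x ∈ (Fintype.piFinset S : Finset (∀ v : T, A v)), ∏ v : T, F v (x v) =
      ∑ x ∈ Fintype.piFinset S, ∏ v : T, F v (x v) := finsum_mem_finset_eq_sum _ _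
  rw [h1, h2, ← Finset.prod_univ_sum,
    finprod_eq_prod_of_mulSupport_subset (s := T) (fun v => G v (z v)) ?_,
    ← Finset.prod_coe_sort T]
  · refine Finset.prod_congr rfl fun v _ => ?_
    rw [← (hl v).sum (z v)]
    have := finsum_mem_eq_finite_toFinset_sum (F v.1) ((hl v.1).fin (z v.1))
    rw [this]
  · intro v hv
    by_contra h
    apply hv
    rw [Finset.mem_coe] at h
    change G v (z v) = 1
    rw [(hTn v h).2, (hTn v h).1.G_eq (hl v)]

end Fermat.LT.RP
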