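import Fermat.Agent.LT.Geo.Match
import Fermat.Agent.LT.Geo.RP

/-!
# LT, geometric side: the finite half of the push-forward formula
-/

set_option autoImplicit false
set_option linter.unusedSectionVars false

open NumberField IsDedekindDomain Matrix
open Fermat.Agent.LT.D

namespace Fermat.LT

section finprod

theorem finprod_fiber {W V M : Type*} [CommMonoid M] (f : W → M) (p : W → V)
    (hf : (Function.mulSupport f).Finite) :
    ∏ᶠ w, f w = ∏ᶠ v, ∏ᶠ w : {w // p w = v}, f w.1 := by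
  classical
  have h1 : ∀ v, ∏ᶠ w : {w // p w = v}, f w.1 = ∏ w ∈ hf.toFinset with p w = v, f w := by
    intro v
    have h2 : ∏ᶠ w : {w // p w = v}, f w.1 = ∏ᶠ w ∈ {w | p w = v}, f w :=
      finprod_set_coe_eq_finprod_mem {w | p w = v}
    rw [h2]
    rw [finprod_mem_eq_prod_of_inter_mulSupport_eq]
    ext w
    simp only [Set.mem_inter_iff, Set.mem_ofPred_eq, Finset.coe_filter, Set.Finite.mem_toFinset,
      Function.mem_mulSupport]
    tauto
  rw [finprod_eq_prod_of_mulSupport_toFinset_subset f hf (Finset.Subset.refl _)]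
  simp only [h1]
  rw [finprod_eq_prod_of_mulSupport_subset (s := hf.toFinset.image p)]
  · exact (Finset.prod_fiberwise_of_maps_to (fun w hw => Finset.mem_image_of_mem p hw) f).symm
  · intro v hv
    rw [Function.mem_mulSupport] at hv
    obtain ⟨w, hw, -⟩ := Finset.exists_ne_one_of_prod_ne_one hv
    rw [Finset.mem_filter] at hw
    rw [Finset.mem_coe, ← hw.2]
    exact Finset.mem_image_of_mem p hw.1

end finprod

section

variable {F : Type} [Field F] [NumberField F]

theorem Pure.kerY_finite {D : Datum F} (k : Pure D) (x y : Y D.toLevel) :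
    {w | kw (D.H w) (k.f w) (x w) (y w) ≠ 1}.Finite := by
  refine ((x.fin.union y.fin).union k.f_one).subset ?_
  intro w hw
  by_contra hc
  simp only [Set.mem_union, Set.mem_ofPred_eq, not_or, not_not] at hc
  apply hw
  rw [hc.1.1, hc.1.2, hc.2, kw_unitF, if_pos rfl]

end

variable {K L : Type} [Field K] [NumberField K] [Field L] [NumberField L] [Algebra K L]

namespace GeoDatum

variable {C : Cub K L} {G : GeoDatum C}

theorem above_cases (w : Pl L) {v : Pl K} (h : G.down w = v) :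
    w = G.up v ∨ w = pl C (G.up v) ∨ w = pl C (pl C (G.up v)) := by
  subst h; exact G.up_down w

instance finite_above (v : Pl K) : Finite {w : Pl L // G.down w = v} := by
  have : ({w : Pl L | G.down w = v}).Finite := by
    refine (Set.toFinite {G.up v, pl C (G.up v), pl C (pl C (G.up v))}).subset ?_
    intro w hw
    rcases above_cases w hw with h | h | h <;> simp [h]
  exact this

theorem comp_fin (y : Y G.DL.toLevel) : {v | comp (G := G) v y ≠ baseA v}.Finite := by
  refine (y.fin.image G.down).subset ?_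
  intro v hv
  by_contra hc
  apply hv
  funext w
  by_contra hw
  exact hc ⟨w.1, hw, w.2⟩

theorem comp_inj {y y' : Y G.DL.toLevel} (h : ∀ v, comp (G := G) v y = comp v y') : y = y' := by
  refine Y.ext' fun w => ?_
  exact congrFun (h (G.down w)) ⟨w, rfl⟩

theorem comp_surj (a : ∀ v, G.AL v) (ha : {v | a v ≠ baseA v}.Finite) :
    ∃ y : Y G.DL.toLevel, ∀ v, comp (G := G) v y = a v := by
  refine ⟨⟨fun w => a (G.down w) ⟨w, rfl⟩, ?_⟩, ?_⟩
  · have h1 : (⋃ v ∈ {v | a v ≠ baseA v}, {w : Pl L | G.down w = v}).Finite := by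
      refine ha.biUnion fun v _ => ?_
      exact Set.finite_coe_iff.mp (finite_above (G := G) v)
    refine h1.subset ?_
    intro w hw
    rw [Set.mem_iUnion₂]
    refine ⟨G.down w, ?_, rfl⟩
    intro h
    apply hw
    rw [h]; rfl
  · intro v
    funext w
    obtain ⟨w, rfl⟩ := w
    rfl

theorem comp_smul (g : G2 L) (y : Y G.DL.toLevel) (v : Pl K) :
    comp (G := G) v (g • y) = smulA g (comp v y) := rfl

variable (k : Pure G.DL.toDatum)

theorem kerY_eq (δ : G2 L) (y : Y G.DL.toLevel) :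
    k.kerY y (δ • G.DL.σY y) = ∏ᶠ v, Fv k v δ (comp v y) := by
  unfold Pure.kerY
  exact finprod_fiber _ G.down (k.kerY_finite y (δ • G.DL.σY y))

theorem Fv_fin (δ : G2 L) (y : Y G.DL.toLevel) : {v | Fv k v δ (comp v y) ≠ 1}.Finite := by
  refine ((k.kerY_finite y (δ • G.DL.σY y)).image G.down).subset ?_
  intro v hv
  by_contra hc
  apply hv
  refine finprod_eq_one_of_forall_eq_one fun w => ?_
  by_contra hw
  exact hc ⟨w.1, hw, w.2⟩

theorem kerY_ne_zero_iff (δ : G2 L) (y : Y G.DL.toLevel) :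
    k.kerY y (δ • G.DL.σY y) ≠ 0 ↔ ∀ v, Fv k v δ (comp v y) ≠ 0 := by
  rw [kerY_eq]
  constructor
  · intro h v hv
    apply h
    exact finprod_eq_zero _ v hv (Fv_fin k δ y)
  · intro h
    rw [finprod_eq_prod_of_mulSupport_toFinset_subset _ (Fv_fin k δ y) (Finset.Subset.refl _)]
    exact Finset.prod_ne_zero_iff.mpr fun v _ => h v

variable {k} {γ : G2 K} {δ : G2 L} {P : ∀ v, G.AL v → Yl G.U0 v}

theorem toLoc {v : Pl K} (h : LocMatch k v γ δ (P v)) :
    RP.Loc P (fun v => Fv k v δ) (fun v => Gv k v γ) v :=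
  ⟨h.fin, h.sum⟩

theorem toGood {v : Pl K} (h : LocGood k v δ (P v)) :
    RP.Good (fun v => baseA v) (fun v => ((1 : G2 K) : Yl G.U0 v)) P (fun v => Fv k v δ) v :=
  ⟨h.base, h.one, h.uniq⟩

theorem good_fin (hg : {v | ¬ LocGood k v δ (P v)}.Finite) :
    {v | ¬ RP.Good (fun v => baseA v) (fun v => ((1 : G2 K) : Yl G.U0 v)) P
      (fun v => Fv k v δ) v}.Finite :=
  hg.subset fun _ hv h => hv (toGood h)

/-- the gluing condition holds -/
theorem glue_fin (hg : {v | ¬ LocGood k v δ (P v)}.Finite) (y : Y G.DL.toLevel) :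
    {v | P v (comp v y) ≠ ((1 : G2 K) : Yl G.U0 v)}.Finite := by
  refine (hg.union (comp_fin y)).subset ?_
  intro v hv
  by_contra hc
  simp only [Set.mem_union, Set.mem_ofPred_eq, not_or, not_not] at hc
  apply hv
  rw [hc.2, hc.1.base]

theorem glueY_apply (hg : {v | ¬ LocGood k v δ (P v)}.Finite) (y : Y G.DL.toLevel) (v : Pl K) :
    glueY P y v = P v (comp v y) := by
  unfold glueY
  rw [dif_pos (glue_fin hg y)]

theorem glueY_eq_iff (hg : {v | ¬ LocGood k v δ (P v)}.Finite) (y : Y G.DL.toLevel)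
    (z : Y G.U0) : glueY P y = z ↔ ∀ v, P v (comp v y) = z v := by
  constructor
  · rintro rfl v; exact (glueY_apply hg y v).symm
  · intro h; exact Y.ext' fun v => (glueY_apply hg y v).trans (h v)

theorem bij_fib (hg : {v | ¬ LocGood k v δ (P v)}.Finite) (z : Y G.U0) :
    Set.BijOn (fun (y : Y G.DL.toLevel) (v : Pl K) => comp (G := G) v y)
      {y | glueY P y = z ∧ k.kerY y (δ • G.DL.σY y) ≠ 0}
      (RP.Fib (fun v => baseA v) P (fun v => Fv k v δ) z) := by
  refine ⟨?_, ?_, ?_⟩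
  · rintro y ⟨h1, h2⟩
    exact ⟨comp_fin y, (glueY_eq_iff hg y z).mp h1, (kerY_ne_zero_iff k δ y).mp h2⟩
  · intro y _ y' _ h
    exact comp_inj fun v => congrFun h v
  · rintro a ⟨h1, h2, h3⟩
    obtain ⟨y, hy⟩ := comp_surj a h1
    refine ⟨y, ⟨(glueY_eq_iff hg y z).mpr fun v => ?_, (kerY_ne_zero_iff k δ y).mpr fun v => ?_⟩,
      funext hy⟩
    · rw [hy, h2]
    · rw [hy]; exact h3 v

/-- **Finite half of the push-forward formula: finiteness of the fibres.** -/
theorem fib_finite (hl : ∀ v, LocMatch k v γ δ (P v)) (hg : {v | ¬ LocGood k v δ (P v)}.Finite)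
    (z : Y G.U0) : {y | glueY P y = z ∧ k.kerY y (δ • G.DL.σY y) ≠ 0}.Finite := by
  have h1 := (RP.sum_fib (fun v => toLoc (P := P) (hl v)) (good_fin hg) z.fin).1
  have h2 := bij_fib (k := k) (δ := δ) (P := P) hg z
  rw [← h2.image_eq] at h1
  exact h1.of_finite_image h2.injOn

/-- **Finite half of the push-forward formula.** -/
theorem fib_sum (hl : ∀ v, LocMatch k v γ δ (P v)) (hg : {v | ¬ LocGood k v δ (P v)}.Finite)
    (z : Y G.U0) :
    ∑ᶠ y ∈ {y | glueY P y = z ∧ k.kerY y (δ • G.DL.σY y) ≠ 0}, k.kerY y (δ • G.DL.σY y) =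
      ∏ᶠ v, Gv k v γ (z v) := by
  have h1 := (RP.sum_fib (fun v => toLoc (P := P) (hl v)) (good_fin hg) z.fin).2
  rw [← h1]
  exact finsum_mem_eq_of_bijOn _ (bij_fib hg z) fun y _ => kerY_eq k δ y

/-- equivariance of the glued projection -/
theorem glueY_smul (hl : ∀ v, LocMatch k v γ δ (P v)) (hg : {v | ¬ LocGood k v δ (P v)}.Finite)
    (t : G2 K) (ht : t * γ = γ * t) {y : Y G.DL.toLevel} (hy : k.kerY y (δ • G.DL.σY y) ≠ 0) :
    glueY P ((Cub.Inc t : G2 L) • y) = t • glueY P y := by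
  rw [glueY_eq_iff hg]
  intro v
  rw [comp_smul, (hl v).eqv t ht _ ((kerY_ne_zero_iff k δ y).mp hy v), G2_smul_apply,
    glueY_apply hg]

end GeoDatum

end Fermat.LT
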