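import Fermat.Agent.LT.Geo.Conv
import Fermat.Agent.LT.Geo.FinPush

/-!
# LT, geometric side: local matching at the split places (E2)
-/

set_option autoImplicit false
set_option linter.unusedSectionVars false

open NumberField IsDedekindDomain Matrix
open Fermat.Agent.LT.D Fermat.Agent.LT.CTree

namespace Fermat.LT

section density

variable {F : Type} [Field F] [NumberField F]

/-- matrices congruent to `1` -/
theorem mem_congGL_of_near {w : Pl F} {n : ℕ} {B : G2 F} {η : ℝ} (hη : η < 1)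
    (hη' : η ≤ (qv w)⁻¹ ^ n) (h : nm w (B.1 - 1) ≤ η) : B ∈ congGL w n := by
  have hη0 : 0 ≤ η := (nm_nonneg w _).trans h
  rw [nm_le_iff] at h
  have h00 := h 0 0
  have h01 := h 0 1
  have h10 := h 1 0
  have h11 := h 1 1
  simp only [Matrix.sub_apply, Matrix.one_apply_eq, ne_eq, Fin.zero_eq_one_iff, Nat.succ_ne_self,
    not_false_eq_true, Matrix.one_apply_ne, Fin.one_eq_zero_iff, sub_zero] at h00 h01 h10 h11
  have hdet : av w (B.1.det - 1) ≤ η := by
    have e : B.1.det - 1 = (B.1 0 0 - 1) + (B.1 1 1 - 1) +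
        ((B.1 0 0 - 1) * (B.1 1 1 - 1) + -(B.1 0 1 * B.1 1 0)) := by
      rw [Matrix.det_fin_two]; ring
    have hm : ∀ x y : F, av w x ≤ η → av w y ≤ η → av w (x * y) ≤ η := by
      intro x y hx hy
      rw [map_mul]
      calc av w x * av w y ≤ η * η := mul_le_mul hx hy ((av w).nonneg _) hη0
        _ ≤ η * 1 := mul_le_mul_of_nonneg_left hη.le hη0
        _ = η := mul_one _
    rw [e]
    refine (av_add_le w _ _).trans (max_le ((av_add_le w _ _).trans (max_le h00 h11)) ?_)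
    refine (av_add_le w _ _).trans (max_le (hm _ _ h00 h11) ?_)
    rw [(av w).map_neg]
    exact hm _ _ h01 h10
  have hdet1 : av w B.1.det = 1 := by
    apply le_antisymm
    · have e : B.1.det = (B.1.det - 1) + 1 := by ring
      rw [e]
      refine (av_add_le w _ _).trans (max_le (hdet.trans hη.le) ?_)
      rw [map_one]
    · by_contra hlt
      push Not at hlt
      have e : (1 : F) = B.1.det + -(B.1.det - 1) := by ring
      have h1 : av w (1 : F) < 1 := by
        rw [e]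
        refine (av_add_le w _ _).trans_lt (max_lt hlt ?_)
        rw [(av w).map_neg]
        exact hdet.trans_lt hη
      rw [map_one] at h1
      exact lt_irrefl _ h1
  have hB : nm w B.1 ≤ 1 := by
    have e : B.1 = (B.1 - 1) + 1 := by simp
    rw [e]
    refine (nm_add_le w _ _).trans (max_le ?_ (nm_one w).le)
    rw [nm_le_iff]
    intro i j
    exact (h i j).trans hη.le
  refine ⟨⟨hB, ?_⟩, ?_⟩
  · rw [nm_inv, hdet1, inv_one, one_mul]; exact hB
  · rw [nm_le_iff]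
    intro i j
    exact (h i j).trans hη'

variable {K L : Type} [Field K] [NumberField K] [Field L] [NumberField L] [Algebra K L]

/-- `GL₂(K)` is dense in `GL₂(L)` at a split place. -/
theorem exists_Inc_approx {C : Cub K L} {v : Pl K} {w : Pl L} (hs : Split C v w) (g : G2 L)
    (n : ℕ) : ∃ g' : G2 K, g⁻¹ * Cub.Inc g' ∈ congGL w n := by
  have hM := nm_pos w g⁻¹
  set M := nm w (g⁻¹).1 with hMdef
  have hq := qv_pos w
  have hq1 := one_lt_qv w
  set ε : ℝ := (qv w)⁻¹ ^ (n + 1) / M with hε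
  have hε0 : 0 < ε := by positivity
  choose y hy using fun (i j : Fin 2) => hs.dense (g.1 i j) ε hε0
  set A' : Matrix (Fin 2) (Fin 2) K := Matrix.of y with hA'
  set A : Matrix (Fin 2) (Fin 2) L := Cub.inc A' with hA
  have h1 : nm w ((g⁻¹).1 * A - 1) ≤ (qv w)⁻¹ ^ (n + 1) := by
    have e : (g⁻¹).1 * A - 1 = (g⁻¹).1 * (-(g.1 - A)) := by
      have h : (g⁻¹).1 * g.1 = 1 := by rw [← Units.val_mul]; simp
      rw [neg_sub, mul_sub, h]
    rw [e]
    refine (nm_mul_le w _ _).trans ?_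
    rw [nm_neg]
    have h2 : nm w (g.1 - A) ≤ ε := by
      rw [nm_le_iff]
      intro i j
      exact (hy i j).le
    calc nm w (g⁻¹).1 * nm w (g.1 - A) ≤ M * ε := mul_le_mul_of_nonneg_left h2 hM.le
      _ = (qv w)⁻¹ ^ (n + 1) := by rw [hε]; field_simp
  have hη : (qv w)⁻¹ ^ (n + 1) < 1 := pow_lt_one₀ (by positivity) (inv_lt_one_of_one_lt₀ hq1)
    (by omega)
  have hη' : (qv w)⁻¹ ^ (n + 1) ≤ (qv w)⁻¹ ^ n :=
    pow_le_pow_of_le_one (by positivity) (inv_lt_one_of_one_lt₀ hq1).le (by omega)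
  -- the determinant does not vanish
  have hdet : A'.det ≠ 0 := by
    intro h0
    have h3 : ((g⁻¹).1 * A).det = 0 := by
      rw [Matrix.det_mul, hA, Cub.det_inc, h0, map_zero, mul_zero]
    set B := (g⁻¹).1 * A with hB
    rw [nm_le_iff] at h1
    have h00 := h1 0 0
    have h01 := h1 0 1
    have h10 := h1 1 0
    have h11 := h1 1 1
    simp only [Matrix.sub_apply, Matrix.one_apply_eq, ne_eq, Fin.zero_eq_one_iff, Nat.succ_ne_self,
      not_false_eq_true, Matrix.one_apply_ne, Fin.one_eq_zero_iff, sub_zero] at h00 h01 h10 h11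
    have e : (-1 : L) = (B 0 0 - 1) + (B 1 1 - 1) +
        ((B 0 0 - 1) * (B 1 1 - 1) + -(B 0 1 * B 1 0)) := by
      rw [Matrix.det_fin_two] at h3
      linear_combination -h3
    have hm : ∀ x y : L, av w x ≤ (qv w)⁻¹ ^ (n + 1) → av w y ≤ (qv w)⁻¹ ^ (n + 1) →
        av w (x * y) < 1 := by
      intro x y hx hy
      rw [map_mul]
      exact mul_lt_one_of_nonneg_of_lt_one_left ((av w).nonneg _) (hx.trans_lt hη)
        (hy.trans hη.le)
    have h4 : av w (-1 : L) < 1 := by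
      rw [e]
      refine (av_add_le w _ _).trans_lt (max_lt ((av_add_le w _ _).trans_lt
        (max_lt (h00.trans_lt hη) (h11.trans_lt hη))) ?_)
      refine (av_add_le w _ _).trans_lt (max_lt (hm _ _ h00 h11) ?_)
      rw [(av w).map_neg]
      exact hm _ _ h01 h10
    rw [(av w).map_neg, map_one] at h4
    exact lt_irrefl _ h4
  refine ⟨Matrix.GeneralLinearGroup.mkOfDetNeZero A' hdet, ?_⟩
  exact mem_congGL_of_near hη hη' h1

end density

variable {K L : Type} [Field K] [NumberField K] [Field L] [NumberField L] [Algebra K L]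

namespace TwDatum

variable {C : Cub K L} (D : TwDatum C)

theorem σl_surjective {w w' : Pl L} (h : pl C w = w') : Function.Surjective (D.σl h) := by
  intro b
  obtain ⟨b, rfl⟩ := QuotientGroup.mk_surjective b
  exact ⟨((C.S (C.S b) : G2 L) : Yl D.toLevel w), by rw [σl_mk, C.S_cube]⟩

theorem biInv_S {w w' : Pl L} (h : pl C w = w') {f : G2 L → ℂ} (hf : BiInv (D.H w') f) :
    BiInv (D.H w) (fun g => f (C.S g)) := by
  intro a ha b hb g
  change f (C.S (a * g * b)) = f (C.S g)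
  rw [map_mul, map_mul]
  exact hf _ ((D.H_pl' h a).mpr ha) _ ((D.H_pl' h b).mpr hb) _

theorem kw_σl {w w' : Pl L} (h : pl C w = w') {f : G2 L → ℂ} (hf : BiInv (D.H w') f)
    (a b : Yl D.toLevel w) :
    kw (D.H w') f (D.σl h a) (D.σl h b) = kw (D.H w) (fun g => f (C.S g)) a b := by
  obtain ⟨a, rfl⟩ := QuotientGroup.mk_surjective a
  obtain ⟨b, rfl⟩ := QuotientGroup.mk_surjective b
  rw [kw_mk (D.biInv_S h hf), σl_mk, σl_mk, kw_mk hf, map_mul, map_inv]

end TwDatum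

namespace GeoDatum

variable {C : Cub K L} {G : GeoDatum C}

section places

variable (G) (v : Pl K)

/-- the three places above `v` : `w_j = σ^{-j} (up v)` -/
noncomputable def wj (j : ℕ) : Pl L := ((pl C).symm)^[j] (G.up v)

theorem wj_zero : G.wj v 0 = G.up v := rfl

theorem pl_wj_succ (j : ℕ) : pl C (G.wj v (j + 1)) = G.wj v j := by
  rw [wj, Function.iterate_succ_apply', Equiv.apply_symm_apply]; rfl

theorem wj_three : G.wj v 3 = G.wj v 0 := by
  have h := TwDatum.pl_cube (C := C) (G.wj v 3)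
  rw [pl_wj_succ, pl_wj_succ, pl_wj_succ] at h
  exact h.symm

theorem pl_wj_zero : pl C (G.wj v 0) = G.wj v 2 := by
  rw [← wj_three, pl_wj_succ]

theorem down_wj (j : ℕ) : G.down (G.wj v j) = v := by
  induction j with
  | zero => exact G.down_up v
  | succ j ih =>
    have h := G.down_pl (G.wj v (j + 1))
    rw [pl_wj_succ, ih] at h
    exact h.symm

/-- the places above `v` -/
noncomputable def aj (j : ℕ) : {w : Pl L // G.down w = v} := ⟨G.wj v j, G.down_wj v j⟩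

theorem aj_cases (w : {w : Pl L // G.down w = v}) :
    w = G.aj v 0 ∨ w = G.aj v 1 ∨ w = G.aj v 2 := by
  have h0 := G.pl_wj_zero v
  have h1 := G.pl_wj_succ v 1
  rcases above_cases w.1 w.2 with h | h | h
  · exact Or.inl (Subtype.ext h)
  · exact Or.inr (Or.inr (Subtype.ext (h.trans h0)))
  · exact Or.inr (Or.inl (Subtype.ext (h.trans (by rw [← G.wj_zero v, h0, h1]; rfl))))

theorem pl1 : pl C (G.aj v 1).1 = (G.aj v 0).1 := G.pl_wj_succ v 0
theorem pl2 : pl C (G.aj v 2).1 = (G.aj v 1).1 := G.pl_wj_succ v 1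
theorem pl0 : pl C (G.aj v 0).1 = (G.aj v 2).1 := G.pl_wj_zero v

variable {G v}

theorem aj_ne (hs : Split C v (G.up v)) :
    G.aj v 0 ≠ G.aj v 1 ∧ G.aj v 0 ≠ G.aj v 2 ∧ G.aj v 1 ≠ G.aj v 2 := by
  have h0 := G.pl_wj_zero v
  have h1 : pl C (G.wj v 1) = G.wj v 0 := G.pl_wj_succ v 0
  have h2 : pl C (G.wj v 2) = G.wj v 1 := G.pl_wj_succ v 1
  have hne : pl C (G.wj v 0) ≠ G.wj v 0 := hs.ne
  refine ⟨fun h => ?_, fun h => ?_, fun h => ?_⟩
  · have h' : G.wj v 0 = G.wj v 1 := congrArg Subtype.val h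
    rw [← h'] at h1
    exact hne h1
  · have h' : G.wj v 0 = G.wj v 2 := congrArg Subtype.val h
    rw [← h'] at h0
    exact hne h0
  · have h' : G.wj v 1 = G.wj v 2 := congrArg Subtype.val h
    rw [← h'] at h2
    have e : G.wj v 1 = G.wj v 0 := h2.symm.trans h1
    rw [e] at h2
    exact hne h2

theorem finprod_above (hs : Split C v (G.up v)) {M : Type*} [CommMonoid M]
    (f : {w : Pl L // G.down w = v} → M) :
    ∏ᶠ w, f w = f (G.aj v 0) * f (G.aj v 1) * f (G.aj v 2) := by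
  classical
  obtain ⟨n1, n2, n3⟩ := aj_ne hs
  rw [finprod_eq_prod_of_mulSupport_subset (s := {G.aj v 0, G.aj v 1, G.aj v 2}) f ?_]
  · rw [Finset.prod_insert (by simp [n1, n2]), Finset.prod_insert (by simp [n3]),
      Finset.prod_singleton, mul_assoc]
  · intro w _
    rcases aj_cases G v w with h | h | h <;> simp [h]

end places

section twisted

variable {v : Pl K}

theorem twA_apply (δ : G2 L) (y : G.AL v) {w w' : Pl L} (h : pl C w = w') (hw : G.down w = v)
    (hw' : G.down w' = v) :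
    twA δ y ⟨w', hw'⟩ = δ • G.DL.σl h (y ⟨w, hw⟩) := by
  subst h
  have h2 : (pl C).symm (pl C w) = w := Equiv.symm_apply_apply _ _
  have h3 : (⟨(pl C).symm (pl C w), by rw [h2]; exact hw⟩ : {w : Pl L // G.down w = v}) =
      ⟨w, hw⟩ := Subtype.ext h2
  unfold twA
  congr! 2
  exact congr_arg_heq y h3

end twisted

section coords

variable (G) (v : Pl K)

/-- `E = GL₂(L) ⧸ H_{w₀}` -/
abbrev EL : Type := Yl G.DL.toLevel ((G.aj v 0).1)

variable {G v}

/-- the coordinates `h_j = σ^j y_{w_j}` -/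
noncomputable def h0 (y : G.AL v) : G.EL v := y (G.aj v 0)
/-- the coordinates `h_j = σ^j y_{w_j}` -/
noncomputable def h1 (y : G.AL v) : G.EL v := G.DL.σl (G.pl1 v) (y (G.aj v 1))
/-- the coordinates `h_j = σ^j y_{w_j}` -/
noncomputable def h2 (y : G.AL v) : G.EL v :=
  G.DL.σl (G.pl1 v) (G.DL.σl (G.pl2 v) (y (G.aj v 2)))

theorem coords_inj {y y' : G.AL v} (e0 : h0 y = h0 y') (e1 : h1 y = h1 y') (e2 : h2 y = h2 y') :
    y = y' := by
  funext w
  rcases G.aj_cases v w with rfl | rfl | rfl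
  · exact e0
  · exact G.DL.σl_injective _ e1
  · exact G.DL.σl_injective _ (G.DL.σl_injective _ e2)

theorem exists_fun3 {α : Type*} {β : α → Type*} (f : ∀ x, β x) {x0 x1 x2 : α} (n1 : x0 ≠ x1)
    (n2 : x0 ≠ x2) (n3 : x1 ≠ x2) (a : β x0) (b : β x1) (c : β x2) :
    ∃ g : ∀ x, β x, g x0 = a ∧ g x1 = b ∧ g x2 = c := by
  classical
  refine ⟨Function.update (Function.update (Function.update f x0 a) x1 b) x2 c, ?_, ?_, ?_⟩
  · rw [Function.update_of_ne n2, Function.update_of_ne n1, Function.update_self]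
  · rw [Function.update_of_ne n3, Function.update_self]
  · rw [Function.update_self]

theorem coords_surj (hs : Split C v (G.up v)) (a b c : G.EL v) :
    ∃ y : G.AL v, h0 y = a ∧ h1 y = b ∧ h2 y = c := by
  classical
  obtain ⟨n1, n2, n3⟩ := aj_ne hs
  obtain ⟨b', hb'⟩ := G.DL.σl_surjective (G.pl1 v) b
  obtain ⟨c', hc'⟩ := G.DL.σl_surjective (G.pl1 v) c
  obtain ⟨c'', hc''⟩ := G.DL.σl_surjective (G.pl2 v) c'
  obtain ⟨y, y0, y1, y2⟩ := exists_fun3 (β := fun w : {w : Pl L // G.down w = v} =>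
    Yl G.DL.toLevel w.1) (baseA v) n1 n2 n3 a b' c''
  refine ⟨y, y0, ?_, ?_⟩
  · change G.DL.σl _ (y (G.aj v 1)) = b
    rw [y1, hb']
  · change G.DL.σl _ (G.DL.σl _ (y (G.aj v 2))) = c
    rw [y2, hc'', hc']

variable (k : Pure G.DL.toDatum)

/-- the three functions on `GL₂(L)` at `w₀` -/
noncomputable def g0 (v : Pl K) (g : G2 L) : ℂ := k.f ((G.aj v 0).1) g
/-- the three functions on `GL₂(L)` at `w₀` -/
noncomputable def g1 (v : Pl K) (g : G2 L) : ℂ := k.f ((G.aj v 1).1) (C.S (C.S g))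
/-- the three functions on `GL₂(L)` at `w₀` -/
noncomputable def g2 (v : Pl K) (g : G2 L) : ℂ := k.f ((G.aj v 2).1) (C.S g)

theorem biInv_g0 : BiInv (G.DL.H ((G.aj v 0).1)) (g0 k v) := k.f_bi _

theorem biInv_g2 : BiInv (G.DL.H ((G.aj v 0).1)) (g2 k v) :=
  G.DL.biInv_S (G.pl0 v) (k.f_bi _)

theorem biInv_g1 : BiInv (G.DL.H ((G.aj v 0).1)) (g1 k v) :=
  G.DL.biInv_S (G.pl0 v) (f := fun g => k.f ((G.aj v 1).1) (C.S g))
    (G.DL.biInv_S (G.pl2 v) (k.f_bi _))

theorem Fv_split (hs : Split C v (G.up v)) (δ : G2 L) (y : G.AL v) :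
    Fv k v δ y = kw (G.DL.H ((G.aj v 0).1)) (g0 k v) (h0 y) (δ • h1 y) *
      kw (G.DL.H ((G.aj v 0).1)) (g1 k v) (h1 y) (C.S δ • h2 y) *
      kw (G.DL.H ((G.aj v 0).1)) (g2 k v) (h2 y) (C.S (C.S δ) • h0 y) := by
  unfold Fv
  rw [finprod_above hs]
  refine congrArg₂ (· * ·) (congrArg₂ (· * ·) ?_ ?_) ?_
  · -- the place w₀
    have e : twA δ y (G.aj v 0) = δ • h1 y := twA_apply δ y (G.pl1 v) _ _
    rw [e]; rfl
  · -- the place w₁
    have e : twA δ y (G.aj v 1) = δ • G.DL.σl (G.pl2 v) (y (G.aj v 2)) :=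
      twA_apply δ y (G.pl2 v) _ _
    have e2 := G.DL.kw_σl (G.pl1 v) (biInv_g1 (v := v) k) (y (G.aj v 1))
      (δ • G.DL.σl (G.pl2 v) (y (G.aj v 2)))
    rw [G.DL.σl_smul] at e2
    have e3 : (fun g => g1 k v (C.S g)) = k.f (G.aj v 1).1 := by
      funext g
      unfold g1
      rw [C.S_cube]
    rw [e3] at e2
    rw [e]
    exact e2.symm
  · -- the place w₂
    have e : twA δ y (G.aj v 2) = δ • G.DL.σl (G.pl0 v) (y (G.aj v 0)) :=
      twA_apply δ y (G.pl0 v) _ _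
    have hb : BiInv (G.DL.H (G.aj v 1).1) (fun g => g2 k v (C.S g)) :=
      G.DL.biInv_S (G.pl1 v) (biInv_g2 k)
    have e2 := G.DL.kw_σl (G.pl2 v) hb (y (G.aj v 2))
        (δ • G.DL.σl (G.pl0 v) (y (G.aj v 0)))
    have e3 : (fun g => g2 k v (C.S (C.S g))) = k.f (G.aj v 2).1 := by
      funext g
      unfold g2
      rw [C.S_cube]
    rw [e3] at e2
    have e4 : G.DL.σl (G.pl1 v) (G.DL.σl (G.pl2 v) (G.DL.σl (G.pl0 v) (y (G.aj v 0)))) =
        y (G.aj v 0) := by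
      obtain ⟨g, hg⟩ := QuotientGroup.mk_surjective (y (G.aj v 0))
      rw [← hg]
      change ((C.S (C.S (C.S g)) : G2 L) : Yl G.DL.toLevel (G.aj v 0).1) = _
      rw [C.S_cube]
    have e5 := G.DL.kw_σl (G.pl1 v) (biInv_g2 (v := v) k)
      (G.DL.σl (G.pl2 v) (y (G.aj v 2)))
      (G.DL.σl (G.pl2 v) (δ • G.DL.σl (G.pl0 v) (y (G.aj v 0))))
    rw [G.DL.σl_smul, G.DL.σl_smul, e4] at e5
    rw [e, ← e2, G.DL.σl_smul]
    exact e5.symm

end coords

section comparison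

variable {v : Pl K}

/-- `GL₂(K) ⧸ H_v → GL₂(L) ⧸ H_{w₀}` -/
noncomputable def iS (hs : Split C v (G.up v)) : Yl G.U0 v → G.EL v :=
  Quotient.map' Cub.Inc (by
    intro a b hab
    rw [QuotientGroup.leftRel_apply] at hab ⊢
    rw [← map_inv, ← map_mul]
    exact (G.H_split v hs _).mp hab)

theorem iS_mk (hs : Split C v (G.up v)) (g : G2 K) :
    iS hs (g : Yl G.U0 v) = ((Cub.Inc g : G2 L) : G.EL v) := rfl

theorem iS_bij (hs : Split C v (G.up v)) : Function.Bijective (iS (G := G) hs) := by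
  constructor
  · intro a b hab
    obtain ⟨a, rfl⟩ := QuotientGroup.mk_surjective a
    obtain ⟨b, rfl⟩ := QuotientGroup.mk_surjective b
    rw [iS_mk, iS_mk, QuotientGroup.eq, ← map_inv, ← map_mul] at hab
    exact QuotientGroup.eq.mpr ((G.H_split v hs _).mpr hab)
  · intro b
    obtain ⟨g, rfl⟩ := QuotientGroup.mk_surjective b
    obtain ⟨g', hg'⟩ := exists_Inc_approx hs g (G.DL.n (G.up v))
    refine ⟨(g' : Yl G.U0 v), ?_⟩
    rw [iS_mk]
    exact (QuotientGroup.eq.mpr (G.DL.cong_le _ hg')).symm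

/-- the bijection -/
noncomputable def eS (hs : Split C v (G.up v)) : Yl G.U0 v ≃ G.EL v :=
  Equiv.ofBijective _ (iS_bij hs)

theorem eS_apply (hs : Split C v (G.up v)) (z : Yl G.U0 v) : eS hs z = iS hs z := rfl

theorem eS_smul (hs : Split C v (G.up v)) (t : G2 K) (z : Yl G.U0 v) :
    eS hs (t • z) = (Cub.Inc t : G2 L) • eS hs z := by
  obtain ⟨z, rfl⟩ := QuotientGroup.mk_surjective z
  change ((Cub.Inc (t * z) : G2 L) : G.EL v) = ((Cub.Inc t * Cub.Inc z : G2 L) : G.EL v)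
  rw [map_mul]

/-- The projection at a split place. -/
noncomputable def PS (hs : Split C v (G.up v)) (y : G.AL v) : Yl G.U0 v := (eS hs).symm (h0 y)

theorem PS_eq_iff (hs : Split C v (G.up v)) (y : G.AL v) (z : Yl G.U0 v) :
    PS hs y = z ↔ h0 y = eS hs z := Equiv.symm_apply_eq _

variable (k : Pure G.DL.toDatum)

theorem biInv_fs (hs : Split C v (G.up v)) (j : Fin 3) : BiInv (G.U0.H v) (fs k v j) := by
  have key : ∀ (f : G2 L → ℂ), BiInv (G.DL.H ((G.aj v 0).1)) f → BiInv (G.U0.H v)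
      fun g => f (Cub.Inc g) := by
    intro f hf a ha b hb g
    change f (Cub.Inc (a * g * b)) = f (Cub.Inc g)
    rw [map_mul, map_mul]
    exact hf _ ((G.H_split v hs _).mp ha) _ ((G.H_split v hs _).mp hb) _
  have h1 : fs k v 1 = fun g => g1 k v (Cub.Inc g) := by
    funext g; unfold g1; rw [C.S_Inc, C.S_Inc]; rfl
  have h2 : fs k v 2 = fun g => g2 k v (Cub.Inc g) := by
    funext g; unfold g2; rw [C.S_Inc]; rfl
  fin_cases j
  · exact key _ (biInv_g0 k)
  · change BiInv _ (fs k v 1); rw [h1]; exact key _ (biInv_g1 k)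
  · change BiInv _ (fs k v 2); rw [h2]; exact key _ (biInv_g2 k)

/-- the kernels on `K` and on `L` -/
theorem kw_fs0 (hs : Split C v (G.up v)) (a b : Yl G.U0 v) :
    kw (G.DL.H (G.aj v 0).1) (g0 k v) (eS hs a) (eS hs b) = kw (G.U0.H v) (fs k v 0) a b := by
  obtain ⟨a, rfl⟩ := QuotientGroup.mk_surjective a
  obtain ⟨b, rfl⟩ := QuotientGroup.mk_surjective b
  rw [kw_mk (biInv_fs k hs 0)]
  change kw (G.DL.H (G.aj v 0).1) (g0 k v) ((Cub.Inc a : G2 L) : G.EL v)
    ((Cub.Inc b : G2 L) : G.EL v) = _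
  rw [kw_mk (biInv_g0 k), ← map_inv, ← map_mul]
  rfl

theorem kw_fs1 (hs : Split C v (G.up v)) (a b : Yl G.U0 v) :
    kw (G.DL.H (G.aj v 0).1) (g1 k v) (eS hs a) (eS hs b) = kw (G.U0.H v) (fs k v 1) a b := by
  obtain ⟨a, rfl⟩ := QuotientGroup.mk_surjective a
  obtain ⟨b, rfl⟩ := QuotientGroup.mk_surjective b
  rw [kw_mk (biInv_fs k hs 1)]
  change kw (G.DL.H (G.aj v 0).1) (g1 k v) ((Cub.Inc a : G2 L) : G.EL v)
    ((Cub.Inc b : G2 L) : G.EL v) = _
  rw [kw_mk (biInv_g1 k), ← map_inv, ← map_mul]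
  unfold g1
  rw [C.S_Inc, C.S_Inc]
  rfl

theorem kw_fs2 (hs : Split C v (G.up v)) (a b : Yl G.U0 v) :
    kw (G.DL.H (G.aj v 0).1) (g2 k v) (eS hs a) (eS hs b) = kw (G.U0.H v) (fs k v 2) a b := by
  obtain ⟨a, rfl⟩ := QuotientGroup.mk_surjective a
  obtain ⟨b, rfl⟩ := QuotientGroup.mk_surjective b
  rw [kw_mk (biInv_fs k hs 2)]
  change kw (G.DL.H (G.aj v 0).1) (g2 k v) ((Cub.Inc a : G2 L) : G.EL v)
    ((Cub.Inc b : G2 L) : G.EL v) = _
  rw [kw_mk (biInv_g2 k), ← map_inv, ← map_mul]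
  unfold g2
  rw [C.S_Inc]
  rfl

theorem rowFin_σl {w w' : Pl L} (D : TwDatum C) (h : pl C w = w') {f : G2 L → ℂ}
    (hf : BiInv (D.H w') f) (hr : RowFin (kw (D.H w') f)) :
    RowFin (kw (D.H w) (fun g => f (C.S g))) := by
  intro a
  refine ((hr (D.σl h a)).preimage ((D.σl_injective h).injOn)).subset ?_
  intro b hb
  rw [Set.mem_preimage, Set.mem_ofPred_eq, D.kw_σl h hf]
  exact hb

theorem rowFin_g0 : RowFin (kw (G.DL.H (G.aj v 0).1) (g0 k v)) := rowFin_kw (k.f_bi _) (k.f_fin _)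

theorem rowFin_g2 : RowFin (kw (G.DL.H (G.aj v 0).1) (g2 k v)) :=
  rowFin_σl G.DL (G.pl0 v) (k.f_bi _) (rowFin_kw (k.f_bi _) (k.f_fin _))

theorem rowFin_g1 : RowFin (kw (G.DL.H (G.aj v 0).1) (g1 k v)) :=
  rowFin_σl G.DL (G.pl0 v) (f := fun g => k.f (G.aj v 1).1 (C.S g))
    (G.DL.biInv_S (G.pl2 v) (k.f_bi _))
    (rowFin_σl G.DL (G.pl2 v) (k.f_bi _) (rowFin_kw (k.f_bi _) (k.f_fin _)))

theorem finS_fs (hs : Split C v (G.up v)) (j : Fin 3) : FinS (G.U0.H v) (fs k v j) := by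
  have key : ∀ (f : G2 L → ℂ) (f' : G2 K → ℂ), BiInv (G.U0.H v) f' →
      RowFin (kw (G.DL.H (G.aj v 0).1) f) →
      (∀ a b, kw (G.DL.H (G.aj v 0).1) f (eS hs a) (eS hs b) = kw (G.U0.H v) f' a b) →
      FinS (G.U0.H v) f' := by
    intro f f' hf' hr he
    refine finS_of_rowFin hf' fun a => ?_
    refine ((hr (eS hs a)).preimage ((eS hs).injective.injOn)).subset ?_
    intro b hb
    rw [Set.mem_preimage, Set.mem_ofPred_eq, he]
    exact hb
  fin_cases j
  · exact key _ _ (biInv_fs k hs 0) (rowFin_g0 k) (kw_fs0 k hs)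
  · exact key _ _ (biInv_fs k hs 1) (rowFin_g1 k) (kw_fs1 k hs)
  · exact key _ _ (biInv_fs k hs 2) (rowFin_g2 k) (kw_fs2 k hs)

/-- the triple composition on `L` and on `K` -/
theorem kcomp_split (hs : Split C v (G.up v)) (a b : Yl G.U0 v) :
    kcomp (kcomp (kw (G.DL.H (G.aj v 0).1) (g0 k v)) (kw (G.DL.H (G.aj v 0).1) (g1 k v)))
      (kw (G.DL.H (G.aj v 0).1) (g2 k v)) (eS hs a) (eS hs b) =
    kw (G.U0.H v) (convF (G.U0.H v) (convF (G.U0.H v) (fs k v 0) (fs k v 1)) (fs k v 2)) a b := by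
  rw [← kcomp_comp_equiv, kw_convF (biInv_convF (biInv_fs k hs 0) (biInv_fs k hs 1))
    (biInv_fs k hs 2), kw_convF (biInv_fs k hs 0) (biInv_fs k hs 1)]
  have e1 : (fun a b => kcomp (kw (G.DL.H (G.aj v 0).1) (g0 k v))
      (kw (G.DL.H (G.aj v 0).1) (g1 k v)) (eS hs a) (eS hs b)) =
      kcomp (kw (G.U0.H v) (fs k v 0)) (kw (G.U0.H v) (fs k v 1)) := by
    funext a b
    rw [← kcomp_comp_equiv]
    congr 1
    · funext a b; exact kw_fs0 k hs a b
    · funext a b; exact kw_fs1 k hs a b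
  have e2 : (fun a b => kw (G.DL.H (G.aj v 0).1) (g2 k v) (eS hs a) (eS hs b)) =
      kw (G.U0.H v) (fs k v 2) := by
    funext a b; exact kw_fs2 k hs a b
  rw [e1, e2]

theorem N_smul {γ : G2 K} {δ : G2 L} (hc : Corr C γ δ) (hs : Split C v (G.up v))
    (z : Yl G.U0 v) : (δ * C.S δ * C.S (C.S δ)) • eS hs z = eS hs (γ • z) := by
  obtain ⟨-, -, c, hc⟩ := hc
  have e : δ * C.S δ * C.S (C.S δ) = Cub.sc c * Cub.Inc γ := hc
  rw [e, mul_smul, ← eS_smul]
  obtain ⟨g, hg⟩ := QuotientGroup.mk_surjective (eS hs (γ • z))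
  rw [← hg]
  change ((Cub.sc c * g : G2 L) : G.EL v) = _
  rw [Cub.sc_comm, QuotientGroup.eq, _root_.mul_inv_rev, mul_assoc, inv_mul_cancel, mul_one]
  exact inv_mem (G.DL.scal_le _ (sc_mem c))

/-- **Local matching at a split place.** -/
theorem locMatch_split {γ : G2 K} {δ : G2 L} (hc : Corr C γ δ) (hs : Split C v (G.up v)) :
    LocMatch k v γ δ (PS hs) := by
  classical
  set κ0 := kw (G.DL.H (G.aj v 0).1) (g0 k v) with hκ0
  set κ1 := kw (G.DL.H (G.aj v 0).1) (g1 k v) with hκ1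
  set κ2 := kw (G.DL.H (G.aj v 0).1) (g2 k v) with hκ2
  have hF : ∀ y : G.AL v, Fv k v δ y = κ0 (h0 y) (δ • h1 y) *
      κ1 (δ • h1 y) ((δ * C.S δ) • h2 y) *
      κ2 ((δ * C.S δ) • h2 y) ((δ * C.S δ * C.S (C.S δ)) • h0 y) := by
    intro y
    rw [Fv_split k hs]
    congr 1
    · congr 1
      rw [mul_smul]
      exact (kw_smul (biInv_g1 k) δ _ _).symm
    · rw [mul_smul (δ * C.S δ)]
      exact (kw_smul (biInv_g2 k) (δ * C.S δ) _ _).symm
  -- coordinates of the fibre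
  have hbij : ∀ z : Yl G.U0 v, Set.BijOn
      (fun y : G.AL v => (δ • h1 y, (δ * C.S δ) • h2 y))
      {y | PS hs y = z ∧ Fv k v δ y ≠ 0}
      {p : G.EL v × G.EL v | κ0 (eS hs z) p.1 * κ1 p.1 p.2 * κ2 p.2 (eS hs (γ • z)) ≠ 0} := by
    intro z
    refine ⟨?_, ?_, ?_⟩
    · rintro y ⟨h1, h2⟩
      rw [PS_eq_iff] at h1
      rw [hF, h1, N_smul hc] at h2
      exact h2
    · rintro y ⟨e1, -⟩ y' ⟨e1', -⟩ hyy
      rw [PS_eq_iff] at e1 e1'
      have e2 := congrArg Prod.fst hyy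
      have e3 := congrArg Prod.snd hyy
      exact coords_inj (e1.trans e1'.symm) (MulAction.injective δ e2)
        (MulAction.injective (δ * C.S δ) e3)
    · rintro ⟨x, x'⟩ hp
      obtain ⟨y, y0, y1, y2⟩ := coords_surj hs (eS hs z) (δ⁻¹ • x) ((δ * C.S δ)⁻¹ • x')
      have e1 : δ • h1 y = x := by rw [y1, smul_inv_smul]
      have e2 : (δ * C.S δ) • h2 y = x' := by rw [y2, smul_inv_smul]
      refine ⟨y, ⟨(PS_eq_iff hs y z).mpr y0, ?_⟩, Prod.ext e1 e2⟩
      rw [hF, e1, e2, y0, N_smul hc]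
      exact hp
  have hfin := fun z : Yl G.U0 v => finsum_pair (rowFin_g0 (v := v) k) (rowFin_g1 (v := v) k)
    (κ'' := κ2) (eS hs z) (eS hs (γ • z))
  refine ⟨?_, ?_, ?_⟩
  · intro z
    exact Set.Finite.of_finite_image (by rw [(hbij z).image_eq]; exact (hfin z).1)
      (hbij z).injOn
  · intro z
    have h1 : ∑ᶠ y ∈ {y | PS hs y = z ∧ Fv k v δ y ≠ 0}, Fv k v δ y =
        ∑ᶠ p ∈ {p : G.EL v × G.EL v |
          κ0 (eS hs z) p.1 * κ1 p.1 p.2 * κ2 p.2 (eS hs (γ • z)) ≠ 0},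
          κ0 (eS hs z) p.1 * κ1 p.1 p.2 * κ2 p.2 (eS hs (γ • z)) := by
      refine finsum_mem_eq_of_bijOn _ (hbij z) fun y hy => ?_
      have h2 := hy.1
      rw [PS_eq_iff] at h2
      rw [hF, h2, N_smul hc]
    rw [h1]
    have h2 := finsum_mem_support (fun p : G.EL v × G.EL v =>
      κ0 (eS hs z) p.1 * κ1 p.1 p.2 * κ2 p.2 (eS hs (γ • z)))
    refine (h2.trans ?_)
    rw [(hfin z).2, kcomp_split]
    unfold Gv
    rw [if_pos hs]
  · intro t _ y _
    rw [PS_eq_iff, eS_smul, ← (PS_eq_iff hs y _).mp rfl]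
    rfl

/-- Good split places. -/
theorem locGood_split {δ : G2 L} (hs : Split C v (G.up v))
    (hδ : ∀ w, G.down w = v → δ ∈ G.DL.H w)
    (hk : ∀ w, G.down w = v → k.f w = unitF (G.DL.H w)) : LocGood k v δ (PS hs) := by
  have hone : ∀ w : {w : Pl L // G.down w = v},
      δ • ((1 : G2 L) : Yl G.DL.toLevel w.1) = ((1 : G2 L) : Yl G.DL.toLevel w.1) := by
    intro w
    change ((δ * 1 : G2 L) : Yl G.DL.toLevel w.1) = _
    rw [mul_one, QuotientGroup.eq, mul_one]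
    exact inv_mem (hδ w.1 w.2)
  have htw : ∀ w : {w : Pl L // G.down w = v},
      twA δ (baseA v) w = ((1 : G2 L) : Yl G.DL.toLevel w.1) := by
    intro w
    have : twA δ (baseA (G := G) v) w = δ • G.DL.σl ((pl C).apply_symm_apply w.1)
      ((1 : G2 L) : Yl G.DL.toLevel ((pl C).symm w.1)) := rfl
    rw [this, TwDatum.σl_mk, map_one, hone]
  refine ⟨?_, ?_, ?_⟩
  · rw [PS_eq_iff, eS_apply, iS_mk, map_one]; rfl
  · unfold Fv
    refine finprod_eq_one_of_forall_eq_one fun w => ?_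
    rw [htw, hk w.1 w.2, kw_unitF]
    exact if_pos rfl
  · intro y hF hP
    rw [PS_eq_iff, eS_apply, iS_mk, map_one] at hP
    have hne : ∀ w : {w : Pl L // G.down w = v}, y w = twA δ y w := by
      intro w
      by_contra h
      apply hF
      unfold Fv
      have h0 : kw (G.DL.H w.1) (k.f w.1) (y w) (twA δ y w) = 0 := by
        rw [hk w.1 w.2, kw_unitF, if_neg h]
      have := finite_above (G := G) v
      exact finprod_eq_zero _ w h0 (Set.toFinite _)
    have e0 : y (G.aj v 0) = ((1 : G2 L) : Yl G.DL.toLevel (G.aj v 0).1) := hP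
    have e2 : y (G.aj v 2) = ((1 : G2 L) : Yl G.DL.toLevel (G.aj v 2).1) := by
      have h1 : twA δ y (G.aj v 2) = δ • G.DL.σl (G.pl0 v) (y (G.aj v 0)) :=
        twA_apply δ y (G.pl0 v) _ _
      rw [hne, h1, e0, TwDatum.σl_mk, map_one, hone]
    have e1 : y (G.aj v 1) = ((1 : G2 L) : Yl G.DL.toLevel (G.aj v 1).1) := by
      have h1 : twA δ y (G.aj v 1) = δ • G.DL.σl (G.pl2 v) (y (G.aj v 2)) :=
        twA_apply δ y (G.pl2 v) _ _
      rw [hne, h1, e2, TwDatum.σl_mk, map_one, hone]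
    funext w
    rcases G.aj_cases v w with rfl | rfl | rfl
    · exact e0
    · exact e1
    · exact e2

end comparison

section finite

theorem mem_H_finite {D : Datum L} (δ : G2 L) : {w | δ ∉ D.H w}.Finite := by
  have h := (diag (F := L) δ).2
  refine (h.union D.n_fin).subset ?_
  intro w hw
  by_contra hc
  simp only [Set.mem_union, Set.mem_ofPred_eq, not_or, not_not] at hc
  apply hw
  rw [D.H_eq hc.2]
  exact intGL_le_stdH w hc.1

variable (k : Pure G.DL.toDatum)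

/-- Almost all split places are good. -/
theorem bad_split_finite (δ : G2 L) :
    {v | ¬ ((∀ w, G.down w = v → δ ∈ G.DL.H w) ∧
      ∀ w, G.down w = v → k.f w = unitF (G.DL.H w))}.Finite := by
  refine (((mem_H_finite (D := G.DL.toDatum) δ).union k.f_one).image G.down).subset ?_
  intro v hv
  by_contra hc
  apply hv
  refine ⟨fun w hw => ?_, fun w hw => ?_⟩
  · by_contra h
    exact hc ⟨w, Or.inl h, hw⟩
  · by_contra h
    exact hc ⟨w, Or.inr h, hw⟩

end finite

end GeoDatum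

end Fermat.LT
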