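import Fermat.Agent.LT.Geo.Classes
import Fermat.Agent.LT.A.Trunc
import Fermat.Agent.LT.A.Covol
import Fermat.Agent.LT.A.KernelTest
import Fermat.Agent.LT.B.XInst

/-!
# LT, geometric side: compactness of the support of the elliptic part, absolute convergence

* `Pure.lker` : the finite part of a pure tensor as an `LKer`;
* `Pure.exists_ht_le` : comparison of heights of points related by the kernel;
* `TwDatum.ht_σX` : invariance of heights;
* `exists_hmax_le`, `exists_hmax_le_tw` : points `x` with `k(x, γ x) ≠ 0`, `γ` elliptic (resp.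
  `k(x, δ σ x) ≠ 0`, `N δ` elliptic) have bounded height;
* `Pure.lintegral_ne_top`, `Pure.lintegral_tw_ne_top` : absolute convergence.
-/

set_option autoImplicit false
set_option linter.unusedSectionVars false

open NumberField IsDedekindDomain Matrix MeasureTheory Set
open Fermat.Agent.LT.D hiding pmk_mul pmk_inv pmk_one pmk_surj pmk_eq_iff comp pmk PG
open Fermat.Agent.LT.B
open scoped ENNReal

namespace Fermat.LT

section Pure

variable {F : Type} [Field F] [NumberField F] {D : Datum F}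

namespace Pure

/-- radii of the supports of the finite components -/
theorem exists_rad (k : Pure D) (w : Pl F) : ∃ c : ℝ,
    (k.f w = unitF (D.H w) → c = 1) ∧ ∀ g, k.f w g ≠ 0 → dl w g ≤ c := by
  classical
  by_cases h : k.f w = unitF (D.H w)
  · refine ⟨1, fun _ => rfl, fun g hg => ?_⟩
    rw [h, unitF] at hg
    have hg' : g ∈ D.H w := by
      by_contra hc
      exact hg (if_neg hc)
    exact (dl_le_one_iff w g).mpr (D.le_std w hg')
  · refine ⟨∑ c ∈ (k.f_fin w).toFinset, dl w c.out, fun h' => absurd h' h, fun g hg => ?_⟩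
    obtain ⟨u, hu⟩ := QuotientGroup.mk_out_eq_mul (D.H w) g
    have h1 : k.f w (g : G2 F ⧸ D.H w).out = k.f w g := by
      rw [hu]
      have := k.f_bi w 1 (one_mem _) u u.2 g
      rwa [one_mul] at this
    have h2 : dl w (g : G2 F ⧸ D.H w).out = dl w g := by
      rw [hu]
      exact dl_mul_right w g (D.le_std w u.2)
    rw [← h2]
    refine Finset.single_le_sum (f := fun c : G2 F ⧸ D.H w => dl w c.out)
      (fun c _ => (dl_pos w _).le) ?_
    rw [Set.Finite.mem_toFinset, Set.mem_ofPred_eq, h1]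
    exact hg

/-- the finite part of a pure tensor as a family of local kernels -/
noncomputable def lker (k : Pure D) : LKer D.toLevel where
  κ w := kw (D.H w) (k.f w)
  inv w g y y' := kw_smul (k.f_bi w) g y y'
  c w := (k.exists_rad w).choose
  supp w y y' h := by
    obtain ⟨a, rfl⟩ := QuotientGroup.mk_surjective y
    obtain ⟨b, rfl⟩ := QuotientGroup.mk_surjective y'
    rw [kw_mk (k.f_bi w)] at h
    exact (k.exists_rad w).choose_spec.2 _ h
  c_fin := by
    refine k.f_one.subset ?_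
    intro w hw h
    have := (k.exists_rad w).choose_spec.1 h
    simp only [Set.mem_ofPred_eq] at hw
    rw [this] at hw
    exact lt_irrefl _ hw
  diag_fin := by
    refine k.f_one.subset ?_
    intro w hw h
    apply hw
    rw [h, kw_unitF, if_pos rfl]

theorem kerY_eq (k : Pure D) (y y' : Y D.toLevel) : k.kerY y y' = k.lker.ker y y' := rfl

theorem kerI_ne_zero {k : Pure D} {x y : XI D.toArch} (h : k.kerI x y ≠ 0) (i : D.I) :
    k.a i (x i) (y i) ≠ 0 := by
  intro h0
  exact h (Finset.prod_eq_zero (Finset.mem_univ i) h0)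

/-- **Comparison of heights** -/
theorem exists_ht_le (k : Pure D) : ∃ B : ℝ, 1 ≤ B ∧ ∀ x x' : X D, k.ker x x' ≠ 0 →
    ∀ v : Fin 2 → F, v ≠ 0 → ht v x' ≤ B * ht v x ∧ ht v x ≤ B * ht v x' := by
  obtain ⟨R, hR⟩ := k.a_supp
  obtain ⟨B, hB, h⟩ := k.lker.exists_ht_le R
  refine ⟨B, hB, fun x x' hk v hv => h x x' (fun i => ?_) ?_ v hv⟩
  · exact hR i _ _ (kerI_ne_zero (left_ne_zero_of_mul hk) i)
  · exact right_ne_zero_of_mul hk

theorem continuous_kerI (k : Pure D) :
    Continuous fun p : XI D.toArch × XI D.toArch => k.kerI p.1 p.2 := by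
  unfold kerI
  refine continuous_finsetProd _ fun i _ => ?_
  have h1 : Continuous fun p : XI D.toArch × XI D.toArch => (p.1 i, p.2 i) :=
    ((continuous_coordI D.toArch i).comp continuous_fst).prodMk
      ((continuous_coordI D.toArch i).comp continuous_snd)
  exact (k.a_cont i).comp h1

theorem continuous_ker (k : Pure D) : Continuous fun p : X D × X D => k.ker p.1 p.2 := by
  unfold ker
  refine Continuous.mul ?_ ?_
  · exact k.continuous_kerI.comp ((continuous_fst.comp continuous_fst).prodMk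
      (continuous_fst.comp continuous_snd))
  · have h1 : Continuous (Function.uncurry k.kerY) := continuous_of_discreteTopology
    exact h1.comp ((continuous_snd.comp continuous_fst).prodMk (continuous_snd.comp continuous_snd))

/-- properness of the support -/
theorem exists_supp (k : Pure D) (K : Set (X D)) (hK : IsCompact K) :
    ∃ C' : Set (X D), IsCompact C' ∧ ∀ x ∈ K, ∀ y ∉ C', k.ker x y = 0 := by
  classical
  obtain ⟨V0, hV0⟩ := k.a_supp
  obtain ⟨P0⟩ : Nonempty H3 := inferInstance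
  have hM : ∀ i : D.I, ∃ M : ℝ, ∀ x ∈ K, H3.ch P0 (x.1 i) ≤ M := by
    intro i
    have hc := continuous_ch_coord (D := D) P0 i
    obtain ⟨M, hM⟩ := (hK.image hc).bddAbove
    exact ⟨M, fun x hx => hM ⟨x, hx, rfl⟩⟩
  choose M hM using hM
  have hK2 : ((fun x : X D => x.2) '' K).Finite :=
    (hK.image continuous_snd).finite_of_discrete
  let S : Set (Y D.toLevel) := ⋃ y ∈ (fun x : X D => x.2) '' K, {y' | k.kerY y y' ≠ 0}
  have hS : S.Finite := hK2.biUnion fun y _ => k.lker.fin_right y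
  refine ⟨{x : XI D.toArch | ∀ i, x i ∈ H3.ball P0 (2 * (M i * V0))} ×ˢ S,
    (isCompact_boxI _ _ _).prod hS.isCompact, ?_⟩
  intro x hx y hy
  by_contra hne
  have h1 : k.kerI x.1 y.1 ≠ 0 := left_ne_zero_of_mul hne
  have h2 : k.kerY x.2 y.2 ≠ 0 := right_ne_zero_of_mul hne
  apply hy
  refine ⟨fun i => ?_, mem_iUnion₂.2 ⟨x.2, ⟨x, hx, rfl⟩, h2⟩⟩
  have h5 : H3.ch (x.1 i) (y.1 i) ≤ V0 := hV0 i _ _ (kerI_ne_zero h1 i)
  rw [H3.mem_ball]
  have h4 := ch_le_two_mul P0 (x.1 i) (y.1 i)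
  have h6 := H3.one_le_ch P0 (x.1 i)
  have h7 := H3.one_le_ch (x.1 i) (y.1 i)
  have h8 := hM i x hx
  calc H3.ch P0 (y.1 i) ≤ 2 * (H3.ch P0 (x.1 i) * H3.ch (x.1 i) (y.1 i)) := h4
    _ ≤ 2 * (M i * V0) := by
      have : H3.ch P0 (x.1 i) * H3.ch (x.1 i) (y.1 i) ≤ M i * V0 :=
        mul_le_mul h8 h5 (by linarith) (by linarith)
      linarith

theorem ker_smul_pg (k : Pure D) (p : PG F) (x y : X D) : k.ker (p • x) (p • y) = k.ker x y := by
  obtain ⟨g, rfl⟩ := Matrix.ProjGenLinGroup.mk_surjective p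
  exact k.ker_smul g x y

end Pure

end Pure

section eigen

variable {F : Type} [Field F]

theorem _root_.Fermat.Agent.LT.D.Ell.no_eigen {A : Matrix (Fin 2) (Fin 2) F} (h : Ell A) {μ : F}
    {v : Fin 2 → F} (hv : v ≠ 0) (he : A *ᵥ v = μ • v) : False := by
  apply h μ
  have h1 : (A - μ • (1 : Matrix (Fin 2) (Fin 2) F)).det = 0 := by
    rw [← Matrix.exists_mulVec_eq_zero_iff]
    refine ⟨v, hv, ?_⟩
    rw [Matrix.sub_mulVec, he, Matrix.smul_mulVec, Matrix.one_mulVec, sub_self]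
  rw [Matrix.det_fin_two] at h1
  rw [Matrix.trace_fin_two, Matrix.det_fin_two]
  simp only [Matrix.sub_apply, Matrix.smul_apply, Matrix.one_apply_eq, smul_eq_mul, mul_one,
    Matrix.one_apply_ne (show (0 : Fin 2) ≠ 1 by decide),
    Matrix.one_apply_ne (show (1 : Fin 2) ≠ 0 by decide), mul_zero, sub_zero] at h1
  linear_combination h1

end eigen

section untwisted

variable {F : Type} [Field F] [NumberField F] {D : Datum F}

/-- Points moved by an elliptic element to a point related by `k` have bounded height. -/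
theorem exists_hmax_le (k : Pure D) : ∃ T : ℝ, ∀ (x : X D) (γ : G2 F), k.ker x (γ • x) ≠ 0 →
    Ell γ.1 → hmax x ≤ T := by
  obtain ⟨B, hB, h⟩ := k.exists_ht_le
  refine ⟨B, fun x γ hk hγ => ?_⟩
  by_contra hlt
  rw [not_le] at hlt
  obtain ⟨v, hv, hvx⟩ := exists_ht_eq_hmax x
  have hv' : γ.1 *ᵥ v ≠ 0 := mulVec_ne hv γ
  have h1 := (h x (γ • x) hk _ hv').1
  rw [ht_equiv γ hv x, hvx] at h1
  have h2 : 1 < ht (γ.1 *ᵥ v) x * ht v x := by
    rw [hvx]
    have h3 : 0 < hmax x := hmax_pos x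
    nlinarith
  obtain ⟨a, ha, he⟩ := exists_smul_of_one_lt hv' hv h2
  exact hγ.no_eigen hv he

end untwisted

section twisted

variable {K L : Type} [Field K] [NumberField K] [Field L] [NumberField L] [Algebra K L]

/-- `σ` on vectors -/
def sv (C : Cub K L) (v : Fin 2 → L) : Fin 2 → L := fun i => C.σ (v i)

theorem sv_ne (C : Cub K L) {v : Fin 2 → L} (hv : v ≠ 0) : sv C v ≠ 0 := by
  intro h
  apply hv
  funext i
  have : C.σ (v i) = 0 := congrFun h i
  exact (map_eq_zero _).mp this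

theorem sv_cube (C : Cub K L) (v : Fin 2 → L) : sv C (sv C (sv C v)) = v :=
  funext fun i => C.cube (v i)

theorem sv_smul (C : Cub K L) (b : L) (v : Fin 2 → L) : sv C (b • v) = C.σ b • sv C v :=
  funext fun i => map_mul C.σ b (v i)

theorem sv_mulVec (C : Cub K L) (g : G2 L) (v : Fin 2 → L) :
    sv C (g.1 *ᵥ v) = (C.S g).1 *ᵥ sv C v := by
  funext i
  simp only [sv, Matrix.mulVec, dotProduct, Fin.sum_univ_two, map_add, map_mul]
  rfl

theorem N_mulVec (C : Cub K L) {δ : G2 L} {v : Fin 2 → L} {b : L}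
    (h : δ.1 *ᵥ sv C v = b • v) : (C.N δ).1 *ᵥ v = (b * (C.σ b * C.σ (C.σ b))) • v := by
  have h1 : (C.S δ).1 *ᵥ sv C (sv C v) = C.σ b • sv C v := by
    rw [← sv_mulVec, h, sv_smul]
  have h2 : (C.S (C.S δ)).1 *ᵥ v = C.σ (C.σ b) • sv C (sv C v) := by
    have := congrArg (sv C) h1
    rw [sv_mulVec, sv_smul, sv_cube] at this
    exact this
  have e : (C.N δ).1 = δ.1 * (C.S δ).1 * (C.S (C.S δ)).1 := rfl
  rw [e, ← Matrix.mulVec_mulVec, ← Matrix.mulVec_mulVec, h2, Matrix.mulVec_smul, h1,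
    Matrix.mulVec_smul, Matrix.mulVec_smul, h, smul_smul, smul_smul]
  congr 1
  ring

namespace TwDatum

variable {C : Cub K L} (D : TwDatum C)

theorem hinf_σI (v : Fin 2 → L) (x : XI D.toArch) : hinf (sv C v) (D.σI x) = hinf v x := by
  rw [hinf, hinf]
  refine Fintype.prod_equiv D.perm _ _ fun i => ?_
  rw [σI_apply]
  unfold sv
  rw [← D.emb_perm, ← D.emb_perm]

theorem hY_σl {w w' : Pl L} (h : pl C w = w') (v : Fin 2 → L) (y : Yl D.toLevel w) :
    hY w' (sv C v) (D.σl h y) = hY w v y := by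
  obtain ⟨a, rfl⟩ := QuotientGroup.mk_surjective y
  subst h
  rw [σl_mk, hY_mk, hY_mk]
  have h1 : (C.S a)⁻¹ = C.S a⁻¹ := (map_inv _ _).symm
  have h2 : (C.S a).1.det = C.σ a.1.det := by
    rw [Matrix.det_fin_two, Matrix.det_fin_two, map_sub, map_mul, map_mul]; rfl
  have h3 : ∀ u : Fin 2 → L, nv (pl C w) (sv C u) = nv w u := fun u => by
    rw [nv, nv]
    unfold sv
    rw [av_pl, av_pl]
  rw [hloc, hloc, h2, av_pl, h1, ← sv_mulVec, h3]

theorem hfin_σY (v : Fin 2 → L) (y : Y D.toLevel) : hfin (sv C v) (D.σY y) = hfin v y := by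
  rw [hfin, hfin, ← finprod_comp_equiv (pl C)]
  refine finprod_congr fun w => ?_
  rw [D.σY_apply' y (rfl : pl C w = _), hY_σl]

/-- invariance of heights -/
theorem ht_σX (v : Fin 2 → L) (x : X D.toDatum) : ht (sv C v) (D.σX x) = ht v x := by
  change hinf (sv C v) (D.σI x.1) * hfin (sv C v) (D.σY x.2) = _
  rw [hinf_σI, hfin_σY]
  rfl

/-- Points moved by `δσ`, `N δ` elliptic, to a point related by `k` have bounded height. -/
theorem exists_hmax_le_tw (k : Pure D.toDatum) : ∃ T : ℝ, ∀ (x : X D.toDatum) (δ : G2 L),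
    k.ker x (δ • D.σX x) ≠ 0 → Ell (C.N δ).1 → hmax x ≤ T := by
  obtain ⟨B, hB, h⟩ := k.exists_ht_le
  refine ⟨B, fun x δ hk hγ => ?_⟩
  by_contra hlt
  rw [not_le] at hlt
  obtain ⟨v, hv, hvx⟩ := exists_ht_eq_hmax x
  have hv' : δ.1 *ᵥ sv C v ≠ 0 := mulVec_ne (sv_ne C hv) δ
  have h1 := (h x (δ • D.σX x) hk _ hv').1
  rw [ht_equiv δ (sv_ne C hv) (D.σX x), D.ht_σX, hvx] at h1
  have h2 : 1 < ht (δ.1 *ᵥ sv C v) x * ht v x := by
    rw [hvx]
    have h3 : 0 < hmax x := hmax_pos x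
    nlinarith
  obtain ⟨a, ha, he⟩ := exists_smul_of_one_lt hv' hv h2
  exact hγ.no_eigen hv (N_mulVec C he)

end TwDatum

end twisted

section conv

variable {F : Type} [Field F] [NumberField F] {D : Datum F}

namespace Pure

/-- boundedness of the sum over the group when the support is compact modulo `PGL₂(F)` -/
theorem exists_tsum_le (k : Pure D) {τX : X D → X D} (hc : Continuous τX) {τ : PG F → PG F}
    (hτ : ∀ g x, τX (g • x) = τ g • τX x) {T : ℝ}
    (hT : ∀ x (δ : PG F), k.ker x (δ • τX x) ≠ 0 → hmax x ≤ T) :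
    ∃ A : ℝ≥0∞, A ≠ ∞ ∧ ∀ x, ∑' δ : PG F, ‖k.ker x (δ • τX x)‖ₑ ≤ A := by
  classical
  obtain ⟨K, hK, hKT⟩ := exists_compact_of_ht_le D T
  obtain ⟨C', hC', hsupp⟩ := k.exists_supp K hK
  have hfin := proper (hK.image hc) hC'
  obtain ⟨M, hM⟩ := ((hK.prod hC').image (k.continuous_ker.norm)).bddAbove
  have hM' : ∀ x ∈ K, ∀ y, ‖k.ker x y‖ ≤ max M 0 := by
    intro x hx y
    by_cases hy : y ∈ C'
    · exact (hM ⟨(x, y), ⟨hx, hy⟩, rfl⟩).trans (le_max_left _ _)
    · rw [hsupp x hx y hy, norm_zero]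
      exact le_max_right _ _
  -- the estimate on `K`
  have hKest : ∀ x ∈ K, ∑' δ : PG F, ‖k.ker x (δ • τX x)‖ₑ ≤
      hfin.toFinset.card • ENNReal.ofReal (max M 0) := by
    intro x hx
    have h0 : ∀ δ ∉ hfin.toFinset, ‖k.ker x (δ • τX x)‖ₑ = 0 := by
      intro δ hδ
      rw [Set.Finite.mem_toFinset, Set.mem_ofPred_eq] at hδ
      push Not at hδ
      rw [hsupp x hx _ (hδ (τX x) ⟨x, hx, rfl⟩), enorm_zero]
    rw [tsum_eq_sum (s := hfin.toFinset) (fun δ hδ => h0 δ hδ)]
    refine Finset.sum_le_card_nsmul _ _ _ fun δ _ => ?_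
    rw [← ofReal_norm]
    exact ENNReal.ofReal_le_ofReal (hM' x hx _)
  refine ⟨hfin.toFinset.card • ENNReal.ofReal (max M 0), ?_, fun x => ?_⟩
  · rw [nsmul_eq_mul]
    exact ENNReal.mul_ne_top (ENNReal.natCast_ne_top _) ENNReal.ofReal_ne_top
  · by_cases hx : hmax x ≤ T
    · obtain ⟨γ, hγ⟩ := hKT x (hmax_le_iff.mp hx)
      have h1 := hKest (γ • x) hγ
      have e : ∑' δ : PG F, ‖k.ker x (δ • τX x)‖ₑ =
          ∑' δ : PG F, ‖k.ker (γ • x) (δ • τX (γ • x))‖ₑ := by
        rw [← ((Equiv.mulLeft γ).trans (Equiv.mulRight (τ γ)⁻¹)).tsum_eq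
          (fun δ : PG F => ‖k.ker (γ • x) (δ • τX (γ • x))‖ₑ)]
        refine tsum_congr fun δ => ?_
        have e2 : ((Equiv.mulLeft γ).trans (Equiv.mulRight (τ γ)⁻¹)) δ = γ * δ * (τ γ)⁻¹ := rfl
        rw [e2, hτ, mul_smul, inv_smul_smul, mul_smul, k.ker_smul_pg]
      rw [e]
      exact h1
    · have h0 : ∀ δ : PG F, ‖k.ker x (δ • τX x)‖ₑ = 0 := by
        intro δ
        by_contra hne
        exact hx (hT x δ (by simpa using hne))
      simp [h0]

/-- absolute convergence -/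
theorem lintegral_tsum_ne_top (k : Pure D) {τX : X D → X D} (hc : Continuous τX)
    {τ : PG F → PG F} (hτ : ∀ g x, τX (g • x) = τ g • τX x) {T : ℝ}
    (hT : ∀ x (δ : PG F), k.ker x (δ • τX x) ≠ 0 → hmax x ≤ T) {w : X D → ℝ≥0∞}
    (hw : IsWeight (PG F) w) :
    ∫⁻ x, w x * ∑' δ : PG F, ‖k.ker x (δ • τX x)‖ₑ ≠ ∞ := by
  obtain ⟨A, hA, h⟩ := k.exists_tsum_le hc hτ hT
  refine ne_top_of_le_ne_top ?_ (lintegral_mono fun x => mul_le_mul_right (h x) (w x))
  rw [lintegral_mul_const _ hw.meas]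
  exact ENNReal.mul_ne_top (covolume_lt_top hw).ne hA

/-- absolute convergence, untwisted case -/
theorem lintegral_ne_top (k : Pure D)
    (hell : ∀ γ : G2 F, (∃ x : X D, k.ker x (γ • x) ≠ 0) → Ell γ.1) {w : X D → ℝ≥0∞}
    (hw : IsWeight (PG F) w) :
    ∫⁻ x, w x * ∑' γ : PG F, ‖k.ker x (γ • x)‖ₑ ≠ ∞ := by
  obtain ⟨T, hT⟩ := exists_hmax_le k
  refine k.lintegral_tsum_ne_top (τX := fun x => x) continuous_id (τ := fun g => g)
    (fun _ _ => rfl) (T := T) (fun x δ hδ => ?_) hw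
  obtain ⟨γ, rfl⟩ := Matrix.ProjGenLinGroup.mk_surjective δ
  exact hT x γ hδ (hell γ ⟨x, hδ⟩)

end Pure

end conv

section convtw

variable {K L : Type} [Field K] [NumberField K] [Field L] [NumberField L] [Algebra K L]

namespace TwDatum

variable {C : Cub K L} (D : TwDatum C)

theorem continuous_σI : Continuous D.σI :=
  continuous_pi fun i => continuous_coordI D.toArch (D.perm i)

theorem continuous_σX : Continuous D.σX := by
  have h1 : Continuous D.σY := continuous_of_discreteTopology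
  exact (D.continuous_σI.comp continuous_fst).prodMk (h1.comp continuous_snd)

theorem continuous_ker_tw (k : Pure D.toDatum) (δ : PG L) :
    Continuous fun x : X D.toDatum => k.ker x (δ • D.σX x) :=
  k.continuous_ker.comp (continuous_id.prodMk (D.continuous_σX.const_smul δ))

/-- absolute convergence, twisted case -/
theorem lintegral_ne_top (k : Pure D.toDatum)
    (hell : ∀ δ : G2 L, (∃ x : X D.toDatum, k.ker x (δ • D.σX x) ≠ 0) → Ell (C.N δ).1)
    {w : X D.toDatum → ℝ≥0∞} (hw : IsWeight (PG L) w) :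
    ∫⁻ x, w x * ∑' δ : PG L, ‖k.ker x (δ • D.σX x)‖ₑ ≠ ∞ := by
  obtain ⟨T, hT⟩ := D.exists_hmax_le_tw k
  refine k.lintegral_tsum_ne_top (τX := D.σX) D.continuous_σX (τ := C.pS)
    D.σX_smul_pg (T := T) (fun x δ hδ => ?_) hw
  obtain ⟨γ, rfl⟩ := Matrix.ProjGenLinGroup.mk_surjective δ
  exact hT x γ hδ (hell γ ⟨x, hδ⟩)

/-- invariance under twisted conjugation -/
theorem ker_tw_conj (k : Pure D.toDatum) (g δ : PG L) (x : X D.toDatum) :
    k.ker (g • x) ((g * δ * (C.pS g)⁻¹) • D.σX (g • x)) = k.ker x (δ • D.σX x) := by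
  rw [σX_smul_pg, mul_smul, inv_smul_smul, mul_smul, k.ker_smul_pg]

end TwDatum

end convtw

end Fermat.LT
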