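import Fermat.Agent.LT.Geo.EThree

/-!
# LT, geometric side, ETHREE (second part)

* `HB w M = ⊔_{c ∈ O_w/w} un (rep w c) · HT w M` (`existsUnique_HT`), `relIndex_HT_HB = q_w`;
* `biInv_ew`, `finS_ew`, `symF_ew`, `convF_ew : ew * ew = ew`;
* `finsum_kw_ew` : the operator of `ew`; `ew_fix_iff` : its image;
* `HB_Inc`, `HT_Inc`, `ew_Inc` : compatibility with `GL₂(K) → GL₂(L)` at a split place.
-/

set_option autoImplicit false
set_option linter.unusedSectionVars false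

open NumberField IsDedekindDomain Matrix
open Fermat.Agent.LT.D Fermat.Agent.LT.CTree

namespace Fermat.LT

section cosets

variable {F : Type} [Field F] [NumberField F] (w : Pl F) (M : ℕ)

theorem un_mem_intGL {b : F} (hb : av w b ≤ 1) : un b ∈ intGL w := by
  have h : ∀ b : F, av w b ≤ 1 → nm w (un b).1 ≤ 1 := by
    intro b hb
    rw [Fermat.Agent.LT.CTree.un_val, nm]
    simp [hb]
  refine ⟨h b hb, ?_⟩
  rw [← un_neg]
  exact h (-b) (by rwa [(av w).map_neg])

theorem un_mem_HB {b : F} (hb : av w b ≤ 1) : un b ∈ HB w M := by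
  rw [mem_HB]
  refine ⟨intGL_le_stdH w (un_mem_intGL w hb), ?_⟩
  have h : (un b).1 1 0 = 0 := by rw [Fermat.Agent.LT.CTree.un_val]; simp
  rw [h, map_zero]
  exact ⟨nm_pos w _, mul_nonneg (nm_pos w _).le (qvM_pos w M).le⟩

/-- the diagonal entries of an element of `HB w M` have maximal absolute value -/
theorem av_diag_of_mem {g : G2 F} (hg : g ∈ HB w M) :
    av w (g.1 0 0) = nm w g.1 ∧ av w (g.1 1 1) = nm w g.1 := by
  have hp := nm_pos w g
  have h1 := av_det_of_mem w hg.1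
  have h2 : av w (g.1 0 1 * g.1 1 0) < nm w g.1 ^ 2 := by
    rw [map_mul, sq]
    calc av w (g.1 0 1) * av w (g.1 1 0) ≤ nm w g.1 * av w (g.1 1 0) :=
          mul_le_mul_of_nonneg_right (av_le_nm w _ _ _) ((av w).nonneg _)
      _ < nm w g.1 * nm w g.1 := mul_lt_mul_of_pos_left hg.2.1 hp
  have h3 : av w (g.1 0 0 * g.1 1 1) = nm w g.1 ^ 2 := by
    have e : g.1 0 0 * g.1 1 1 = g.1 0 1 * g.1 1 0 + g.1.det := by
      rw [Matrix.det_fin_two]; ring
    rw [e, av_add_eq_of_lt w (by rw [h1]; exact h2), h1]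
  rw [map_mul, sq] at h3
  have h00 := av_le_nm w g.1 0 0
  have h11 := av_le_nm w g.1 1 1
  constructor
  · apply le_antisymm h00
    by_contra hc
    rw [not_le] at hc
    have h4 : av w (g.1 0 0) * av w (g.1 1 1) ≤ av w (g.1 0 0) * nm w g.1 :=
      mul_le_mul_of_nonneg_left h11 ((av w).nonneg _)
    have h5 : av w (g.1 0 0) * nm w g.1 < nm w g.1 * nm w g.1 := mul_lt_mul_of_pos_right hc hp
    linarith
  · apply le_antisymm h11
    by_contra hc
    rw [not_le] at hc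
    have h4 : av w (g.1 0 0) * av w (g.1 1 1) ≤ nm w g.1 * av w (g.1 1 1) :=
      mul_le_mul_of_nonneg_right h00 ((av w).nonneg _)
    have h5 : nm w g.1 * av w (g.1 1 1) < nm w g.1 * nm w g.1 := mul_lt_mul_of_pos_left hc hp
    linarith

theorem un_inv_mul_mem_iff {g : G2 F} (hg : g ∈ HB w M) {b : F} (hb : av w b ≤ 1) :
    (un b)⁻¹ * g ∈ HT w M ↔ av w (g.1 0 1 / g.1 1 1 - b) < 1 := by
  have hp := nm_pos w g
  have hd := (av_diag_of_mem w M hg).2
  have h11 : g.1 1 1 ≠ 0 := by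
    intro h
    rw [h, map_zero] at hd
    exact hp.ne hd
  have hnm : nm w ((un b)⁻¹ * g).1 = nm w g.1 := by
    have h1 : (un b)⁻¹ ∈ intGL w := inv_mem (un_mem_intGL w hb)
    apply le_antisymm
    · rw [Units.val_mul]
      refine (nm_mul_le w _ _).trans ?_
      calc nm w ((un b)⁻¹).1 * nm w g.1 ≤ 1 * nm w g.1 := mul_le_mul_of_nonneg_right h1.1 hp.le
        _ = nm w g.1 := one_mul _
    · have h2 : g = un b * ((un b)⁻¹ * g) := by group
      calc nm w g.1 = nm w (un b * ((un b)⁻¹ * g)).1 := by rw [← h2]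
        _ ≤ nm w (un b).1 * nm w ((un b)⁻¹ * g).1 := by
          rw [Units.val_mul]; exact nm_mul_le w _ _
        _ ≤ 1 * nm w ((un b)⁻¹ * g).1 :=
          mul_le_mul_of_nonneg_right (un_mem_intGL w hb).1 (nm_nonneg w _)
        _ = _ := one_mul _
  have h01 : ((un b)⁻¹ * g).1 0 1 = g.1 0 1 - b * g.1 1 1 := by
    rw [mul_apply01, ← un_neg, Fermat.Agent.LT.CTree.un_val]
    simp
    ring
  have hB : (un b)⁻¹ * g ∈ HB w M := mul_mem (inv_mem (un_mem_HB w M hb)) hg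
  rw [mem_HT, hnm, h01]
  have e : g.1 0 1 - b * g.1 1 1 = g.1 1 1 * (g.1 0 1 / g.1 1 1 - b) := by field_simp
  rw [e, map_mul, hd]
  constructor
  · rintro ⟨-, h⟩
    by_contra hc
    rw [not_lt] at hc
    have : nm w g.1 * 1 ≤ nm w g.1 * av w (g.1 0 1 / g.1 1 1 - b) :=
      mul_le_mul_of_nonneg_left hc hp.le
    linarith
  · intro h
    refine ⟨hB, ?_⟩
    calc nm w g.1 * av w (g.1 0 1 / g.1 1 1 - b) < nm w g.1 * 1 := mul_lt_mul_of_pos_left h hp
      _ = nm w g.1 := mul_one _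

/-- `HB w M = ⊔_c un (rep w c) · HT w M` -/
theorem existsUnique_HT {g : G2 F} (hg : g ∈ HB w M) :
    ∃! c : 𝓞 F ⧸ w.asIdeal, (un (rep w c))⁻¹ * g ∈ HT w M := by
  have hd := (av_diag_of_mem w M hg).2
  have hp := nm_pos w g
  have hx : av w (g.1 0 1 / g.1 1 1) ≤ 1 := by
    rw [map_div₀, hd, div_le_one hp]
    exact av_le_nm w _ _ _
  obtain ⟨c, hc, hu⟩ := existsUnique_rep w hx
  exact ⟨c, (un_inv_mul_mem_iff w M hg (av_rep_le w c)).mpr hc,
    fun d hd ↦ hu d ((un_inv_mul_mem_iff w M hg (av_rep_le w d)).mp hd)⟩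

/-- the cosets `un (rep w c) · HT w M` -/
noncomputable def cosT (a : G2 F) (c : 𝓞 F ⧸ w.asIdeal) : G2 F ⧸ HT w M :=
  ((a * un (rep w c) : G2 F) : G2 F ⧸ HT w M)

theorem cosT_injective (a : G2 F) : Function.Injective (cosT w M a) := by
  intro c d h
  have h1 : (a * un (rep w c))⁻¹ * (a * un (rep w d)) ∈ HT w M := QuotientGroup.eq.mp h
  have h2 : (a * un (rep w c))⁻¹ * (a * un (rep w d)) = (un (rep w c))⁻¹ * un (rep w d) := by
    group
  rw [h2] at h1
  have h3 : (un (rep w d))⁻¹ * un (rep w d) ∈ HT w M := by rw [inv_mul_cancel]; exact one_mem _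
  exact (existsUnique_HT w M (un_mem_HB w M (av_rep_le w d))).unique h1 h3

theorem mem_range_cosT {a b : G2 F} :
    (b : G2 F ⧸ HT w M) ∈ Set.range (cosT w M a) ↔ a⁻¹ * b ∈ HB w M := by
  constructor
  · rintro ⟨c, hc⟩
    have h1 : (a * un (rep w c))⁻¹ * b ∈ HT w M := QuotientGroup.eq.mp hc
    have h2 : a⁻¹ * b = un (rep w c) * ((a * un (rep w c))⁻¹ * b) := by group
    rw [h2]
    exact mul_mem (un_mem_HB w M (av_rep_le w c)) (HT_le_HB w M h1)
  · intro h
    obtain ⟨c, hc, -⟩ := existsUnique_HT w M h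
    refine ⟨c, QuotientGroup.eq.mpr ?_⟩
    have h2 : (a * un (rep w c))⁻¹ * b = (un (rep w c))⁻¹ * (a⁻¹ * b) := by group
    rw [h2]
    exact hc

theorem biInv_unitF_HB : BiInv (HT w M) (unitF (HB w M)) := fun h hh h' hh' g =>
  biInv_unitF (HB w M) h (HT_le_HB w M hh) h' (HT_le_HB w M hh') g

theorem biInv_ew : BiInv (HT w M) (ew w M) := by
  intro h hh h' hh' g
  rw [ew, ew, biInv_unitF (HT w M) h hh h' hh', biInv_unitF_HB w M h hh h' hh']

theorem symF_unitF {F : Type} [Field F] (H : Subgroup (G2 F)) : SymF (unitF H) := by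
  intro g
  unfold unitF
  by_cases h : g ∈ H
  · rw [if_pos h, if_pos (inv_mem h)]
  · rw [if_neg h, if_neg (mt (fun h' ↦ by simpa using inv_mem h') h)]

theorem symF_ew : SymF (ew w M) := by
  intro g
  rw [ew, ew, symF_unitF, symF_unitF]

theorem star_unitF {F : Type} [Field F] (H : Subgroup (G2 F)) (g : G2 F) :
    (starRingEnd ℂ) (unitF H g) = unitF H g := by
  unfold unitF
  split_ifs <;> simp

theorem conj_ew (g : G2 F) : (starRingEnd ℂ) (ew w M g) = ew w M g := by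
  rw [ew, map_sub, map_mul, star_unitF, star_unitF]
  simp

theorem finS_unitF_HB : FinS (HT w M) (unitF (HB w M)) := by
  refine (Set.finite_range (cosT w M 1)).subset fun x hx ↦ ?_
  have h1 : x = ((x.out : G2 F) : G2 F ⧸ HT w M) := (QuotientGroup.out_eq' x).symm
  rw [h1, mem_range_cosT, inv_one, one_mul]
  by_contra h
  exact hx (if_neg h)

theorem ew_eq : ew w M = fun g ↦ unitF (HT w M) g + (-(1 / (qv w : ℂ))) * unitF (HB w M) g := by
  funext g
  rw [ew]
  ring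

theorem finS_ew : FinS (HT w M) (ew w M) := by
  rw [ew_eq]
  exact finS_add finS_unitF (finS_smul _ (finS_unitF_HB w M))

theorem qv_eq_card : (qv w : ℂ) = (Nat.card (𝓞 F ⧸ w.asIdeal) : ℂ) := by
  rw [card_res]
  rfl

/-- sums against the kernel of `1_{HB}` -/
theorem finsum_kw_HB (a : G2 F) (ψ : G2 F ⧸ HT w M → ℂ) :
    ∑ᶠ b, kw (HT w M) (unitF (HB w M)) (a : G2 F ⧸ HT w M) b * ψ b = ∑ᶠ c, ψ (cosT w M a c) := by
  classical
  have := Fintype.ofFinite (𝓞 F ⧸ w.asIdeal)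
  rw [finsum_eq_sum_of_fintype (fun c ↦ ψ (cosT w M a c))]
  have h1 : ∀ b : G2 F ⧸ HT w M, kw (HT w M) (unitF (HB w M)) (a : G2 F ⧸ HT w M) b =
      if b ∈ Set.range (cosT w M a) then 1 else 0 := by
    intro b
    obtain ⟨b, rfl⟩ := QuotientGroup.mk_surjective b
    rw [kw_mk (biInv_unitF_HB w M), unitF]
    by_cases h : a⁻¹ * b ∈ HB w M
    · rw [if_pos h, if_pos ((mem_range_cosT w M).mpr h)]
    · rw [if_neg h, if_neg (mt (mem_range_cosT w M).mp h)]
  rw [finsum_eq_sum_of_support_subset (s := Finset.univ.image (cosT w M a)),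
    Finset.sum_image fun c _ d _ h ↦ cosT_injective w M a h]
  · refine Finset.sum_congr rfl fun c _ ↦ ?_
    rw [h1, if_pos ⟨c, rfl⟩, one_mul]
  · intro b hb
    rw [Finset.coe_image, Finset.coe_univ, Set.image_univ]
    by_contra h
    rw [Function.mem_support, h1, if_neg h, zero_mul] at hb
    exact hb rfl

/-- **The operator of `ew`.** -/
theorem finsum_kw_ew (a : G2 F) (ψ : G2 F ⧸ HT w M → ℂ) :
    ∑ᶠ b, kw (HT w M) (ew w M) (a : G2 F ⧸ HT w M) b * ψ b =
      ψ (a : G2 F ⧸ HT w M) - (1 / (qv w : ℂ)) * ∑ᶠ c, ψ (cosT w M a c) := by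
  classical
  rw [← finsum_kw_HB]
  have h1 : ∀ b : G2 F ⧸ HT w M, kw (HT w M) (ew w M) (a : G2 F ⧸ HT w M) b * ψ b =
      kw (HT w M) (unitF (HT w M)) (a : G2 F ⧸ HT w M) b * ψ b -
      (1 / (qv w : ℂ)) * (kw (HT w M) (unitF (HB w M)) (a : G2 F ⧸ HT w M) b * ψ b) := by
    intro b
    rw [kw, kw, kw, ew]
    ring
  rw [finsum_congr h1]
  have hf1 : (Function.support fun b ↦
      kw (HT w M) (unitF (HT w M)) (a : G2 F ⧸ HT w M) b * ψ b).Finite :=
    ((rowFin_kw (biInv_unitF (HT w M)) finS_unitF).mul_right _ _)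
  have hf2 : (Function.support fun b ↦
      kw (HT w M) (unitF (HB w M)) (a : G2 F ⧸ HT w M) b * ψ b).Finite :=
    ((rowFin_kw (biInv_unitF_HB w M) (finS_unitF_HB w M)).mul_right _ _)
  rw [finsum_sub_distrib hf1 (hf2.subset fun b hb ↦ right_ne_zero_of_mul hb), ← smul_eq_mul,
    smul_finsum]
  congr 1
  rw [finsum_eq_single _ (a : G2 F ⧸ HT w M), kw_unitF, if_pos rfl, one_mul]
  intro b hb
  rw [kw_unitF, if_neg hb.symm, zero_mul]

/-- **The image of the projector.** -/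
theorem ew_fix_iff (ψ : G2 F ⧸ HT w M → ℂ) :
    (∀ a, ∑ᶠ b, kw (HT w M) (ew w M) a b * ψ b = ψ a) ↔
      ∀ g : G2 F, ∑ᶠ c : 𝓞 F ⧸ w.asIdeal,
        ψ ((g * un (rep w c) : G2 F) : G2 F ⧸ HT w M) = 0 := by
  have hq : (1 / (qv w : ℂ)) ≠ 0 := by
    rw [one_div, Ne, inv_eq_zero, Complex.ofReal_eq_zero]
    exact (qv_pos w).ne'
  constructor
  · intro h g
    have h1 := h (g : G2 F ⧸ HT w M)
    rw [finsum_kw_ew, sub_eq_self] at h1
    exact (mul_eq_zero.mp h1).resolve_left hq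
  · intro h a
    obtain ⟨a, rfl⟩ := QuotientGroup.mk_surjective a
    rw [finsum_kw_ew]
    have h1 : ∑ᶠ c, ψ (cosT w M a c) = 0 := h a
    rw [h1, mul_zero, sub_zero]

/-- convolution with `1_{HB}` on the left -/
theorem convF_HB_left {f : G2 F → ℂ} (hf : BiInv (HT w M) f) (g : G2 F) :
    convF (HT w M) (unitF (HB w M)) f g = ∑ᶠ c : 𝓞 F ⧸ w.asIdeal, f ((un (rep w c))⁻¹ * g) := by
  have h1 := convF_eq_kcomp (biInv_unitF_HB w M) hf g
  rw [h1]
  unfold kcomp
  rw [finsum_kw_HB w M 1 (fun x ↦ kw (HT w M) f x (g : G2 F ⧸ HT w M))]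
  refine finsum_congr fun c ↦ ?_
  rw [cosT, kw_mk hf, one_mul]

theorem convF_HB_HB : convF (HT w M) (unitF (HB w M)) (unitF (HB w M)) =
    fun g ↦ (qv w : ℂ) * unitF (HB w M) g := by
  funext g
  rw [convF_HB_left w M (biInv_unitF_HB w M)]
  have h1 : ∀ c, unitF (HB w M) ((un (rep w c))⁻¹ * g) = unitF (HB w M) g := by
    intro c
    have h2 := biInv_unitF (HB w M) (un (rep w c))⁻¹ (inv_mem (un_mem_HB w M (av_rep_le w c)))
      1 (one_mem _) g
    rwa [mul_one] at h2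
  have := Fintype.ofFinite (𝓞 F ⧸ w.asIdeal)
  rw [finsum_congr h1, finsum_eq_sum_of_fintype, Finset.sum_const, Finset.card_univ, nsmul_eq_mul,
    qv_eq_card, Nat.card_eq_fintype_card]

/-- **`ew` is idempotent.** -/
theorem convF_ew : convF (HT w M) (ew w M) (ew w M) = ew w M := by
  have hq : (qv w : ℂ) ≠ 0 := by
    rw [Ne, Complex.ofReal_eq_zero]
    exact (qv_pos w).ne'
  have hb := biInv_ew w M
  have h1 : convF (HT w M) (ew w M) (ew w M) =
      fun g ↦ ew w M g + (-(1 / (qv w : ℂ))) * convF (HT w M) (unitF (HB w M)) (ew w M) g := by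
    calc convF (HT w M) (ew w M) (ew w M) = convF (HT w M)
          (fun g ↦ unitF (HT w M) g + (-(1 / (qv w : ℂ))) * unitF (HB w M) g) (ew w M) := by
          rw [← ew_eq w M]
      _ = _ := by
          rw [convF_add_left finS_unitF (finS_smul _ (finS_unitF_HB w M)),
            convF_unitF_left hb, convF_smul_left]
  have h2 : convF (HT w M) (unitF (HB w M)) (ew w M) = fun _ ↦ 0 := by
    rw [ew_eq w M, convF_add_right (finS_unitF_HB w M), convF_unitF_right (biInv_unitF_HB w M),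
      convF_smul_right, convF_HB_HB]
    funext g
    field_simp
    ring
  rw [h1, h2]
  funext g
  rw [mul_zero, add_zero]

/-- the index -/
theorem relIndex_HT_HB : (HT w M).relIndex (HB w M) = qn w := by
  rw [← card_res, Subgroup.relIndex, Subgroup.index]
  symm
  refine Nat.card_congr (Equiv.ofBijective (fun c : 𝓞 F ⧸ w.asIdeal ↦
    (((⟨un (rep w c), un_mem_HB w M (av_rep_le w c)⟩ : HB w M) : HB w M ⧸ (HT w M).subgroupOf (HB w M))))
    ⟨fun c d h ↦ ?_, fun x ↦ ?_⟩)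
  · apply cosT_injective w M 1
    have h1 := QuotientGroup.eq.mp h
    rw [Subgroup.mem_subgroupOf] at h1
    rw [cosT, cosT, one_mul, one_mul]
    exact QuotientGroup.eq.mpr h1
  · obtain ⟨⟨g, hg⟩, rfl⟩ := QuotientGroup.mk_surjective x
    obtain ⟨c, hc, -⟩ := existsUnique_HT w M hg
    refine ⟨c, QuotientGroup.eq.mpr ?_⟩
    rw [Subgroup.mem_subgroupOf]
    exact hc

theorem relIndex_HT_HB' : (((HT w M).relIndex (HB w M) : ℕ) : ℂ) = (qv w : ℂ) := by
  rw [relIndex_HT_HB]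
  rfl

end cosets

section split

variable {K L : Type} [Field K] [NumberField K] [Field L] [NumberField L] [Algebra K L]
  (M : ℕ)

theorem nm_inc_of_split {C : Cub K L} {v : Pl K} {w : Pl L} (hs : Split C v w)
    (g : Matrix (Fin 2) (Fin 2) K) : nm w (g.map (algebraMap K L)) = nm v g := by
  unfold nm
  simp only [Matrix.map_apply, hs.av_eq]

theorem stdH_Inc {C : Cub K L} {v : Pl K} {w : Pl L} (hs : Split C v w) (g : G2 K) :
    (Cub.Inc g : G2 L) ∈ stdH w ↔ g ∈ stdH v := by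
  rw [mem_stdH, mem_stdH, ← map_inv]
  change nm w (g.1.map (algebraMap K L)) * nm w ((g⁻¹).1.map (algebraMap K L)) ≤ 1 ↔ _
  rw [nm_inc_of_split hs, nm_inc_of_split hs]

theorem HB_Inc {C : Cub K L} {v : Pl K} {w : Pl L} (hs : Split C v w) (g : G2 K) :
    (Cub.Inc g : G2 L) ∈ HB w M ↔ g ∈ HB v M := by
  rw [mem_HB, mem_HB, stdH_Inc hs, hs.q_eq]
  change _ ∧ av w (algebraMap K L (g.1 1 0)) < nm w (g.1.map (algebraMap K L)) ∧
    av w (algebraMap K L (g.1 1 0)) ≤ nm w (g.1.map (algebraMap K L)) * _ ↔ _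
  rw [nm_inc_of_split hs, hs.av_eq]

theorem HT_Inc {C : Cub K L} {v : Pl K} {w : Pl L} (hs : Split C v w) (g : G2 K) :
    (Cub.Inc g : G2 L) ∈ HT w M ↔ g ∈ HT v M := by
  rw [mem_HT, mem_HT, HB_Inc M hs]
  change _ ∧ av w (algebraMap K L (g.1 0 1)) < nm w (g.1.map (algebraMap K L)) ↔ _
  rw [nm_inc_of_split hs, hs.av_eq]

theorem comap_Inc_HT {C : Cub K L} {v : Pl K} {w : Pl L} (hs : Split C v w) :
    (HT w M).comap Cub.Inc = HT v M := by
  ext g
  exact HT_Inc M hs g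

theorem ew_Inc {C : Cub K L} {v : Pl K} {w : Pl L} (hs : Split C v w) (g : G2 K) :
    ew w M (Cub.Inc g : G2 L) = ew v M g := by
  have h1 : unitF (HT w M) (Cub.Inc g : G2 L) = unitF (HT v M) g := by
    unfold unitF
    by_cases h : g ∈ HT v M
    · rw [if_pos h, if_pos ((HT_Inc M hs g).mpr h)]
    · rw [if_neg h, if_neg (mt (HT_Inc M hs g).mp h)]
  have h2 : unitF (HB w M) (Cub.Inc g : G2 L) = unitF (HB v M) g := by
    unfold unitF
    by_cases h : g ∈ HB v M
    · rw [if_pos h, if_pos ((HB_Inc M hs g).mpr h)]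
    · rw [if_neg h, if_neg (mt (HB_Inc M hs g).mp h)]
  rw [ew, ew, h1, h2, hs.q_eq]

end split

end Fermat.LT
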