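import Fermat.Agent.LT.Geo.ConvF
import Fermat.Agent.LT.Geo.AvPl
import Fermat.Agent.LT.CTree.Tree

/-!
# LT, geometric side, ETHREE: the shell projector at a place `w`

* `HB w M = F^* · {g ∈ GL₂(O_w) : g₁₀ ∈ w^max(M,1)}`,
  `HT w M = F^* · {g ∈ GL₂(O_w) : g₀₁ ∈ w, g₁₀ ∈ w^max(M,1)}`;
* `ew w M = 1_{HT} - q⁻¹ 1_{HB}` : the idempotent projecting the `HT w M`-invariant vectors to those
  with `∑_{b ∈ O_w / w} ψ (g · un b) = 0`;
* `LevelT S M` : the level which is `HT w M` for `w ∈ S` and full elsewhere.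
-/

set_option autoImplicit false
set_option linter.unusedSectionVars false

open NumberField IsDedekindDomain Matrix
open Fermat.Agent.LT.D Fermat.Agent.LT.CTree

namespace Fermat.LT

section groups

variable {F : Type} [Field F] [NumberField F] (w : Pl F) (M : ℕ)

theorem inv_apply10 (g : G2 F) : (g⁻¹).1 1 0 = -((g.1.det)⁻¹ * g.1 1 0) := by
  have h1 : (g⁻¹).1 = (g.1.det)⁻¹ • g.1.adjugate := by
    rw [Matrix.coe_units_inv, Matrix.inv_def, Ring.inverse_eq_inv']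
  rw [h1, Matrix.adjugate_fin_two]
  simp

theorem inv_apply01 (g : G2 F) : (g⁻¹).1 0 1 = -((g.1.det)⁻¹ * g.1 0 1) := by
  have h1 : (g⁻¹).1 = (g.1.det)⁻¹ • g.1.adjugate := by
    rw [Matrix.coe_units_inv, Matrix.inv_def, Ring.inverse_eq_inv']
  rw [h1, Matrix.adjugate_fin_two]
  simp

theorem mul_apply10 (g h : G2 F) :
    (g * h).1 1 0 = g.1 1 0 * h.1 0 0 + g.1 1 1 * h.1 1 0 := by
  rw [Units.val_mul, Matrix.mul_apply, Fin.sum_univ_two]

theorem mul_apply01 (g h : G2 F) :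
    (g * h).1 0 1 = g.1 0 0 * h.1 0 1 + g.1 0 1 * h.1 1 1 := by
  rw [Units.val_mul, Matrix.mul_apply, Fin.sum_univ_two]

theorem qvM_pos : 0 < (qv w)⁻¹ ^ M := pow_pos (inv_pos.mpr (qv_pos w)) M

/-- `F^* · {upper triangular mod `w^max(M,1)`}` -/
def HB : Subgroup (G2 F) where
  carrier := {g | g ∈ stdH w ∧ av w (g.1 1 0) < nm w g.1 ∧ av w (g.1 1 0) ≤ nm w g.1 * (qv w)⁻¹ ^ M}
  mul_mem' := by
    rintro g h ⟨hg, hg0, hg1⟩ ⟨hh, hh0, hh1⟩
    have hp := nm_pos w g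
    have hq := nm_pos w h
    refine ⟨mul_mem hg hh, ?_, ?_⟩
    · rw [nm_mul_of_mem w hh, mul_apply10]
      refine (av_add_le w _ _).trans_lt (max_lt ?_ ?_)
      · rw [map_mul]
        calc av w (g.1 1 0) * av w (h.1 0 0) ≤ av w (g.1 1 0) * nm w h.1 :=
              mul_le_mul_of_nonneg_left (av_le_nm w _ _ _) ((av w).nonneg _)
          _ < nm w g.1 * nm w h.1 := mul_lt_mul_of_pos_right hg0 hq
      · rw [map_mul]
        calc av w (g.1 1 1) * av w (h.1 1 0) ≤ nm w g.1 * av w (h.1 1 0) :=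
              mul_le_mul_of_nonneg_right (av_le_nm w _ _ _) ((av w).nonneg _)
          _ < nm w g.1 * nm w h.1 := mul_lt_mul_of_pos_left hh0 hp
    · rw [nm_mul_of_mem w hh, mul_apply10]
      refine (av_add_le w _ _).trans (max_le ?_ ?_)
      · rw [map_mul]
        calc av w (g.1 1 0) * av w (h.1 0 0) ≤ (nm w g.1 * (qv w)⁻¹ ^ M) * nm w h.1 :=
              mul_le_mul hg1 (av_le_nm w _ _ _) ((av w).nonneg _)
                (mul_nonneg hp.le (qvM_pos w M).le)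
          _ = nm w g.1 * nm w h.1 * (qv w)⁻¹ ^ M := by ring
      · rw [map_mul]
        calc av w (g.1 1 1) * av w (h.1 1 0) ≤ nm w g.1 * (nm w h.1 * (qv w)⁻¹ ^ M) :=
              mul_le_mul (av_le_nm w _ _ _) hh1 ((av w).nonneg _) hp.le
          _ = nm w g.1 * nm w h.1 * (qv w)⁻¹ ^ M := by ring
  one_mem' := by
    refine ⟨one_mem _, ?_, ?_⟩
    · rw [Units.val_one, nm_one]
      simp
    · rw [Units.val_one, nm_one]
      simpa using (qvM_pos w M).le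
  inv_mem' := by
    rintro g ⟨hg, hg0, hg1⟩
    have h0 : 0 < av w g.1.det := (av w).pos (Fermat.Agent.LT.CTree.det_ne_zero g)
    refine ⟨inv_mem hg, ?_, ?_⟩
    · rw [inv_apply10, (av w).map_neg, map_mul, map_inv₀, Fermat.Agent.LT.CTree.nm_inv]
      exact mul_lt_mul_of_pos_left hg0 (inv_pos.mpr h0)
    · rw [inv_apply10, (av w).map_neg, map_mul, map_inv₀, Fermat.Agent.LT.CTree.nm_inv, mul_assoc]
      exact mul_le_mul_of_nonneg_left hg1 (inv_pos.mpr h0).le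

theorem mem_HB {g : G2 F} : g ∈ HB w M ↔ g ∈ stdH w ∧ av w (g.1 1 0) < nm w g.1 ∧
    av w (g.1 1 0) ≤ nm w g.1 * (qv w)⁻¹ ^ M := Iff.rfl

/-- `F^* · {g ≡ diagonal mod w, g₁₀ ∈ w^M}` -/
def HT : Subgroup (G2 F) where
  carrier := {g | g ∈ HB w M ∧ av w (g.1 0 1) < nm w g.1}
  mul_mem' := by
    rintro g h ⟨hg, hg0⟩ ⟨hh, hh0⟩
    refine ⟨mul_mem hg hh, ?_⟩
    have hp := nm_pos w g
    have hq := nm_pos w h
    rw [nm_mul_of_mem w hh.1, mul_apply01]
    refine (av_add_le w _ _).trans_lt (max_lt ?_ ?_)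
    · rw [map_mul]
      calc av w (g.1 0 0) * av w (h.1 0 1) ≤ nm w g.1 * av w (h.1 0 1) :=
            mul_le_mul_of_nonneg_right (av_le_nm w _ _ _) ((av w).nonneg _)
        _ < nm w g.1 * nm w h.1 := mul_lt_mul_of_pos_left hh0 hp
    · rw [map_mul]
      calc av w (g.1 0 1) * av w (h.1 1 1) ≤ av w (g.1 0 1) * nm w h.1 :=
            mul_le_mul_of_nonneg_left (av_le_nm w _ _ _) ((av w).nonneg _)
        _ < nm w g.1 * nm w h.1 := mul_lt_mul_of_pos_right hg0 hq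
  one_mem' := by
    refine ⟨one_mem _, ?_⟩
    rw [Units.val_one, nm_one]
    simp
  inv_mem' := by
    rintro g ⟨hg, hg0⟩
    refine ⟨inv_mem hg, ?_⟩
    have h0 : 0 < av w g.1.det := (av w).pos (Fermat.Agent.LT.CTree.det_ne_zero g)
    rw [inv_apply01, (av w).map_neg, map_mul, map_inv₀, Fermat.Agent.LT.CTree.nm_inv]
    exact mul_lt_mul_of_pos_left hg0 (inv_pos.mpr h0)

theorem mem_HT {g : G2 F} : g ∈ HT w M ↔ g ∈ HB w M ∧ av w (g.1 0 1) < nm w g.1 := Iff.rfl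

theorem mem_HT' {g : G2 F} : g ∈ HT w M ↔
    g ∈ stdH w ∧ (av w (g.1 1 0) < nm w g.1 ∧ av w (g.1 1 0) ≤ nm w g.1 * (qv w)⁻¹ ^ M) ∧
      av w (g.1 0 1) < nm w g.1 :=
  ⟨fun h ↦ ⟨h.1.1, h.1.2, h.2⟩, fun h ↦ ⟨⟨h.1, h.2.1⟩, h.2.2⟩⟩

theorem HT_le_HB : HT w M ≤ HB w M := fun _ h ↦ h.1

theorem HB_le_stdH : HB w M ≤ stdH w := fun _ h ↦ h.1

theorem HT_le_stdH : HT w M ≤ stdH w := (HT_le_HB w M).trans (HB_le_stdH w M)

theorem congGL_le_HT {n : ℕ} (hn : 1 ≤ n) (hM : M ≤ n) : congGL w n ≤ HT w M := by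
  intro g hg
  have hq0 : 0 ≤ (qv w)⁻¹ := inv_nonneg.mpr (qv_pos w).le
  have hq1 : (qv w)⁻¹ ^ n < 1 :=
    pow_lt_one₀ hq0 (inv_lt_one_of_one_lt₀ (one_lt_qv w)) (by omega)
  have hqM : (qv w)⁻¹ ^ n ≤ (qv w)⁻¹ ^ M :=
    pow_le_pow_of_le_one hq0 (inv_le_one_of_one_le₀ (one_lt_qv w).le) hM
  have h1 : nm w g.1 = 1 := by
    apply le_antisymm hg.1.1
    have h2 := nm_mul_inv_ge w g
    have h3 := hg.1.2
    have h4 := nm_pos w g
    calc 1 ≤ nm w g.1 * nm w (g⁻¹).1 := h2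
      _ ≤ nm w g.1 * 1 := mul_le_mul_of_nonneg_left h3 h4.le
      _ = nm w g.1 := mul_one _
  rw [mem_HT', h1, one_mul]
  have h2 := (av_le_nm w (g.1 - 1) 1 0).trans hg.2
  simp only [Matrix.sub_apply, Matrix.one_apply_ne (show (1 : Fin 2) ≠ 0 by decide), sub_zero] at h2
  have h3 := (av_le_nm w (g.1 - 1) 0 1).trans hg.2
  simp only [Matrix.sub_apply, Matrix.one_apply_ne (show (0 : Fin 2) ≠ 1 by decide), sub_zero] at h3
  exact ⟨intGL_le_stdH w hg.1, ⟨h2.trans_lt hq1, h2.trans hqM⟩, h3.trans_lt hq1⟩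

theorem scal_le_HT : scal F ≤ HT w M := by
  intro g hg
  have h1 := scal_le_stdH w hg
  obtain ⟨c, hc⟩ := (mem_scal_iff g).mp hg
  have h10 : g.1 1 0 = 0 := by rw [hc]; simp
  have h01 : g.1 0 1 = 0 := by rw [hc]; simp
  rw [mem_HT', h10, h01, map_zero]
  exact ⟨h1, ⟨nm_pos w g, mul_nonneg (nm_pos w g).le (qvM_pos w M).le⟩, nm_pos w g⟩

theorem HB_anti {M M' : ℕ} (h : M ≤ M') : HB w M' ≤ HB w M := by
  intro g hg
  refine ⟨hg.1, hg.2.1, hg.2.2.trans (mul_le_mul_of_nonneg_left ?_ (nm_nonneg w _))⟩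
  exact pow_le_pow_of_le_one (inv_nonneg.mpr (qv_pos w).le)
    (inv_le_one_of_one_le₀ (one_lt_qv w).le) h

theorem HT_anti {M M' : ℕ} (h : M ≤ M') : HT w M' ≤ HT w M :=
  fun _ hg ↦ ⟨HB_anti w h hg.1, hg.2⟩

open Classical in
/-- the shell projector -/
noncomputable def ew (g : G2 F) : ℂ := unitF (HT w M) g - (1 / (qv w : ℂ)) * unitF (HB w M) g

end groups

section level

variable {F : Type} [Field F] [NumberField F]

open Classical in
/-- the level `HT w M` at `w ∈ S`, full elsewhere -/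
noncomputable def LevelT (S : Finset (Pl F)) (M : ℕ) : Level F where
  H w := if w ∈ S then HT w M else stdH w
  scal_le w := by
    split_ifs
    · exact scal_le_HT w M
    · exact scal_le_stdH w
  le_std w := by
    split_ifs
    · exact HT_le_stdH w M
    · exact le_rfl
  n w := if w ∈ S then max M 1 else 0
  cong_le w := by
    split_ifs
    · exact congGL_le_HT w M (le_max_right _ _) (le_max_left _ _)
    · rw [congGL_zero]
      exact intGL_le_stdH w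
  n_fin := by
    refine S.finite_toSet.subset fun w hw ↦ ?_
    by_contra h
    exact hw (if_neg (by simpa using h))

theorem LevelT_H_of_mem {S : Finset (Pl F)} {M : ℕ} {w : Pl F} (h : w ∈ S) :
    (LevelT S M).H w = HT w M := if_pos h

theorem LevelT_H_of_notMem {S : Finset (Pl F)} {M : ℕ} {w : Pl F} (h : w ∉ S) :
    (LevelT S M).H w = stdH w := if_neg h

theorem LevelT_n_of_mem {S : Finset (Pl F)} {M : ℕ} {w : Pl F} (h : w ∈ S) :
    (LevelT S M).n w = max M 1 := if_pos h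

theorem LevelT_n_of_notMem {S : Finset (Pl F)} {M : ℕ} {w : Pl F} (h : w ∉ S) :
    (LevelT S M).n w = 0 := if_neg h

end level

section twist

variable {K L : Type} [Field K] [NumberField K] [Field L] [NumberField L] [Algebra K L]
  (C : Cub K L) (M : ℕ)

theorem HB_pl (w : Pl L) (g : G2 L) : C.S g ∈ HB (pl C w) M ↔ g ∈ HB w M := by
  rw [mem_HB, mem_HB, stdH_pl, qv_pl]
  change _ ∧ av (pl C w) (C.s g.1 1 0) < nm (pl C w) (C.s g.1) ∧
    av (pl C w) (C.s g.1 1 0) ≤ nm (pl C w) (C.s g.1) * _ ↔ _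
  rw [nm_pl, Cub.s_apply, av_pl]

theorem HT_pl (w : Pl L) (g : G2 L) : C.S g ∈ HT (pl C w) M ↔ g ∈ HT w M := by
  rw [mem_HT, mem_HT, HB_pl]
  change _ ∧ av (pl C w) (C.s g.1 0 1) < nm (pl C w) (C.s g.1) ↔ _
  rw [nm_pl, Cub.s_apply, av_pl]

theorem ew_pl (w : Pl L) (g : G2 L) : ew (pl C w) M (C.S g) = ew w M g := by
  have h1 : unitF (HT (pl C w) M) (C.S g) = unitF (HT w M) g := by
    unfold unitF
    by_cases h : g ∈ HT w M
    · rw [if_pos h, if_pos ((HT_pl C M w g).mpr h)]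
    · rw [if_neg h, if_neg (mt (HT_pl C M w g).mp h)]
  have h2 : unitF (HB (pl C w) M) (C.S g) = unitF (HB w M) g := by
    unfold unitF
    by_cases h : g ∈ HB w M
    · rw [if_pos h, if_pos ((HB_pl C M w g).mpr h)]
    · rw [if_neg h, if_neg (mt (HB_pl C M w g).mp h)]
  rw [ew, ew, h1, h2, qv_pl]

/-- the compatibility of `LevelT` with `σ`, in the form needed by `mk3` and `TwDatum` -/
theorem LevelT_pl {S : Finset (Pl L)} (hS : ∀ w, pl C w ∈ S ↔ w ∈ S) (w : Pl L) (g : G2 L) :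
    C.S g ∈ (LevelT S M).H (pl C w) ↔ g ∈ (LevelT S M).H w := by
  by_cases h : w ∈ S
  · rw [LevelT_H_of_mem h, LevelT_H_of_mem ((hS w).mpr h), HT_pl]
  · rw [LevelT_H_of_notMem h, LevelT_H_of_notMem (mt (hS w).mp h), stdH_pl]

theorem LevelT_std {S : Finset (Pl L)} (hS : ∀ w ∈ S, pl C w ≠ w) (w : Pl L)
    (hw : pl C w = w) : (LevelT S M).H w = stdH w :=
  LevelT_H_of_notMem fun h ↦ hS w h hw

end twist

end Fermat.LT
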