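import Fermat.Agent.LT.Geo.Cons

/-!
# LT, geometric side: the comparison datum with the standard choice of the precision

`nr3 v` is `1` if `v ∤ 3`.
-/

set_option autoImplicit false
set_option linter.unusedSectionVars false

open NumberField IsDedekindDomain Matrix Module
open Fermat.Agent.LT.D Fermat.Agent.CFT

namespace Fermat.LT

variable {K L : Type} [Field K] [NumberField K] [Field L] [NumberField L] [Algebra K L]

open Classical in
/-- the precision at the ramified places: `1` at the tame ones -/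
noncomputable def nr3 (v : Pl K) : ℕ := Nat.find (exists_nr v)

theorem nr3_spec (v : Pl K) : (qv v)⁻¹ ^ nr3 v < av v 9 := by
  classical
  exact Nat.find_spec (exists_nr v)

theorem nr3_ne_zero (v : Pl K) : nr3 v ≠ 0 := by
  intro h
  have := nr3_spec v
  rw [h, pow_zero] at this
  have h9 : av v (9 : K) ≤ 1 := by
    have : (9 : K) = algebraMap (𝓞 K) K 9 := (map_ofNat _ 9).symm
    rw [this]; exact E.av_int_le_one v 9
  linarith

theorem nr3_tame {v : Pl K} (h : av v (3 : K) = 1) : nr3 v = 1 := by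
  classical
  apply le_antisymm
  · apply Nat.find_min'
    exact exists_nr_tame h
  · exact Nat.one_le_iff_ne_zero.2 (nr3_ne_zero v)

variable (C : Cub K L) (hK : finrank ℚ K = 2) (φ : L →+* ℂ)
    (hφ : ¬ ComplexEmbedding.IsReal (φ.comp (algebraMap K L))) (U : Level L)
    (hU : ∀ w g, C.S g ∈ U.H (pl C w) ↔ g ∈ U.H w)
    (hstd : ∀ w, pl C w = w → U.H w = stdH w)

/-- the comparison datum with the standard precision -/
noncomputable def GeoDatum.mk3 : GeoDatum C :=
  GeoDatum.mk' C hK φ hφ U hU hstd nr3 fun v _ _ => nr3_spec v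

theorem GeoDatum.mk3_ram {v : Pl K} (h : Ram C v ((GeoDatum.mk3 C hK φ hφ U hU hstd).up v)) :
    (GeoDatum.mk3 C hK φ hφ U hU hstd).U.H v = scalCong v (nr3 v) := by
  have h1 := GeoDatum.mk'_U_ram C hK φ hφ U hU hstd nr3 (fun v _ _ => nr3_spec v) h
  rw [max_eq_left (Nat.one_le_iff_ne_zero.2 (nr3_ne_zero v))] at h1
  exact h1

/-- level at a tame ramified place -/
theorem GeoDatum.mk3_tame {v : Pl K} (h : Ram C v ((GeoDatum.mk3 C hK φ hφ U hU hstd).up v))
    (h3 : av v (3 : K) = 1) : (GeoDatum.mk3 C hK φ hφ U hU hstd).U.H v = scalCong v 1 := by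
  rw [GeoDatum.mk3_ram C hK φ hφ U hU hstd h, nr3_tame h3]

/-- level at an inert place -/
theorem GeoDatum.mk3_inert {v : Pl K} (h : Inert C v ((GeoDatum.mk3 C hK φ hφ U hU hstd).up v)) :
    (GeoDatum.mk3 C hK φ hφ U hU hstd).U.H v = stdH v := by
  rw [(GeoDatum.mk3 C hK φ hφ U hU hstd).U_eq v fun h' => h.not_ram h']
  exact ((GeoDatum.mk3 C hK φ hφ U hU hstd).H_inert v h).2

/-- level at a split place -/
theorem GeoDatum.mk3_split {v : Pl K} (h : Split C v ((GeoDatum.mk3 C hK φ hφ U hU hstd).up v)) :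
    (GeoDatum.mk3 C hK φ hφ U hU hstd).U.H v =
      (U.H ((GeoDatum.mk3 C hK φ hφ U hU hstd).up v)).comap Cub.Inc := by
  rw [(GeoDatum.mk3 C hK φ hφ U hU hstd).U_eq v fun h' => h.not_ram h']
  ext g
  exact (GeoDatum.mk3 C hK φ hφ U hU hstd).H_split v h g

/-- level at a split place where `U` is full -/
theorem GeoDatum.mk3_split_std {v : Pl K}
    (h : Split C v ((GeoDatum.mk3 C hK φ hφ U hU hstd).up v))
    (hs : U.H ((GeoDatum.mk3 C hK φ hφ U hU hstd).up v) =
      stdH ((GeoDatum.mk3 C hK φ hφ U hU hstd).up v)) :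
    (GeoDatum.mk3 C hK φ hφ U hU hstd).U.H v = stdH v := by
  rw [GeoDatum.mk3_split C hK φ hφ U hU hstd h, hs]
  ext g
  rw [Subgroup.mem_comap, mem_stdH, mem_stdH, ← map_inv]
  change nm _ (Cub.inc (L := L) g.1) * nm _ (Cub.inc (L := L) (g⁻¹).1) ≤ 1 ↔ _
  have e := fun A : Matrix (Fin 2) (Fin 2) K => nm_Inc_of_av (L := L) h.av_eq A
  have e1 := e g.1
  have e2 := e (g⁻¹).1
  rw [show (Cub.inc (L := L) g.1) = g.1.map (algebraMap K L) from rfl,
    show (Cub.inc (L := L) (g⁻¹).1) = (g⁻¹).1.map (algebraMap K L) from rfl, e1, e2]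

end Fermat.LT
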