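import Fermat.Agent.LT.Geo.Setup
import Fermat.Agent.LT.E.Av
import Fermat.Agent.LT.A.Val
import Fermat.Agent.LT.Geo.AvPl
import Fermat.Agent.CFT.SUnitsHerbrand

/-!
# LT, geometric side: the trichotomy split / inert / ramified for the places of `K`
-/

set_option autoImplicit false
set_option linter.unusedSectionVars false

open NumberField IsDedekindDomain Matrix Module
open Fermat.Agent.LT.D Fermat.Agent.CFT

namespace Fermat.LT

variable {K L : Type} [Field K] [NumberField K] [Field L] [NumberField L] [Algebra K L]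

section galois

theorem isGalois_of_cub (C : Cub K L) : IsGalois K L := by
  have hfd : FiniteDimensional K L := FiniteDimensional.right ℚ K L
  apply IsGalois.of_fixedField_eq_bot
  rw [eq_bot_iff]
  intro x hx
  rw [IntermediateField.mem_fixedField_iff] at hx
  obtain ⟨y, hy⟩ := C.fixed x (hx C.σ (Subgroup.mem_top _))
  rw [← hy]
  exact IntermediateField.algebraMap_mem _ y

theorem orderOf_σ (C : Cub K L) : orderOf C.σ = 3 := by
  have : Fact (Nat.Prime 3) := ⟨Nat.prime_three⟩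
  apply orderOf_eq_prime
  · ext x
    simpa [pow_succ, AlgEquiv.mul_apply] using C.cube x
  · intro h
    obtain ⟨x, hx⟩ := C.ne
    rw [h] at hx
    exact hx rfl

theorem σ_ne_one (C : Cub K L) : C.σ ≠ 1 := by
  intro h
  obtain ⟨x, hx⟩ := C.ne
  rw [h] at hx
  exact hx rfl

theorem finrank_of_cub (C : Cub K L) : finrank K L = 3 := by
  have hfd : FiniteDimensional K L := FiniteDimensional.right ℚ K L
  have := isGalois_of_cub C
  rw [← orderOf_σ C, ← Nat.card_zpowers, ← IntermediateField.finrank_fixedField_eq_card]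
  have h1 : IntermediateField.fixedField (Subgroup.zpowers C.σ) = ⊥ := by
    rw [eq_bot_iff]
    intro x hx
    rw [IntermediateField.mem_fixedField_iff] at hx
    obtain ⟨y, hy⟩ := C.fixed x (hx C.σ (Subgroup.mem_zpowers _))
    rw [← hy]
    exact IntermediateField.algebraMap_mem _ y
  rw [h1]
  exact (IntermediateField.finrank_bot' (F := K) (E := L)).symm

end galois

section basic

theorem above_iff (v : Pl K) (w : Pl L) : Above v w ↔ SUH.below K w = v := by
  constructor
  · intro h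
    ext x
    exact (h x).symm
  · rintro rfl x
    exact Iff.rfl

theorem above_below (w : Pl L) : Above (SUH.below K w) w := (above_iff _ _).mpr rfl

theorem pl_eq_act (C : Cub K L) (w : Pl L) : pl C w = SUH.act C.σ w := rfl

theorem below_pl (C : Cub K L) (w : Pl L) : SUH.below K (pl C w) = SUH.below K w :=
  SUH.below_act C.σ w

theorem exists_above (v : Pl K) : ∃ w : Pl L, Above v w := by
  obtain ⟨w, hw⟩ := SUH.exists_above (F := L) v
  exact ⟨w, (above_iff v w).mpr hw⟩

/-- `|x|_w` in terms of the valuation -/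
theorem av_eq_of_valuation {F : Type} [Field F] [NumberField F] (w : Pl F) {x : F} {n : ℤ}
    (h : w.valuation F x = WithZero.exp n) : av w x = qv w ^ n := by
  have h3 : av w x = (WithZeroMulInt.toNNReal
      (NumberField.HeightOneSpectrum.absNorm_ne_zero w) (w.valuation F x) : ℝ) := rfl
  rw [h3, h, WithZeroMulInt.toNNReal_neg_apply _ (WithZero.exp_ne_zero)]
  rw [NNReal.coe_zpow]
  rfl

theorem qv_above {v : Pl K} {w : Pl L} (h : Above v w) :
    qv w = qv v ^ w.asIdeal.inertiaDeg (𝓞 K) := by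
  obtain rfl := (above_iff v w).mp h
  rw [qv, qv, ← Ideal.absNorm_pow_inertiaDeg (SUH.below K w).asIdeal w.asIdeal]
  push_cast
  rfl

theorem av_above {v : Pl K} {w : Pl L} (h : Above v w) (x : K) :
    av w (algebraMap K L x) =
      av v x ^ (w.asIdeal.ramificationIdx (𝓞 K) * w.asIdeal.inertiaDeg (𝓞 K)) := by
  have hq := qv_above h
  obtain rfl := (above_iff v w).mp h
  rcases eq_or_ne x 0 with rfl | hx
  · have h1 : 0 < w.asIdeal.ramificationIdx (𝓞 K) := Ideal.ramificationIdx_pos w.asIdeal (𝓞 K)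
    have h2 : 0 < w.asIdeal.inertiaDeg (𝓞 K) := Ideal.inertiaDeg_pos w.asIdeal (𝓞 K)
    rw [map_zero, map_zero, map_zero, zero_pow (Nat.mul_pos h1 h2).ne']
  · have h0 : (SUH.below K w).valuation K x ≠ 0 := (Valuation.ne_zero_iff _).mpr hx
    obtain ⟨n, hn⟩ : ∃ n : ℤ, (SUH.below K w).valuation K x = WithZero.exp n :=
      ⟨WithZero.log _, (WithZero.exp_log h0).symm⟩
    have h1 := HeightOneSpectrum.valuation_liesOver L (SUH.below K w) w x
    rw [Ideal.ramificationIdx'_eq_ramificationIdx _ _ (SUH.below K w).ne_bot, hn,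
      ← WithZero.exp_nsmul] at h1
    rw [av_eq_of_valuation w h1.symm, av_eq_of_valuation (SUH.below K w) hn, hq, ← zpow_natCast,
      ← zpow_natCast, ← _root_.zpow_mul, ← _root_.zpow_mul]
    congr 1
    rw [nsmul_eq_mul]
    push_cast
    ring

end basic

section dens

/-- `K` is dense in `L` for `av w` if `e = f = 1`. -/
theorem dense_of_one {v : Pl K} {w : Pl L} (h : Above v w)
    (he : w.asIdeal.ramificationIdx (𝓞 K) = 1) (hf : w.asIdeal.inertiaDeg (𝓞 K) = 1)
    (x : L) (ε : ℝ) (hε : 0 < ε) : ∃ y : K, av w (x - algebraMap K L y) < ε := by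
  have hav : ∀ y : K, av w (algebraMap K L y) = av v y := fun y => by
    rw [av_above h, he, hf, mul_one, pow_one]
  have hN : Ideal.absNorm w.asIdeal = Ideal.absNorm v.asIdeal := by
    obtain rfl := (above_iff v w).mp h
    rw [← Ideal.absNorm_pow_inertiaDeg (SUH.below K w).asIdeal w.asIdeal, hf, pow_one]
  -- integers are approximated by integers
  have key : ∀ (n : ℕ) (a : 𝓞 L), ∃ b : 𝓞 K, a - algebraMap (𝓞 K) (𝓞 L) b ∈ w.asIdeal ^ n := by
    intro n
    let φ : 𝓞 K →+* 𝓞 L ⧸ w.asIdeal ^ n :=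
      (Ideal.Quotient.mk (w.asIdeal ^ n)).comp (algebraMap (𝓞 K) (𝓞 L))
    have hker : RingHom.ker φ = v.asIdeal ^ n := by
      ext b
      rw [RingHom.mem_ker, RingHom.comp_apply, Ideal.Quotient.eq_zero_iff_mem,
        mem_pow_iff, mem_pow_iff]
      have h1 : av w ((algebraMap (𝓞 K) (𝓞 L) b : 𝓞 L) : L) = av v (b : K) := hav (b : K)
      rw [h1, qv_above h, hf, pow_one]
    have hcard : Nat.card (𝓞 K ⧸ RingHom.ker φ) = Nat.card (𝓞 L ⧸ w.asIdeal ^ n) := by
      rw [hker]
      change Ideal.absNorm (v.asIdeal ^ n) = Ideal.absNorm (w.asIdeal ^ n)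
      rw [map_pow, map_pow, hN]
    have hfin : Finite (𝓞 L ⧸ w.asIdeal ^ n) :=
      Ideal.finiteQuotientOfFreeOfNeBot _ (pow_ne_zero n w.ne_bot)
    have hinj := RingHom.kerLift_injective φ
    have hsurj : Function.Surjective (RingHom.kerLift φ) :=
      ((Nat.bijective_iff_injective_and_card _).mpr ⟨hinj, hcard⟩).2
    intro a
    obtain ⟨b', hb'⟩ := hsurj (Ideal.Quotient.mk _ a)
    obtain ⟨b, rfl⟩ := Ideal.Quotient.mk_surjective b'
    refine ⟨b, ?_⟩
    rw [← Ideal.Quotient.eq]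
    exact hb'.symm
  -- reduce to integral elements
  obtain ⟨p, hp0, hp1⟩ := E.exists_av_lt_one v
  obtain ⟨m, hm⟩ : ∃ m : ℕ, av w (x * (algebraMap K L p) ^ m) ≤ 1 := by
    rcases eq_or_ne x 0 with rfl | hx
    · exact ⟨0, by simp⟩
    have hxp : 0 < av w x := (av w).pos hx
    obtain ⟨m, hm⟩ := exists_pow_lt_of_lt_one (y := av v p) (x := (av w x)⁻¹) (by positivity) hp1
    refine ⟨m, ?_⟩
    rw [map_mul, map_pow, hav]
    calc av w x * av v p ^ m ≤ av w x * (av w x)⁻¹ := by gcongr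
      _ = 1 := mul_inv_cancel₀ hxp.ne'
  have hpm : 0 < av v p ^ m := pow_pos ((av v).pos hp0) m
  obtain ⟨a, ha⟩ := E.exists_int_approx w hm (r := ε / 2 * av v p ^ m) (by positivity)
  obtain ⟨n, hn⟩ := exists_pow_lt_of_lt_one (y := (qv w)⁻¹) (x := ε / 2 * av v p ^ m)
    (by positivity) (inv_lt_one_of_one_lt₀ (one_lt_qv w))
  obtain ⟨b, hb⟩ := key n a
  rw [mem_pow_iff] at hb
  refine ⟨(b : K) / p ^ m, ?_⟩
  have hp0' : algebraMap K L p ≠ 0 := by rwa [Ne, map_eq_zero]
  have e1 : x - algebraMap K L ((b : K) / p ^ m) =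
      ((x * (algebraMap K L p) ^ m - algebraMap (𝓞 L) L a) +
        (((a - algebraMap (𝓞 K) (𝓞 L) b : 𝓞 L)) : L)) / (algebraMap K L p) ^ m := by
    rw [map_div₀, map_pow]
    have e2 : ((a - algebraMap (𝓞 K) (𝓞 L) b : 𝓞 L) : L) =
      algebraMap (𝓞 L) L a - algebraMap K L (b : K) := rfl
    rw [e2]
    field_simp
    ring
  rw [e1, map_div₀, map_pow, hav, div_lt_iff₀ hpm]
  refine (av_add_le w _ _).trans_lt (max_lt ?_ ?_)
  · refine ha.trans_lt ?_
    gcongr
    linarith
  · refine hb.trans_lt (hn.trans ?_)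
    gcongr
    linarith

end dens

section trichotomy

variable (C : Cub K L)

include C in
theorem card_smul_eq (v : Pl K) (w : Pl L) (h : Above v w) :
    (Ideal.primesOver v.asIdeal (𝓞 L)).ncard *
      (w.asIdeal.ramificationIdx (𝓞 K) * w.asIdeal.inertiaDeg (𝓞 K)) = 3 := by
  have hfd : FiniteDimensional K L := FiniteDimensional.right ℚ K L
  have := isGalois_of_cub C
  have hLO : w.asIdeal.LiesOver v.asIdeal := (SUH.below_eq_iff w v).mp ((above_iff v w).mp h)
  have h1 := Ideal.ncard_primesOver_mul_ramificationIdxIn_mul_inertiaDegIn v.asIdeal (𝓞 L) Gal(L/K)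
  rw [IsGalois.card_aut_eq_finrank, finrank_of_cub C,
    Ideal.ramificationIdxIn_eq_ramificationIdx v.asIdeal w.asIdeal Gal(L/K),
    Ideal.inertiaDegIn_eq_inertiaDeg v.asIdeal w.asIdeal Gal(L/K)] at h1
  exact h1

/-- if `σ` fixes `w` then `w` is the only place above `v`. -/
theorem eq_of_fix {v : Pl K} {w w' : Pl L} (h : Above v w) (h' : Above v w')
    (hfix : pl C w = w) : w' = w := by
  have hfd : FiniteDimensional K L := FiniteDimensional.right ℚ K L
  have := isGalois_of_cub C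
  obtain ⟨τ, hτ⟩ := SUH.exists_act_eq w w' (((above_iff v w).mp h).trans ((above_iff v w').mp h').symm)
  have hz : Subgroup.zpowers C.σ = ⊤ := by
    have : Fact (Nat.Prime 3) := ⟨Nat.prime_three⟩
    exact SUH.zpowers_eq_top (finrank_of_cub C) (σ_ne_one C)
  have hτ2 : τ ∈ Subgroup.zpowers C.σ := by rw [hz]; exact Subgroup.mem_top _
  have hfin : IsOfFinOrder C.σ := isOfFinOrder_iff_pow_eq_one.mpr ⟨3, by norm_num, by
    rw [← orderOf_σ C]; exact pow_orderOf_eq_one _⟩
  obtain ⟨n, hn⟩ := (Submonoid.mem_powers_iff _ _).mp (hfin.mem_powers_iff_mem_zpowers.mpr hτ2)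
  rw [← hτ, ← hn]
  have hfix' : SUH.act C.σ w = w := hfix
  clear hn
  induction n with
  | zero => rw [pow_zero, SUH.act_one]
  | succ n ih => rw [pow_succ, ← SUH.act_act, hfix', ih]

theorem ncard_eq_one_iff {v : Pl K} {w : Pl L} (h : Above v w) :
    (Ideal.primesOver v.asIdeal (𝓞 L)).ncard = 1 ↔ pl C w = w := by
  have hb : SUH.below K w = v := (above_iff v w).mp h
  constructor
  · intro h1
    rw [Set.ncard_eq_one] at h1
    obtain ⟨Q, hQ⟩ := h1
    have h2 : ∀ t : Pl L, SUH.below K t = v → t.asIdeal = Q := by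
      intro t ht
      have h3 : t.asIdeal ∈ Ideal.primesOver v.asIdeal (𝓞 L) := by
        rw [← ht]
        exact ⟨t.isPrime, inferInstance⟩
      rw [hQ] at h3
      exact h3
    exact HeightOneSpectrum.ext ((h2 _ ((below_pl C w).trans hb)).trans (h2 w hb).symm)
  · intro hfix
    rw [Set.ncard_eq_one]
    refine ⟨w.asIdeal, ?_⟩
    ext Q
    constructor
    · rintro ⟨hQ1, hQ2⟩
      let w' : Pl L := ⟨Q, hQ1, SUH.ne_bot_of_over v Q hQ2⟩
      have h' : Above v w' := (above_iff v w').mpr ((SUH.below_eq_iff w' v).mpr hQ2)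
      exact congrArg HeightOneSpectrum.asIdeal (eq_of_fix C h h' hfix)
    · rintro rfl
      rw [← hb]
      exact ⟨w.isPrime, inferInstance⟩

/-- if `f = 3` there is an integer `θ` moved by `σ` modulo `w`. -/
theorem exists_gen {v : Pl K} {w : Pl L} (h : Above v w)
    (hf : w.asIdeal.inertiaDeg (𝓞 K) = 3) :
    ∃ θ : L, av w θ ≤ 1 ∧ av w (C.σ θ - θ) = 1 := by
  by_contra hcon
  push Not at hcon
  have hb : SUH.below K w = v := (above_iff v w).mp h
  -- `σ` acts trivially modulo `w`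
  have h1 : ∀ a : 𝓞 L, RingOfIntegers.mapRingEquiv (C.σ : L ≃+* L) a - a ∈ w.asIdeal := by
    intro a
    have h2 := hcon (a : L) (E.av_int_le_one w a)
    rw [← E.av_int_lt_one_iff]
    have h3 : algebraMap (𝓞 L) L (RingOfIntegers.mapRingEquiv (C.σ : L ≃+* L) a - a) =
        C.σ (a : L) - (a : L) := by
      rw [map_sub]; rfl
    have h4 := E.av_int_le_one w (RingOfIntegers.mapRingEquiv (C.σ : L ≃+* L) a - a)
    rw [h3] at h4 ⊢
    exact lt_of_le_of_ne h4 h2
  set kv := 𝓞 K ⧸ v.asIdeal with hkv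
  set kw := 𝓞 L ⧸ w.asIdeal with hkw
  have hmaxv : v.asIdeal.IsMaximal := v.isMaximal
  have hmaxw : w.asIdeal.IsMaximal := w.isMaximal
  let _ : Field kv := Ideal.Quotient.field _
  let _ : Field kw := Ideal.Quotient.field _
  have hfinv : Finite kv := Ideal.finiteQuotientOfFreeOfNeBot _ v.ne_bot
  have hfinw : Finite kw := Ideal.finiteQuotientOfFreeOfNeBot _ w.ne_bot
  have hle : v.asIdeal ≤ w.asIdeal.comap (algebraMap (𝓞 K) (𝓞 L)) := by
    intro x hx
    exact (h x).mp hx
  let ι : kv →+* kw := Ideal.quotientMap w.asIdeal (algebraMap (𝓞 K) (𝓞 L)) hle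
  -- cubes are in the image of `ι`
  have h2 : ∀ y : kw, ∃ x : kv, ι x = y ^ 3 := by
    intro y
    obtain ⟨a, rfl⟩ := Ideal.Quotient.mk_surjective y
    set s := RingOfIntegers.mapRingEquiv (C.σ : L ≃+* L) with hs
    have h3 : C.σ (C.nL (a : L)) = C.nL (a : L) := C.σ_nL _
    obtain ⟨b, hb'⟩ := C.fixed _ h3
    have h4 : ((a * s a * s (s a) : 𝓞 L) : L) = C.nL (a : L) := by
      simp only [Cub.nL, map_mul]; rfl
    have hbint : IsIntegral ℤ b := by
      have h5 : IsIntegral ℤ (algebraMap K L b) := by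
        rw [hb', ← h4]
        exact RingOfIntegers.isIntegral_coe _
      exact (isIntegral_algebraMap_iff (algebraMap K L).injective).mp h5
    obtain ⟨b', hb''⟩ : ∃ b' : 𝓞 K, (b' : K) = b := ⟨⟨b, hbint⟩, rfl⟩
    have h5 : algebraMap (𝓞 K) (𝓞 L) b' = a * s a * s (s a) := by
      apply RingOfIntegers.ext
      rw [h4, ← hb', ← hb'']
      rfl
    refine ⟨Ideal.Quotient.mk _ b', ?_⟩
    change Ideal.Quotient.mk w.asIdeal (algebraMap (𝓞 K) (𝓞 L) b') = _
    rw [h5, map_mul, map_mul]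
    have h6 : Ideal.Quotient.mk w.asIdeal (s a) = Ideal.Quotient.mk w.asIdeal a :=
      Ideal.Quotient.eq.mpr (h1 a)
    have h7 : Ideal.Quotient.mk w.asIdeal (s (s a)) = Ideal.Quotient.mk w.asIdeal a :=
      (Ideal.Quotient.eq.mpr (h1 (s a))).trans h6
    rw [h6, h7]
    ring
  -- counting
  have hcard : Nat.card kw = Nat.card kv ^ 3 := by
    have h3 := Ideal.absNorm_pow_inertiaDeg (SUH.below K w).asIdeal w.asIdeal
    rw [hf] at h3
    subst hb
    exact h3.symm
  have hq : 2 ≤ Nat.card kv := Finite.one_lt_card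
  -- the cube map on units of `kw` has image in the units of `kv`
  have hι : Function.Injective ι := ι.injective
  choose g hg using h2
  have hcount : Nat.card kwˣ ≤ 3 * Nat.card kvˣ := by
    let c : kwˣ →* kwˣ := powMonoidHom 3
    have h3 : Nat.card kwˣ = Nat.card c.ker * Nat.card c.range := by
      rw [← Subgroup.index_ker, Subgroup.card_mul_index]
    rw [h3]
    refine Nat.mul_le_mul ?_ ?_
    · have h4 : c.ker = rootsOfUnity 3 kw := by
        ext x
        rw [MonoidHom.mem_ker, powMonoidHom_apply, mem_rootsOfUnity]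
      rw [h4]
      exact card_rootsOfUnity kw 3
    · have hmem : ∀ x : c.range, ∃ y : kvˣ, Units.map (ι : kv →* kw) y = (x : kwˣ) := by
        rintro ⟨_, ⟨z, rfl⟩⟩
        have hz : g (z : kw) ≠ 0 := by
          intro h0
          have h5 := hg (z : kw)
          rw [h0, map_zero] at h5
          exact pow_ne_zero 3 z.ne_zero h5.symm
        refine ⟨Units.mk0 _ hz, ?_⟩
        apply Units.ext
        exact hg (z : kw)
      choose u hu using hmem
      apply Nat.card_le_card_of_injective u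
      intro a b hab
      apply Subtype.ext
      rw [← hu a, ← hu b, hab]
  rw [Nat.card_units, Nat.card_units, hcard] at hcount
  generalize Nat.card kv = q at hq hcount
  obtain ⟨r, rfl⟩ : ∃ r, q = r + 2 := ⟨q - 2, by omega⟩
  have h8 : (r + 2) ^ 3 - 1 = (r + 1) * ((r + 2) ^ 2 + (r + 2) + 1) := by
    have : (r + 2) ^ 3 = (r + 1) * ((r + 2) ^ 2 + (r + 2) + 1) + 1 := by ring
    omega
  rw [h8] at hcount
  have h9 : r + 2 - 1 = r + 1 := by omega
  rw [h9, mul_comm] at hcount
  have h10 := Nat.le_of_mul_le_mul_right hcount (by omega)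
  nlinarith

/-- **Trichotomy.** -/
theorem trichotomy {v : Pl K} {w : Pl L} (h : Above v w) :
    Split C v w ∨ Inert C v w ∨ Ram C v w := by
  have h3 := card_smul_eq C v w h
  have he : 0 < w.asIdeal.ramificationIdx (𝓞 K) := Ideal.ramificationIdx_pos w.asIdeal (𝓞 K)
  have hf : 0 < w.asIdeal.inertiaDeg (𝓞 K) := Ideal.inertiaDeg_pos w.asIdeal (𝓞 K)
  by_cases hfix : pl C w = w
  · right
    rw [(ncard_eq_one_iff C h).mpr hfix, one_mul] at h3
    have h4 : w.asIdeal.inertiaDeg (𝓞 K) ∣ 3 := ⟨_, by rw [mul_comm]; exact h3.symm⟩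
    rcases (Nat.dvd_prime Nat.prime_three).mp h4 with h5 | h5
    · right
      rw [h5, mul_one] at h3
      exact ⟨h, hfix, fun x => by rw [av_above h, h3, h5], by rw [qv_above h, h5, pow_one]⟩
    · left
      rw [h5] at h3
      have h6 : w.asIdeal.ramificationIdx (𝓞 K) = 1 := by omega
      exact ⟨h, hfix, fun x => by rw [av_above h, h6, h5], by rw [qv_above h, h5],
        exists_gen C h h5⟩
  · left
    have h4 : (Ideal.primesOver v.asIdeal (𝓞 L)).ncard ≠ 1 :=
      fun h5 => hfix ((ncard_eq_one_iff C h).mp h5)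
    have h5 : (Ideal.primesOver v.asIdeal (𝓞 L)).ncard ∣ 3 := ⟨_, h3.symm⟩
    rcases (Nat.dvd_prime Nat.prime_three).mp h5 with h6 | h6
    · exact absurd h6 h4
    · rw [h6] at h3
      have h7 : w.asIdeal.ramificationIdx (𝓞 K) * w.asIdeal.inertiaDeg (𝓞 K) = 1 := by omega
      have h8 : w.asIdeal.ramificationIdx (𝓞 K) = 1 := Nat.eq_one_of_mul_eq_one_right h7
      have h9 : w.asIdeal.inertiaDeg (𝓞 K) = 1 := Nat.eq_one_of_mul_eq_one_left h7
      exact ⟨h, hfix, fun x => by rw [av_above h, h8, h9, mul_one, pow_one],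
        by rw [qv_above h, h9, pow_one], dense_of_one h h8 h9⟩

theorem Split.not_inert {C : Cub K L} {v : Pl K} {w w' : Pl L} (h : Split C v w) : ¬ Inert C v w' := by
  intro h'
  exact h.ne ((eq_of_fix C h'.above h.above h'.fix) ▸ h'.fix)

theorem Split.not_ram {C : Cub K L} {v : Pl K} {w w' : Pl L} (h : Split C v w) : ¬ Ram C v w' := by
  intro h'
  exact h.ne ((eq_of_fix C h'.above h.above h'.fix) ▸ h'.fix)

theorem Inert.not_ram {C : Cub K L} {v : Pl K} {w w' : Pl L} (h : Inert C v w) : ¬ Ram C v w' := by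
  intro h'
  have h1 := eq_of_fix C h'.above h.above h'.fix
  subst h1
  have h2 := h.q_eq
  rw [h'.q_eq] at h2
  have h3 := one_lt_qv v
  have h4 : qv v ^ 1 < qv v ^ 3 := pow_lt_pow_right₀ h3 (by norm_num)
  rw [pow_one] at h4
  exact h4.ne h2

/-- the places above `v` -/
theorem above_cases {v : Pl K} {w w' : Pl L} (h : Above v w) (h' : Above v w') :
    w' = w ∨ w' = pl C w ∨ w' = pl C (pl C w) := by
  have hfd : FiniteDimensional K L := FiniteDimensional.right ℚ K L
  have := isGalois_of_cub C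
  obtain ⟨τ, hτ⟩ := SUH.exists_act_eq w w' (((above_iff v w).mp h).trans ((above_iff v w').mp h').symm)
  have hz : Subgroup.zpowers C.σ = ⊤ := by
    have : Fact (Nat.Prime 3) := ⟨Nat.prime_three⟩
    exact SUH.zpowers_eq_top (finrank_of_cub C) (σ_ne_one C)
  have hτ2 : τ ∈ Subgroup.zpowers C.σ := by rw [hz]; exact Subgroup.mem_top _
  obtain ⟨n, hn, hτn⟩ : ∃ n < 3, C.σ ^ n = τ := by
    have hfin : IsOfFinOrder C.σ := isOfFinOrder_iff_pow_eq_one.mpr ⟨3, by norm_num, by
      rw [← orderOf_σ C]; exact pow_orderOf_eq_one _⟩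
    obtain ⟨n, hn⟩ := (Submonoid.mem_powers_iff _ _).mp (hfin.mem_powers_iff_mem_zpowers.mpr hτ2)
    refine ⟨n % 3, Nat.mod_lt _ (by norm_num), ?_⟩
    rw [← hn, ← orderOf_σ C, pow_mod_orderOf]
  rw [← hτ, ← hτn]
  interval_cases n
  · left; rw [pow_zero, SUH.act_one]
  · right; left; rw [pow_one]; rfl
  · right; right; rw [sq, ← SUH.act_act]; rfl

theorem Ram.exists_int {C : Cub K L} {v : Pl K} {w : Pl L} (h : Ram C v w) (a : 𝓞 L) :
    ∃ b : 𝓞 K, a - algebraMap (𝓞 K) (𝓞 L) b ∈ w.asIdeal := by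
  let φ : 𝓞 K →+* 𝓞 L ⧸ w.asIdeal :=
    (Ideal.Quotient.mk w.asIdeal).comp (algebraMap (𝓞 K) (𝓞 L))
  have hker : RingHom.ker φ = v.asIdeal := by
    ext b
    rw [RingHom.mem_ker, RingHom.comp_apply, Ideal.Quotient.eq_zero_iff_mem]
    exact (h.above b).symm
  have hcard : Nat.card (𝓞 K ⧸ RingHom.ker φ) = Nat.card (𝓞 L ⧸ w.asIdeal) := by
    rw [hker]
    have h1 := h.q_eq
    rw [qv, qv] at h1
    exact (by exact_mod_cast h1 : Ideal.absNorm w.asIdeal = Ideal.absNorm v.asIdeal).symm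
  have hfin : Finite (𝓞 L ⧸ w.asIdeal) := Ideal.finiteQuotientOfFreeOfNeBot _ w.ne_bot
  have hsurj : Function.Surjective (RingHom.kerLift φ) :=
    ((Nat.bijective_iff_injective_and_card _).mpr ⟨RingHom.kerLift_injective φ, hcard⟩).2
  obtain ⟨b', hb'⟩ := hsurj (Ideal.Quotient.mk _ a)
  obtain ⟨b, rfl⟩ := Ideal.Quotient.mk_surjective b'
  refine ⟨b, ?_⟩
  rw [← Ideal.Quotient.eq]
  exact hb'.symm

/-- `σ` acts trivially modulo a ramified place. -/
theorem Ram.inertia {C : Cub K L} {v : Pl K} {w : Pl L} (h : Ram C v w) {x : L}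
    (hx : av w x ≤ 1) : av w (C.σ x - x) < 1 := by
  obtain ⟨a, ha⟩ := E.exists_int_approx w hx (r := 2⁻¹) (by norm_num)
  obtain ⟨b, hb⟩ := h.exists_int a
  rw [← E.av_int_lt_one_iff] at hb
  have h1 : av w (x - algebraMap K L (b : K)) < 1 := by
    have e : x - algebraMap K L (b : K) = (x - algebraMap (𝓞 L) L a) +
        algebraMap (𝓞 L) L (a - algebraMap (𝓞 K) (𝓞 L) b) := by
      rw [map_sub]
      have : algebraMap (𝓞 L) L (algebraMap (𝓞 K) (𝓞 L) b) = algebraMap K L (b : K) := rfl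
      rw [this]; ring
    rw [e]
    exact (av_add_le w _ _).trans_lt (max_lt (ha.trans_lt (by norm_num)) hb)
  have h2 : C.σ x - x = C.σ (x - algebraMap K L (b : K)) - (x - algebraMap K L (b : K)) := by
    rw [map_sub, AlgEquiv.commutes]; ring
  rw [h2]
  refine (E.av_sub_le w _ _).trans_lt (max_lt ?_ h1)
  rwa [av_σ_of_fix C h.fix]

/-- the ramified places are finite in number -/
theorem ram_finite : {v : Pl K | ∃ w, Ram C v w}.Finite := by
  obtain ⟨x, hx⟩ := C.ne
  have hne : C.σ x - x ≠ 0 := sub_ne_zero.mpr hx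
  have hx0 : x ≠ 0 := by
    rintro rfl
    exact hx (map_zero _)
  have h1 : ({w : Pl L | av w x ≠ 1} ∪ {w : Pl L | av w (C.σ x - x) ≠ 1}).Finite :=
    (av_finite hx0).union (av_finite hne)
  refine (h1.image (SUH.below K)).subset ?_
  rintro v ⟨w, hw⟩
  refine ⟨w, ?_, (above_iff v w).mp hw.above⟩
  by_cases h2 : av w x ≤ 1
  · exact Or.inr (hw.inertia h2).ne
  · exact Or.inl fun h3 => h2 h3.le

end trichotomy

end Fermat.LT
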