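import Fermat.Agent.LT.Geo.Match

/-!
# Convolution of bi-`H`-invariant functions on `GL₂(F)` (LT, PMUL)

* `FinS H f` : finite support modulo `H`;
* `kcomp` calculus: invariance, associativity, unit;
* `convF` : bi-invariance, finite support, `kw_convF`, associativity, unit laws, bilinearity,
  norm inequality, commutativity.
-/

set_option autoImplicit false
set_option linter.unusedSectionVars false

open NumberField IsDedekindDomain Matrix
open Fermat.Agent.LT.D

namespace Fermat.LT

section kcomp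

variable {A : Type}

/-- a kernel with finite rows -/
def RowFin (κ : A → A → ℂ) : Prop := ∀ a, {b | κ a b ≠ 0}.Finite

/-- a kernel with finite columns -/
def ColFin (κ : A → A → ℂ) : Prop := ∀ b, {a | κ a b ≠ 0}.Finite

theorem RowFin.mul_right {κ : A → A → ℂ} (h : RowFin κ) (a : A) (φ : A → ℂ) :
    (Function.support fun x => κ a x * φ x).Finite :=
  (h a).subset fun _ hx => left_ne_zero_of_mul hx

theorem kcomp_eq_sum {κ κ' : A → A → ℂ} {a : A} {S : Finset A} (hS : ∀ x, κ a x ≠ 0 → x ∈ S)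
    (b : A) : kcomp κ κ' a b = ∑ x ∈ S, κ a x * κ' x b := by
  unfold kcomp
  exact finsum_eq_sum_of_support_subset _ fun x hx => hS x (left_ne_zero_of_mul hx)

theorem RowFin.kcomp {κ κ' : A → A → ℂ} (h : RowFin κ) (h' : RowFin κ') :
    RowFin (kcomp κ κ') := by
  intro a
  refine ((h a).biUnion fun x _ => h' x).subset ?_
  intro b hb
  simp only [Set.mem_iUnion, Set.mem_ofPred_eq]
  by_contra hc
  push Not at hc
  apply hb
  unfold LT.kcomp
  rw [finsum_eq_zero_of_forall_eq_zero]
  intro x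
  by_cases hx : κ a x = 0
  · rw [hx, zero_mul]
  · rw [hc x hx, mul_zero]

theorem ColFin.kcomp {κ κ' : A → A → ℂ} (h : ColFin κ) (h' : ColFin κ') :
    ColFin (kcomp κ κ') := by
  intro b
  refine ((h' b).biUnion fun x _ => h x).subset ?_
  intro a ha
  simp only [Set.mem_iUnion, Set.mem_ofPred_eq]
  by_contra hc
  push Not at hc
  apply ha
  unfold LT.kcomp
  rw [finsum_eq_zero_of_forall_eq_zero]
  intro x
  by_cases hx : κ' x b = 0
  · rw [hx, mul_zero]
  · rw [hc x hx, zero_mul]

theorem kcomp_assoc {κ κ' : A → A → ℂ} (h : RowFin κ) (h' : RowFin κ') (κ'' : A → A → ℂ) :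
    kcomp (kcomp κ κ') κ'' = kcomp κ (kcomp κ' κ'') := by
  classical
  funext a b
  set S := (h a).toFinset with hS
  set T := S.biUnion fun x => (h' x).toFinset with hT
  have hS' : ∀ x, κ a x ≠ 0 → x ∈ S := fun x hx => by rw [hS, Set.Finite.mem_toFinset]; exact hx
  have hT' : ∀ x ∈ S, ∀ y, κ' x y ≠ 0 → y ∈ T := fun x hx y hy => by
    rw [hT, Finset.mem_biUnion]
    exact ⟨x, hx, by rw [Set.Finite.mem_toFinset]; exact hy⟩
  rw [kcomp_eq_sum hS' b]
  have h1 : ∀ y, kcomp κ κ' a y = ∑ x ∈ S, κ a x * κ' x y := fun y => kcomp_eq_sum hS' y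
  have h2 : ∀ y, kcomp κ κ' a y ≠ 0 → y ∈ T := by
    intro y hy
    rw [h1] at hy
    obtain ⟨x, hx, hne⟩ := Finset.exists_ne_zero_of_sum_ne_zero hy
    exact hT' x hx y (right_ne_zero_of_mul hne)
  rw [kcomp_eq_sum h2 b]
  have h3 : ∀ x ∈ S, κ a x * kcomp κ' κ'' x b = ∑ y ∈ T, κ a x * (κ' x y * κ'' y b) := by
    intro x hx
    rw [kcomp_eq_sum (hT' x hx) b, Finset.mul_sum]
  rw [Finset.sum_congr rfl h3, Finset.sum_comm]
  refine Finset.sum_congr rfl fun y _ => ?_
  rw [h1, Finset.sum_mul]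
  exact Finset.sum_congr rfl fun x _ => mul_assoc _ _ _

open Classical in
/-- the unit kernel -/
noncomputable def unitK (a b : A) : ℂ := if a = b then 1 else 0

theorem unitK_self (a : A) : unitK a a = 1 := if_pos rfl

theorem unitK_ne {a b : A} (h : a ≠ b) : unitK a b = 0 := if_neg h

theorem rowFin_unitK : RowFin (unitK (A := A)) := by
  intro a
  refine (Set.finite_singleton a).subset fun b hb => ?_
  by_contra h
  exact hb (unitK_ne fun h' => h h'.symm)

theorem colFin_unitK : ColFin (unitK (A := A)) := by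
  intro a
  refine (Set.finite_singleton a).subset fun b hb => ?_
  by_contra h
  exact hb (unitK_ne fun h' => h h')

theorem kcomp_unitK_left (κ : A → A → ℂ) : kcomp unitK κ = κ := by
  funext a b
  unfold kcomp
  rw [finsum_eq_single _ a, unitK_self, one_mul]
  intro x hx
  rw [unitK_ne fun h => hx h.symm, zero_mul]

theorem kcomp_unitK_right (κ : A → A → ℂ) : kcomp κ unitK = κ := by
  funext a b
  unfold kcomp
  rw [finsum_eq_single _ b, unitK_self, mul_one]
  intro x hx
  rw [unitK_ne fun h => hx h, mul_zero]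

theorem kcomp_add_left {κ₁ κ₂ : A → A → ℂ} (h₁ : RowFin κ₁) (h₂ : RowFin κ₂) (κ' : A → A → ℂ) :
    kcomp (fun a b => κ₁ a b + κ₂ a b) κ' = fun a b => kcomp κ₁ κ' a b + kcomp κ₂ κ' a b := by
  funext a b
  unfold kcomp
  rw [← finsum_add_distrib (h₁.mul_right a _) (h₂.mul_right a _)]
  exact finsum_congr fun x => add_mul _ _ _

theorem kcomp_add_right {κ : A → A → ℂ} (h : RowFin κ) (κ₁ κ₂ : A → A → ℂ) :
    kcomp κ (fun a b => κ₁ a b + κ₂ a b) = fun a b => kcomp κ κ₁ a b + kcomp κ κ₂ a b := by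
  funext a b
  unfold kcomp
  rw [← finsum_add_distrib (h.mul_right a _) (h.mul_right a _)]
  exact finsum_congr fun x => mul_add _ _ _

theorem kcomp_smul_left (c : ℂ) (κ κ' : A → A → ℂ) :
    kcomp (fun a b => c * κ a b) κ' = fun a b => c * kcomp κ κ' a b := by
  funext a b
  unfold kcomp
  rw [← smul_eq_mul c (∑ᶠ x, κ a x * κ' x b), smul_finsum]
  exact finsum_congr fun x => by rw [smul_eq_mul, mul_assoc]

theorem kcomp_smul_right (c : ℂ) (κ κ' : A → A → ℂ) :
    kcomp κ (fun a b => c * κ' a b) = fun a b => c * kcomp κ κ' a b := by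
  funext a b
  unfold kcomp
  rw [← smul_eq_mul c (∑ᶠ x, κ a x * κ' x b), smul_finsum]
  exact finsum_congr fun x => by rw [smul_eq_mul, mul_left_comm]

theorem norm_kcomp_le {κ : A → A → ℂ} (h : RowFin κ) (κ' : A → A → ℂ) (a b : A) :
    ‖kcomp κ κ' a b‖ ≤ (kcomp (fun a b => ((‖κ a b‖ : ℝ) : ℂ)) (fun a b => ((‖κ' a b‖ : ℝ) : ℂ))
      a b).re := by
  classical
  have hS' : ∀ x, κ a x ≠ 0 → x ∈ (h a).toFinset := fun x hx => by
    rw [Set.Finite.mem_toFinset]; exact hx
  rw [kcomp_eq_sum hS', kcomp_eq_sum (S := (h a).toFinset) (fun x hx => hS' x (by simpa using hx)),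
    Complex.re_sum]
  refine (norm_sum_le _ _).trans (le_of_eq (Finset.sum_congr rfl fun x _ => ?_))
  rw [norm_mul, ← Complex.ofReal_mul, Complex.ofReal_re]

theorem kcomp_swap {κ κ' : A → A → ℂ} (hs : ∀ a b, κ a b = κ b a) (hs' : ∀ a b, κ' a b = κ' b a)
    (a b : A) : kcomp κ κ' a b = kcomp κ' κ b a := by
  unfold kcomp
  exact finsum_congr fun x => by rw [hs a x, hs' x b, mul_comm]

/-- transport along a bijection -/
theorem kcomp_comp_equiv {B : Type} (e : A ≃ B) (κ κ' : B → B → ℂ) (a b : A) :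
    kcomp (fun a b => κ (e a) (e b)) (fun a b => κ' (e a) (e b)) a b = kcomp κ κ' (e a) (e b) := by
  unfold kcomp
  exact finsum_comp_equiv e (f := fun x => κ (e a) x * κ' x (e b))

theorem kcomp_smul_smul {G : Type} [Group G] [MulAction G A] {κ κ' : A → A → ℂ}
    (h : ∀ (g : G) a b, κ (g • a) (g • b) = κ a b)
    (h' : ∀ (g : G) a b, κ' (g • a) (g • b) = κ' a b) (g : G) (a b : A) :
    kcomp κ κ' (g • a) (g • b) = kcomp κ κ' a b := by
  have := kcomp_comp_equiv (MulAction.toPerm g) κ κ' a b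
  simp only [MulAction.toPerm_apply, h, h'] at this
  exact this.symm

end kcomp

section convF

variable {F : Type} [Field F] {H : Subgroup (G2 F)} {f f' f'' : G2 F → ℂ}

/-- finite support modulo `H` (same condition as `Pure.f_fin`) -/
def FinS (H : Subgroup (G2 F)) (f : G2 F → ℂ) : Prop := {c : G2 F ⧸ H | f c.out ≠ 0}.Finite

theorem kw_one_left (hf : BiInv H f) (g : G2 F) :
    kw H f ((1 : G2 F) : G2 F ⧸ H) (g : G2 F ⧸ H) = f g := by
  rw [kw_mk hf, inv_one, one_mul]

theorem kw_one_left' (hf : BiInv H f) (c : G2 F ⧸ H) :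
    kw H f ((1 : G2 F) : G2 F ⧸ H) c = f c.out := by
  conv_lhs => rw [← QuotientGroup.out_eq' c]
  exact kw_one_left hf _

/-- two bi-invariant functions with the same kernel are equal -/
theorem kw_inj (hf : BiInv H f) (hf' : BiInv H f') (h : kw H f = kw H f') : f = f' := by
  funext g
  rw [← kw_one_left hf, ← kw_one_left hf', h]

theorem unitK_eq_kw : unitK (A := G2 F ⧸ H) = kw H (unitF H) := by
  funext a b
  rw [kw_unitF]
  unfold unitK
  split_ifs <;> rfl

/-- the bi-invariant function attached to an invariant kernel -/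
theorem biInv_of_kernel {κ : G2 F ⧸ H → G2 F ⧸ H → ℂ}
    (h : ∀ (g : G2 F) a b, κ (g • a) (g • b) = κ a b) :
    BiInv H (fun g => κ ((1 : G2 F) : G2 F ⧸ H) (g : G2 F ⧸ H)) := by
  intro h1 hh1 h2 hh2 g
  have e1 : ((h1 * g * h2 : G2 F) : G2 F ⧸ H) = h1 • (g : G2 F ⧸ H) := by
    change _ = ((h1 * g : G2 F) : G2 F ⧸ H)
    rw [QuotientGroup.eq]
    have : (h1 * g * h2)⁻¹ * (h1 * g) = h2⁻¹ := by group
    rw [this]
    exact inv_mem hh2
  have e2 : ((1 : G2 F) : G2 F ⧸ H) = h1 • ((1 : G2 F) : G2 F ⧸ H) := by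
    change _ = ((h1 * 1 : G2 F) : G2 F ⧸ H)
    rw [QuotientGroup.eq, inv_one, one_mul, mul_one]
    exact hh1
  change κ _ _ = κ _ _
  rw [e1]
  conv_lhs => rw [e2]
  exact h h1 _ _

theorem kw_of_kernel {κ : G2 F ⧸ H → G2 F ⧸ H → ℂ}
    (h : ∀ (g : G2 F) a b, κ (g • a) (g • b) = κ a b) :
    kw H (fun g => κ ((1 : G2 F) : G2 F ⧸ H) (g : G2 F ⧸ H)) = κ := by
  funext a b
  obtain ⟨a, rfl⟩ := QuotientGroup.mk_surjective a
  obtain ⟨b, rfl⟩ := QuotientGroup.mk_surjective b
  rw [kw_mk (biInv_of_kernel h), ← h a]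
  congr 1
  · change ((a * 1 : G2 F) : G2 F ⧸ H) = _
    rw [mul_one]
  · change ((a * (a⁻¹ * b) : G2 F) : G2 F ⧸ H) = _
    rw [mul_inv_cancel_left]

theorem rowFin_kw (hf : BiInv H f) (h : FinS H f) : RowFin (kw H f) := by
  intro a
  obtain ⟨g, rfl⟩ := QuotientGroup.mk_surjective a
  refine ((Set.Finite.preimage ((MulAction.injective g⁻¹).injOn) h)).subset ?_
  intro b hb
  simp only [Set.mem_preimage, Set.mem_ofPred_eq]
  rw [← kw_one_left' hf]
  have e : ((1 : G2 F) : G2 F ⧸ H) = g⁻¹ • (g : G2 F ⧸ H) := by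
    change _ = ((g⁻¹ * g : G2 F) : G2 F ⧸ H)
    rw [inv_mul_cancel]
  rw [e, kw_smul hf]
  exact hb

theorem finS_of_rowFin (hf : BiInv H f) (h : RowFin (kw H f)) : FinS H f := by
  refine (h ((1 : G2 F) : G2 F ⧸ H)).subset ?_
  intro c hc
  change kw H f _ _ ≠ 0
  rw [kw_one_left' hf]
  exact hc

theorem convF_eq_kcomp (hf : BiInv H f) (hf' : BiInv H f') (g : G2 F) :
    convF H f f' g = kcomp (kw H f) (kw H f') ((1 : G2 F) : G2 F ⧸ H) (g : G2 F ⧸ H) := by
  unfold convF kcomp
  refine finsum_congr fun x => ?_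
  rw [kw_one_left' hf]
  congr 1
  conv_rhs => rw [← QuotientGroup.out_eq' x]
  exact (kw_mk hf' _ _).symm

theorem kcomp_kw_smul (hf : BiInv H f) (hf' : BiInv H f') (g : G2 F) (a b : G2 F ⧸ H) :
    kcomp (kw H f) (kw H f') (g • a) (g • b) = kcomp (kw H f) (kw H f') a b :=
  kcomp_smul_smul (fun g a b => kw_smul hf g a b) (fun g a b => kw_smul hf' g a b) g a b

theorem biInv_convF (hf : BiInv H f) (hf' : BiInv H f') : BiInv H (convF H f f') := by
  have h : convF H f f' = fun g : G2 F => kcomp (kw H f) (kw H f') ((1 : G2 F) : G2 F ⧸ H)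
      (g : G2 F ⧸ H) := funext (convF_eq_kcomp hf hf')
  rw [h]
  exact biInv_of_kernel (kcomp_kw_smul hf hf')

/-- `kw` turns convolution into composition. -/
theorem kw_convF (hf : BiInv H f) (hf' : BiInv H f') :
    kw H (convF H f f') = kcomp (kw H f) (kw H f') := by
  have h : convF H f f' = fun g : G2 F => kcomp (kw H f) (kw H f') ((1 : G2 F) : G2 F ⧸ H)
      (g : G2 F ⧸ H) := funext (convF_eq_kcomp hf hf')
  rw [h]
  exact kw_of_kernel (kcomp_kw_smul hf hf')

theorem finS_convF (hf : BiInv H f) (hf' : BiInv H f') (h : FinS H f) (h' : FinS H f') :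
    FinS H (convF H f f') := by
  apply finS_of_rowFin (biInv_convF hf hf')
  rw [kw_convF hf hf']
  exact (rowFin_kw hf h).kcomp (rowFin_kw hf' h')

theorem finS_unitF : FinS H (unitF H) := by
  apply finS_of_rowFin (biInv_unitF H)
  rw [← unitK_eq_kw]
  exact rowFin_unitK

theorem convF_assoc (hf : BiInv H f) (hf' : BiInv H f') (hf'' : BiInv H f'') (h : FinS H f)
    (h' : FinS H f') : convF H (convF H f f') f'' = convF H f (convF H f' f'') := by
  apply kw_inj (biInv_convF (biInv_convF hf hf') hf'') (biInv_convF hf (biInv_convF hf' hf''))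
  rw [kw_convF (biInv_convF hf hf') hf'', kw_convF hf hf', kw_convF hf (biInv_convF hf' hf''),
    kw_convF hf' hf'']
  exact kcomp_assoc (rowFin_kw hf h) (rowFin_kw hf' h') _

theorem convF_unitF_left (hf : BiInv H f) : convF H (unitF H) f = f := by
  apply kw_inj (biInv_convF (biInv_unitF H) hf) hf
  rw [kw_convF (biInv_unitF H) hf, ← unitK_eq_kw, kcomp_unitK_left]

theorem convF_unitF_right (hf : BiInv H f) : convF H f (unitF H) = f := by
  apply kw_inj (biInv_convF hf (biInv_unitF H)) hf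
  rw [kw_convF hf (biInv_unitF H), ← unitK_eq_kw, kcomp_unitK_right]

theorem biInv_add (hf : BiInv H f) (hf' : BiInv H f') : BiInv H (fun g => f g + f' g) :=
  fun h hh h' hh' g => by
    change f _ + f' _ = _
    rw [hf h hh h' hh', hf' h hh h' hh']

theorem biInv_smul (c : ℂ) (hf : BiInv H f) : BiInv H (fun g => c * f g) :=
  fun h hh h' hh' g => by
    change c * f _ = _
    rw [hf h hh h' hh']

theorem biInv_zero : BiInv H (fun _ => 0) := fun _ _ _ _ _ => rfl

theorem biInv_sum {J : Type*} (S : Finset J) {f : J → G2 F → ℂ} (hf : ∀ j ∈ S, BiInv H (f j)) :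
    BiInv H (fun g => ∑ j ∈ S, f j g) :=
  fun h hh h' hh' g => Finset.sum_congr rfl fun j hj => hf j hj h hh h' hh' g

theorem finS_add (h : FinS H f) (h' : FinS H f') : FinS H (fun g => f g + f' g) := by
  refine (h.union h').subset ?_
  intro c hc
  by_contra hn
  simp only [Set.mem_union, Set.mem_ofPred_eq, not_or, not_not] at hn
  exact hc (by change f _ + f' _ = 0; rw [hn.1, hn.2, add_zero])

theorem finS_smul (c : ℂ) (h : FinS H f) : FinS H (fun g => c * f g) :=
  h.subset fun _ hc => right_ne_zero_of_mul hc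

theorem finS_zero : FinS H (fun _ => 0) := by
  simp [FinS]

theorem finS_sum {J : Type*} (S : Finset J) {f : J → G2 F → ℂ} (hf : ∀ j ∈ S, FinS H (f j)) :
    FinS H (fun g => ∑ j ∈ S, f j g) := by
  refine (S.finite_toSet.biUnion fun j hj => hf j hj).subset ?_
  intro c hc
  obtain ⟨j, hj, hne⟩ := Finset.exists_ne_zero_of_sum_ne_zero hc
  simp only [Set.mem_iUnion]
  exact ⟨j, hj, hne⟩

theorem support_conv_aux (h : FinS H f) (φ : G2 F ⧸ H → ℂ) :
    (Function.support fun x : G2 F ⧸ H => f x.out * φ x).Finite :=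
  h.subset fun _ hx => left_ne_zero_of_mul hx

theorem convF_add_left (h : FinS H f) (h' : FinS H f') (f'' : G2 F → ℂ) :
    convF H (fun g => f g + f' g) f'' = fun g => convF H f f'' g + convF H f' f'' g := by
  funext g
  unfold convF
  rw [← finsum_add_distrib (support_conv_aux h _) (support_conv_aux h' _)]
  exact finsum_congr fun x => add_mul _ _ _

theorem convF_add_right (h : FinS H f) (f' f'' : G2 F → ℂ) :
    convF H f (fun g => f' g + f'' g) = fun g => convF H f f' g + convF H f f'' g := by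
  funext g
  unfold convF
  rw [← finsum_add_distrib (support_conv_aux h _) (support_conv_aux h _)]
  exact finsum_congr fun x => mul_add _ _ _

theorem convF_smul_left (c : ℂ) (f f' : G2 F → ℂ) :
    convF H (fun g => c * f g) f' = fun g => c * convF H f f' g := by
  funext g
  unfold convF
  rw [← smul_eq_mul c, smul_finsum]
  exact finsum_congr fun x => by rw [smul_eq_mul, mul_assoc]

theorem convF_smul_right (c : ℂ) (f f' : G2 F → ℂ) :
    convF H f (fun g => c * f' g) = fun g => c * convF H f f' g := by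
  funext g
  unfold convF
  rw [← smul_eq_mul c, smul_finsum]
  exact finsum_congr fun x => by rw [smul_eq_mul, mul_left_comm]

theorem convF_sum_left {J : Type*} (S : Finset J) {f : J → G2 F → ℂ} (hf : ∀ j ∈ S, FinS H (f j))
    (f' : G2 F → ℂ) :
    convF H (fun g => ∑ j ∈ S, f j g) f' = fun g => ∑ j ∈ S, convF H (f j) f' g := by
  funext g
  unfold convF
  rw [← finsum_sum_comm]
  · exact finsum_congr fun x => Finset.sum_mul _ _ _
  · intro j hj
    exact support_conv_aux (hf j hj) _

theorem convF_sum_right {J : Type*} (S : Finset J) (h : FinS H f) (f' : J → G2 F → ℂ) :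
    convF H f (fun g => ∑ j ∈ S, f' j g) = fun g => ∑ j ∈ S, convF H f (f' j) g := by
  funext g
  unfold convF
  rw [← finsum_sum_comm]
  · exact finsum_congr fun x => Finset.mul_sum _ _ _
  · intro j _
    exact support_conv_aux h _

/-- the pointwise absolute value -/
noncomputable def absF (f : G2 F → ℂ) (g : G2 F) : ℂ := ((‖f g‖ : ℝ) : ℂ)

theorem biInv_absF (hf : BiInv H f) : BiInv H (absF f) := fun h hh h' hh' g => by
  change ((‖f _‖ : ℝ) : ℂ) = ((‖f _‖ : ℝ) : ℂ)
  rw [hf h hh h' hh']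

theorem finS_absF (h : FinS H f) : FinS H (absF f) := h.subset fun c hc => by
  simpa [absF] using hc

theorem absF_unitF : absF (unitF H) = unitF H := by
  funext g
  unfold absF unitF
  split_ifs <;> simp

theorem kw_absF (a b : G2 F ⧸ H) : kw H (absF f) a b = ((‖kw H f a b‖ : ℝ) : ℂ) := rfl

theorem norm_convF_le (h : FinS H f) (f' : G2 F → ℂ) (g : G2 F) :
    ‖convF H f f' g‖ ≤ (convF H (absF f) (absF f') g).re := by
  classical
  unfold FinS at h
  have h1 : convF H f f' g = ∑ x ∈ h.toFinset, f x.out * f' (x.out⁻¹ * g) := by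
    refine finsum_eq_sum_of_support_subset _ fun x hx => ?_
    rw [Finset.mem_coe, Set.Finite.mem_toFinset]
    exact left_ne_zero_of_mul hx
  have h2 : convF H (absF f) (absF f') g =
      ∑ x ∈ h.toFinset, absF f x.out * absF f' (x.out⁻¹ * g) := by
    refine finsum_eq_sum_of_support_subset _ fun x hx => ?_
    rw [Finset.mem_coe, Set.Finite.mem_toFinset]
    have := left_ne_zero_of_mul hx
    simpa [absF] using this
  rw [h1, h2, Complex.re_sum]
  refine (norm_sum_le _ _).trans (le_of_eq (Finset.sum_congr rfl fun x _ => ?_))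
  rw [norm_mul, absF, absF, ← Complex.ofReal_mul, Complex.ofReal_re]

theorem convF_absF_nonneg (f f' : G2 F → ℂ) (g : G2 F) :
    0 ≤ (convF H (absF f) (absF f') g).re ∧ (convF H (absF f) (absF f') g).im = 0 := by
  have : convF H (absF f) (absF f') g =
      ((∑ᶠ x : G2 F ⧸ H, ‖f x.out‖ * ‖f' (x.out⁻¹ * g)‖ : ℝ) : ℂ) := by
    unfold convF absF
    have := (Complex.ofRealHom.toAddMonoidHom.map_finsum_of_injective Complex.ofReal_injective
      (fun x : G2 F ⧸ H => ‖f x.out‖ * ‖f' (x.out⁻¹ * g)‖)).symm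
    simp only [← Complex.ofReal_mul]
    exact this
  rw [this]
  refine ⟨?_, Complex.ofReal_im _⟩
  rw [Complex.ofReal_re]
  exact finsum_nonneg fun x => mul_nonneg (norm_nonneg _) (norm_nonneg _)

/-- `‖|f| * |f'|‖ = (|f| * |f'|)` is real and nonnegative -/
theorem norm_convF_le' (h : FinS H f) (f' : G2 F → ℂ) (g : G2 F) :
    ‖convF H f f' g‖ ≤ ‖convF H (absF f) (absF f') g‖ :=
  (norm_convF_le h f' g).trans (Complex.re_le_norm _)

/-- symmetric functions: `f g⁻¹ = f g` -/
def SymF (f : G2 F → ℂ) : Prop := ∀ g, f g⁻¹ = f g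

theorem kw_symm_of_symF (hf : BiInv H f) (hs : SymF f) (a b : G2 F ⧸ H) :
    kw H f a b = kw H f b a := by
  obtain ⟨a, rfl⟩ := QuotientGroup.mk_surjective a
  obtain ⟨b, rfl⟩ := QuotientGroup.mk_surjective b
  rw [kw_mk hf, kw_mk hf, ← hs (b⁻¹ * a), _root_.mul_inv_rev, inv_inv]

theorem convF_comm_of_symF (hf : BiInv H f) (hf' : BiInv H f') (hs : SymF f) (hs' : SymF f')
    (hs'' : SymF (convF H f' f)) : convF H f f' = convF H f' f := by
  apply kw_inj (biInv_convF hf hf') (biInv_convF hf' hf)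
  funext a b
  rw [kw_convF hf hf', kcomp_swap (kw_symm_of_symF hf hs) (kw_symm_of_symF hf' hs'),
    ← kw_convF hf' hf]
  exact kw_symm_of_symF (biInv_convF hf' hf) hs'' b a

end convF

section mulaux

variable {F : Type} [Field F] {H : Subgroup (G2 F)}

/-- the convolution algebra of bi-invariant finitely supported functions, as a semigroup -/
structure HAlg (H : Subgroup (G2 F)) where
  /-- the underlying function -/
  f : G2 F → ℂ
  bi : BiInv H f
  fin : FinS H f

theorem HAlg.ext' {a b : HAlg H} (h : a.f = b.f) : a = b := by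
  cases a; cases b; congr

noncomputable instance : Monoid (HAlg H) where
  mul a b := ⟨convF H a.f b.f, biInv_convF a.bi b.bi, finS_convF a.bi b.bi a.fin b.fin⟩
  mul_assoc a b c := HAlg.ext' (convF_assoc a.bi b.bi c.bi a.fin b.fin)
  one := ⟨unitF H, biInv_unitF H, finS_unitF⟩
  one_mul a := HAlg.ext' (convF_unitF_left a.bi)
  mul_one a := HAlg.ext' (convF_unitF_right a.bi)

theorem HAlg.mul_f (a b : HAlg H) : (a * b).f = convF H a.f b.f := rfl

theorem HAlg.one_f : (1 : HAlg H).f = unitF H := rfl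

/-- `(a b c)(a' b' c') = (a a')(b b')(c c')` -/
theorem mul3_mul3 {M : Type*} [Monoid M] {a b c a' b' c' : M} (h1 : Commute a' b)
    (h2 : Commute a' c) (h3 : Commute b' c) :
    a * a' * (b * b') * (c * c') = a * b * c * (a' * b' * c') := by
  calc a * a' * (b * b') * (c * c') = a * (a' * b) * b' * c * c' := by simp only [mul_assoc]
    _ = a * (b * a') * b' * c * c' := by rw [h1.eq]
    _ = a * b * a' * (b' * c) * c' := by simp only [mul_assoc]
    _ = a * b * a' * (c * b') * c' := by rw [h3.eq]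
    _ = a * b * (a' * c) * b' * c' := by simp only [mul_assoc]
    _ = a * b * (c * a') * b' * c' := by rw [h2.eq]
    _ = _ := by simp only [mul_assoc]

end mulaux

end Fermat.LT
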