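import Fermat.Agent.LT.Geo.PushFinal

/-!
# LT, geometric side: combination of the local matchings
-/

set_option autoImplicit false
set_option linter.unusedSectionVars false

open NumberField IsDedekindDomain Matrix MeasureTheory
open Fermat.Agent.LT.D

namespace Fermat.LT

variable {K L : Type} [Field K] [NumberField K] [Field L] [NumberField L] [Algebra K L]

namespace GeoDatum

variable {C : Cub K L}

theorem Good.abs {G : GeoDatum C} {k : Pure G.DL.toDatum} (h : Good k) : Good k.abs where
  inert v hv := by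
    funext g
    change ((‖k.f (G.up v) g‖ : ℝ) : ℂ) = _
    rw [h.inert v hv]
    unfold unitF
    split_ifs <;> simp
  ram v hv := by
    funext g
    change ((‖k.f (G.up v) g‖ : ℝ) : ℂ) = _
    rw [h.ram v hv]
    unfold T1
    split_ifs <;> simp

/-- matching at the inert places -/
def LocInert (G : GeoDatum C) (γ : G2 K) (δ : G2 L) : Prop :=
  ∃ P : ∀ v, G.AL v → Yl G.U0 v,
    (∀ v, Inert C v (G.up v) → ∀ k : Pure G.DL.toDatum, Good k → LocMatch k v γ δ (P v)) ∧
    {v | Inert C v (G.up v) ∧ ∃ k : Pure G.DL.toDatum, Good k ∧ ¬ LocGood k v δ (P v)}.Finite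

/-- matching at the split places -/
def LocSplit (G : GeoDatum C) (γ : G2 K) (δ : G2 L) : Prop :=
  ∃ P : ∀ v, G.AL v → Yl G.U0 v,
    (∀ v, Split C v (G.up v) → ∀ k : Pure G.DL.toDatum, LocMatch k v γ δ (P v)) ∧
    ∀ k : Pure G.DL.toDatum, {v | Split C v (G.up v) ∧ ¬ LocGood k v δ (P v)}.Finite

/-- matching at the ramified places -/
def LocRam (G : GeoDatum C) (γ : G2 K) (δ : G2 L) : Prop :=
  ∃ P : ∀ v, G.AL v → Yl G.U0 v,
    ∀ v, Ram C v (G.up v) → ∀ k : Pure G.DL.toDatum, Good k → LocMatch k v γ δ (P v)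

/-- **Combination**: a projection realising the push-forward formula for all good `k`. -/
theorem exists_push_of (G : GeoDatum C) {γ : G2 K} {δ : G2 L} (hc : Corr C γ δ)
    (hI : LocInert G γ δ) (hS : LocSplit G γ δ) (hR : LocRam G γ δ) :
    ∃ P : X G.DL.toDatum → X G.DK0, ∀ k : Pure G.DL.toDatum, Good k → IsPush k γ δ P := by
  classical
  obtain ⟨PI, hI, hIf⟩ := hI
  obtain ⟨PS, hS, hSf⟩ := hS
  obtain ⟨PR, hR⟩ := hR
  let P : ∀ v, G.AL v → Yl G.U0 v := fun v =>
    if Split C v (G.up v) then PS v else if Ram C v (G.up v) then PR v else PI v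
  have hPS : ∀ v, Split C v (G.up v) → P v = PS v := fun v h => if_pos h
  have hPR : ∀ v, ¬ Split C v (G.up v) → Ram C v (G.up v) → P v = PR v := fun v h h' => by
    change (if _ then _ else _) = _
    rw [if_neg h, if_pos h']
  have hPI : ∀ v, ¬ Split C v (G.up v) → ¬ Ram C v (G.up v) → P v = PI v := fun v h h' => by
    change (if _ then _ else _) = _
    rw [if_neg h, if_neg h']
  have hIn : ∀ v, ¬ Split C v (G.up v) → ¬ Ram C v (G.up v) → Inert C v (G.up v) :=
    fun v h h' => by
      rcases G.typ v with h1 | h1 | h1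
      · exact absurd h1 h
      · exact h1
      · exact absurd h1 h'
  have hl : ∀ k : Pure G.DL.toDatum, Good k → ∀ v, LocMatch k v γ δ (P v) := by
    intro k hk v
    by_cases h : Split C v (G.up v)
    · rw [hPS v h]; exact hS v h k
    · by_cases h' : Ram C v (G.up v)
      · rw [hPR v h h']; exact hR v h' k hk
      · rw [hPI v h h']; exact hI v (hIn v h h') k hk
  refine ⟨glueX P 0, fun k hk => pushFormula G k γ δ hc P (hl k hk) (hl k.abs hk.abs) ?_⟩
  refine ((hIf.union (hSf k)).union G.ram_fin).subset ?_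
  intro v hv
  by_cases h : Split C v (G.up v)
  · left; right
    refine ⟨h, ?_⟩
    rw [← hPS v h]
    exact hv
  · by_cases h' : Ram C v (G.up v)
    · right; exact h'
    · left; left
      refine ⟨hIn v h h', k, hk, ?_⟩
      rw [← hPI v h h']
      exact hv

end GeoDatum

end Fermat.LT
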