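import Fermat.Agent.LT.Geo.Setup

/-!
# LT, geometric side: the comparison datum, local matching and the push-forward formula (statements)

* `GeoDatum` : everything needed to compare `L` (twisted by `σ`) with `K`;
* `AL v` : the local space above the place `v` of `K`; `Fv` : the local twisted weight;
  `Gv` : the matching weight on the (flat) `K`-side;
* `LocMatch`, `LocGood` : the local statements (E1), (E2), (E3);
* `bK` : the matching test function on the (deep level) `K`-side.
-/

set_option autoImplicit false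
set_option linter.unusedSectionVars false

open NumberField IsDedekindDomain Matrix
open Fermat.Agent.LT.D

namespace Fermat.LT

section functions

variable {F : Type} [Field F]

/-- `tr² / det` -/
def td (g : G2 F) : F := g.1.trace ^ 2 / g.1.det

/-- composition of kernels on a discrete set -/
noncomputable def kcomp {A : Type} (κ κ' : A → A → ℂ) (a b : A) : ℂ := ∑ᶠ x, κ a x * κ' x b

/-- convolution of bi-`H`-invariant functions -/
noncomputable def convF (H : Subgroup (G2 F)) (f f' : G2 F → ℂ) (g : G2 F) : ℂ :=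
  ∑ᶠ x : G2 F ⧸ H, f x.out * f' (x.out⁻¹ * g)

variable [NumberField F]

open Classical in
/-- the function `distance = 1` (Hecke operator `T_w`) -/
noncomputable def T1 (w : Pl F) (g : G2 F) : ℂ :=
  if nm w g.1 * nm w (g⁻¹).1 = qv w then 1 else 0

end functions

variable {K L : Type} [Field K] [NumberField K] [Field L] [NumberField L] [Algebra K L]

open Classical in
/-- the class function at a ramified place: `1` if `|x| ≤ 1`; if `|x| > 1`, `3` or `0` according to
whether `x` is close to some `m + 2 + m⁻¹`, `m` a norm. -/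
noncomputable def phiR (C : Cub K L) (v : Pl K) (n : ℕ) (x : K) : ℂ :=
  if av v x ≤ 1 then 1
  else if ∃ (b : L) (m : K), b ≠ 0 ∧ algebraMap K L m = C.nL b ∧
    av v (m + 2 + m⁻¹ - x) ≤ av v x * (qv v)⁻¹ ^ n then 3 else 0

/-- Comparison datum for `L/K`; `K` has a unique complex place. -/
structure GeoDatum (C : Cub K L) where
  DL : TwDatum C
  AK : Arch K
  uK : Unique AK.I
  /-- deep level -/
  U : Level K
  /-- flat level: full at the ramified places -/
  U0 : Level K
  /-- chosen complex place of `L` -/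
  ι : DL.I
  emb_ι : ∀ x : K, DL.emb ι (algebraMap K L x) = AK.emb uK.default x
  cover : ∀ i, i = ι ∨ i = DL.perm ι ∨ i = DL.perm (DL.perm ι)
  /-- chosen place of `L` above a place of `K` -/
  up : Pl K → Pl L
  down : Pl L → Pl K
  above : ∀ w, Above (down w) w
  up_down : ∀ w, w = up (down w) ∨ w = pl C (up (down w)) ∨ w = pl C (pl C (up (down w)))
  down_up : ∀ v, down (up v) = v
  down_pl : ∀ w, down (pl C w) = down w
  typ : ∀ v, Split C v (up v) ∨ Inert C v (up v) ∨ Ram C v (up v)
  H_split : ∀ v, Split C v (up v) → ∀ g, g ∈ U0.H v ↔ Cub.Inc g ∈ DL.H (up v)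
  H_inert : ∀ v, Inert C v (up v) → DL.H (up v) = stdH (up v) ∧ U0.H v = stdH v
  H_ram : ∀ v, Ram C v (up v) → DL.H (up v) = stdH (up v) ∧ U0.H v = stdH v
  U_le : ∀ v, U.H v ≤ U0.H v
  U_eq : ∀ v, ¬ Ram C v (up v) → U.H v = U0.H v
  /-- precision at the ramified places -/
  nr : Pl K → ℕ
  nr_big : ∀ v, Ram C v (up v) → (qv v)⁻¹ ^ nr v < av v 9
  ram_fin : {v | Ram C v (up v)}.Finite
  U_ram : ∀ v, Ram C v (up v) → ∀ g ∈ U.H v, ∀ g', nm v g'.1 * nm v (g'⁻¹).1 = qv v →
    phiR C v (nr v) (td (g * g')) = phiR C v (nr v) (td g') ∧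
    phiR C v (nr v) (td (g' * g)) = phiR C v (nr v) (td g')

namespace GeoDatum

variable {C : Cub K L} (G : GeoDatum C)

/-- deep datum for `K` -/
abbrev DK : Datum K := { G.AK with toLevel := G.U }

/-- flat datum for `K` -/
abbrev DK0 : Datum K := { G.AK with toLevel := G.U0 }

/-- the local space of `L` above a place of `K` -/
def AL (v : Pl K) : Type := ∀ w : {w : Pl L // G.down w = v}, Yl G.DL.toLevel w.1

variable {G}

/-- action of `GL₂(L)` -/
def smulA {v : Pl K} (g : G2 L) (y : G.AL v) : G.AL v := fun w => g • y w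

/-- twisted action -/
noncomputable def twA {v : Pl K} (δ : G2 L) (y : G.AL v) : G.AL v := fun w =>
  δ • G.DL.σl ((pl C).apply_symm_apply w.1)
    (y ⟨(pl C).symm w.1, by rw [← G.down_pl, (pl C).apply_symm_apply]; exact w.2⟩)

/-- base point -/
def baseA (v : Pl K) : G.AL v := fun w => ((1 : G2 L) : Yl G.DL.toLevel w.1)

/-- local component of a point -/
def comp (v : Pl K) (y : Y G.DL.toLevel) : G.AL v := fun w => y w.1

variable (k : Pure G.DL.toDatum)

/-- the local twisted weight `∏_{w|v} k_w(y_w, (δσy)_w)` -/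
noncomputable def Fv (v : Pl K) (δ : G2 L) (y : G.AL v) : ℂ :=
  ∏ᶠ w : {w : Pl L // G.down w = v}, kw (G.DL.H w.1) (k.f w.1) (y w) (twA δ y w)

/-- test functions which can be matched -/
structure Good : Prop where
  inert : ∀ v, Inert C v (G.up v) → k.f (G.up v) = unitF (stdH (G.up v))
  ram : ∀ v, Ram C v (G.up v) → k.f (G.up v) = T1 (G.up v)

/-- the three components at a split place, as functions on `GL₂(K)` -/
noncomputable def fs (v : Pl K) (j : Fin 3) (g : G2 K) : ℂ :=
  k.f ((((pl C).symm)^[(j : ℕ)]) (G.up v)) (Cub.Inc g)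

open Classical in
/-- the finite components of the matching function on the flat side, for a class `γ`. -/
noncomputable def Gv (v : Pl K) (γ : G2 K) (z : Yl G.U0 v) : ℂ :=
  if Split C v (G.up v) then
    kw (G.U0.H v) (convF (G.U0.H v) (convF (G.U0.H v) (fs k v 0) (fs k v 1)) (fs k v 2)) z (γ • z)
  else if Ram C v (G.up v) then
    phiR C v (G.nr v) (td γ) * kw (G.U0.H v) (T1 v) z (γ • z)
  else kw (G.U0.H v) (unitF (G.U0.H v)) z (γ • z)

open Classical in
/-- the finite components of the matching function on the deep side. -/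
noncomputable def bf (v : Pl K) (g : G2 K) : ℂ :=
  if Split C v (G.up v) then
    convF (G.U0.H v) (convF (G.U0.H v) (fs k v 0) (fs k v 1)) (fs k v 2) g
  else if Ram C v (G.up v) then
    ((G.U.H v).relIndex (G.U0.H v) : ℂ)⁻¹ * (T1 v g * phiR C v (G.nr v) (td g))
  else unitF (G.U0.H v) g

/-- Local matching at `v` for `γ`, `δ`, realised by the projection `P`. -/
structure LocMatch (v : Pl K) (γ : G2 K) (δ : G2 L) (P : G.AL v → Yl G.U0 v) : Prop where
  fin : ∀ z, {y | P y = z ∧ Fv k v δ y ≠ 0}.Finite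
  sum : ∀ z, ∑ᶠ y ∈ {y | P y = z ∧ Fv k v δ y ≠ 0}, Fv k v δ y = Gv k v γ z
  eqv : ∀ t : G2 K, t * γ = γ * t → ∀ y, Fv k v δ y ≠ 0 → P (smulA (Cub.Inc t) y) = t • P y

/-- Good places. -/
structure LocGood (v : Pl K) (δ : G2 L) (P : G.AL v → Yl G.U0 v) : Prop where
  base : P (baseA v) = ((1 : G2 K) : Yl G.U0 v)
  one : Fv k v δ (baseA v) = 1
  uniq : ∀ y, Fv k v δ y ≠ 0 → P y = ((1 : G2 K) : Yl G.U0 v) → y = baseA v

/-- `δ` and `γ` correspond. -/
def Corr (C : Cub K L) (γ : G2 K) (δ : G2 L) : Prop :=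
  Disc γ.1 ∧ δ ∈ Cub.Z (L := L) γ ∧ ∃ c : Lˣ, C.N δ = Cub.sc c * Cub.Inc γ

/-- archimedean composition of point pair invariants -/
noncomputable def acomp (a b : H3 → H3 → ℂ) (P Q : H3) : ℂ := ∫ R, a P R * b R Q

/-- the archimedean component on the `K`-side -/
noncomputable def ba : H3 → H3 → ℂ :=
  acomp (acomp (k.a G.ι) (k.a (G.DL.perm G.ι))) (k.a (G.DL.perm (G.DL.perm G.ι)))

/-- the weight on the flat space `X_K^♭` attached to `γ` -/
noncomputable def flatW (γ : G2 K) (z : X G.DK0) : ℂ :=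
  ba k (z.1 G.uK.default) ((γ • z.1) G.uK.default) * ∏ᶠ v, Gv k v γ (z.2 v)

open Classical in
/-- the global finite projection glued from local ones (junk value if not almost everywhere
trivial) -/
noncomputable def glueY (P : ∀ v, G.AL v → Yl G.U0 v) (y : Y G.DL.toLevel) : Y G.U0 :=
  if h : {v | P v (comp v y) ≠ ((1 : G2 K) : Yl G.U0 v)}.Finite then
    ⟨fun v => P v (comp v y), h⟩
  else ⟨fun v => ((1 : G2 K) : Yl G.U0 v), by simp⟩

/-- the global projection glued from local ones and from the `j`-th complex place above `ι` -/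
noncomputable def glueX (P : ∀ v, G.AL v → Yl G.U0 v) (j : ℕ) (x : X G.DL.toDatum) : X G.DK0 :=
  (fun _ => x.1 ((G.DL.perm)^[j] G.ι), glueY P x.2)

/-- `|k|` -/
noncomputable def _root_.Fermat.LT.Pure.abs {F : Type} [Field F] [NumberField F] {D : Datum F}
    (k : Pure D) : Pure D where
  a i P Q := ((‖k.a i P Q‖ : ℝ) : ℂ)
  f w g := ((‖k.f w g‖ : ℝ) : ℂ)
  a_inv i g P Q := by rw [k.a_inv]
  a_cont i := Complex.continuous_ofReal.comp (continuous_norm.comp (k.a_cont i))
  a_supp := by
    obtain ⟨R, hR⟩ := k.a_supp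
    exact ⟨R, fun i P Q h => hR i P Q (by simpa using h)⟩
  f_bi w h hh h' hh' g := by
    change ((‖k.f w (h * g * h')‖ : ℝ) : ℂ) = ((‖k.f w g‖ : ℝ) : ℂ)
    rw [k.f_bi w h hh h' hh']
  f_fin w := by
    refine (k.f_fin w).subset ?_
    intro c hc
    simpa using hc
  f_one := by
    refine k.f_one.subset ?_
    intro w hw hc
    apply hw
    funext g
    rw [hc]
    unfold unitF
    split_ifs <;> simp

/-- `P` realises the push-forward formula (E*). -/
structure IsPush (γ : G2 K) (δ : G2 L) (P : X G.DL.toDatum → X G.DK0) : Prop where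
  meas : Measurable P
  eqv : ∀ t : G2 K, t * γ = γ * t → ∀ x, k.ker x (δ • G.DL.σX x) ≠ 0 →
    P ((Cub.Inc t : G2 L) • x) = t • P x
  push : ∀ Φ : X G.DK0 → ℝ, Measurable Φ →
    MeasureTheory.Integrable (fun z => flatW k.abs γ z * (Φ z : ℂ)) →
    MeasureTheory.Integrable (fun x => k.ker x (δ • G.DL.σX x) * (Φ (P x) : ℂ)) ∧
    ∫ x, k.ker x (δ • G.DL.σX x) * (Φ (P x) : ℂ) = ∫ z, flatW k γ z * (Φ z : ℂ)

/-- The push-forward formula (E*), statement. -/
def PushFormula (G : GeoDatum C) : Prop :=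
  ∀ (k : Pure G.DL.toDatum) (γ : G2 K) (δ : G2 L), Corr C γ δ →
    ∀ P : ∀ v, G.AL v → Yl G.U0 v, (∀ v, LocMatch k v γ δ (P v)) →
      (∀ v, LocMatch k.abs v γ δ (P v)) →
      {v | ¬ LocGood k v δ (P v)}.Finite → IsPush k γ δ (glueX P 0)

end GeoDatum

end Fermat.LT
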