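import Fermat.Agent.LT.A.Compare
import Fermat.Agent.LT.Geo.Match
import Fermat.Agent.LT.Geo.AvPl
import Fermat.Agent.LT.A.H3Top

/-!
# LT, geometric side: no hyperbolic, parabolic or central classes

A test kernel whose component at a place `u` with `q_u` large is supported on matrices of odd
determinant valuation only meets elliptic classes.

* `OddAt w g`, `EvenAt w g` : parity of `v_w (det g)`; `oddAt_of_dl`, `evenAt_of_dl`;
* `noHyp_of_bounds`, `noHyp_flat` : (`K`-side, any datum) `k.ker z (γ • z) ≠ 0 → Ell γ`;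
* `noHyp_tw_of_bounds`, `noHyp_tw` : (`L`-side) `k.ker x (δ • σX x) ≠ 0 → Ell (N δ)`.
-/

set_option autoImplicit false
set_option linter.unusedSectionVars false

open NumberField IsDedekindDomain Matrix
open Fermat.Agent.LT.D

namespace Fermat.LT

variable {F : Type} [Field F] [NumberField F]

section parity

theorem NoHyp.exists_zpow (w : Pl F) {x : F} (hx : x ≠ 0) : ∃ n : ℤ, av w x = qv w ^ n := by
  have h : w.valuation F x ≠ 0 := (Valuation.ne_zero_iff _).2 hx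
  refine ⟨(WithZero.unzero h).toAdd, ?_⟩
  rw [av, NumberField.HeightOneSpectrum.adicAbv_def, WithZeroMulInt.toNNReal_neg_apply _ h, qv]
  push_cast
  rfl

theorem NoHyp.zpow_inj (w : Pl F) {m n : ℤ} (h : qv w ^ m = qv w ^ n) : m = n :=
  zpow_right_injective₀ (qv_pos w) (one_lt_qv w).ne' h

/-- `v_w (det g)` is odd -/
def OddAt (w : Pl F) (g : G2 F) : Prop := ∃ m : ℤ, Odd m ∧ av w g.1.det = qv w ^ m

/-- `v_w (det g)` is even -/
def EvenAt (w : Pl F) (g : G2 F) : Prop := ∃ m : ℤ, Even m ∧ av w g.1.det = qv w ^ m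

variable {w : Pl F} {g h : G2 F}

theorem NoHyp.av_det_mul (w : Pl F) (g h : G2 F) :
    av w (g * h).1.det = av w g.1.det * av w h.1.det := by
  rw [Units.val_mul, Matrix.det_mul, map_mul]

theorem NoHyp.av_det_inv (w : Pl F) (g : G2 F) : av w (g⁻¹).1.det = (av w g.1.det)⁻¹ := by
  have h3 : av w g.1.det * av w (g⁻¹).1.det = 1 := by
    rw [← NoHyp.av_det_mul, mul_inv_cancel, Units.val_one, det_one, map_one]
  exact eq_inv_of_mul_eq_one_right h3

theorem EvenAt.mul (hg : EvenAt w g) (hh : EvenAt w h) : EvenAt w (g * h) := by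
  obtain ⟨m, hm, e⟩ := hg
  obtain ⟨n, hn, e'⟩ := hh
  exact ⟨m + n, hm.add hn, by rw [NoHyp.av_det_mul, e, e', zpow_add₀ (qv_pos w).ne']⟩

theorem OddAt.mul_even (hg : OddAt w g) (hh : EvenAt w h) : OddAt w (g * h) := by
  obtain ⟨m, hm, e⟩ := hg
  obtain ⟨n, hn, e'⟩ := hh
  exact ⟨m + n, hm.add_even hn, by rw [NoHyp.av_det_mul, e, e', zpow_add₀ (qv_pos w).ne']⟩

theorem EvenAt.mul_odd (hg : EvenAt w g) (hh : OddAt w h) : OddAt w (g * h) := by
  obtain ⟨m, hm, e⟩ := hg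
  obtain ⟨n, hn, e'⟩ := hh
  exact ⟨m + n, hm.add_odd hn, by rw [NoHyp.av_det_mul, e, e', zpow_add₀ (qv_pos w).ne']⟩

theorem OddAt.mul (hg : OddAt w g) (hh : OddAt w h) : EvenAt w (g * h) := by
  obtain ⟨m, hm, e⟩ := hg
  obtain ⟨n, hn, e'⟩ := hh
  exact ⟨m + n, hm.add_odd hn, by rw [NoHyp.av_det_mul, e, e', zpow_add₀ (qv_pos w).ne']⟩

theorem EvenAt.inv (hg : EvenAt w g) : EvenAt w g⁻¹ := by
  obtain ⟨m, hm, e⟩ := hg
  exact ⟨-m, hm.neg, by rw [NoHyp.av_det_inv, e, _root_.zpow_neg]⟩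

theorem OddAt.inv (hg : OddAt w g) : OddAt w g⁻¹ := by
  obtain ⟨m, hm, e⟩ := hg
  exact ⟨-m, hm.neg, by rw [NoHyp.av_det_inv, e, _root_.zpow_neg]⟩

theorem evenAt_or_oddAt (w : Pl F) (g : G2 F) : EvenAt w g ∨ OddAt w g := by
  have hd : g.1.det ≠ 0 := g.det_ne_zero
  obtain ⟨m, hm⟩ := NoHyp.exists_zpow w hd
  rcases Int.even_or_odd m with h | h
  · exact Or.inl ⟨m, h, hm⟩
  · exact Or.inr ⟨m, h, hm⟩

theorem OddAt.not_evenAt (hg : OddAt w g) : ¬ EvenAt w g := by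
  rintro ⟨n, hn, e'⟩
  obtain ⟨m, hm, e⟩ := hg
  rw [e] at e'
  have := NoHyp.zpow_inj w e'
  subst this
  exact (Int.not_even_iff_odd.2 hm) hn

theorem NoHyp.det_of_dl {n : ℕ} (hd : dl w g = qv w ^ n) :
    ∃ a : ℤ, av w g.1.det = qv w ^ (2 * a - n) := by
  obtain ⟨c, hc⟩ := exists_nm_eq w g
  obtain ⟨a, ha⟩ := NoHyp.exists_zpow w c.ne_zero
  refine ⟨a, ?_⟩
  have hq := (qv_pos w).ne'
  have hdet : av w g.1.det ≠ 0 := (av w).ne_zero g.det_ne_zero
  rw [dl_eq, hc, ha] at hd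
  rw [zpow_sub₀ hq, zpow_natCast, ← hd, two_mul, zpow_add₀ hq]
  have hqa : qv w ^ a ≠ 0 := zpow_ne_zero _ hq
  field_simp

theorem oddAt_of_dl {n : ℕ} (hn : Odd n) (hd : dl w g = qv w ^ n) : OddAt w g := by
  obtain ⟨a, ha⟩ := NoHyp.det_of_dl hd
  refine ⟨_, ?_, ha⟩
  have h2 : Odd (n : ℤ) := by exact_mod_cast hn
  exact (even_two_mul a).sub_odd h2

theorem evenAt_of_dl {n : ℕ} (hn : Even n) (hd : dl w g = qv w ^ n) : EvenAt w g := by
  obtain ⟨a, ha⟩ := NoHyp.det_of_dl hd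
  refine ⟨_, ?_, ha⟩
  have h2 : Even (n : ℤ) := by exact_mod_cast hn
  exact (even_two_mul a).sub h2

theorem evenAt_of_mem (hg : g ∈ stdH w) : EvenAt w g :=
  evenAt_of_dl (n := 0) (by decide) (by rw [(dl_eq_one_iff w g).2 hg, pow_zero])

theorem evenAt_of_unitF {H : Subgroup (G2 F)} (hH : H ≤ stdH w) (hg : unitF H g ≠ 0) :
    EvenAt w g := by
  apply evenAt_of_mem
  apply hH
  by_contra hc
  exact hg (if_neg hc)

/-- conjugation does not change the parity -/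
theorem OddAt.of_conj (y : G2 F) (hg : OddAt w (y⁻¹ * (g * y))) : OddAt w g := by
  obtain ⟨m, hm, e⟩ := hg
  refine ⟨m, hm, ?_⟩
  rw [← e, NoHyp.av_det_mul, NoHyp.av_det_mul, NoHyp.av_det_inv]
  have : av w y.1.det ≠ 0 := (av w).ne_zero y.det_ne_zero
  field_simp

end parity

namespace NoHyp

section localbounds

theorem av_le_dlY {U : Level F} (w : Pl F) {γ : G2 F} {v : Fin 2 → F} (hv : v ≠ 0) {l : F}
    (hl : l ≠ 0) (h : γ.1 *ᵥ v = l • v) (y : Yl U w) :
    av w (l ^ 2 / γ.1.det) ≤ dlY w y (γ • y) ∧ (av w (l ^ 2 / γ.1.det))⁻¹ ≤ dlY w y (γ • y) := by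
  have h1 := hY_equiv w γ v y
  rw [h, hY_smul] at h1
  have hA : 0 < av w l := (av w).pos hl
  have hD : 0 < av w γ.1.det := (av w).pos γ.det_ne_zero
  have hp := hY_pos w hv y
  have hp' := hY_pos w hv (γ • y)
  have e : hY w v (γ • y) = av w (l ^ 2 / γ.1.det) * hY w v y := by
    rw [map_div₀, map_pow]
    field_simp at h1 ⊢
    linarith
  have ha : 0 < av w (l ^ 2 / γ.1.det) := by rw [map_div₀, map_pow]; positivity
  have h2 := hY_le w v y (γ • y)
  have h3 := hY_le w v (γ • y) y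
  rw [dlY_comm] at h3
  constructor
  · rw [e] at h2
    exact le_of_mul_le_mul_right h2 hp
  · rw [e] at h3
    rw [inv_le_iff_one_le_mul₀ ha]
    have : 1 * hY w v y ≤ (dlY w y (γ • y) * av w (l ^ 2 / γ.1.det)) * hY w v y := by
      rw [one_mul, mul_assoc]; exact h3
    exact le_of_mul_le_mul_right this hp

theorem norm_le_arch {A : Arch F} {γ : G2 F} {v : Fin 2 → F} (hv : v ≠ 0) {l : F}
    (hl : l ≠ 0) (h : γ.1 *ᵥ v = l • v) (x : XI A) (i : A.I) {B : ℝ}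
    (h1 : ∀ a b, ((γ • x) i).Q a b ≤ B * (x i).Q a b)
    (h2 : ∀ a b, (x i).Q a b ≤ B * ((γ • x) i).Q a b) :
    ‖A.emb i (l ^ 2 / γ.1.det)‖ ≤ B ∧ ‖A.emb i (l ^ 2 / γ.1.det)‖⁻¹ ≤ B := by
  have e2 : ∀ a b, (Matrix.GeneralLinearGroup.map (n := Fin 2) (A.emb i) γ) a b
      = A.emb i (γ.1 a b) := fun a b => rfl
  have e3 := H3.Q_smul_apply (Matrix.GeneralLinearGroup.map (n := Fin 2) (A.emb i) γ) (x i)
    (A.emb i (v 0)) (A.emb i (v 1))
  have e4 : ∀ a, A.emb i ((γ.1 *ᵥ v) a) = A.emb i (γ.1 a 0) * A.emb i (v 0)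
      + A.emb i (γ.1 a 1) * A.emb i (v 1) := by
    intro a
    rw [Matrix.mulVec, dotProduct, Fin.sum_univ_two, map_add, map_mul, map_mul]
  have e5 : ((Matrix.GeneralLinearGroup.map (n := Fin 2) (A.emb i) γ : G2 ℂ)
      : Matrix (Fin 2) (Fin 2) ℂ).det = A.emb i γ.1.det := by
    rw [Matrix.det_fin_two, Matrix.det_fin_two, e2, e2, e2, e2, map_sub, map_mul, map_mul]
  rw [e2, e2, e2, e2, e5, ← e4, ← e4, h] at e3
  simp only [Pi.smul_apply, smul_eq_mul, map_mul] at e3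
  rw [H3.Q_smul, Complex.normSq_eq_norm_sq] at e3
  have e6 : (x i).Q (A.emb i (v 0)) (A.emb i (v 1)) = ‖A.emb i (l ^ 2 / γ.1.det)‖ *
      ((γ • x) i).Q (A.emb i (v 0)) (A.emb i (v 1)) := by
    have hd : 0 < ‖A.emb i γ.1.det‖ := norm_pos_iff.2 ((map_ne_zero _).2 γ.det_ne_zero)
    rw [map_div₀, map_pow, norm_div, norm_pow]
    have e7 : ((γ • x) i) = (Matrix.GeneralLinearGroup.map (n := Fin 2) (A.emb i) γ) • (x i) := rfl
    rw [e7]
    rw [div_mul_eq_mul_div, eq_div_iff hd.ne', mul_comm, ← e3]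
  have hne : A.emb i (v 0) ≠ 0 ∨ A.emb i (v 1) ≠ 0 := by
    by_contra hc
    simp only [ne_eq, map_eq_zero, not_or, not_not] at hc
    apply hv
    ext j; fin_cases j
    exacts [hc.1, hc.2]
  have hQ := (x i).Q_pos hne
  have hQ' := ((γ • x) i).Q_pos hne
  have ha : 0 < ‖A.emb i (l ^ 2 / γ.1.det)‖ :=
    norm_pos_iff.2 ((map_ne_zero _).2 (div_ne_zero (pow_ne_zero _ hl) γ.det_ne_zero))
  constructor
  · have h3 := h2 (A.emb i (v 0)) (A.emb i (v 1))
    rw [e6] at h3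
    exact le_of_mul_le_mul_right h3 hQ'
  · have h3 := h1 (A.emb i (v 0)) (A.emb i (v 1))
    rw [e6] at h3
    rw [inv_le_iff_one_le_mul₀ ha]
    have : 1 * ((γ • x) i).Q (A.emb i (v 0)) (A.emb i (v 1)) ≤
        (B * ‖A.emb i (l ^ 2 / γ.1.det)‖) * ((γ • x) i).Q (A.emb i (v 0)) (A.emb i (v 1)) := by
      rw [one_mul, mul_assoc]; exact h3
    exact le_of_mul_le_mul_right this hQ'

/-- global inequality from the product formula -/
theorem one_le (A : Arch F) {a : F} (ha : a ≠ 0) (S : Finset (Pl F)) {c : Pl F → ℝ}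
    (hc1 : ∀ w, 1 ≤ c w) (hc : {w | c w ≠ 1}.Finite) {r : ℝ}
    (h1 : ∀ i, ‖A.emb i a‖ ≤ r) (h2 : ∀ w, w ∉ S → av w a ≤ c w) :
    1 ≤ (∏ w ∈ S, av w a) * ((∏ _i : A.I, r ^ 2) * ∏ᶠ w, c w) := by
  classical
  set T : Finset (Pl F) := S ∪ ((av_finite ha).union hc).toFinset with hT
  have hTm : ∀ w, w ∉ T → av w a = 1 ∧ c w = 1 := by
    intro w hw
    rw [hT, Finset.mem_union, not_or, Set.Finite.mem_toFinset] at hw
    simpa only [Set.mem_union, Set.mem_ofPred_eq, not_or, not_not] using hw.2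
  have P := prod_formula A ha
  rw [finprod_eq_prod_of_mulSupport_subset (s := T) (fun w => av w a) (by
        intro w hw; by_contra h; exact hw (hTm w h).1)] at P
  rw [finprod_eq_prod_of_mulSupport_subset (s := T) (fun w => c w) (by
        intro w hw; by_contra h; exact hw (hTm w h).2)]
  have hST : S ⊆ T := Finset.subset_union_left
  rw [← Finset.prod_sdiff hST (f := fun w => av w a)] at P
  have i1 : ∏ i, ‖A.emb i a‖ ^ 2 ≤ ∏ _i : A.I, r ^ 2 :=
    Finset.prod_le_prod (fun i _ => by positivity) fun i _ => pow_le_pow_left₀ (norm_nonneg _) (h1 i) 2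
  have i2 : ∏ w ∈ T \ S, av w a ≤ ∏ w ∈ T \ S, c w :=
    Finset.prod_le_prod (fun w _ => (av w).nonneg _) fun w hw => h2 w (Finset.mem_sdiff.1 hw).2
  have i3 : ∏ w ∈ T \ S, c w ≤ ∏ w ∈ T, c w := by
    rw [← Finset.prod_sdiff hST (f := fun w => c w)]
    refine le_mul_of_one_le_right (Finset.prod_nonneg fun w _ => zero_le_one.trans (hc1 w)) ?_
    calc (1 : ℝ) = ∏ w ∈ S, 1 := by simp
      _ ≤ _ := Finset.prod_le_prod (fun w _ => zero_le_one) fun w _ => hc1 w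
  have p1 : 0 ≤ ∏ w ∈ S, av w a := Finset.prod_nonneg fun w _ => (av w).nonneg _
  have p2 : 0 ≤ ∏ w ∈ T \ S, av w a := Finset.prod_nonneg fun w _ => (av w).nonneg _
  have p3 : 0 ≤ ∏ _i : A.I, r ^ 2 := Finset.prod_nonneg fun _ _ => by positivity
  calc (1 : ℝ) = (∏ w ∈ S, av w a) * ((∏ i, ‖A.emb i a‖ ^ 2) * ∏ w ∈ T \ S, av w a) := by
        rw [← P]; ring
    _ ≤ (∏ w ∈ S, av w a) * ((∏ _i : A.I, r ^ 2) * ∏ w ∈ T, c w) :=
        mul_le_mul_of_nonneg_left (mul_le_mul i1 (i2.trans i3) p2 p3) p1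

/-- a non elliptic matrix has an eigenvector -/
theorem exists_eigen {F : Type} [Field F] {γ : G2 F} (h : ¬ Ell γ.1) :
    ∃ (v : Fin 2 → F) (l : F), v ≠ 0 ∧ l ≠ 0 ∧ γ.1 *ᵥ v = l • v ∧
      l ^ 2 - γ.1.trace * l + γ.1.det = 0 := by
  unfold Ell at h
  push Not at h
  obtain ⟨l, hl⟩ := h
  have hdet : (γ.1 - l • (1 : Matrix (Fin 2) (Fin 2) F)).det = 0 := by
    rw [← hl, Matrix.trace_fin_two, Matrix.det_fin_two, Matrix.det_fin_two]
    simp
    ring
  obtain ⟨v, hv, hv2⟩ := Matrix.exists_mulVec_eq_zero_iff.2 hdet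
  have h3 : γ.1 *ᵥ v = l • v := by
    rw [Matrix.sub_mulVec, sub_eq_zero] at hv2
    rw [hv2, Matrix.smul_mulVec, Matrix.one_mulVec]
  refine ⟨v, l, hv, ?_, h3, hl⟩
  rintro rfl
  have hd : γ.1.det ≠ 0 := γ.det_ne_zero
  apply hd
  simpa using hl

end localbounds

section kernels

variable {D : Datum F} {k : Pure D}

theorem ker_ne_zero {x y : X D} (h : k.ker x y ≠ 0) : (∀ i, k.a i (x.1 i) (y.1 i) ≠ 0) ∧
    ∀ w, kw (D.H w) (k.f w) (x.2 w) (y.2 w) ≠ 0 := by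
  have h1 : k.kerI x.1 y.1 ≠ 0 := left_ne_zero_of_mul h
  have h2 : k.kerY x.2 y.2 ≠ 0 := right_ne_zero_of_mul h
  refine ⟨fun i hi => h1 (Finset.prod_eq_zero (Finset.mem_univ i) hi), fun w hw => h2 ?_⟩
  have hfin : {w | kw (D.H w) (k.f w) (x.2 w) (y.2 w) ≠ 1}.Finite := by
    refine ((k.f_one.union x.2.fin).union y.2.fin).subset ?_
    intro w hw
    by_contra hc
    simp only [Set.mem_union, Set.mem_ofPred_eq, not_or, not_not] at hc
    apply hw
    rw [hc.1.1, hc.1.2, hc.2, kw_unitF, if_pos rfl]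
  unfold Pure.kerY
  rw [finprod_eq_prod_of_mulSupport_subset (s := hfin.toFinset) _ (by
    intro w hw; simpa using hw)]
  refine Finset.prod_eq_zero (i := w) ?_ hw
  rw [Set.Finite.mem_toFinset, Set.mem_ofPred_eq, hw]
  exact zero_ne_one

theorem dlY_le_of_kw {w : Pl F} {c : ℝ} (hf : ∀ g, k.f w g ≠ 0 → dl w g ≤ c)
    {a b : Yl D.toLevel w} (h : kw (D.H w) (k.f w) a b ≠ 0) : dlY w a b ≤ c := by
  obtain ⟨a, rfl⟩ := QuotientGroup.mk_surjective a
  obtain ⟨b, rfl⟩ := QuotientGroup.mk_surjective b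
  rw [kw_mk (k.f_bi w)] at h
  exact hf _ h

/-- support bounds of a pure tensor -/
theorem exists_bounds (k : Pure D) : ∃ (R : ℝ) (c : Pl F → ℝ), 1 ≤ R ∧
    (∀ i P Q, k.a i P Q ≠ 0 → H3.ch P Q ≤ R) ∧ (∀ w, 1 ≤ c w) ∧ {w | c w ≠ 1}.Finite ∧
    ∀ w g, k.f w g ≠ 0 → dl w g ≤ c w := by
  classical
  obtain ⟨R, hR⟩ := k.a_supp
  have h1 : ∀ w, ∃ c : ℝ, 1 ≤ c ∧ (k.f w = unitF (D.H w) → c = 1) ∧
      ∀ g, k.f w g ≠ 0 → dl w g ≤ c := by
    intro w
    by_cases hw : k.f w = unitF (D.H w)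
    · refine ⟨1, le_rfl, fun _ => rfl, fun g hg => ?_⟩
      rw [dl_le_one_iff]
      apply D.le_std w
      by_contra hc
      rw [hw] at hg
      exact hg (if_neg hc)
    · have hfin := k.f_fin w
      refine ⟨1 + ∑ c ∈ hfin.toFinset, dl w c.out, ?_, fun h => absurd h hw, fun g hg => ?_⟩
      · have : 0 ≤ ∑ c ∈ hfin.toFinset, dl w c.out :=
          Finset.sum_nonneg fun c _ => (dl_pos w _).le
        linarith
      · obtain ⟨h, hh⟩ := QuotientGroup.mk_out_eq_mul (D.H w) g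
        have e1 : k.f w (g : Yl D.toLevel w).out = k.f w g := by
          have := k.f_bi w 1 (one_mem _) h.1 h.2 g
          rw [one_mul] at this
          rw [hh, this]
        have e2 : dl w (g : Yl D.toLevel w).out = dl w g := by
          rw [hh, dl_mul_right w g (D.le_std w h.2)]
        have h3 : (g : Yl D.toLevel w) ∈ hfin.toFinset := by
          rw [Set.Finite.mem_toFinset, Set.mem_ofPred_eq, e1]
          exact hg
        have h4 := Finset.single_le_sum (f := fun c : Yl D.toLevel w => dl w c.out)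
          (fun c _ => (dl_pos w _).le) h3
        simp only [e2] at h4
        linarith
  choose c hc1 hc2 hc3 using h1
  refine ⟨max 1 R, c, le_max_left _ _, fun i P Q h => (hR i P Q h).trans (le_max_right _ _), hc1,
    ?_, hc3⟩
  refine k.f_one.subset ?_
  intro w hw h
  exact hw (hc2 w h)

end kernels

end NoHyp

section flat

variable {D : Datum F}

open NoHyp

/-- **No hyperbolic classes**, flat version with explicit bounds. -/
theorem noHyp_of_bounds {k : Pure D} {u : Pl F} {R : ℝ} {c : Pl F → ℝ} (hc1 : ∀ w, 1 ≤ c w)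
    (hc : {w | c w ≠ 1}.Finite) (ha : ∀ i P Q, k.a i P Q ≠ 0 → H3.ch P Q ≤ R)
    (hf : ∀ w, w ≠ u → ∀ g, k.f w g ≠ 0 → dl w g ≤ c w) (hu : ∀ g, k.f u g ≠ 0 → OddAt u g)
    (hq : (∏ _i : D.I, (2 * R) ^ 2) * ∏ᶠ w, c w < qv u) {γ : G2 F} {z : X D}
    (hz : k.ker z (γ • z) ≠ 0) : Ell γ.1 := by
  by_contra hE
  obtain ⟨v, l, hv, hl, hvl, -⟩ := exists_eigen hE
  obtain ⟨hz1, hz2⟩ := ker_ne_zero hz
  set a : F := l ^ 2 / γ.1.det with ha'
  have hd : γ.1.det ≠ 0 := γ.det_ne_zero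
  have ha0 : a ≠ 0 := div_ne_zero (pow_ne_zero _ hl) hd
  -- archimedean bounds
  have hinf : ∀ i, ‖D.emb i a‖ ≤ 2 * R ∧ ‖D.emb i a‖⁻¹ ≤ 2 * R := by
    intro i
    have h1 := ha i _ _ (hz1 i)
    have h2 := H3.one_le_ch (z.1 i) ((γ • z).1 i)
    refine norm_le_arch (A := D.toArch) hv hl hvl z.1 i (fun x y => ?_) (fun x y => ?_)
    · refine (H3.Q_le (z.1 i) _ x y).trans ?_
      exact mul_le_mul_of_nonneg_right (by
        have : H3.ch (z.1 i) ((γ • z.1) i) ≤ R := h1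
        linarith) (H3.Q_nonneg _ _ _)
    · refine (H3.Q_le ((γ • z.1) i) _ x y).trans ?_
      exact mul_le_mul_of_nonneg_right (by
        have : H3.ch (z.1 i) ((γ • z.1) i) ≤ R := h1
        rw [H3.ch_comm] at this
        linarith) (H3.Q_nonneg _ _ _)
  -- finite bounds
  have hfin : ∀ w, w ≠ u → av w a ≤ c w ∧ (av w a)⁻¹ ≤ c w := by
    intro w hw
    have h1 := av_le_dlY w hv hl hvl (z.2 w)
    have h2 : dlY w (z.2 w) (γ • z.2 w) ≤ c w := dlY_le_of_kw (hf w hw) (hz2 w)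
    exact ⟨h1.1.trans h2, h1.2.trans h2⟩
  -- parity at `u`
  have hodd : OddAt u γ := by
    obtain ⟨y, hy⟩ := QuotientGroup.mk_surjective (z.2 u)
    have h1 := hz2 u
    have h2 : (γ • z).2 u = ((γ * y : G2 F) : Yl D.toLevel u) := by
      change γ • (z.2 u) = _
      rw [← hy]; rfl
    rw [h2, ← hy, kw_mk (k.f_bi u)] at h1
    exact OddAt.of_conj y (hu _ h1)
  obtain ⟨m, hm, hmd⟩ := hodd
  obtain ⟨n, hn⟩ := NoHyp.exists_zpow u hl
  have hqu := one_lt_qv u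
  have hq0 := (qv_pos u).ne'
  have hau : av u a = qv u ^ (2 * n - m) := by
    rw [ha', map_div₀, map_pow, hn, hmd, zpow_sub₀ hq0, two_mul, zpow_add₀ hq0, sq]
  have hne : 2 * n - m ≠ 0 := by
    obtain ⟨j, rfl⟩ := hm
    omega
  have hQpos : 0 ≤ (∏ _i : D.I, (2 * R) ^ 2) * ∏ᶠ w, c w :=
    mul_nonneg (Finset.prod_nonneg fun _ _ => by positivity)
      (finprod_nonneg fun w => zero_le_one.trans (hc1 w))
  have key : ∀ b : F, b ≠ 0 → (∀ i, ‖D.emb i b‖ ≤ 2 * R) → (∀ w, w ≠ u → av w b ≤ c w) →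
      av u b ≤ (qv u)⁻¹ → False := by
    intro b hb0 hb1 hb2 hb3
    have h1 := one_le D.toArch hb0 {u} hc1 hc hb1 (fun w hw => hb2 w (by simpa using hw))
    rw [Finset.prod_singleton] at h1
    have h2 : (1 : ℝ) ≤ (qv u)⁻¹ * ((∏ _i : D.I, (2 * R) ^ 2) * ∏ᶠ w, c w) :=
      h1.trans (mul_le_mul_of_nonneg_right hb3 hQpos)
    rw [inv_mul_eq_div, one_le_div (qv_pos u)] at h2
    exact absurd h2 (not_le.2 hq)
  rcases lt_or_gt_of_ne hne with h | h
  · refine key a ha0 (fun i => (hinf i).1) (fun w hw => (hfin w hw).1) ?_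
    rw [hau, ← _root_.zpow_neg_one]
    exact zpow_le_zpow_right₀ hqu.le (by omega)
  · refine key a⁻¹ (inv_ne_zero ha0) (fun i => ?_) (fun w hw => ?_) ?_
    · rw [map_inv₀, norm_inv]; exact (hinf i).2
    · rw [map_inv₀]; exact (hfin w hw).2
    · rw [map_inv₀, hau, ← _root_.zpow_neg, ← _root_.zpow_neg_one]
      exact zpow_le_zpow_right₀ hqu.le (by omega)

/-- **No hyperbolic classes** (flat version). `B` only depends on `k`; `k'` is any modification of
`k` at `u`. -/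
theorem noHyp_flat (k : Pure D) : ∃ B : ℝ, ∀ u : Pl F, B < qv u → ∀ k' : Pure D,
    (∀ i P Q, k'.a i P Q ≠ 0 → k.a i P Q ≠ 0) →
    (∀ w, w ≠ u → ∀ g, k'.f w g ≠ 0 → k.f w g ≠ 0) →
    (∀ g, k'.f u g ≠ 0 → OddAt u g) →
    ∀ γ : G2 F, (∃ z : X D, k'.ker z (γ • z) ≠ 0) → Ell γ.1 := by
  obtain ⟨R, c, hR, ha, hc1, hc, hf⟩ := NoHyp.exists_bounds k
  refine ⟨_, fun u hu k' h1 h2 h3 γ ⟨z, hz⟩ => noHyp_of_bounds hc1 hc
    (fun i P Q h => ha i P Q (h1 i P Q h)) (fun w hw g h => hf w g (h2 w hw g h)) h3 hu hz⟩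

end flat

section twisted

variable {K L : Type} [Field K] [NumberField K] [Field L] [NumberField L] [Algebra K L]
  {C : Cub K L}

namespace NoHyp

theorem dl_pl (w : Pl L) (g : G2 L) : dl (pl C w) (C.S g) = dl w g := by
  rw [dl, dl, ← map_inv]
  change nm (pl C w) (C.s g.1) * nm (pl C w) (C.s (g⁻¹).1) = _
  rw [nm_pl, nm_pl]

variable {D : TwDatum C}

theorem dlY_σl {w w' : Pl L} (h : pl C w = w') (a b : Yl D.toLevel w) :
    dlY w' (D.σl h a) (D.σl h b) = dlY w a b := by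
  subst h
  obtain ⟨a, rfl⟩ := QuotientGroup.mk_surjective a
  obtain ⟨b, rfl⟩ := QuotientGroup.mk_surjective b
  rw [TwDatum.σl_mk, TwDatum.σl_mk, dlY_mk, dlY_mk, ← map_inv, ← map_mul, dl_pl]

/-- the twisted action -/
noncomputable def tau (D : TwDatum C) (δ : G2 L) (x : X D.toDatum) : X D.toDatum := δ • D.σX x

theorem tau_cube (δ : G2 L) (x : X D.toDatum) :
    tau D δ (tau D δ (tau D δ x)) = C.N δ • x := by
  unfold tau
  rw [D.σX_smul, D.σX_smul, D.σX_smul, D.σX_cube, smul_smul, smul_smul, Cub.N, mul_assoc]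

theorem dlY_tau (δ : G2 L) (x y : X D.toDatum) {w w' : Pl L} (h : pl C w = w') :
    dlY w' ((tau D δ x).2 w') ((tau D δ y).2 w') = dlY w (x.2 w) (y.2 w) := by
  have e : ∀ x : X D.toDatum, (tau D δ x).2 w' = δ • D.σl h (x.2 w) := by
    intro x
    change δ • (D.σY x.2 w') = _
    rw [D.σY_apply' x.2 h]
  rw [e, e, dlY_smul, dlY_σl]

theorem ch_tau (δ : G2 L) (x y : X D.toDatum) (i : D.I) :
    H3.ch ((tau D δ x).1 i) ((tau D δ y).1 i) = H3.ch (x.1 (D.perm i)) (y.1 (D.perm i)) :=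
  H3.ch_smul _ _ _

theorem trace_N (δ : G2 L) : C.σ (C.N δ).1.trace = (C.N δ).1.trace := by
  have e : C.S (C.N δ) = δ⁻¹ * C.N δ * δ := by
    simp only [Cub.N, map_mul, Cub.S_cube]
    group
  rw [← C.s_trace, ← Cub.coe_S, e, Units.val_mul, Units.val_mul, Matrix.trace_mul_comm,
    ← Matrix.mul_assoc, ← Units.val_mul, mul_inv_cancel, Units.val_one, Matrix.one_mul]

theorem det_N' (δ : G2 L) :
    (C.N δ).1.det = δ.1.det * C.σ δ.1.det * C.σ (C.σ δ.1.det) := by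
  rw [Cub.N, Units.val_mul, Units.val_mul, Matrix.det_mul, Matrix.det_mul, Cub.coe_S, Cub.coe_S,
    C.s_det, C.s_det, Cub.coe_S, C.s_det]

theorem σ_det_N (δ : G2 L) : C.σ (C.N δ).1.det = (C.N δ).1.det := by
  rw [det_N', map_mul, map_mul, C.cube]
  ring

/-- eigenvalues of `N δ` which lie in `L` are fixed by `σ` -/
theorem σ_eigen {δ : G2 L} {l : L} (h : l ^ 2 - (C.N δ).1.trace * l + (C.N δ).1.det = 0) :
    C.σ l = l := by
  have h1 := congrArg C.σ h
  rw [map_add, map_sub, map_mul, map_pow, trace_N, σ_det_N, map_zero] at h1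
  have h2 : (C.σ l - l) * (C.σ l + l - (C.N δ).1.trace) = 0 := by
    linear_combination h1 - h
  rcases mul_eq_zero.1 h2 with h3 | h3
  · exact sub_eq_zero.1 h3
  · have h4 : C.σ l = (C.N δ).1.trace - l := by linear_combination h3
    have h5 : C.σ (C.σ l) = l := by
      rw [h4, map_sub, trace_N, h4]
      ring
    have h6 := C.cube l
    rw [h5] at h6
    exact h6

end NoHyp

open NoHyp

/-- **No hyperbolic classes**, twisted version with explicit bounds. -/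
theorem noHyp_tw_of_bounds {D : TwDatum C} {k : Pure D.toDatum} {u : Pl L} {R : ℝ} {c : Pl L → ℝ}
    (hc1 : ∀ w, 1 ≤ c w) (hc : {w | c w ≠ 1}.Finite)
    (ha : ∀ i P Q, k.a i P Q ≠ 0 → H3.ch P Q ≤ R)
    (hf : ∀ w, w ≠ u → w ≠ pl C u → w ≠ pl C (pl C u) → ∀ g, k.f w g ≠ 0 → dl w g ≤ c w)
    (hu : ∀ g, k.f u g ≠ 0 → OddAt u g) (hu1 : ∀ g, k.f (pl C u) g ≠ 0 → EvenAt (pl C u) g)
    (hu2 : ∀ g, k.f (pl C (pl C u)) g ≠ 0 → EvenAt (pl C (pl C u)) g)
    (hq : (∏ _i : D.I, ((2 * R) ^ 3) ^ 2) *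
      ∏ᶠ w, (c w * c ((pl C).symm w) * c ((pl C).symm ((pl C).symm w))) < qv u)
    {δ : G2 L} {x : X D.toDatum} (hx : k.ker x (δ • D.σX x) ≠ 0) : Ell (C.N δ).1 := by
  classical
  by_contra hE
  obtain ⟨v, l, hv, hl, hvl, hl2⟩ := exists_eigen hE
  have hσl := σ_eigen hl2
  set d : L := (C.N δ).1.det with hd'
  have hd : d ≠ 0 := (C.N δ).det_ne_zero
  set a : L := l ^ 2 / d with ha'
  have ha0 : a ≠ 0 := div_ne_zero (pow_ne_zero _ hl) hd
  have hσa : C.σ a = a := by rw [ha', map_div₀, map_pow, hσl, σ_det_N]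
  change k.ker x (tau D δ x) ≠ 0 at hx
  obtain ⟨hx1, hx2⟩ := ker_ne_zero hx
  -- the exceptional places
  have hp3 : pl C (pl C (pl C u)) = u := TwDatum.pl_cube u
  set S : Finset (Pl L) := {u, pl C u, pl C (pl C u)} with hS
  have hSm : ∀ w, w ∉ S ↔ w ≠ u ∧ w ≠ pl C u ∧ w ≠ pl C (pl C u) := by
    intro w
    rw [hS, Finset.mem_insert, Finset.mem_insert, Finset.mem_singleton, not_or, not_or]
  have hSs : ∀ w, w ∉ S → (pl C).symm w ∉ S := by
    intro w hw
    rw [hSm] at hw ⊢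
    refine ⟨fun h => hw.2.1 ?_, fun h => hw.2.2 ?_, fun h => hw.1 ?_⟩
    · rw [← h, Equiv.apply_symm_apply]
    · rw [← h, Equiv.apply_symm_apply]
    · rw [← hp3, ← h, Equiv.apply_symm_apply]
  -- archimedean bounds
  have hinf : ∀ i, ‖D.emb i a‖ ≤ (2 * R) ^ 3 ∧ ‖D.emb i a‖⁻¹ ≤ (2 * R) ^ 3 := by
    have b0 : ∀ i, H3.ch (x.1 i) ((tau D δ x).1 i) ≤ R := fun i => ha i _ _ (hx1 i)
    have b1 : ∀ i, H3.ch ((tau D δ x).1 i) ((tau D δ (tau D δ x)).1 i) ≤ R := fun i => by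
      rw [ch_tau]; exact b0 _
    have b2 : ∀ i, H3.ch ((tau D δ (tau D δ x)).1 i) ((tau D δ (tau D δ (tau D δ x))).1 i) ≤ R :=
      fun i => by rw [ch_tau]; exact b1 _
    have q0 : ∀ P Q : H3, H3.ch P Q ≤ R → ∀ y z, Q.Q y z ≤ (2 * R) * P.Q y z := by
      intro P Q h y z
      refine (H3.Q_le P Q y z).trans ?_
      exact mul_le_mul_of_nonneg_right (by linarith) (H3.Q_nonneg _ _ _)
    have q1 : ∀ P Q : H3, H3.ch P Q ≤ R → ∀ y z, P.Q y z ≤ (2 * R) * Q.Q y z := by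
      intro P Q h y z
      rw [H3.ch_comm] at h
      exact q0 Q P h y z
    intro i
    have hR : 0 ≤ 2 * R := by
      have h1 := b0 i
      have h2 := H3.one_le_ch (x.1 i) ((tau D δ x).1 i)
      linarith
    have e3 : ((tau D δ (tau D δ (tau D δ x))).1 i) = (C.N δ • x.1) i := by
      rw [tau_cube]; rfl
    refine norm_le_arch (A := D.toArch) hv hl hvl x.1 i (fun y z => ?_) (fun y z => ?_)
    · rw [← e3]
      calc _ ≤ (2 * R) * ((tau D δ (tau D δ x)).1 i).Q y z := q0 _ _ (b2 i) y z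
        _ ≤ (2 * R) * ((2 * R) * ((tau D δ x).1 i).Q y z) :=
          mul_le_mul_of_nonneg_left (q0 _ _ (b1 i) y z) hR
        _ ≤ (2 * R) * ((2 * R) * ((2 * R) * (x.1 i).Q y z)) :=
          mul_le_mul_of_nonneg_left (mul_le_mul_of_nonneg_left (q0 _ _ (b0 i) y z) hR) hR
        _ = _ := by ring
    · rw [← e3]
      calc (x.1 i).Q y z ≤ (2 * R) * ((tau D δ x).1 i).Q y z := q1 _ _ (b0 i) y z
        _ ≤ (2 * R) * ((2 * R) * ((tau D δ (tau D δ x)).1 i).Q y z) :=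
          mul_le_mul_of_nonneg_left (q1 _ _ (b1 i) y z) hR
        _ ≤ (2 * R) * ((2 * R) * ((2 * R) *
              ((tau D δ (tau D δ (tau D δ x))).1 i).Q y z)) :=
          mul_le_mul_of_nonneg_left (mul_le_mul_of_nonneg_left (q1 _ _ (b2 i) y z) hR) hR
        _ = _ := by ring
  -- finite bounds
  set c' : Pl L → ℝ := fun w => c w * c ((pl C).symm w) * c ((pl C).symm ((pl C).symm w)) with hc'
  have hc'1 : ∀ w, 1 ≤ c' w := fun w =>
    one_le_mul_of_one_le_of_one_le (one_le_mul_of_one_le_of_one_le (hc1 _) (hc1 _)) (hc1 _)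
  have hc'f : {w | c' w ≠ 1}.Finite := by
    refine ((hc.union (hc.preimage ((pl C).symm.injective.injOn))).union
      ((hc.preimage ((pl C).symm.injective.injOn)).preimage
        ((pl C).symm.injective.injOn))).subset ?_
    intro w hw
    by_contra h
    simp only [Set.mem_union, Set.mem_ofPred_eq, Set.mem_preimage, not_or, not_not] at h
    apply hw
    simp only [hc', h.1.1, h.1.2, h.2, mul_one]
  have t0 : ∀ w, w ∉ S → dlY w (x.2 w) ((tau D δ x).2 w) ≤ c w := by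
    intro w hw
    rw [hSm] at hw
    exact dlY_le_of_kw (hf w hw.1 hw.2.1 hw.2.2) (hx2 w)
  have t1 : ∀ w, w ∉ S → dlY w ((tau D δ x).2 w) ((tau D δ (tau D δ x)).2 w) ≤
      c ((pl C).symm w) := by
    intro w hw
    rw [dlY_tau δ _ _ ((pl C).apply_symm_apply w)]
    exact t0 _ (hSs w hw)
  have t2 : ∀ w, w ∉ S → dlY w ((tau D δ (tau D δ x)).2 w)
      ((tau D δ (tau D δ (tau D δ x))).2 w) ≤ c ((pl C).symm ((pl C).symm w)) := by
    intro w hw
    rw [dlY_tau δ _ _ ((pl C).apply_symm_apply w)]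
    exact t1 _ (hSs w hw)
  have hfin : ∀ w, w ∉ S → av w a ≤ c' w ∧ (av w a)⁻¹ ≤ c' w := by
    intro w hw
    have h1 := av_le_dlY w hv hl hvl (x.2 w)
    have h2 : dlY w (x.2 w) (C.N δ • x.2 w) ≤ c' w := by
      have e3 : ((tau D δ (tau D δ (tau D δ x))).2 w) = C.N δ • x.2 w := by
        rw [tau_cube]; rfl
      rw [← e3]
      have z0 : ∀ a b, 0 ≤ dlY (U := D.toLevel) w a b := fun a b => zero_le_one.trans (one_le_dlY w a b)
      calc _ ≤ dlY w (x.2 w) ((tau D δ (tau D δ x)).2 w) *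
            dlY w ((tau D δ (tau D δ x)).2 w) ((tau D δ (tau D δ (tau D δ x))).2 w) :=
            dlY_triangle w _ _ _
        _ ≤ (dlY w (x.2 w) ((tau D δ x).2 w) *
              dlY w ((tau D δ x).2 w) ((tau D δ (tau D δ x)).2 w)) *
            dlY w ((tau D δ (tau D δ x)).2 w) ((tau D δ (tau D δ (tau D δ x))).2 w) :=
            mul_le_mul_of_nonneg_right (dlY_triangle w _ _ _) (z0 _ _)
        _ ≤ _ := mul_le_mul (mul_le_mul (t0 w hw) (t1 w hw) (z0 _ _)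
            (zero_le_one.trans (hc1 _))) (t2 w hw) (z0 _ _)
            (mul_nonneg (zero_le_one.trans (hc1 _)) (zero_le_one.trans (hc1 _)))
    exact ⟨h1.1.trans h2, h1.2.trans h2⟩
  -- parity
  have hrep : ∀ w, ∃ g : G2 L, (g : Yl D.toLevel w) = x.2 w := fun w =>
    QuotientGroup.mk_surjective (x.2 w)
  choose g hg using hrep
  have hpar : ∀ w w', pl C w = w' → k.f w' ((g w')⁻¹ * (δ * C.S (g w))) ≠ 0 := by
    intro w w' h
    have h1 := hx2 w'
    have h2 : (tau D δ x).2 w' = ((δ * C.S (g w) : G2 L) : Yl D.toLevel w') := by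
      change δ • (D.σY x.2 w') = _
      rw [D.σY_apply' x.2 h, ← hg w, TwDatum.σl_mk]
      rfl
    rwa [h2, ← hg w', kw_mk (k.f_bi w')] at h1
  set w1 := pl C u with hw1
  set w2 := pl C w1 with hw2
  have hq1 : qv w1 = qv u := qv_pl C u
  have hq2 : qv w2 = qv u := (qv_pl C w1).trans hq1
  have hqu := one_lt_qv u
  have hq0 := (qv_pos u).ne'
  have hdd : δ.1.det ≠ 0 := δ.det_ne_zero
  obtain ⟨a0, ha0'⟩ := NoHyp.exists_zpow u (g u).det_ne_zero
  obtain ⟨a1, ha1'⟩ := NoHyp.exists_zpow w1 (g w1).det_ne_zero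
  obtain ⟨a2, ha2'⟩ := NoHyp.exists_zpow w2 (g w2).det_ne_zero
  obtain ⟨d0, hd0'⟩ := NoHyp.exists_zpow u hdd
  obtain ⟨d1, hd1'⟩ := NoHyp.exists_zpow w1 hdd
  obtain ⟨d2, hd2'⟩ := NoHyp.exists_zpow w2 hdd
  rw [hq1] at ha1' hd1'
  rw [hq2] at ha2' hd2'
  have hSdet : ∀ w h, av (pl C w) (C.S h).1.det = av w h.1.det := by
    intro w h
    rw [Cub.coe_S, C.s_det, av_pl]
  obtain ⟨m0, hm0, em0⟩ := hu _ (hpar w2 u hp3)
  obtain ⟨m1, hm1, em1⟩ := hu1 _ (hpar u w1 rfl)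
  obtain ⟨m2, hm2, em2⟩ := hu2 _ (hpar w1 w2 rfl)
  have f0 : m0 = -a0 + (d0 + a2) := by
    apply NoHyp.zpow_inj u
    rw [← em0, av_det_mul, av_det_mul, av_det_inv]
    have e1 : av u (C.S (g w2)).1.det = av w2 (g w2).1.det := by
      have := hSdet w2 (g w2)
      rwa [hp3] at this
    rw [e1]
    erw [ha0', hd0', ha2']
    rw [← _root_.zpow_neg, ← zpow_add₀ hq0, ← zpow_add₀ hq0]
  have f1 : m1 = -a1 + (d1 + a0) := by
    apply NoHyp.zpow_inj u
    rw [← hq1, ← em1, av_det_mul, av_det_mul, av_det_inv]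
    have e1 : av w1 (C.S (g u)).1.det = av u (g u).1.det := hSdet u (g u)
    rw [e1, hq1]
    erw [ha0', hd1', ha1']
    rw [← _root_.zpow_neg, ← zpow_add₀ hq0, ← zpow_add₀ hq0]
  have f2 : m2 = -a2 + (d2 + a1) := by
    apply NoHyp.zpow_inj u
    rw [← hq2, ← em2, av_det_mul, av_det_mul, av_det_inv]
    have e1 : av w2 (C.S (g w1)).1.det = av w1 (g w1).1.det := hSdet w1 (g w1)
    rw [e1, hq2]
    erw [ha1', hd2', ha2']
    rw [← _root_.zpow_neg, ← zpow_add₀ hq0, ← zpow_add₀ hq0]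
  have hdN : av u d = qv u ^ (d0 + d2 + d1) := by
    have e1 : av u (C.σ δ.1.det) = av w2 δ.1.det := by
      have := av_pl C w2 δ.1.det
      rwa [hp3] at this
    have e2 : av u (C.σ (C.σ δ.1.det)) = av w1 δ.1.det := by
      have := av_pl C w2 (C.σ δ.1.det)
      rw [hp3] at this
      rw [this, hw2, av_pl]
    rw [hd', det_N', map_mul, map_mul, e1, e2, hd0', hd1', hd2', zpow_add₀ hq0, zpow_add₀ hq0]
  obtain ⟨n, hn⟩ := NoHyp.exists_zpow u hl
  have hau : av u a = qv u ^ (2 * n - (d0 + d2 + d1)) := by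
    rw [ha', map_div₀, map_pow, hn, hdN, zpow_sub₀ hq0, two_mul, zpow_add₀ hq0 n n, sq]
  have hne : 2 * n - (d0 + d2 + d1) ≠ 0 := by
    obtain ⟨j0, rfl⟩ := hm0
    obtain ⟨j1, rfl⟩ := hm1
    obtain ⟨j2, rfl⟩ := hm2
    omega
  have hQpos : 0 ≤ (∏ _i : D.I, ((2 * R) ^ 3) ^ 2) * ∏ᶠ w, c' w :=
    mul_nonneg (Finset.prod_nonneg fun _ _ => by positivity)
      (finprod_nonneg fun w => zero_le_one.trans (hc'1 w))
  have key : ∀ b : L, b ≠ 0 → C.σ b = b → (∀ i, ‖D.emb i b‖ ≤ (2 * R) ^ 3) →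
      (∀ w, w ∉ S → av w b ≤ c' w) → av u b ≤ (qv u)⁻¹ → False := by
    intro b hb0 hσb hb1 hb2 hb3
    have h1 := one_le D.toArch hb0 S hc'1 hc'f hb1 hb2
    have e1 : av w1 b = av u b := by
      have := av_pl C u b
      rwa [hσb] at this
    have e2 : av w2 b = av u b := by
      have := av_pl C w1 b
      rw [hσb] at this
      exact this.trans e1
    have h4 : av u b ≤ 1 := hb3.trans (inv_le_one_of_one_le₀ hqu.le)
    have h3 : ∏ w ∈ S, av w b ≤ (qv u)⁻¹ := by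
      have huS : u ∈ S := by rw [hS]; exact Finset.mem_insert_self _ _
      rw [← Finset.mul_prod_erase S (fun w => av w b) huS]
      refine (mul_le_of_le_one_right ((av u).nonneg b) ?_).trans hb3
      apply Finset.prod_le_one (fun w _ => (av w).nonneg b)
      intro w hw
      have hw' := Finset.mem_of_mem_erase hw
      rw [hS, Finset.mem_insert, Finset.mem_insert, Finset.mem_singleton] at hw'
      rcases hw' with h | h | h
      · rw [h]; exact h4
      · rw [h, e1]; exact h4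
      · rw [h, e2]; exact h4
    have h2 : (1 : ℝ) ≤ (qv u)⁻¹ * ((∏ _i : D.I, ((2 * R) ^ 3) ^ 2) * ∏ᶠ w, c' w) :=
      h1.trans (mul_le_mul_of_nonneg_right h3 hQpos)
    rw [inv_mul_eq_div, one_le_div (qv_pos u)] at h2
    exact absurd h2 (not_le.2 hq)
  rcases lt_or_gt_of_ne hne with h | h
  · refine key a ha0 hσa (fun i => (hinf i).1) (fun w hw => (hfin w hw).1) ?_
    rw [hau, ← _root_.zpow_neg_one]
    exact zpow_le_zpow_right₀ hqu.le (by omega)
  · refine key a⁻¹ (inv_ne_zero ha0) (by rw [map_inv₀, hσa]) (fun i => ?_) (fun w hw => ?_) ?_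
    · rw [map_inv₀, norm_inv]; exact (hinf i).2
    · rw [map_inv₀]; exact (hfin w hw).2
    · rw [map_inv₀, hau, ← _root_.zpow_neg, ← _root_.zpow_neg_one]
      exact zpow_le_zpow_right₀ hqu.le (by omega)

/-- **No hyperbolic classes** (twisted version). `B` only depends on `k`; `k'` is any modification
of `k` at the three places `u, σu, σ²u`. -/
theorem noHyp_tw {D : TwDatum C} (k : Pure D.toDatum) : ∃ B : ℝ, ∀ u : Pl L, B < qv u →
    ∀ k' : Pure D.toDatum,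
    (∀ i P Q, k'.a i P Q ≠ 0 → k.a i P Q ≠ 0) →
    (∀ w, w ≠ u → w ≠ pl C u → w ≠ pl C (pl C u) → ∀ g, k'.f w g ≠ 0 → k.f w g ≠ 0) →
    (∀ g, k'.f u g ≠ 0 → OddAt u g) →
    (∀ g, k'.f (pl C u) g ≠ 0 → EvenAt (pl C u) g) →
    (∀ g, k'.f (pl C (pl C u)) g ≠ 0 → EvenAt (pl C (pl C u)) g) →
    ∀ δ : G2 L, (∃ x : X D.toDatum, k'.ker x (δ • D.σX x) ≠ 0) → Ell (C.N δ).1 := by
  obtain ⟨R, c, hR, ha, hc1, hc, hf⟩ := NoHyp.exists_bounds k
  refine ⟨_, fun u hu k' h1 h2 h3 h4 h5 δ ⟨x, hx⟩ => noHyp_tw_of_bounds hc1 hc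
    (fun i P Q h => ha i P Q (h1 i P Q h))
    (fun w hw hw1 hw2 g h => hf w g (h2 w hw hw1 hw2 g h)) h3 h4 h5 hu hx⟩

end twisted

section bK

variable {K L : Type} [Field K] [NumberField K] [Field L] [NumberField L] [Algebra K L]
  {C : Cub K L}

/-- `v_w (det g)` has parity `b` (`true` = odd) -/
def ParAt (b : Bool) (w : Pl F) (g : G2 F) : Prop := if b then OddAt w g else EvenAt w g

theorem ParAt.mul {b b' : Bool} {w : Pl F} {g h : G2 F} (hg : ParAt b w g) (hh : ParAt b' w h) :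
    ParAt (xor b b') w (g * h) := by
  cases b <;> cases b' <;> simp only [ParAt] at hg hh ⊢
  · exact EvenAt.mul hg hh
  · exact EvenAt.mul_odd hg hh
  · exact OddAt.mul_even hg hh
  · exact OddAt.mul hg hh

theorem parAt_Inc {v : Pl K} {w : Pl L} (hav : ∀ x : K, av w (algebraMap K L x) = av v x)
    (hq : qv w = qv v) {b : Bool} {g : G2 K} : ParAt b w (Cub.Inc g) ↔ ParAt b v g := by
  have e : av w (Cub.Inc (L := L) g).1.det = av v g.1.det := by
    rw [← hav]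
    congr 1
    exact Cub.det_inc (L := L) g.1
  cases b <;> simp only [ParAt, OddAt, EvenAt, e, hq]

theorem NoHyp.split_symm {v : Pl K} {w : Pl L} (h : Split C v w) (j : ℕ) :
    (∀ x : K, av (((pl C).symm)^[j] w) (algebraMap K L x) = av v x) ∧
      qv (((pl C).symm)^[j] w) = qv v := by
  induction j with
  | zero => exact ⟨h.av_eq, h.q_eq⟩
  | succ j ih =>
    rw [Function.iterate_succ_apply']
    set w' := ((pl C).symm)^[j] w
    refine ⟨fun x => ?_, ?_⟩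
    · have h1 := av_pl C ((pl C).symm w') (algebraMap K L x)
      rw [Equiv.apply_symm_apply, AlgEquiv.commutes] at h1
      rw [← h1, ih.1]
    · have h1 := qv_pl C ((pl C).symm w')
      rw [Equiv.apply_symm_apply] at h1
      rw [← h1, ih.2]

theorem parAt_convF {v : Pl F} {H : Subgroup (G2 F)} {f f' : G2 F → ℂ} {b b' : Bool}
    (hf : ∀ g, f g ≠ 0 → ParAt b v g) (hf' : ∀ g, f' g ≠ 0 → ParAt b' v g) {g : G2 F}
    (hg : convF H f f' g ≠ 0) : ParAt (xor b b') v g := by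
  unfold convF at hg
  obtain ⟨x, hx⟩ : ∃ x : G2 F ⧸ H, f x.out * f' (x.out⁻¹ * g) ≠ 0 := by
    by_contra h
    push Not at h
    apply hg
    rw [finsum_congr h, finsum_zero]
  have := (hf _ (left_ne_zero_of_mul hx)).mul (hf' _ (right_ne_zero_of_mul hx))
  rwa [mul_inv_cancel_left] at this

namespace GeoDatum

variable {G : GeoDatum C} {k k' : Pure G.DL.toDatum}

/-- parity of the matching function at a split place -/
theorem parAt_bf {v : Pl K} (h : Split C v (G.up v)) {b : Fin 3 → Bool}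
    (hp : ∀ (j : Fin 3) g, k.f ((((pl C).symm)^[(j : ℕ)]) (G.up v)) g ≠ 0 →
      ParAt (b j) ((((pl C).symm)^[(j : ℕ)]) (G.up v)) g) {g : G2 K} (hg : bf k v g ≠ 0) :
    ParAt (xor (xor (b 0) (b 1)) (b 2)) v g := by
  have h1 : ∀ (j : Fin 3) g, fs k v j g ≠ 0 → ParAt (b j) v g := by
    intro j g hg
    obtain ⟨e1, e2⟩ := NoHyp.split_symm h (j : ℕ)
    exact (parAt_Inc e1 e2).1 (hp j _ hg)
  unfold bf at hg
  rw [if_pos h] at hg
  exact parAt_convF (fun g hg => parAt_convF (h1 0) (h1 1) hg) (h1 2) hg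

theorem down_symm (w : Pl L) : G.down ((pl C).symm w) = G.down w := by
  have := G.down_pl ((pl C).symm w)
  rw [Equiv.apply_symm_apply] at this
  exact this.symm

theorem down_iterate (v : Pl K) (j : ℕ) : G.down (((pl C).symm)^[j] (G.up v)) = v := by
  induction j with
  | zero => exact G.down_up v
  | succ j ih => rw [Function.iterate_succ_apply', down_symm, ih]

/-- `bf k v` only depends on the components of `k` above `v` -/
theorem bf_congr {v : Pl K} (h : ∀ w, G.down w = v → k'.f w = k.f w) : bf k' v = bf k v := by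
  have h1 : ∀ j, fs k' v j = fs k v j := by
    intro j
    funext g
    unfold fs
    rw [h _ (down_iterate v _)]
  funext g
  unfold bf
  rw [h1, h1, h1]

/-- **No hyperbolic classes for the matching function.** `kK`, `kK'` are the pure tensors with
components `bf k`, `ba k` (resp. `bf k'`, `ba k'`); `k'` is any modification of `k` above `u`, odd
at an odd number of places above `u`. -/
theorem noHyp_bPure (k : Pure G.DL.toDatum) (kK : Pure G.DK) (hf : ∀ v, kK.f v = bf k v)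
    (ha : ∀ i, kK.a i = ba k) : ∃ B : ℝ, ∀ u : Pl K, B < qv u → Split C u (G.up u) →
    ∀ (k' : Pure G.DL.toDatum) (kK' : Pure G.DK), (∀ v, kK'.f v = bf k' v) →
    (∀ i, kK'.a i = ba k') → (∀ i, k'.a i = k.a i) → (∀ w, G.down w ≠ u → k'.f w = k.f w) →
    ∀ b : Fin 3 → Bool, xor (xor (b 0) (b 1)) (b 2) = true →
    (∀ (j : Fin 3) g, k'.f ((((pl C).symm)^[(j : ℕ)]) (G.up u)) g ≠ 0 →
      ParAt (b j) ((((pl C).symm)^[(j : ℕ)]) (G.up u)) g) →
    ∀ γ : G2 K, (∃ z : X G.DK, kK'.ker z (γ • z) ≠ 0) → Ell γ.1 := by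
  obtain ⟨B, hB⟩ := noHyp_flat kK
  refine ⟨B, fun u hu hs k' kK' hf' ha' h1 h2 b hb hp γ hz => hB u hu kK' ?_ ?_ ?_ γ hz⟩
  · intro i P Q h
    rw [ha] 
    rw [ha'] at h
    have : ba k' = ba k := by
      unfold ba
      rw [h1, h1, h1]
    rwa [this] at h
  · intro v hv g h
    rw [hf]
    rw [hf', bf_congr (k := k) (k' := k') (fun w hw => h2 w (by rw [hw]; exact hv))] at h
    exact h
  · intro g h
    rw [hf'] at h
    have := parAt_bf hs hp h
    rw [hb] at this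
    exact this

/-- `k` is odd at the chosen place above `u`, even at the two others -/
structure OddTest (k : Pure G.DL.toDatum) (u : Pl K) : Prop where
  odd : ∀ g, k.f (G.up u) g ≠ 0 → OddAt (G.up u) g
  even : ∀ w, G.down w = u → w ≠ G.up u → ∀ g, k.f w g ≠ 0 → EvenAt w g

/-- **No hyperbolic classes**, combined form for a family. -/
theorem exists_noHyp_const (k0 : Pure G.DL.toDatum) (kK0 : Pure G.DK)
    (hf0 : ∀ v, kK0.f v = bf k0 v) (ha0 : ∀ i, kK0.a i = ba k0) : ∃ B : ℝ, ∀ u : Pl K,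
    Split C u (G.up u) → B < qv u → ∀ k : Pure G.DL.toDatum, (∀ i, k.a i = k0.a i) →
    (∀ w, G.down w ≠ u → k.f w = k0.f w) → OddTest k u →
    (∀ δ : G2 L, (∃ x : X G.DL.toDatum, k.ker x (δ • G.DL.σX x) ≠ 0) → Ell (C.N δ).1) ∧
    ∀ kK : Pure G.DK, (∀ v, kK.f v = bf k v) → (∀ i, kK.a i = ba k) →
      ∀ γ : G2 K, (∃ z : X G.DK, kK.ker z (γ • z) ≠ 0) → Ell γ.1 := by
  obtain ⟨B₁, h₁⟩ := noHyp_tw (D := G.DL) k0
  obtain ⟨B₂, h₂⟩ := noHyp_bPure k0 kK0 hf0 ha0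
  refine ⟨max B₁ B₂, fun u hs hu k ha hf ho => ?_⟩
  have hne1 : pl C (G.up u) ≠ G.up u := hs.ne
  have hp3 : pl C (pl C (pl C (G.up u))) = G.up u := TwDatum.pl_cube _
  have hne2 : pl C (pl C (G.up u)) ≠ G.up u := by
    intro h
    rw [h] at hp3
    exact hne1 hp3
  have hd1 : G.down (pl C (G.up u)) = u := by rw [G.down_pl, G.down_up]
  have hd2 : G.down (pl C (pl C (G.up u))) = u := by rw [G.down_pl, hd1]
  constructor
  · intro δ hx
    refine h₁ (G.up u) ?_ k ?_ ?_ ho.odd (ho.even _ hd1 hne1) (ho.even _ hd2 hne2) δ hx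
    · rw [hs.q_eq]; exact (le_max_left _ _).trans_lt hu
    · intro i P Q h; rwa [ha] at h
    · intro w h0 h1 h2 g hg
      rw [hf w] at hg
      · exact hg
      · intro hw
        rcases G.up_down w with h | h | h
        · exact h0 (by rw [h, hw])
        · exact h1 (by rw [h, hw])
        · exact h2 (by rw [h, hw])
  · intro kK hf' ha' γ hz
    have hs1 : (pl C).symm (G.up u) = pl C (pl C (G.up u)) := by
      rw [Equiv.symm_apply_eq, hp3]
    have hs2 : (pl C).symm (pl C (pl C (G.up u))) = pl C (G.up u) := Equiv.symm_apply_apply _ _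
    refine h₂ u ((le_max_right _ _).trans_lt hu) hs k kK hf' ha' ha hf
      (fun j => decide (j = 0)) (by decide) ?_ γ hz
    intro j g hg
    fin_cases j
    · exact ho.odd g hg
    · change k.f ((pl C).symm (G.up u)) g ≠ 0 at hg
      change EvenAt ((pl C).symm (G.up u)) g
      rw [hs1] at hg ⊢
      exact ho.even _ hd2 hne2 g hg
    · change k.f ((pl C).symm ((pl C).symm (G.up u))) g ≠ 0 at hg
      change EvenAt ((pl C).symm ((pl C).symm (G.up u))) g
      rw [hs1, hs2] at hg ⊢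
      exact ho.even _ hd1 hne1 g hg

end GeoDatum

end bK

end Fermat.LT
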