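import Fermat.Agent.LT.Geo.InertTw

/-!
# (E1) The fundamental lemma for the unit at an inert unramified place
-/

set_option autoImplicit false
set_option linter.unusedSectionVars false

open NumberField IsDedekindDomain Matrix
open Fermat.Agent.LT.D

namespace Fermat.LT

section

variable {K L : Type} [Field K] [NumberField K] [Field L] [NumberField L] [Algebra K L]
  {C : Cub K L} {v : Pl K} {w : Pl L}

/-! ### matrices over `O_w` -/

theorem nm_res_le (h : Unr C w) {A : Matrix (Fin 2) (Fin 2) L} (hA : nm w A ≤ 1) {c : L}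
    (hc : av w c ≤ 1) : nm w (res C A c) ≤ 1 := by
  have hsA : nm w (C.s A) ≤ 1 := by
    rw [nm_le_iff] at hA ⊢
    intro i j
    rw [Cub.s_apply, h.av_σ]; exact hA i j
  have h1 : nm w (c • (1 : Matrix (Fin 2) (Fin 2) L)) ≤ 1 := by
    rw [nm_smul, nm_one, mul_one]; exact hc
  have h2 : nm w (C.σ c • A) ≤ 1 := by
    rw [nm_smul, h.av_σ]
    exact mul_le_one₀ hc (nm_nonneg w _) hA
  have h3 : nm w (C.σ (C.σ c) • (A * C.s A)) ≤ 1 := by
    rw [nm_smul, h.av_σ, h.av_σ]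
    exact mul_le_one₀ hc (nm_nonneg w _)
      ((nm_mul_le w _ _).trans (mul_le_one₀ hA (nm_nonneg w _) hsA))
  exact (nm_add_le w _ _).trans (max_le ((nm_add_le w _ _).trans (max_le h1 h2)) h3)

theorem mem_intGL_of {g : G2 L} (h1 : nm w g.1 ≤ 1) (h2 : 1 ≤ av w g.1.det) : g ∈ intGL w := by
  refine ⟨h1, ?_⟩
  rw [val_inv_eq, nm_smul, nm_adjugate, map_inv₀]
  exact mul_le_one₀ (inv_le_one_of_one_le₀ h2) (nm_nonneg w _) h1

theorem av_det_intGL {g : G2 L} (h : g ∈ intGL w) : av w g.1.det = 1 := by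
  apply le_antisymm
  · exact (av_det_le w _).trans (pow_le_one₀ (nm_nonneg w _) h.1)
  · have h2 : av w (g⁻¹).1.det ≤ 1 := (av_det_le w _).trans (pow_le_one₀ (nm_nonneg w _) h.2)
    rw [av_det_inv] at h2
    have hpos : 0 < av w g.1.det := (av w).pos (det_ne_zero' g)
    exact (inv_le_one₀ hpos).mp h2

/-- an element of `stdH w` with unit determinant is in `intGL w` -/
theorem mem_intGL_of_stdH {g : G2 L} (h : g ∈ stdH w) (hd : av w g.1.det = 1) : g ∈ intGL w := by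
  have h1 := av_det_of_mem w h
  rw [hd] at h1
  have h2 : nm w g.1 = 1 := by
    have := nm_nonneg w g.1
    nlinarith
  exact mem_intGL_of h2.le hd.ge

theorem S_mem_stdH (h : Unr C w) {g : G2 L} (hg : g ∈ stdH w) : C.S g ∈ stdH w := by
  have hs : ∀ A : Matrix (Fin 2) (Fin 2) L, nm w (C.s A) = nm w A := by
    intro A
    simp only [nm, Cub.s_apply, h.av_σ]
  rw [mem_stdH] at hg ⊢
  rw [← map_inv, Cub.coe_S, Cub.coe_S, hs, hs]
  exact hg

/-- descent of `σ`-invariant vertices -/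
theorem Unr.descent (h : Unr C w) {x : G2 L} (hx : x⁻¹ * C.S x ∈ stdH w) :
    ∃ z : G2 K, (Cub.Inc z : G2 L)⁻¹ * x ∈ stdH w := by
  set k := x⁻¹ * C.S x with hk
  have hdet : av w k.1.det = 1 := by
    have : k.1.det = (x⁻¹).1.det * C.σ x.1.det := by
      rw [hk, Units.val_mul, Matrix.det_mul, Cub.coe_S, C.s_det]
    rw [this, map_mul, h.av_σ, av_det_inv]
    exact inv_mul_cancel₀ ((av w).ne_zero (det_ne_zero' x))
  have hkint := mem_intGL_of_stdH hx hdet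
  have hN : C.N k = 1 := by
    simp only [hk, Cub.N, map_mul, map_inv, C.S_cube]
    group
  obtain ⟨c, hc, hcd⟩ := h.exists_res k.1
  have h0 : (res C k.1 c).det ≠ 0 := by
    intro h0
    rw [h0, map_zero] at hcd
    exact absurd hcd (by norm_num)
  set θ : G2 L := Matrix.GeneralLinearGroup.mkOfDetNeZero _ h0 with hθd
  have hθ : θ ∈ intGL w := mem_intGL_of (nm_res_le h hkint.1 hc) hcd
  have hkθ : k * C.S θ = θ := by
    apply Units.ext
    rw [Units.val_mul, Cub.coe_S]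
    change k.1 * C.s (res C k.1 c) = res C k.1 c
    rw [mul_s_res, ← Cub.coe_N, hN, Units.val_one, sub_self, smul_zero, add_zero]
  have hfix : C.S (x * θ) = x * θ := by
    rw [map_mul]
    have : C.S x = x * k := by rw [hk, mul_inv_cancel_left]
    rw [this, mul_assoc, hkθ]
  obtain ⟨Z, hZ⟩ := C.exists_inc (A := (x * θ).1) (by
    have := congrArg (fun g : GL (Fin 2) L => (g : Matrix (Fin 2) (Fin 2) L)) hfix
    simpa only [Cub.coe_S] using this)
  have hZdet : Z.det ≠ 0 := by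
    intro hZ0
    have := Cub.det_inc (L := L) Z
    rw [hZ, hZ0, map_zero] at this
    exact det_ne_zero' (x * θ) this
  refine ⟨Matrix.GeneralLinearGroup.mkOfDetNeZero Z hZdet, ?_⟩
  have hInc : (Cub.Inc (Matrix.GeneralLinearGroup.mkOfDetNeZero Z hZdet) : G2 L) = x * θ :=
    Units.ext hZ
  rw [hInc, _root_.mul_inv_rev, mul_assoc, inv_mul_cancel, mul_one]
  exact inv_mem (intGL_le_stdH w hθ)

theorem sc_mul_mem_stdH {F : Type} [Field F] [NumberField F] {w : Pl F} (c : Fˣ) {g : G2 F} :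
    sc c * g ∈ stdH w ↔ g ∈ stdH w := by
  constructor
  · intro h
    have := mul_mem (scal_le_stdH w (sc_mem c⁻¹)) h
    rwa [← mul_assoc, ← sc_inv, inv_mul_cancel, one_mul] at this
  · exact mul_mem (scal_le_stdH w (sc_mem c))

/-! ### comparison of `K` and `L` -/

theorem nm_inc (h : Inert C v w) (A : Matrix (Fin 2) (Fin 2) K) :
    nm w (Cub.inc (L := L) A) = nm v A ^ 3 := by
  have hm : ∀ a b : ℝ, 0 ≤ a → 0 ≤ b → max (a ^ 3) (b ^ 3) = max a b ^ 3 := by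
    intro a b ha hb
    rcases le_total a b with hab | hab
    · rw [max_eq_right hab, max_eq_right (pow_le_pow_left₀ ha hab 3)]
    · rw [max_eq_left hab, max_eq_left (pow_le_pow_left₀ hb hab 3)]
  have hn : ∀ x : K, 0 ≤ av v x := fun x => (av v).nonneg x
  simp only [nm, Cub.inc_apply, h.av_eq]
  rw [hm _ _ (hn _) (hn _), hm _ _ (hn _) (hn _),
    hm _ _ ((hn _).trans (le_max_left _ _)) ((hn _).trans (le_max_left _ _))]

theorem Inc_mem_stdH (h : Inert C v w) (g : G2 K) :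
    (Cub.Inc g : G2 L) ∈ stdH w ↔ g ∈ stdH v := by
  rw [mem_stdH, mem_stdH, ← map_inv, Cub.coe_Inc, Cub.coe_Inc, nm_inc h, nm_inc h, ← mul_pow]
  exact pow_le_one_iff_of_nonneg (mul_nonneg (nm_nonneg v _) (nm_nonneg v _)) (by norm_num)

/-- The statement of the matching at an inert place, with `t` given: `h ↦ t · Inc h` induces a
bijection `{z ∈ G2 K ⧸ stdH v | γ z = z} ≅ {y ∈ G2 L ⧸ stdH w | δ σ(y) = y}`. -/
structure InertMatch (C : Cub K L) (v : Pl K) (w : Pl L) (γ : G2 K) (δ t : G2 L) : Prop where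
  mem_Z : t ∈ Cub.Z (L := L) γ
  fwd : ∀ z : G2 K, z⁻¹ * γ * z ∈ stdH v →
    (t * Cub.Inc z)⁻¹ * δ * C.S (t * Cub.Inc z) ∈ stdH w
  bwd : ∀ y : G2 L, y⁻¹ * δ * C.S y ∈ stdH w →
    ∃ z : G2 K, z⁻¹ * γ * z ∈ stdH v ∧ (t * Cub.Inc z)⁻¹ * y ∈ stdH w

/-- injectivity is automatic -/
theorem inert_inj (h : Inert C v w) {t : G2 L} {z z' : G2 K}
    (hz : (t * Cub.Inc z)⁻¹ * (t * Cub.Inc z') ∈ stdH w) : z⁻¹ * z' ∈ stdH v := by
  rw [← Inc_mem_stdH h, map_mul, map_inv]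
  have e : (Cub.Inc z : G2 L)⁻¹ * Cub.Inc z' = (t * Cub.Inc z)⁻¹ * (t * Cub.Inc z') := by group
  rw [e]; exact hz

theorem Z_sc_mul {γ : G2 K} (μ : Kˣ) : Cub.Z (L := L) (sc μ * γ) = Cub.Z (L := L) γ := by
  ext g
  rw [Cub.mem_Z, Cub.mem_Z, map_mul]
  have e : (Cub.Inc (sc μ) : G2 L) = Cub.sc (Units.map (algebraMap K L).toMonoidHom μ) :=
    Matrix.GeneralLinearGroup.map_scalar _ _
  rw [e]
  have e2 : g * (Cub.sc (Units.map (algebraMap K L).toMonoidHom μ) * Cub.Inc γ) =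
      Cub.sc (Units.map (algebraMap K L).toMonoidHom μ) * (g * Cub.Inc γ) := by
    rw [← mul_assoc, ← Cub.sc_comm, mul_assoc]
  rw [e2, mul_assoc]
  exact mul_right_inj _

theorem conj_mem_intGL {Γ : Matrix (Fin 2) (Fin 2) L} {ht : av w Γ.trace ≤ 1}
    {hd : av w Γ.det ≤ 1} {x : G2 L} (hx : nm w ((x⁻¹).1 * Γ * x.1) ≤ 1) {u : G2 L}
    (hu : u ∈ RU w Γ ht hd) : x⁻¹ * u * x ∈ intGL w := by
  apply mem_intGL_of
  · obtain ⟨a, b, ha, hb, e⟩ := hu.1
    have e2 : (x⁻¹ * u * x).1 = a • (1 : Matrix (Fin 2) (Fin 2) L) + b • ((x⁻¹).1 * Γ * x.1) := by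
      rw [Units.val_mul, Units.val_mul, e, mul_add, add_mul, Matrix.mul_smul, Matrix.mul_smul,
        Matrix.smul_mul, Matrix.smul_mul, mul_one, ← Units.val_mul, inv_mul_cancel, Units.val_one]
    rw [e2]
    refine (nm_add_le w _ _).trans (max_le ?_ ?_)
    · rw [nm_smul, nm_one, mul_one]; exact ha
    · rw [nm_smul]; exact mul_le_one₀ hb (nm_nonneg w _) hx
  · have : (x⁻¹ * u * x).1.det = u.1.det := by
      rw [Units.val_mul, Units.val_mul, Matrix.det_mul, Matrix.det_mul, mul_comm, ← mul_assoc,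
        ← Matrix.det_mul, ← Units.val_mul, mul_inv_cancel, Units.val_one, det_one, one_mul]
    rw [this, hu.2]

/-- The matching from a `t` for which `t⁻¹ δ σ(t)` is, up to a scalar, a unit of `O_w[γ₁]`,
`γ₁ = μ γ` having integral trace and unit determinant. -/
theorem inertMatch_of_tw (h : Inert C v w) {γ : G2 K}
    (hns : ¬ IsSc (γ : Matrix (Fin 2) (Fin 2) K)) {δ : G2 L} (hδ : δ ∈ Cub.Z (L := L) γ)
    {c : Lˣ} (hN : C.N δ = Cub.sc c * Cub.Inc γ) {μ : Kˣ}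
    (ht : av w (Gm L (sc μ * γ)).trace ≤ 1) (hd : av w (Gm L (sc μ * γ)).det = 1)
    {t : G2 L} (htZ : t ∈ Cub.Z (L := L) γ) {b : Lˣ}
    (hu : Cub.sc b * (t⁻¹ * δ * C.S t) ∈ RU w (Gm L (sc μ * γ)) ht hd.le) :
    InertMatch C v w γ δ t := by
  set γ₁ : G2 K := sc μ * γ with hγ₁
  set μL : Lˣ := Units.map (algebraMap K L).toMonoidHom μ with hμL
  have hIγ₁ : (Cub.Inc γ₁ : G2 L) = sc μL * Cub.Inc γ := by
    rw [hγ₁, map_mul]
    congr 1
    exact Matrix.GeneralLinearGroup.map_scalar _ _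
  have hU := h.unr
  have hval : ((Cub.Inc γ₁ : G2 L)).1 = Gm L γ₁ := rfl
  -- `x⁻¹ γ x ∈ stdH` iff `x⁻¹ γ₁ x ∈ intGL`
  have hint : ∀ x : G2 L, x⁻¹ * Cub.Inc γ * x ∈ stdH w →
      nm w ((x⁻¹).1 * Gm L γ₁ * x.1) ≤ 1 := by
    intro x hx
    have h1 : x⁻¹ * Cub.Inc γ₁ * x ∈ stdH w := by
      rw [hIγ₁]
      have : x⁻¹ * (sc μL * Cub.Inc γ) * x = sc μL * (x⁻¹ * Cub.Inc γ * x) := by
        rw [← mul_assoc x⁻¹, ← sc_comm]; simp only [mul_assoc]
      rw [this, sc_mul_mem_stdH]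
      exact hx
    have h2 : av w (x⁻¹ * Cub.Inc γ₁ * x).1.det = 1 := by
      have : (x⁻¹ * Cub.Inc γ₁ * x).1.det = (Gm L γ₁).det := by
        rw [Units.val_mul, Units.val_mul, Matrix.det_mul, Matrix.det_mul, mul_comm, ← mul_assoc,
          ← Matrix.det_mul, ← Units.val_mul, mul_inv_cancel, Units.val_one, det_one, one_mul, hval]
      rw [this, hd]
    have h3 := (mem_intGL_of_stdH h1 h2).1
    rwa [Units.val_mul, Units.val_mul, hval] at h3
  refine ⟨htZ, ?_, ?_⟩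
  · intro z hz
    have h1 : (Cub.Inc z : G2 L)⁻¹ * Cub.Inc γ * Cub.Inc z ∈ stdH w := by
      rw [← map_inv, ← map_mul, ← map_mul, Inc_mem_stdH h]; exact hz
    have h2 := conj_mem_intGL (hint _ h1) hu
    have e : (t * Cub.Inc z)⁻¹ * δ * C.S (t * Cub.Inc z) =
        sc b⁻¹ * ((Cub.Inc z : G2 L)⁻¹ * (Cub.sc b * (t⁻¹ * δ * C.S t)) * Cub.Inc z) := by
      rw [map_mul, C.S_Inc, _root_.mul_inv_rev, ← mul_assoc (Cub.Inc z : G2 L)⁻¹ (Cub.sc b),
        ← Cub.sc_comm, mul_assoc (Cub.sc b), mul_assoc (Cub.sc b), ← mul_assoc (sc b⁻¹)]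
      have : sc b⁻¹ * Cub.sc b = 1 := by
        rw [← sc_inv]; exact inv_mul_cancel _
      rw [this, one_mul]
      simp only [mul_assoc]
    rw [e, sc_mul_mem_stdH]
    exact intGL_le_stdH w h2
  · intro y hy
    set x := t⁻¹ * y with hx
    set u := Cub.sc b * (t⁻¹ * δ * C.S t) with hud
    have h1 : x⁻¹ * u * C.S x ∈ stdH w := by
      have : x⁻¹ * u * C.S x = sc b * (y⁻¹ * δ * C.S y) := by
        rw [hx, hud, map_mul, map_inv, ← mul_assoc _ (Cub.sc b), ← Cub.sc_comm,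
          mul_assoc (Cub.sc b), mul_assoc (Cub.sc b)]
        congr 1
        group
      rw [this, sc_mul_mem_stdH]
      exact hy
    -- norms
    have hNu : C.N u = Cub.sc (C.nu b) * (Cub.sc c * Cub.Inc γ) := by
      have htw : C.N (t⁻¹ * δ * C.S t) = Cub.sc c * Cub.Inc γ := by
        rw [C.N_tw, hN, ← mul_assoc, ← Cub.sc_comm, mul_assoc, mul_assoc, ← Cub.mem_Z.mp htZ,
          inv_mul_cancel_left]
      have htw' : t⁻¹ * δ * C.S t ∈ Cub.Z (L := L) γ :=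
        mul_mem (mul_mem (inv_mem htZ) hδ) (C.S_mem_Z htZ)
      rw [hud, C.N_mul hns (Cub.sc_mem_Z _ _) htw', C.N_sc, htw]
    have h2 : x⁻¹ * Cub.Inc γ * x ∈ stdH w := by
      have h3 : C.N (x⁻¹ * u * C.S x) ∈ stdH w :=
        mul_mem (mul_mem h1 (S_mem_stdH hU h1)) (S_mem_stdH hU (S_mem_stdH hU h1))
      rw [C.N_tw, hNu] at h3
      have : x⁻¹ * (Cub.sc (C.nu b) * (Cub.sc c * Cub.Inc γ)) * x =
          sc (C.nu b) * (sc c * (x⁻¹ * Cub.Inc γ * x)) := by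
        change x⁻¹ * (sc (C.nu b) * (sc c * Cub.Inc γ)) * x = _
        rw [← mul_assoc x⁻¹, ← sc_comm, mul_assoc (sc (C.nu b)), mul_assoc (sc (C.nu b)),
          ← mul_assoc x⁻¹ (sc c), ← sc_comm, mul_assoc (sc c), mul_assoc (sc c)]
      rw [this, sc_mul_mem_stdH, sc_mul_mem_stdH] at h3
      exact h3
    have h4 := conj_mem_intGL (hint _ h2) hu
    have h5 : x⁻¹ * C.S x ∈ stdH w := by
      have : x⁻¹ * C.S x = (x⁻¹ * u * x)⁻¹ * (x⁻¹ * u * C.S x) := by group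
      rw [this]
      exact mul_mem (inv_mem (intGL_le_stdH w h4)) h1
    obtain ⟨z, hz⟩ := hU.descent h5
    refine ⟨z, ?_, ?_⟩
    · rw [← Inc_mem_stdH h, map_mul, map_mul, map_inv]
      have : (Cub.Inc z : G2 L)⁻¹ * Cub.Inc γ * Cub.Inc z =
          ((Cub.Inc z : G2 L)⁻¹ * x) * (x⁻¹ * Cub.Inc γ * x) * ((Cub.Inc z : G2 L)⁻¹ * x)⁻¹ := by
        group
      rw [this]
      exact mul_mem (mul_mem hz h2) (inv_mem hz)
    · have : (t * Cub.Inc z)⁻¹ * y = (Cub.Inc z : G2 L)⁻¹ * x := by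
        rw [hx]; group
      rw [this]; exact hz

/-- normalisation of `γ` -/
theorem exists_normalise (h : Inert C v w) {γ : G2 K} {x : G2 L}
    (hx : x⁻¹ * Cub.Inc γ * x ∈ stdH w) : ∃ μ : Kˣ, av w (Gm L (sc μ * γ)).trace ≤ 1 ∧
      av w (Gm L (sc μ * γ)).det = 1 := by
  obtain ⟨c, hc⟩ := (mem_stdH_iff w _).mp hx
  obtain ⟨y, hy0, hy⟩ := h.unr.exists_av_eq c.ne_zero
  set μ : Kˣ := (Units.mk0 y hy0)⁻¹ with hμ
  have hμv : algebraMap K L (μ : K) = (algebraMap K L y)⁻¹ := by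
    rw [hμ, Units.val_inv_eq_inv_val, Units.val_mk0, map_inv₀]
  have hA : (Gm L (sc μ * γ)) = algebraMap K L (μ : K) • Gm L γ := by
    ext i j
    change algebraMap K L ((sc μ * γ).1 i j) = algebraMap K L μ * algebraMap K L (γ.1 i j)
    rw [sc_mul_val, ← map_mul]; rfl
  -- trace and determinant of `c⁻¹ x⁻¹ γ x`
  have hk := hc.1
  have hkd := av_det_intGL hc
  have hval : (sc c⁻¹ * (x⁻¹ * Cub.Inc γ * x)).1 = (c : L)⁻¹ • ((x⁻¹).1 * Gm L γ * x.1) := by
    rw [sc_mul_val, Units.val_inv_eq_inv_val, Units.val_mul, Units.val_mul, Cub.coe_Inc]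
  have htr : ((x⁻¹).1 * Gm L γ * x.1).trace = (Gm L γ).trace := by
    rw [Matrix.trace_mul_comm, ← mul_assoc, ← Units.val_mul, mul_inv_cancel, Units.val_one,
      one_mul]
  have hdt : ((x⁻¹).1 * Gm L γ * x.1).det = (Gm L γ).det := by
    rw [Matrix.det_mul, Matrix.det_mul, mul_comm, ← mul_assoc,
      ← Matrix.det_mul, ← Units.val_mul, mul_inv_cancel, Units.val_one, det_one, one_mul]
  have hc0 : av w (c : L) ≠ 0 := (av w).ne_zero c.ne_zero
  refine ⟨μ, ?_, ?_⟩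
  · have h1 : av w (((c : L)⁻¹ • ((x⁻¹).1 * Gm L γ * x.1)).trace) ≤ 1 := by
      rw [← hval, Matrix.trace_fin_two]
      exact (av_add_le w _ _).trans (max_le ((av_le_nm w _ _ _).trans hk)
        ((av_le_nm w _ _ _).trans hk))
    rw [Matrix.trace_smul, htr, smul_eq_mul, map_mul, map_inv₀, ← hy] at h1
    rw [hA, Matrix.trace_smul, smul_eq_mul, map_mul, hμv, map_inv₀]
    exact h1
  · rw [hval, Matrix.det_smul, hdt, map_mul, Fintype.card_fin, map_pow, map_inv₀, ← hy] at hkd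
    rw [hA, Matrix.det_smul, map_mul, Fintype.card_fin, map_pow, hμv, map_inv₀]
    exact hkd

/-- **(E1)** The matching at an inert place. -/
theorem exists_inertMatch (h : Inert C v w) {γ : G2 K}
    (hns : ¬ IsSc (γ : Matrix (Fin 2) (Fin 2) K)) {δ : G2 L} (hδ : δ ∈ Cub.Z (L := L) γ)
    {c : Lˣ} (hN : C.N δ = Cub.sc c * Cub.Inc γ) : ∃ t : G2 L, InertMatch C v w γ δ t := by
  by_cases hμ : ∃ μ : Kˣ, av w (Gm L (sc μ * γ)).trace ≤ 1 ∧ av w (Gm L (sc μ * γ)).det = 1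
  · obtain ⟨μ, ht, hd⟩ := hμ
    have hU := h.unr
    set γ₁ : G2 K := sc μ * γ with hγ₁
    set μL : Lˣ := Units.map (algebraMap K L).toMonoidHom μ with hμL
    have hIγ₁ : (Cub.Inc γ₁ : G2 L) = Cub.sc μL * Cub.Inc γ := by
      rw [hγ₁, map_mul]
      congr 1
      exact Matrix.GeneralLinearGroup.map_scalar _ _
    have hZ : Cub.Z (L := L) γ₁ = Cub.Z (L := L) γ := Z_sc_mul μ
    have hns₁ : ¬ IsSc (γ₁ : Matrix (Fin 2) (Fin 2) K) := by
      rw [isSc_iff] at hns ⊢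
      have hv : (γ₁ : Matrix (Fin 2) (Fin 2) K) = (μ : K) • γ.1 := sc_mul_val μ γ
      rw [hv]
      simp only [Matrix.smul_apply, smul_eq_mul]
      intro hcon
      apply hns
      refine ⟨?_, ?_, ?_⟩
      · exact (mul_eq_zero.mp hcon.1).resolve_left μ.ne_zero
      · exact (mul_eq_zero.mp hcon.2.1).resolve_left μ.ne_zero
      · exact mul_left_cancel₀ μ.ne_zero hcon.2.2
    -- rescale `δ`
    set c₁ : Lˣ := c * μL⁻¹ with hc₁
    have hN₁ : C.N δ = Cub.sc c₁ * Cub.Inc γ₁ := by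
      rw [hN, hIγ₁, ← mul_assoc, ← Cub.sc_mul, hc₁, inv_mul_cancel_right]
    set D : Lˣ := Matrix.GeneralLinearGroup.det δ with hD
    have hdet : av w (D : L) ^ 3 = av w (c₁ : L) ^ 2 := by
      have h1 : av w (C.N δ).1.det = av w (Cub.sc c₁ * Cub.Inc γ₁ : G2 L).1.det := by rw [hN₁]
      rw [Cub.coe_N, C.det_nm, map_mul, map_mul, hU.av_σ, hU.av_σ, hU.av_σ, Units.val_mul,
        Matrix.det_mul, Cub.det_sc, map_mul, map_pow] at h1
      have h2 : av w ((Cub.Inc γ₁ : G2 L)).1.det = 1 := hd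
      rw [h2, mul_one] at h1
      rw [← h1]
      change av w δ.1.det ^ 3 = _
      ring
    set b : Lˣ := D * c₁⁻¹ with hb
    have hNb : C.N (Cub.sc b * δ) = Cub.sc (C.nu b * c₁) * Cub.Inc γ₁ := by
      rw [C.N_mul hns (Cub.sc_mem_Z _ _) hδ, C.N_sc, hN₁, ← mul_assoc, ← Cub.sc_mul]
    have hc0 : av w (c₁ : L) ≠ 0 := (av w).ne_zero c₁.ne_zero
    have hunit : av w ((C.nu b * c₁ : Lˣ) : L) = 1 := by
      rw [Units.val_mul, C.coe_nu, Cub.nL, map_mul, map_mul, map_mul, hU.av_σ, hU.av_σ, hU.av_σ,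
        hb, Units.val_mul, map_mul, Units.val_inv_eq_inv_val, map_inv₀]
      have : av w (D : L) * (av w (c₁ : L))⁻¹ * (av w (D : L) * (av w (c₁ : L))⁻¹) *
          (av w (D : L) * (av w (c₁ : L))⁻¹) * av w (c₁ : L) =
          av w (D : L) ^ 3 * ((av w (c₁ : L)) ^ 2)⁻¹ := by
        field_simp
      rw [this, hdet]
      exact mul_inv_cancel₀ (pow_ne_zero 2 hc0)
    have hNmem : C.N (Cub.sc b * δ) ∈ RU w (Gm L γ₁) ht hd.le := by
      rw [hNb]
      have e : (Cub.sc (C.nu b * c₁) * Cub.Inc γ₁ : G2 L).1 =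
          ((C.nu b * c₁ : Lˣ) : L) • Gm L γ₁ := by
        rw [Units.val_mul, Cub.coe_sc, Matrix.smul_mul, one_mul, Cub.coe_Inc]
      refine ⟨?_, ?_⟩
      · rw [e]
        have := (Rc.self (w := w) (Γ := Gm L γ₁)).smul hunit.le
        rwa [mul_one] at this
      · rw [e, Matrix.det_smul, map_mul, Fintype.card_fin, map_pow, hunit, one_pow, one_mul, hd]
    have hbδ : Cub.sc b * δ ∈ Cub.Z (L := L) γ₁ := by
      rw [hZ]; exact mul_mem (Cub.sc_mem_Z _ _) hδ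
    obtain ⟨t, ht1, ht2⟩ := hU.exists_tw hns₁ ht hd.le hbδ hNmem
    rw [hZ] at ht1
    have e : t⁻¹ * (Cub.sc b * δ) * C.S t = Cub.sc b * (t⁻¹ * δ * C.S t) := by
      rw [← mul_assoc t⁻¹, ← Cub.sc_comm]; simp only [mul_assoc]
    rw [e] at ht2
    exact ⟨t, inertMatch_of_tw h hns hδ hN ht hd ht1 ht2⟩
  · refine ⟨1, one_mem _, ?_, ?_⟩
    · intro z hz
      exfalso
      apply hμ
      apply exists_normalise h (x := Cub.Inc z)
      rw [← map_inv, ← map_mul, ← map_mul, Inc_mem_stdH h]; exact hz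
    · intro y hy
      exfalso
      apply hμ
      apply exists_normalise h (x := y)
      have hU := h.unr
      have h3 : C.N (y⁻¹ * δ * C.S y) ∈ stdH w :=
        mul_mem (mul_mem hy (S_mem_stdH hU hy)) (S_mem_stdH hU (S_mem_stdH hU hy))
      rw [C.N_tw, hN] at h3
      have : y⁻¹ * (Cub.sc c * Cub.Inc γ) * y = sc c * (y⁻¹ * Cub.Inc γ * y) := by
        change y⁻¹ * (sc c * Cub.Inc γ) * y = _
        rw [← mul_assoc y⁻¹, ← sc_comm, mul_assoc (sc c), mul_assoc (sc c)]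
      rw [this, sc_mul_mem_stdH] at h3
      exact h3

/-- For almost all places `t = 1` works: it is enough that `δ` is a unit of `O_w[γ]`. -/
theorem inertMatch_one (h : Inert C v w) {γ : G2 K}
    (hns : ¬ IsSc (γ : Matrix (Fin 2) (Fin 2) K)) {δ : G2 L} (hδ : δ ∈ Cub.Z (L := L) γ)
    {c : Lˣ} (hN : C.N δ = Cub.sc c * Cub.Inc γ)
    (ht : av w (Gm L γ).trace ≤ 1) (hd : av w (Gm L γ).det = 1)
    (hR : Rc w (Gm L γ) 1 δ.1) (hdδ : av w δ.1.det = 1) : InertMatch C v w γ δ 1 := by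
  have e1 : sc (1 : Kˣ) * γ = γ := by
    have : sc (1 : Kˣ) = 1 := map_one (Matrix.GeneralLinearGroup.scalar (Fin 2))
    rw [this, one_mul]
  have ht' : av w (Gm L (sc (1 : Kˣ) * γ)).trace ≤ 1 := by rw [e1]; exact ht
  have hd' : av w (Gm L (sc (1 : Kˣ) * γ)).det = 1 := by rw [e1]; exact hd
  refine inertMatch_of_tw h hns hδ hN (μ := 1) (b := 1) ht' hd' (one_mem _) ?_
  have e2 : Cub.sc (1 : Lˣ) * ((1 : G2 L)⁻¹ * δ * C.S 1) = δ := by
    have : Cub.sc (1 : Lˣ) = 1 := map_one (Matrix.GeneralLinearGroup.scalar (Fin 2))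
    rw [this, map_one]
    simp
  rw [e2]
  refine ⟨?_, hdδ⟩
  rw [e1]; exact hR

/-- The hypotheses of `inertMatch_one` hold for almost all `w`. -/
theorem finite_bad {γ : G2 K} (hns : ¬ IsSc (γ : Matrix (Fin 2) (Fin 2) K)) {δ : G2 L}
    (hδ : δ ∈ Cub.Z (L := L) γ) :
    {w : Pl L | ¬ (av w (Gm L γ).trace ≤ 1 ∧ av w (Gm L γ).det = 1 ∧ Rc w (Gm L γ) 1 δ.1 ∧
      av w δ.1.det = 1)}.Finite := by
  have hδ' : (Gm L γ) * δ.1 = δ.1 * (Gm L γ) := by
    rw [Cub.mem_Z] at hδ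
    have := congrArg (fun g : GL (Fin 2) L => (g : Matrix (Fin 2) (Fin 2) L)) hδ
    simp only [Units.val_mul, Cub.coe_Inc] at this
    exact this.symm
  obtain ⟨a, b, hab⟩ := eq_of_commute (Cub.isSc_inc.not.mpr hns) hδ'
  have key : ∀ x : L, {w : Pl L | ¬ av w x ≤ 1}.Finite := by
    intro x
    by_cases hx : x = 0
    · have : {w : Pl L | ¬ av w x ≤ 1} = ∅ := by
        ext w; simp [hx]
      rw [this]; exact Set.finite_empty
    · exact (av_finite hx).subset fun w hw h => hw (by rw [h])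
  have hdγ : (Gm L γ).det ≠ 0 := det_ne_zero' (Cub.Inc γ : G2 L)
  refine ((((key (Gm L γ).trace).union (av_finite hdγ)).union ((key a).union (key b))).union
    (av_finite (det_ne_zero' δ))).subset ?_
  intro w hw
  by_contra hcon
  apply hw
  simp only [Set.mem_union, Set.mem_ofPred_eq, not_or, not_not] at hcon
  obtain ⟨⟨⟨h1, h2⟩, h3, h4⟩, h5⟩ := hcon
  exact ⟨h1, h2, ⟨a, b, h3, h4, hab⟩, h5⟩

end

end Fermat.LT
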