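import Fermat.Agent.LT.Geo.MatchAll
import Fermat.Agent.LT.Geo.Inert
import Fermat.Agent.LT.Geo.FinPush

/-!
# LT, geometric side: local matching at the inert places (format of `Match.lean`)

* `GeoDatum.not_split_of_inert`, `GeoDatum.not_ram_of_inert`;
* `down_unique`, `Fv_fix` : the local weight at a place with one place above it;
* `locMatch_inert`, `locGood_inert`, `exists_loc_inert` : (E1) in the form `LocMatch`, `LocGood`.
-/

set_option autoImplicit false
set_option linter.unusedSectionVars false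

open NumberField IsDedekindDomain Matrix
open Fermat.Agent.LT.D

namespace Fermat.LT

section basic

variable {K L : Type} [Field K] [NumberField K] [Field L] [NumberField L] [Algebra K L]
  {C : Cub K L} {v : Pl K} {w : Pl L}

theorem GeoDatum.not_split_of_inert (h : Inert C v w) : ¬ Split C v w := fun hs => hs.ne h.fix

theorem GeoDatum.not_ram_of_inert (h : Inert C v w) : ¬ Ram C v w := by
  intro hr
  have h1 := h.q_eq
  rw [hr.q_eq] at h1
  have h2 : 1 < qv v := one_lt_qv v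
  nlinarith [mul_pos (sub_pos.mpr h2) (sub_pos.mpr h2)]

end basic

namespace GeoDatum

variable {K L : Type} [Field K] [NumberField K] [Field L] [NumberField L] [Algebra K L]
variable {C : Cub K L} {G : GeoDatum C}

/-- only one place above `v` -/
theorem eq_up_of_fix {v : Pl K} (hf : pl C (G.up v) = G.up v) {w : Pl L} (hw : G.down w = v) :
    w = G.up v := by
  rcases above_cases w hw with h | h | h
  · exact h
  · rw [h, hf]
  · rw [h, hf, hf]

theorem down_subsingleton {v : Pl K} (hf : pl C (G.up v) = G.up v) :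
    Subsingleton {w : Pl L // G.down w = v} :=
  ⟨fun a b => Subtype.ext ((eq_up_of_fix hf a.2).trans (eq_up_of_fix hf b.2).symm)⟩

/-- the place above `v` as an index -/
abbrev ix (G : GeoDatum C) (v : Pl K) : {w : Pl L // G.down w = v} := ⟨G.up v, G.down_up v⟩

theorem twA_fix {v : Pl K} (hf : pl C (G.up v) = G.up v) (δ : G2 L) (y : G.AL v) :
    twA δ y (G.ix v) = δ • G.DL.σl hf (y (G.ix v)) := by
  have key : ∀ (w : {w : Pl L // G.down w = v}) (h : pl C w.1 = G.up v), w = G.ix v →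
      δ • G.DL.σl h (y w) = δ • G.DL.σl hf (y (G.ix v)) := by
    rintro w h rfl
    rfl
  exact key ⟨(pl C).symm (G.up v), _⟩ _ ((down_subsingleton hf).elim _ _)

theorem Fv_fix {v : Pl K} (hf : pl C (G.up v) = G.up v) (k : Pure G.DL.toDatum) (δ : G2 L)
    (y : G.AL v) : Fv k v δ y =
      kw (G.DL.H (G.up v)) (k.f (G.up v)) (y (G.ix v)) (δ • G.DL.σl hf (y (G.ix v))) := by
  have hs := down_subsingleton hf
  have : Unique {w : Pl L // G.down w = v} := ⟨⟨G.ix v⟩, fun a => hs.elim _ _⟩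
  unfold Fv
  rw [finprod_eq_single _ (G.ix v) (fun a ha => absurd (hs.elim a (G.ix v)) ha), twA_fix hf]

theorem AL_ext {v : Pl K} (hf : pl C (G.up v) = G.up v) {y y' : G.AL v}
    (h : y (G.ix v) = y' (G.ix v)) : y = y' := by
  funext a
  obtain rfl : a = G.ix v := (down_subsingleton hf).elim _ _
  exact h

open Classical in
theorem Fv_inert {v : Pl K} (hv : Inert C v (G.up v)) {k : Pure G.DL.toDatum} (hk : Good k)
    (δ : G2 L) (y : G.AL v) : Fv k v δ y =
      if y (G.ix v) = δ • G.DL.σl hv.fix (y (G.ix v)) then 1 else 0 := by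
  rw [Fv_fix hv.fix, hk.inert v hv, ← (G.H_inert v hv).1, kw_unitF]

theorem Fv_inert_ne {v : Pl K} (hv : Inert C v (G.up v)) {k : Pure G.DL.toDatum} (hk : Good k)
    {δ : G2 L} {y : G.AL v} : Fv k v δ y ≠ 0 ↔
      y (G.ix v) = δ • G.DL.σl hv.fix (y (G.ix v)) := by
  rw [Fv_inert hv hk]
  split_ifs with h
  · exact ⟨fun _ => h, fun _ => one_ne_zero⟩
  · exact ⟨fun h' => absurd rfl h', fun h' => absurd h' h⟩

open Classical in
theorem Gv_inert {v : Pl K} (hv : Inert C v (G.up v)) (k : Pure G.DL.toDatum)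
    (γ : G2 K) (z : Yl G.U0 v) : Gv k v γ z = if z = γ • z then 1 else 0 := by
  unfold Gv
  rw [if_neg (not_split_of_inert hv), if_neg (not_ram_of_inert hv), kw_unitF]

open Classical in
/-- The projection at an inert place, built from `t`. -/
noncomputable def Pin (v : Pl K) (t : G2 L) (y : G.AL v) : Yl G.U0 v :=
  if h : ∃ z : Yl G.U0 v, y (G.ix v) = ((t * Cub.Inc z.out : G2 L) : Yl G.DL.toLevel (G.up v))
  then h.choose else ((1 : G2 K) : Yl G.U0 v)

section inert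

variable {v : Pl K} (hv : Inert C v (G.up v)) {t : G2 L}

include hv

theorem mem_DLH {g : G2 L} : g ∈ G.DL.H (G.up v) ↔ g ∈ stdH (G.up v) := by
  rw [(G.H_inert v hv).1]

theorem mem_U0H {g : G2 K} : g ∈ G.U0.H v ↔ g ∈ stdH v := by
  rw [(G.H_inert v hv).2]

theorem mk_t_Inc_eq {z z' : G2 K} :
    ((t * Cub.Inc z : G2 L) : Yl G.DL.toLevel (G.up v)) = ((t * Cub.Inc z' : G2 L) : _) ↔
      (z : Yl G.U0 v) = (z' : Yl G.U0 v) := by
  rw [QuotientGroup.eq, QuotientGroup.eq, mem_DLH hv, mem_U0H hv, ← Inc_mem_stdH hv, map_mul,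
    map_inv]
  have e : (t * Cub.Inc z)⁻¹ * (t * Cub.Inc z') = (Cub.Inc z : G2 L)⁻¹ * Cub.Inc z' := by group
  rw [e]

theorem mk_t_Inc_out (z : G2 K) :
    ((t * Cub.Inc z : G2 L) : Yl G.DL.toLevel (G.up v)) =
      ((t * Cub.Inc (Quotient.out (z : Yl G.U0 v)) : G2 L) : Yl G.DL.toLevel (G.up v)) := by
  rw [mk_t_Inc_eq hv]
  exact (QuotientGroup.out_eq' _).symm

theorem Pin_eq {y : G.AL v} {z : G2 K}
    (h : y (G.ix v) = ((t * Cub.Inc z : G2 L) : Yl G.DL.toLevel (G.up v))) :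
    Pin v t y = (z : Yl G.U0 v) := by
  have hex : ∃ z : Yl G.U0 v, y (G.ix v) =
      ((t * Cub.Inc z.out : G2 L) : Yl G.DL.toLevel (G.up v)) :=
    ⟨(z : Yl G.U0 v), by rw [h, mk_t_Inc_out hv]⟩
  unfold Pin
  rw [dif_pos hex]
  have h2 := (mk_t_Inc_eq hv).mp (h.symm.trans hex.choose_spec)
  exact ((QuotientGroup.out_eq' _).symm.trans h2.symm)

variable {γ : G2 K} {δ : G2 L} {k : Pure G.DL.toDatum} (hk : Good k)

/-- fixed points of `δσ` -/
theorem fix_iff {y : G2 L} :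
    (y : Yl G.DL.toLevel (G.up v)) = δ • G.DL.σl hv.fix (y : Yl G.DL.toLevel (G.up v)) ↔
      y⁻¹ * δ * C.S y ∈ stdH (G.up v) := by
  rw [TwDatum.σl_mk]
  change (y : Yl G.DL.toLevel (G.up v)) = ((δ * C.S y : G2 L) : _) ↔ _
  rw [QuotientGroup.eq, mem_DLH hv, mul_assoc]

theorem fixK_iff {z : G2 K} :
    (z : Yl G.U0 v) = γ • (z : Yl G.U0 v) ↔ z⁻¹ * γ * z ∈ stdH v := by
  change (z : Yl G.U0 v) = ((γ * z : G2 K) : _) ↔ _
  rw [QuotientGroup.eq, mem_U0H hv, mul_assoc]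

include hk

/-- the support of the local weight, in terms of `Pin` -/
theorem Fv_inert_ne_iff (hM : InertMatch C v (G.up v) γ δ t) {y : G.AL v} :
    Fv k v δ y ≠ 0 ↔ ∃ z : G2 K, z⁻¹ * γ * z ∈ stdH v ∧
      y (G.ix v) = ((t * Cub.Inc z : G2 L) : Yl G.DL.toLevel (G.up v)) := by
  rw [Fv_inert_ne hv hk]
  constructor
  · intro h
    obtain ⟨g, hg⟩ := QuotientGroup.mk_surjective (y (G.ix v))
    rw [← hg] at h
    rw [fix_iff hv] at h
    obtain ⟨z, hz, hz'⟩ := hM.bwd g h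
    refine ⟨z, hz, ?_⟩
    rw [← hg, eq_comm, QuotientGroup.eq, mem_DLH hv]
    exact hz'
  · rintro ⟨z, hz, hy⟩
    rw [hy, fix_iff hv]
    exact hM.fwd z hz

/-- **(E1)** in the format `LocMatch`. -/
theorem locMatch_inert (hγ : ¬ IsSc (γ : Matrix (Fin 2) (Fin 2) K))
    (hM : InertMatch C v (G.up v) γ δ t) : LocMatch k v γ δ (Pin v t) := by
  classical
  -- the fibre over `z`
  have hfib : ∀ z : G2 K, {y : G.AL v | Pin v t y = (z : Yl G.U0 v) ∧ Fv k v δ y ≠ 0} ⊆
      {y | y (G.ix v) = ((t * Cub.Inc z : G2 L) : Yl G.DL.toLevel (G.up v))} := by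
    rintro z y ⟨h1, h2⟩
    obtain ⟨z', -, hy⟩ := (Fv_inert_ne_iff hv hk hM).mp h2
    rw [Pin_eq hv hy] at h1
    change y (G.ix v) = _
    rw [hy, mk_t_Inc_eq hv]
    exact h1
  have hsub : ∀ z : G2 K,
      {y : G.AL v | y (G.ix v) = ((t * Cub.Inc z : G2 L) : Yl G.DL.toLevel (G.up v))}.Subsingleton :=
    fun z y hy y' hy' => AL_ext hv.fix (hy.trans hy'.symm)
  refine ⟨?_, ?_, ?_⟩
  · intro z
    obtain ⟨z, rfl⟩ := QuotientGroup.mk_surjective z
    exact ((hsub z).anti (hfib z)).finite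
  · intro z
    obtain ⟨z, rfl⟩ := QuotientGroup.mk_surjective z
    rw [Gv_inert hv]
    split_ifs with h0
    · -- one element in the fibre
      have h := (fixK_iff hv).mp h0
      let y₀ : G.AL v := fun a => (t * Cub.Inc z : G2 L)
      have hy₀ : y₀ (G.ix v) = ((t * Cub.Inc z : G2 L) : Yl G.DL.toLevel (G.up v)) := rfl
      have hset : {y : G.AL v | Pin v t y = (z : Yl G.U0 v) ∧ Fv k v δ y ≠ 0} = {y₀} := by
        apply Set.eq_singleton_iff_unique_mem.mpr
        refine ⟨⟨Pin_eq hv hy₀, (Fv_inert_ne_iff hv hk hM).mpr ⟨z, h, hy₀⟩⟩, ?_⟩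
        intro y hy
        exact hsub z (hfib z hy) hy₀
      rw [hset, finsum_mem_singleton, Fv_inert hv hk, if_pos]
      exact (Fv_inert_ne hv hk).mp ((Fv_inert_ne_iff hv hk hM).mpr ⟨z, h, hy₀⟩)
    · have h : ¬ z⁻¹ * γ * z ∈ stdH v := fun h => h0 ((fixK_iff hv).mpr h)
      have hset : {y : G.AL v | Pin v t y = (z : Yl G.U0 v) ∧ Fv k v δ y ≠ 0} = ∅ := by
        apply Set.eq_empty_of_forall_notMem
        rintro y ⟨h1, h2⟩
        obtain ⟨z', hz', hy⟩ := (Fv_inert_ne_iff hv hk hM).mp h2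
        rw [Pin_eq hv hy, eq_comm] at h1
        apply h
        rw [← fixK_iff hv, h1, fixK_iff hv]
        exact hz'
      rw [hset, finsum_mem_empty]
  · intro s hs y hy
    obtain ⟨z, hz, hy'⟩ := (Fv_inert_ne_iff hv hk hM).mp hy
    rw [Pin_eq hv hy']
    change _ = ((s * z : G2 K) : Yl G.U0 v)
    apply Pin_eq hv
    change Cub.Inc s • y (G.ix v) = _
    rw [hy']
    change ((Cub.Inc s * (t * Cub.Inc z) : G2 L) : Yl G.DL.toLevel (G.up v)) = _
    have hsZ : (Cub.Inc s : G2 L) ∈ Cub.Z (L := L) γ := by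
      rw [Cub.mem_Z, ← map_mul, ← map_mul, hs]
    rw [← mul_assoc, Cub.Z_comm hγ hsZ hM.mem_Z, mul_assoc, map_mul]

/-- good inert places -/
theorem locGood_inert (hM : InertMatch C v (G.up v) γ δ 1) (hδ : δ ∈ stdH (G.up v)) :
    LocGood k v δ (Pin (G := G) v 1) := by
  have e : ∀ z : G2 K, ((1 : G2 L) * Cub.Inc z : G2 L) = Cub.Inc z := fun z => one_mul _
  refine ⟨?_, ?_, ?_⟩
  · apply Pin_eq hv
    rw [e, map_one]
    rfl
  · rw [Fv_inert hv hk, if_pos]
    change ((1 : G2 L) : Yl G.DL.toLevel (G.up v)) = _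
    change ((1 : G2 L) : Yl G.DL.toLevel (G.up v)) =
      δ • G.DL.σl hv.fix ((1 : G2 L) : Yl G.DL.toLevel (G.up v))
    rw [fix_iff hv, inv_one, one_mul, map_one, mul_one]
    exact hδ
  · intro y hy hP
    obtain ⟨z, hz, hy'⟩ := (Fv_inert_ne_iff hv hk hM).mp hy
    rw [Pin_eq hv hy'] at hP
    apply AL_ext hv.fix
    rw [hy']
    change _ = ((1 : G2 L) : Yl G.DL.toLevel (G.up v))
    have h1 := (mk_t_Inc_eq hv (t := 1)).mpr hP
    rw [h1, map_one, mul_one]

end inert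

/-- **[LOCINERT]** Local matching at all inert places, good at almost all of them. -/
theorem exists_loc_inert (G : GeoDatum C) {γ : G2 K} {δ : G2 L} (hc : Corr C γ δ) :
    ∃ bad : Set (Pl K), bad.Finite ∧ ∀ v, Inert C v (G.up v) →
      ∃ P : G.AL v → Yl G.U0 v, (∀ k, Good k → LocMatch k v γ δ P) ∧
        (v ∉ bad → ∀ k, Good k → LocGood k v δ P) := by
  obtain ⟨hD, hZ, c, hN⟩ := hc
  have hns := hD.not_isSc
  have hinj : Function.Injective G.up := fun a b h => by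
    rw [← G.down_up a, ← G.down_up b, h]
  refine ⟨G.up ⁻¹' ({w : Pl L | ¬ (av w (Gm L γ).trace ≤ 1 ∧ av w (Gm L γ).det = 1 ∧
    Rc w (Gm L γ) 1 δ.1 ∧ av w δ.1.det = 1)} ∪ {w : Pl L | δ ∉ intGL w}),
    ((finite_bad hns hZ).union (diag δ).2).preimage hinj.injOn, ?_⟩
  intro v hv
  by_cases hbad : v ∈ G.up ⁻¹' ({w : Pl L | ¬ (av w (Gm L γ).trace ≤ 1 ∧
    av w (Gm L γ).det = 1 ∧ Rc w (Gm L γ) 1 δ.1 ∧ av w δ.1.det = 1)} ∪ {w : Pl L | δ ∉ intGL w})
  · obtain ⟨t, ht⟩ := exists_inertMatch hv hns hZ hN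
    exact ⟨Pin v t, fun k hk => locMatch_inert hv hk hns ht, fun h => absurd hbad h⟩
  · have hb := hbad
    simp only [Set.mem_preimage, Set.mem_union, Set.mem_ofPred_eq, not_or, not_not] at hb
    obtain ⟨⟨h1, h2, h3, h4⟩, h5⟩ := hb
    have hM := inertMatch_one hv hns hZ hN h1 h2 h3 h4
    exact ⟨Pin v 1, fun k hk => locMatch_inert hv hk hns hM, fun _ k hk =>
      locGood_inert hv hk hM (intGL_le_stdH _ h5)⟩

/-- **[LOCINERT]** in the format of `MatchAll`. -/
theorem locInert (G : GeoDatum C) {γ : G2 K} {δ : G2 L} (hc : Corr C γ δ) : LocInert G γ δ := by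
  classical
  obtain ⟨bad, hfin, h⟩ := exists_loc_inert G hc
  choose! P hP using fun v (hv : Inert C v (G.up v)) => h v hv
  refine ⟨P, fun v hv => (hP v hv).1, hfin.subset ?_⟩
  rintro v ⟨hv, k, hk, hn⟩
  by_contra hb
  exact hn ((hP v hv).2 hb k hk)

end GeoDatum

end Fermat.LT
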