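import Fermat.Agent.LT.Geo.Split
import Fermat.Agent.LT.Geo.MatchAll

/-!
# LT, geometric side: matching at all split places
-/

set_option autoImplicit false
set_option linter.unusedSectionVars false

open NumberField IsDedekindDomain Matrix
open Fermat.Agent.LT.D

namespace Fermat.LT

variable {K L : Type} [Field K] [NumberField K] [Field L] [NumberField L] [Algebra K L]

namespace GeoDatum

variable {C : Cub K L}

theorem locSplit (G : GeoDatum C) {γ : G2 K} {δ : G2 L} (hc : Corr C γ δ) : LocSplit G γ δ := by
  classical
  refine ⟨fun v => if h : Split C v (G.up v) then PS h else fun _ => ((1 : G2 K) : Yl G.U0 v),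
    fun v hs k => ?_, fun k => ?_⟩
  · have e : (if h : Split C v (G.up v) then PS h else fun _ => ((1 : G2 K) : Yl G.U0 v)) =
      PS hs := dif_pos hs
    change LocMatch k v γ δ (if h : Split C v (G.up v) then PS h else fun _ => _)
    rw [e]
    exact locMatch_split k hc hs
  · refine (bad_split_finite k δ).subset ?_
    rintro v ⟨hs, hv⟩ h
    have e : (if h : Split C v (G.up v) then PS h else fun _ => ((1 : G2 K) : Yl G.U0 v)) =
      PS hs := dif_pos hs
    apply hv
    change LocGood k v δ (if h : Split C v (G.up v) then PS h else fun _ => _)
    rw [e]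
    exact locGood_split k hs h.1 h.2

end GeoDatum

end Fermat.LT
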