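import Fermat.Agent.LT.Geo.Classes
import Fermat.Agent.LT.F.Classes

/-!
# LT, geometric side: representatives of classes as `Reps`, weights for the torus `T_c`

* `repsK K : Reps (PG K) id (Cls K)`, `repsK_mem : Mem x ↔ DiscP x`;
* `ClsL C` : the classes which are norms; `ClsL.δ c : G2 L`;
* `repsL C : Reps (PG L) C.pS (ClsL C)`, `repsL_mem : Mem δ ↔ DiscP (C.pN δ)`;
* `isWeight_div` : a weight for a subgroup of index `e` divided by `e` is a weight.
-/

set_option autoImplicit false
set_option linter.unusedSectionVars false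

open Matrix MeasureTheory
open Fermat.Agent.LT.D hiding pmk_mul pmk_inv pmk_one pmk_surj pmk_eq_iff comp
open Fermat.Agent.LT.F Fermat.Agent.LT.B
open scoped ENNReal

namespace Fermat.LT.Orb

open GC

section weights

variable {Γ X : Type*} [Group Γ] [MulAction Γ X] [MeasurableSpace X] [MeasurableConstSMul Γ X]

/-- A weight for `H`, divided by the index of `H` in `Z`, is a weight for `Z`. -/
theorem isWeight_div {H Z : Subgroup Γ} (hHZ : H ≤ Z) (hfin : H.relIndex Z ≠ 0) {w : X → ℝ≥0∞}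
    (hw : IsWeight H w) : IsWeight Z (fun x => ((H.relIndex Z : ℕ) : ℝ≥0∞)⁻¹ * w x) where
  meas := hw.meas.const_mul _
  sum_eq x := by
    obtain ⟨H', hH'⟩ : ∃ H' : Subgroup Z, H' = H.subgroupOf Z := ⟨_, rfl⟩
    have hidx : H'.index = H.relIndex Z := by rw [hH']; rfl
    haveI : H'.FiniteIndex := ⟨by rw [hidx]; exact hfin⟩
    haveI : Fintype (Z ⧸ H') := Fintype.ofFinite _
    rw [ENNReal.tsum_mul_left]
    have h1 : ∑' z : Z, w (z • x) = ((H.relIndex Z : ℕ) : ℝ≥0∞) := by
      have hbij : Function.Bijective (fun p : (Z ⧸ H') × H' => (p.1.out * (p.2 : Z) : Z)⁻¹) := by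
        constructor
        · rintro ⟨q, h⟩ ⟨q', h'⟩ e
          have e1 : q.out * (h : Z) = q'.out * (h' : Z) := inv_injective e
          have e2 : q = q' := by
            have e3 := congrArg (fun z : Z => (z : Z ⧸ H')) e1
            simp only [QuotientGroup.mk_mul_of_mem _ h.2, QuotientGroup.mk_mul_of_mem _ h'.2,
              QuotientGroup.out_eq'] at e3
            exact e3
          subst e2
          have e4 := mul_left_cancel e1
          rw [Prod.mk.injEq]
          exact ⟨rfl, Subtype.ext e4⟩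
        · intro z
          refine ⟨((z⁻¹ : Z), ⟨((z⁻¹ : Z) : Z ⧸ H').out⁻¹ * z⁻¹, ?_⟩), ?_⟩
          · rw [← QuotientGroup.eq, QuotientGroup.out_eq']
          · simp
      rw [← (Equiv.ofBijective _ hbij).tsum_eq, ENNReal.tsum_prod']
      have h2 : ∀ q : Z ⧸ H', ∑' h : H', w ((Equiv.ofBijective _ hbij (q, h)) • x) = 1 := by
        intro q
        rw [← hw.sum_eq ((q.out : Z)⁻¹ • x)]
        have hmem : ∀ z : Z, z ∈ H' ↔ (z : Γ) ∈ H := fun z => by
          rw [hH', Subgroup.mem_subgroupOf]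
        have hb2 : Function.Bijective (fun h : H' => (⟨((h : Z) : Γ)⁻¹,
            inv_mem ((hmem _).mp h.2)⟩ : H)) := by
          constructor
          · intro a b hab
            have h3 := congrArg (fun t : H => (t : Γ)) hab
            exact Subtype.ext (Subtype.ext (inv_injective h3))
          · intro t
            refine ⟨⟨⟨(t : Γ)⁻¹, hHZ (inv_mem t.2)⟩, ?_⟩, ?_⟩
            · rw [hH', Subgroup.mem_subgroupOf]
              exact inv_mem t.2
            · exact Subtype.ext (inv_inv _)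
        rw [← (Equiv.ofBijective _ hb2).tsum_eq]
        refine tsum_congr fun h => ?_
        congr 1
        change ((q.out * (h : Z) : Z)⁻¹ : Z) • x = ((h : Z) : Γ)⁻¹ • ((q.out : Z)⁻¹ • x)
        rw [_root_.mul_inv_rev, mul_smul]
        rfl
      simp_rw [h2]
      rw [tsum_fintype, Finset.sum_const, Finset.card_univ, nsmul_eq_mul, mul_one,
        ← hidx, Subgroup.index_eq_card, Nat.card_eq_fintype_card]
    rw [h1, ENNReal.inv_mul_cancel]
    · exact_mod_cast hfin
    · exact ENNReal.natCast_ne_top _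

end weights

section K

variable {K : Type} [Field K]

variable (K) in
/-- representatives of the regular classes of `PGL₂(K)` -/
noncomputable def repsK : Reps (PG K) (MonoidHom.id (PG K)) (Cls K) where
  r c := pmk c.rep
  Z c := Zc c.rep
  mem_Z c t := by
    rw [mem_Zc, MonoidHom.id_apply, mul_inv_eq_iff_eq_mul]
  inj c c' g h := by
    rw [MonoidHom.id_apply] at h
    apply Subtype.ext
    rw [← c.mk_rep, ← c'.mk_rep, ConjClasses.mk_eq_mk_iff_isConj, isConj_iff]
    exact ⟨g, h⟩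

theorem repsK_mem {x : PG K} : (repsK K).Mem x ↔ DiscP x := by
  constructor
  · rintro ⟨c, g, h⟩
    have h1 : DiscP (g * x * g⁻¹) := by
      rw [MonoidHom.id_apply] at h
      rw [h]
      exact discP_pmk.mpr c.disc
    have h2 := discP_conj (g := g⁻¹) (x := x)
    rw [inv_inv] at h2
    exact h2.mp h1
  · intro h
    obtain ⟨c, hc, -⟩ := Cls.exists_unique h
    obtain ⟨g, hg⟩ := Cls.mem_car.mp hc
    refine ⟨c, g, ?_⟩
    change g * x * g⁻¹ = pmk c.rep
    rw [hg]; group

theorem repsK_memI {x : PG K} {c : Cls K} : (repsK K).MemI c x ↔ x ∈ c.car := by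
  rw [Cls.mem_car]
  constructor
  · rintro ⟨g, h⟩
    change g * x * g⁻¹ = pmk c.rep at h
    exact ⟨g, by rw [← h]; group⟩
  · rintro ⟨g, h⟩
    refine ⟨g, ?_⟩
    change g * x * g⁻¹ = pmk c.rep
    rw [h]; group

theorem countable_cls [Countable K] : Countable (Cls K) := by
  haveI : Countable (PG K) := by
    haveI : Countable (G2 K) := by
      haveI : Countable (Matrix (Fin 2) (Fin 2) K) := inferInstanceAs (Countable (Fin 2 → Fin 2 → K))
      exact Units.val_injective.countable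
    exact Matrix.ProjGenLinGroup.mk_surjective.countable
  haveI : Countable (ConjClasses (PG K)) :=
    (ConjClasses.mk_surjective (α := PG K)).countable
  exact Subtype.val_injective.countable

/-- a weight for the torus, divided by the index, is a weight for the centraliser -/
theorem isWeight_Zc {X : Type*} [MulAction (PG K) X] [MeasurableSpace X]
    [MeasurableConstSMul (PG K) X] {γ : G2 K} {w : X → ℝ≥0∞} (hw : IsWeight (Tc γ) w) :
    IsWeight (Zc γ) (fun x => (((Tc γ).relIndex (Zc γ) : ℕ) : ℝ≥0∞)⁻¹ * w x) :=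
  isWeight_div (Tc_le_Zc γ) (by rcases relIndex_Tc γ with h | h <;> rw [h] <;> norm_num) hw

end K

section L

variable {K L : Type} [Field K] [Field L] [Algebra K L] (C : Cub K L)

/-- The classes of `PGL₂(K)` which are norms. -/
def ClsL : Type := {c : Cls K // (DC C c).Nonempty}

variable {C}

/-- the chosen `δ_c` -/
noncomputable def ClsL.δ (c : ClsL C) : G2 L := (exists_corr_of_mem_DC C c.2.choose_spec).choose

theorem ClsL.corr (c : ClsL C) : GeoDatum.Corr C c.1.rep c.δ :=
  (exists_corr_of_mem_DC C c.2.choose_spec).choose_spec.1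

theorem ClsL.twCent (c : ClsL C) : TwCent C c.1.rep c.δ :=
  (exists_corr_of_mem_DC C c.2.choose_spec).choose_spec.2.1

theorem nonempty_DC_iff {c : Cls K} : (DC C c).Nonempty ↔ ∃ δ : G2 L, GeoDatum.Corr C c.rep δ := by
  constructor
  · rintro ⟨δ, hδ⟩
    obtain ⟨δ', h, -⟩ := exists_corr_of_mem_DC C hδ
    exact ⟨δ', h⟩
  · rintro ⟨δ, h⟩
    exact ⟨_, mem_DC_of_corr C h 1⟩

variable (C) in
/-- representatives of the `σ`-conjugacy classes with regular norm -/
noncomputable def repsL : Reps (PG L) C.pS (ClsL C) where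
  r c := pmk c.δ
  Z c := (Zc c.1.rep).map Cub.pI
  mem_Z c t := by
    rw [Subgroup.mem_map]
    have h := c.twCent t⁻¹
    rw [inv_inv, map_inv] at h
    rw [h]
    constructor
    · rintro ⟨k, hk, rfl⟩
      exact ⟨k⁻¹, inv_mem hk, by rw [map_inv]⟩
    · rintro ⟨k, hk, hk'⟩
      exact ⟨k⁻¹, inv_mem hk, by rw [map_inv, hk', inv_inv]⟩
  inj c c' g h := by
    have h1 : pmk c'.δ ∈ DC C c.1 := by
      rw [mem_DC_iff C c.corr]
      exact ⟨g⁻¹, by rw [inv_inv, map_inv, h]⟩
    have h2 : pmk c'.δ ∈ DC C c'.1 := by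
      rw [mem_DC_iff C c'.corr]
      exact ⟨1, by simp⟩
    obtain ⟨c0, -, hc0⟩ := exists_unique_class C (discP_of_mem_DC C h1)
    apply Subtype.ext
    rw [hc0 _ h1, hc0 _ h2]

theorem repsL_mem {δ : PG L} : (repsL C).Mem δ ↔ DiscP (C.pN δ) := by
  constructor
  · rintro ⟨c, g, h⟩
    apply discP_of_mem_DC C (c := c.1)
    rw [mem_DC_iff C c.corr]
    refine ⟨g, ?_⟩
    change g * δ * (C.pS g)⁻¹ = pmk c.δ at h
    rw [← h]; group
  · intro h
    obtain ⟨c, hc, -⟩ := exists_unique_class C h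
    let c' : ClsL C := ⟨c, ⟨δ, hc⟩⟩
    obtain ⟨g, hg⟩ := (mem_DC_iff C c'.corr).mp hc
    refine ⟨c', g, ?_⟩
    change g * δ * (C.pS g)⁻¹ = pmk c'.δ
    rw [hg]; group

theorem repsL_memI {δ : PG L} {c : ClsL C} : (repsL C).MemI c δ ↔ δ ∈ DC C c.1 := by
  rw [mem_DC_iff C c.corr]
  constructor
  · rintro ⟨g, h⟩
    change g * δ * (C.pS g)⁻¹ = pmk c.δ at h
    exact ⟨g, by rw [← h]; group⟩
  · rintro ⟨g, h⟩
    refine ⟨g, ?_⟩
    change g * δ * (C.pS g)⁻¹ = pmk c.δ
    rw [h]; group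

theorem relIndex_map_pI (γ : G2 K) :
    ((Tc γ).map (Cub.pI (L := L))).relIndex ((Zc γ).map Cub.pI) = (Tc γ).relIndex (Zc γ) :=
  Subgroup.relIndex_map_map_of_injective _ _ Cub.pI_injective

/-- a weight for the torus, divided by the index, is a weight for the `σ`-centraliser -/
theorem isWeight_Zc_map {X : Type*} [MulAction (PG L) X] [MeasurableSpace X]
    [MeasurableConstSMul (PG L) X] {γ : G2 K} {w : X → ℝ≥0∞}
    (hw : IsWeight ((Tc γ).map (Cub.pI (L := L))) w) :
    IsWeight ((Zc γ).map (Cub.pI (L := L)))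
      (fun x => (((Tc γ).relIndex (Zc γ) : ℕ) : ℝ≥0∞)⁻¹ * w x) := by
  have h := isWeight_div (Subgroup.map_mono (f := Cub.pI (L := L)) (Tc_le_Zc γ))
    (by rw [relIndex_map_pI]; rcases relIndex_Tc γ with h | h <;> rw [h] <;> norm_num) hw
  rwa [relIndex_map_pI] at h

end L

/-! ### The elliptic classes -/

section ell

variable {F : Type} [Field F]

theorem ell_sc_mul {c : Fˣ} {g : G2 F} : Ell (Cub.sc c * g : G2 F).1 ↔ Ell g.1 := by
  unfold Ell
  rw [sc_mul_coe, Matrix.trace_smul, Matrix.det_smul, Fintype.card_fin, smul_eq_mul]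
  constructor
  · intro h x hx
    apply h ((c : F) * x)
    linear_combination (c : F) ^ 2 * hx
  · intro h x hx
    apply h (x / (c : F))
    have hc := c.ne_zero
    field_simp
    linear_combination hx

theorem ell_conj {g x : G2 F} : Ell (g⁻¹ * x * g : G2 F).1 ↔ Ell x.1 := by
  unfold Ell
  rw [trace_conj, det_conj]

theorem Ell.disc [CharZero F] {A : Matrix (Fin 2) (Fin 2) F} (h : Ell A) : Disc A := by
  intro h0
  apply h (A.trace / 2)
  field_simp
  linear_combination -h0

theorem ell_inc_iff {K L : Type} [Field K] [Field L] [Algebra K L] (C : Cub K L) {γ : G2 K} :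
    Ell (Cub.inc (L := L) γ.1) ↔ Ell γ.1 := by
  constructor
  · intro h x hx
    apply h (algebraMap K L x)
    rw [Cub.trace_inc, Cub.det_inc, ← map_pow, ← map_mul, ← map_sub, ← map_add, hx, map_zero]
  · exact C.ell_inc

theorem ell_of_pmk_conj {x y : G2 F} {g : PG F} (h : pmk x = g⁻¹ * pmk y * g) (hy : Ell y.1) :
    Ell x.1 := by
  obtain ⟨g, rfl⟩ := pmk_surj g
  rw [← pmk_inv, ← pmk_mul, ← pmk_mul, pmk_eq_iff] at h
  obtain ⟨c, rfl⟩ := h
  rw [ell_sc_mul, ell_conj]
  exact hy

/-- restriction of a family of representatives to a subset of the index set -/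
def _root_.Fermat.Agent.LT.F.Reps.restrict {Γ : Type*} [Group Γ] {τ : Γ →* Γ} {ι : Type*} (R : Reps Γ τ ι) (p : ι → Prop) :
    Reps Γ τ {i // p i} where
  r i := R.r i
  Z i := R.Z i
  mem_Z i := R.mem_Z i
  inj i j g h := Subtype.ext (R.inj i j g h)

theorem restrict_mem {Γ : Type*} [Group Γ] {τ : Γ →* Γ} {ι : Type*} {R : Reps Γ τ ι}
    {p : ι → Prop} {γ : Γ} : (R.restrict p).Mem γ ↔ ∃ i, p i ∧ R.MemI i γ := by
  constructor
  · rintro ⟨i, g, h⟩
    exact ⟨i, i.2, g, h⟩
  · rintro ⟨i, hi, g, h⟩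
    exact ⟨⟨i, hi⟩, g, h⟩

theorem repsK_ell_mem {K : Type} [Field K] [CharZero K] {γ : G2 K} :
    ((repsK K).restrict fun c => Ell c.rep.1).Mem (pmk γ) ↔ Ell γ.1 := by
  rw [restrict_mem]
  simp only [repsK_memI]
  constructor
  · rintro ⟨c, hc, h⟩
    obtain ⟨g, hg⟩ := Cls.mem_car.mp h
    exact ell_of_pmk_conj hg hc
  · intro h
    obtain ⟨c, hc, -⟩ := Cls.exists_unique (discP_pmk.mpr (Ell.disc h))
    refine ⟨c, ?_, hc⟩
    obtain ⟨g, hg⟩ := Cls.mem_car.mp hc
    exact ell_of_pmk_conj (g := g⁻¹) (by rw [hg]; group) h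

theorem repsL_ell_mem {K L : Type} [Field K] [Field L] [Algebra K L] [CharZero L] {C : Cub K L}
    {δ : G2 L} :
    ((repsL C).restrict fun c => Ell c.1.rep.1).Mem (pmk δ) ↔ Ell (C.N δ).1 := by
  rw [restrict_mem]
  simp only [repsL_memI]
  constructor
  · rintro ⟨c, hc, g, hg⟩
    rw [pN_pmk] at hg
    exact ell_of_pmk_conj hg ((ell_inc_iff C).mpr hc)
  · intro h
    obtain ⟨c, hc, -⟩ := exists_unique_class C (δ := pmk δ) (by
      rw [pN_pmk, discP_pmk]; exact Ell.disc h)
    refine ⟨⟨c, ⟨_, hc⟩⟩, ?_, hc⟩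
    obtain ⟨g, hg⟩ := hc
    rw [pN_pmk] at hg
    rw [← ell_inc_iff C]
    exact ell_of_pmk_conj (x := Cub.Inc c.rep) (y := C.N δ) (g := g⁻¹) (by
      rw [hg, pI_pmk]; group) h

end ell

end Fermat.LT.Orb
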