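import Fermat.Agent.LT.Geo.Classes
import Fermat.Agent.LT.F.Classes
import Fermat.Agent.LT.B.TestKer
import Fermat.Agent.LT.A.XMeas

/-!
# LT, geometric side: unfolding over elliptic classes

* `isWeight_relIndex` : passage from a weight for `H` to a weight for `S ≥ H`;
* `isWeight_map_iff` : weights for the image of a subgroup;
* `ClsE C` : elliptic classes `c` of `PGL₂(K)` which are norms, with `c.δ`;
* `unfold_L`, `unfold_K` : (U1), (U2).
-/

set_option autoImplicit false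
set_option linter.unusedSectionVars false

open NumberField IsDedekindDomain Matrix MeasureTheory Topology
open Fermat.Agent.LT.B Fermat.Agent.LT.F
open Fermat.Agent.LT.D hiding pmk_mul pmk_inv pmk_one pmk_surj pmk_eq_iff comp PG pmk
open scoped ENNReal

namespace Fermat.LT

open GC

section weights

variable {Γ X : Type*} [Group Γ] [MulAction Γ X] [MeasurableSpace X]

/-- left cosets, parametrisation of the group -/
noncomputable def cosetE {G : Type*} [Group G] (H : Subgroup G) : (G ⧸ H) × H ≃ G where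
  toFun p := p.1.out * p.2
  invFun g := ((g : G ⧸ H), ⟨(g : G ⧸ H).out⁻¹ * g, QuotientGroup.eq.1 (QuotientGroup.out_eq' _)⟩)
  left_inv p := by
    obtain ⟨q, h⟩ := p
    have hq : ((q.out * (h : G) : G) : G ⧸ H) = q := by
      conv_rhs => rw [← QuotientGroup.out_eq' q]
      rw [QuotientGroup.eq]
      simp
    refine Prod.ext hq (Subtype.ext ?_)
    change ((q.out * (h : G) : G) : G ⧸ H).out⁻¹ * (q.out * h) = h
    rw [hq, inv_mul_cancel_left]
  right_inv g := by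
    change (g : G ⧸ H).out * ((g : G ⧸ H).out⁻¹ * g) = g
    rw [mul_inv_cancel_left]

/-- A weight for `H` gives a weight for a group `S` containing `H` with finite index. -/
theorem isWeight_relIndex {H S : Subgroup Γ} (hHS : H ≤ S) (hi : H.relIndex S ≠ 0)
    {w : X → ℝ≥0∞} (hw : IsWeight H w) :
    IsWeight S (fun x => ((H.relIndex S : ℕ) : ℝ≥0∞)⁻¹ * w x) := by
  refine ⟨hw.meas.const_mul _, fun x => ?_⟩
  rw [ENNReal.tsum_mul_left]
  have key : ∑' s : S, w (s • x) = ((H.relIndex S : ℕ) : ℝ≥0∞) := by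
    rw [← (Equiv.inv S).tsum_eq (fun s : S => w (s • x)),
      ← (cosetE (H.subgroupOf S)).tsum_eq, ENNReal.tsum_prod']
    have h1 : ∀ q : S ⧸ H.subgroupOf S,
        ∑' h : H.subgroupOf S, w ((Equiv.inv S) (cosetE (H.subgroupOf S) (q, h)) • x) = 1 := by
      intro q
      rw [← hw.sum_inv (q.out⁻¹ • x), ← (Subgroup.subgroupOfEquivOfLe hHS).toEquiv.tsum_eq
        (fun h : H => w (h⁻¹ • (q.out⁻¹ • x)))]
      refine tsum_congr fun h => ?_
      congr 1
      change ((q.out * (h : S))⁻¹ : S) • x = _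
      rw [_root_.mul_inv_rev, mul_smul]
      rfl
    simp_rw [h1]
    have hfin : Finite (S ⧸ H.subgroupOf S) := by
      rw [Subgroup.relIndex, Subgroup.index_ne_zero_iff_finite] at hi
      exact hi
    have := Fintype.ofFinite (S ⧸ H.subgroupOf S)
    rw [tsum_fintype, Finset.sum_const, Finset.card_univ, nsmul_eq_mul, mul_one,
      ← Nat.card_eq_fintype_card]
    rfl
  rw [key]
  exact ENNReal.inv_mul_cancel (by exact_mod_cast hi) (ENNReal.natCast_ne_top _)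

/-- weights for the image of a subgroup under an injective map, in terms of sums over the
source -/
theorem isWeight_map_iff {Γ' : Type*} [Group Γ'] {j : Γ' →* Γ} (hj : Function.Injective j)
    {T : Subgroup Γ'} {w : X → ℝ≥0∞} :
    IsWeight (T.map j) w ↔ Measurable w ∧ ∀ x, ∑' t : T, w (j (t : Γ') • x) = 1 := by
  have h1 : ∀ x, ∑' s : T.map j, w (s • x) = ∑' t : T, w (j (t : Γ') • x) := by
    intro x
    rw [← (T.equivMapOfInjective j hj).toEquiv.tsum_eq (fun s : T.map j => w (s • x))]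
    rfl
  constructor
  · rintro ⟨a, b⟩
    exact ⟨a, fun x => by rw [← h1]; exact b x⟩
  · rintro ⟨a, b⟩
    exact ⟨a, fun x => by rw [h1]; exact b x⟩

end weights

section ell

variable {K : Type} [Field K]

theorem ell_scm {c : Kˣ} {g : G2 K} (h : Ell g.1) : Ell (Cub.sc c * g : G2 K).1 := by
  intro x hx
  rw [sc_mul_coe, Matrix.trace_smul, Matrix.det_smul, Fintype.card_fin, smul_eq_mul] at hx
  have hc := c.ne_zero
  apply h (x / c)
  field_simp
  linear_combination hx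

theorem ell_cnj {g x : G2 K} (h : Ell x.1) : Ell (g⁻¹ * x * g : G2 K).1 := by
  intro y hy
  rw [trace_conj, det_conj] at hy
  exact h y hy

theorem ell_of_pmk {γ γ' : G2 K} {k : PG K} (hk : pmk γ' = k⁻¹ * pmk γ * k) (h : Ell γ.1) :
    Ell γ'.1 := by
  obtain ⟨k, rfl⟩ := pmk_surj k
  rw [← pmk_inv, ← pmk_mul, ← pmk_mul, pmk_eq_iff] at hk
  obtain ⟨a, rfl⟩ := hk
  exact ell_scm (ell_cnj h)

theorem disc_of_ell [NeZero (2 : K)] {g : G2 K} (h : Ell g.1) : Disc g.1 := by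
  intro h0
  have h2 : (2 : K) ≠ 0 := NeZero.ne 2
  apply h (g.1.trace / 2)
  field_simp
  linear_combination -h0

variable {L : Type} [Field L] [Algebra K L]

theorem ell_of_inc {γ : G2 K} (h : Ell (Cub.Inc γ : G2 L).1) : Ell γ.1 := by
  intro x hx
  apply h (algebraMap K L x)
  rw [Cub.coe_Inc, Cub.trace_inc, Cub.det_inc]
  have := congrArg (algebraMap K L) hx
  simpa only [map_add, map_sub, map_mul, map_pow, map_zero] using this

end ell

section classes

variable {K L : Type} [Field K] [Field L] [Algebra K L] (C : Cub K L)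

/-- elliptic classes of `PGL₂(K)` which are norms from `PGL₂(L)` -/
def ClsE : Type := {c : Cls K // Ell c.rep.1 ∧ ∃ δ : G2 L, GeoDatum.Corr C c.rep δ}

variable {C}

/-- the index `e_c` -/
noncomputable def Cls.e (c : Cls K) : ℕ := (Tc c.rep).relIndex (Zc c.rep)

theorem Cls.e_ne_zero (c : Cls K) : c.e ≠ 0 := by
  unfold Cls.e
  rcases relIndex_Tc c.rep with h | h <;> rw [h] <;> norm_num

theorem ClsE.exists_δ (c : ClsE C) : ∃ δ : G2 L, GeoDatum.Corr C c.1.rep δ ∧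
    TwCent C c.1.rep δ := by
  obtain ⟨δ, hδ⟩ := c.2.2
  obtain ⟨δ', h1, h2, -⟩ := exists_twCent C hδ
  exact ⟨δ', h1, h2⟩

/-- the representative `δ_c` -/
noncomputable def ClsE.δ (c : ClsE C) : G2 L := c.exists_δ.choose

theorem ClsE.corr (c : ClsE C) : GeoDatum.Corr C c.1.rep c.δ := c.exists_δ.choose_spec.1

theorem ClsE.twCent (c : ClsE C) : TwCent C c.1.rep c.δ := c.exists_δ.choose_spec.2

theorem ClsE.ell (c : ClsE C) : Ell c.1.rep.1 := c.2.1

variable (C)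

/-- representatives on the `L`-side -/
noncomputable def repsEL : Reps (PG L) C.pS (ClsE C) where
  r c := pmk c.δ
  Z c := (Zc c.1.rep).map Cub.pI
  mem_Z c t := by
    have h := c.twCent t⁻¹
    rw [inv_inv, map_inv] at h
    rw [h, Subgroup.mem_map]
    constructor
    · rintro ⟨k, hk, rfl⟩
      exact ⟨k⁻¹, inv_mem hk, by rw [map_inv]⟩
    · rintro ⟨k, hk, hk'⟩
      exact ⟨k⁻¹, inv_mem hk, by rw [map_inv, hk', inv_inv]⟩
  inj c c' g hg := by
    apply Subtype.ext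
    have h1 : pmk c'.δ ∈ DC C c.1 := by
      rw [← hg]
      have := mem_DC_of_corr C c.corr g⁻¹
      rwa [inv_inv, map_inv] at this
    have h2 : pmk c'.δ ∈ DC C c'.1 := by
      have := mem_DC_of_corr C c'.corr 1
      simpa using this
    exact (exists_unique_class C (discP_of_mem_DC C h1)).unique h1 h2

theorem mem_repsEL [NeZero (2 : K)] {δ : G2 L} (h : Disc (C.N δ).1) (hE : Ell (C.N δ).1) :
    (repsEL C).Mem (pmk δ) := by
  have hD : DiscP (C.pN (pmk δ)) := by rw [pN_pmk]; exact discP_pmk.mpr h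
  obtain ⟨c, hc, -⟩ := exists_unique_class C hD
  have hc' := hc
  obtain ⟨δc, hδc, -, -⟩ := exists_corr_of_mem_DC C hc
  have hEc : Ell c.rep.1 := by
    obtain ⟨g, hg⟩ := hc
    apply ell_of_inc (L := L)
    have h3 : pmk (Cub.Inc c.rep : G2 L) = (g⁻¹)⁻¹ * pmk (C.N δ) * g⁻¹ := by
      rw [pN_pmk, pI_pmk] at hg
      rw [hg]
      group
    exact ell_of_pmk h3 hE
  refine ⟨⟨c, hEc, δc, hδc⟩, ?_⟩
  obtain ⟨g, hg⟩ := (mem_DC_iff C (ClsE.corr (C := C) ⟨c, hEc, δc, hδc⟩)).1 hc'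
  refine ⟨g, ?_⟩
  rw [hg]
  group
  rfl

/-- representatives on the `K`-side -/
noncomputable def repsEK : Reps (PG K) (MonoidHom.id (PG K)) (ClsE C) where
  r c := pmk c.1.rep
  Z c := Zc c.1.rep
  mem_Z c t := by
    rw [mem_Zc, MonoidHom.id_apply, mul_inv_eq_iff_eq_mul]
  inj c c' g hg := by
    apply Subtype.ext
    rw [MonoidHom.id_apply] at hg
    have h1 : pmk c'.1.rep ∈ c.1.car := Cls.mem_car.2 ⟨g⁻¹, by rw [← hg, inv_inv]⟩
    have h2 : pmk c'.1.rep ∈ c'.1.car := Cls.mem_car.2 ⟨1, by simp⟩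
    exact (Cls.exists_unique (discP_pmk.2 c'.1.disc)).unique h1 h2

theorem mem_repsEK [NeZero (2 : K)] {γ : G2 K} (hE : Ell γ.1)
    (hC : ∃ δ : G2 L, GeoDatum.Corr C γ δ) : (repsEK C).Mem (pmk γ) := by
  have hD : DiscP (pmk γ) := discP_pmk.2 (disc_of_ell hE)
  obtain ⟨c, hc, -⟩ := Cls.exists_unique hD
  obtain ⟨g, hg⟩ := Cls.mem_car.1 hc
  have hg' : pmk c.rep = (g⁻¹)⁻¹ * pmk γ * g⁻¹ := by
    rw [hg]; group
  have hEc : Ell c.rep.1 := ell_of_pmk hg' hE
  obtain ⟨δ, hδ⟩ := hC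
  obtain ⟨δ', hδ', -⟩ := Corr.conj C hδ hg'
  refine ⟨⟨c, hEc, δ', hδ'⟩, g, ?_⟩
  rw [MonoidHom.id_apply, hg]
  change _ = pmk c.rep
  group

instance [Countable (PG K)] : Countable (Cls K) := by
  have : Countable (ConjClasses (PG K)) := inferInstanceAs (Countable (Quotient _))
  exact Subtype.countable

instance [Countable (PG K)] : Countable (ClsE C) := by
  exact Subtype.countable

end classes

section unfold

/-- passage to weights of a subgroup of finite index in the integral -/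
theorem integral_div_index {X : Type*} [MeasurableSpace X] {μ : Measure X} (n : ℕ)
    (w : X → ℝ≥0∞) (f : X → ℂ) :
    ∫ x, (((n : ℝ≥0∞)⁻¹ * w x).toReal) • f x ∂μ = ((n : ℝ)⁻¹) • ∫ x, (w x).toReal • f x ∂μ := by
  rw [← integral_smul]
  congr 1
  ext x
  rw [ENNReal.toReal_mul, ENNReal.toReal_inv, ENNReal.toReal_natCast, mul_smul]

theorem integrable_of_div_index {X : Type*} [MeasurableSpace X] {μ : Measure X} {n : ℕ}
    (hn : n ≠ 0) {w : X → ℝ≥0∞} {f : X → ℂ}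
    (h : Integrable (fun x => (((n : ℝ≥0∞)⁻¹ * w x).toReal) • f x) μ) :
    Integrable (fun x => (w x).toReal • f x) μ := by
  refine (h.smul (n : ℝ)).congr (Filter.Eventually.of_forall fun x => ?_)
  simp only [Pi.smul_apply]
  rw [ENNReal.toReal_mul, ENNReal.toReal_inv, ENNReal.toReal_natCast, smul_smul, ← mul_assoc,
    mul_inv_cancel₀ (by exact_mod_cast hn), one_mul]

/-- integrability of a weighted function -/
theorem integrable_wt {Γ X : Type*} [Group Γ] [MulAction Γ X] [MeasurableSpace X]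
    {μ : Measure X} {w : X → ℝ≥0∞} (hw : IsWeight Γ w) {f : X → ℂ} (hf : AEStronglyMeasurable f μ)
    (h : ∫⁻ x, w x * ‖f x‖ₑ ∂μ ≠ ∞) : Integrable (fun x => (w x).toReal • f x) μ := by
  refine ⟨(hw.meas.ennreal_toReal.aestronglyMeasurable.smul hf), ?_⟩
  unfold HasFiniteIntegral
  have : ∫⁻ x, ‖(w x).toReal • f x‖ₑ ∂μ = ∫⁻ x, w x * ‖f x‖ₑ ∂μ := by
    refine lintegral_congr fun x => ?_
    rw [enorm_smul, Real.enorm_eq_ofReal ENNReal.toReal_nonneg, ENNReal.ofReal_toReal (hw.ne_top x)]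
  rw [this]
  exact h.lt_top

/-- Expansion over classes on `X D`, with the weights divided by an index. -/
theorem unfold_gen {F : Type} [Field F] [NumberField F] {D : Datum F} {τ : PG F →* PG F}
    {ι : Type} [Countable ι] (R : Reps (PG F) τ ι) (T : ι → Subgroup (PG F))
    (hT : ∀ i, T i ≤ R.Z i) (hTi : ∀ i, (T i).relIndex (R.Z i) ≠ 0)
    {κ : X D → X D → ℂ} {s : X D → X D} (hs : ∀ (g : PG F) x, s (g • x) = τ g • s x)
    (hκ : ∀ (g : PG F) x y, κ (g • x) (g • y) = κ x y)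
    (hm : ∀ δ : PG F, Measurable fun x => κ x (δ • s x))
    (hsupp : ∀ δ x, κ x (δ • s x) ≠ 0 → R.Mem δ)
    {w : X D → ℝ≥0∞} (hw : IsWeight (PG F) w)
    {wT : ι → X D → ℝ≥0∞} (hwT : ∀ i, IsWeight (T i) (wT i))
    (hconv : ∫⁻ x, w x * ∑' δ : PG F, ‖κ x (δ • s x)‖ₑ ≠ ∞) :
    (∀ i, Integrable (fun x => (wT i x).toReal • κ x (R.r i • s x))) ∧
    HasSum (fun i => (((T i).relIndex (R.Z i) : ℕ) : ℝ)⁻¹ •
        ∫ x, (wT i x).toReal • κ x (R.r i • s x))
      (∫ x, (w x).toReal • ∑' δ : PG F, κ x (δ • s x)) := by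
  let _ : MeasurableSpace (PG F) := ⊤
  have _ : DiscreteMeasurableSpace (PG F) := ⟨fun _ => trivial⟩
  have hwi : ∀ i, IsWeight (R.Z i) (fun x => (((T i).relIndex (R.Z i) : ℕ) : ℝ≥0∞)⁻¹ * wT i x) :=
    fun i => isWeight_relIndex (hT i) (hTi i) (hwT i)
  have hΦ : ∀ δ : PG F, AEStronglyMeasurable (fun x => κ x (δ • s x)) (volume : Measure (X D)) :=
    fun δ => (hm δ).stronglyMeasurable.aestronglyMeasurable
  have hinv : ∀ (g δ : PG F) (x : X D), (fun (δ : PG F) (x : X D) => κ x (δ • s x))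
      (g * δ * (τ g)⁻¹) (g • x) = (fun (δ : PG F) (x : X D) => κ x (δ • s x)) δ x := by
    intro g δ x
    change κ (g • x) ((g * δ * (τ g)⁻¹) • s (g • x)) = κ x (δ • s x)
    rw [hs, mul_smul, inv_smul_smul, mul_smul, hκ]
  obtain ⟨h1, h2⟩ := Reps.class_expand (R := R) (μ := (volume : Measure (X D))) hw hwi
    (Φ := fun (δ : PG F) (x : X D) => κ x (δ • s x)) hΦ hinv hsupp hconv
  refine ⟨fun i => ?_, ?_⟩
  · refine integrable_of_div_index (hTi i) (integrable_wt (hwi i) (hΦ _) ?_)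
    refine ne_top_of_le_ne_top ?_ (ENNReal.le_tsum (f := fun i =>
      ∫⁻ x, (((T i).relIndex (R.Z i) : ℕ) : ℝ≥0∞)⁻¹ * wT i x * ‖κ x (R.r i • s x)‖ₑ) i)
    rw [h1]
    exact hconv
  · simpa only [integral_div_index] using h2

variable {K L : Type} [Field K] [NumberField K] [Field L] [NumberField L] [Algebra K L]
  {C : Cub K L}

theorem TLc_le (c : ClsE C) : (Tc c.1.rep).map Cub.pI ≤ (repsEL C).Z c :=
  Subgroup.map_mono (Tc_le_Zc _)

theorem relIndex_map_inj {G G' : Type*} [Group G] [Group G'] (f : G →* G')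
    (hf : Function.Injective f) (H S : Subgroup G) :
    (H.map f).relIndex (S.map f) = H.relIndex S := by
  rw [← Subgroup.relIndex_comap, Subgroup.comap_map_eq_self_of_injective hf]

theorem relIndex_TLc (c : ClsE C) :
    ((Tc c.1.rep).map Cub.pI).relIndex ((repsEL C).Z c) = c.1.e :=
  relIndex_map_inj _ Cub.pI_injective _ _

/-- **(U1)** Unfolding on the `L`-side. -/
theorem unfold_L (DL : TwDatum C) {κ : X DL.toDatum → X DL.toDatum → ℂ}
    (hκ : ∀ (g : PG L) x y, κ (g • x) (g • y) = κ x y)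
    (hm : ∀ δ : PG L, Measurable fun x => κ x (δ • DL.σX x))
    (hell : ∀ (δ : G2 L) x, κ x (pmk δ • DL.σX x) ≠ 0 → Ell (C.N δ).1)
    {w : X DL.toDatum → ℝ≥0∞} (hw : IsWeight (PG L) w)
    {wT : ClsE C → X DL.toDatum → ℝ≥0∞}
    (hwT : ∀ c : ClsE C, IsWeight ((Tc c.1.rep).map (Cub.pI (L := L))) (wT c))
    (hconv : ∫⁻ x, w x * ∑' δ : PG L, ‖κ x (δ • DL.σX x)‖ₑ ≠ ∞) :
    (∀ c : ClsE C, Integrable (fun x => (wT c x).toReal • κ x (c.δ • DL.σX x))) ∧
    HasSum (fun c : ClsE C => ((c.1.e : ℝ)⁻¹) • ∫ x, (wT c x).toReal • κ x (c.δ • DL.σX x))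
      (∫ x, (w x).toReal • autK κ x (DL.σX x)) := by
  have h := unfold_gen (D := DL.toDatum) (repsEL C) (fun c => (Tc c.1.rep).map Cub.pI) TLc_le
    (fun c => by rw [relIndex_TLc]; exact c.1.e_ne_zero) (s := DL.σX) (DL.σX_smul_pg) hκ hm
    (fun δ x hx => by
      obtain ⟨δ, rfl⟩ := pmk_surj δ
      exact mem_repsEL C (disc_of_ell (hell δ x hx)) (hell δ x hx)) hw hwT hconv
  simp only [relIndex_TLc] at h
  exact h

/-- **(U2)** Unfolding on the `K`-side. -/
theorem unfold_K {DK : Datum K} {κ : X DK → X DK → ℂ}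
    (hκ : ∀ (g : PG K) x y, κ (g • x) (g • y) = κ x y)
    (hm : ∀ γ : PG K, Measurable fun x => κ x (γ • x))
    (hell : ∀ (γ : G2 K) x, κ x (pmk γ • x) ≠ 0 → Ell γ.1)
    (hCL3 : ∀ γ : G2 K, Ell γ.1 → (∃ x, κ x (pmk γ • x) ≠ 0) →
      ∃ δ : G2 L, GeoDatum.Corr C γ δ)
    {w : X DK → ℝ≥0∞} (hw : IsWeight (PG K) w)
    {wT : ClsE C → X DK → ℝ≥0∞} (hwT : ∀ c : ClsE C, IsWeight (Tc c.1.rep) (wT c))
    (hconv : ∫⁻ x, w x * ∑' γ : PG K, ‖κ x (γ • x)‖ₑ ≠ ∞) :
    (∀ c : ClsE C, Integrable (fun x => (wT c x).toReal • κ x (c.1.rep • x))) ∧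
    HasSum (fun c : ClsE C => ((c.1.e : ℝ)⁻¹) • ∫ x, (wT c x).toReal • κ x (c.1.rep • x))
      (∫ x, (w x).toReal • autK κ x x) :=
  unfold_gen (D := DK) (repsEK C) (fun c => Tc c.1.rep) (fun c => Tc_le_Zc _)
    (fun c => c.1.e_ne_zero) (s := id) (fun _ _ => rfl) hκ hm
    (fun γ x hx => by
      obtain ⟨γ, rfl⟩ := pmk_surj γ
      exact mem_repsEK C (hell γ x hx) (hCL3 γ (hell γ x hx) ⟨x, hx⟩)) hw hwT hconv

/-- **Output**: if the class contributions agree then the two sides agree. -/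
theorem unfold_eq (DL : TwDatum C) {DK : Datum K} {κ : X DL.toDatum → X DL.toDatum → ℂ}
    {κ' : X DK → X DK → ℂ}
    (hκ : ∀ (g : PG L) x y, κ (g • x) (g • y) = κ x y)
    (hm : ∀ δ : PG L, Measurable fun x => κ x (δ • DL.σX x))
    (hell : ∀ (δ : G2 L) x, κ x (pmk δ • DL.σX x) ≠ 0 → Ell (C.N δ).1)
    {wL : X DL.toDatum → ℝ≥0∞} (hwL : IsWeight (PG L) wL)
    (hconv : ∫⁻ x, wL x * ∑' δ : PG L, ‖κ x (δ • DL.σX x)‖ₑ ≠ ∞)
    (hκ' : ∀ (g : PG K) x y, κ' (g • x) (g • y) = κ' x y)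
    (hm' : ∀ γ : PG K, Measurable fun x => κ' x (γ • x))
    (hell' : ∀ (γ : G2 K) x, κ' x (pmk γ • x) ≠ 0 → Ell γ.1)
    (hCL3 : ∀ γ : G2 K, Ell γ.1 → (∃ x, κ' x (pmk γ • x) ≠ 0) →
      ∃ δ : G2 L, GeoDatum.Corr C γ δ)
    {wK : X DK → ℝ≥0∞} (hwK : IsWeight (PG K) wK)
    (hconv' : ∫⁻ x, wK x * ∑' γ : PG K, ‖κ' x (γ • x)‖ₑ ≠ ∞)
    (hcl : ∀ c : ClsE C, ∃ (w : X DL.toDatum → ℝ≥0∞) (w' : X DK → ℝ≥0∞),
      IsWeight ((Tc c.1.rep).map (Cub.pI (L := L))) w ∧ IsWeight (Tc c.1.rep) w' ∧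
      ∫ x, (w x).toReal • κ x (c.δ • DL.σX x) = ∫ x, (w' x).toReal • κ' x (c.1.rep • x)) :
    ∫ x, (wL x).toReal • autK κ x (DL.σX x) = ∫ x, (wK x).toReal • autK κ' x x := by
  choose w w' hw hw' h using hcl
  have h1 := (unfold_L DL hκ hm hell hwL hw hconv).2
  have h2 := (unfold_K hκ' hm' hell' hCL3 hwK hw' hconv').2
  simp_rw [h] at h1
  exact h1.unique h2

end unfold

end Fermat.LT
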