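import Fermat.Agent.LT.Geo.Cpt
import Fermat.Agent.LT.Geo.Unfold
import Fermat.Agent.LT.Geo.Orbit
import Fermat.Agent.LT.F.ClassAbs

/-!
# LT, geometric side: identity of the contributions of an elliptic class

* `class_lintegral_ne_top` : the contribution of one elliptic class converges absolutely;
* `IsDeep` : relation between the kernel on the deep level and the flat weight;
* `class_id` : the contributions of an elliptic class on the two sides agree.
-/

set_option autoImplicit false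
set_option linter.unusedSectionVars false

open NumberField IsDedekindDomain Matrix MeasureTheory Set
open Fermat.Agent.LT.D hiding pmk_mul pmk_inv pmk_one pmk_surj pmk_eq_iff comp pmk PG
open Fermat.Agent.LT.B Fermat.Agent.LT.F
open scoped ENNReal

namespace Fermat.LT

section conv

variable {F : Type} [Field F] [NumberField F] {D : Datum F}

open Classical in
/-- boundedness of the sum over a subset of the group when the support is compact modulo
`PGL₂(F)` -/
theorem Pure.exists_tsum_le_of (k : Pure D) {τX : X D → X D} (hc : Continuous τX)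
    {τ : PG F → PG F} (hτ : ∀ g x, τX (g • x) = τ g • τX x) {E : PG F → Prop}
    (hE : ∀ g δ, E (g * δ * (τ g)⁻¹) ↔ E δ) {T : ℝ}
    (hT : ∀ x (δ : PG F), E δ → k.ker x (δ • τX x) ≠ 0 → hmax x ≤ T) :
    ∃ A : ℝ≥0∞, A ≠ ∞ ∧ ∀ x, ∑' δ : PG F, ‖if E δ then k.ker x (δ • τX x) else 0‖ₑ ≤ A := by
  obtain ⟨K, hK, hKT⟩ := exists_compact_of_ht_le D T
  obtain ⟨C', hC', hsupp⟩ := k.exists_supp K hK
  have hfin := proper (hK.image hc) hC'
  obtain ⟨M, hM⟩ := ((hK.prod hC').image (k.continuous_ker.norm)).bddAbove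
  have hM' : ∀ x ∈ K, ∀ y, ‖k.ker x y‖ ≤ max M 0 := by
    intro x hx y
    by_cases hy : y ∈ C'
    · exact (hM ⟨(x, y), ⟨hx, hy⟩, rfl⟩).trans (le_max_left _ _)
    · rw [hsupp x hx y hy, norm_zero]
      exact le_max_right _ _
  -- the estimate on `K`
  have hKest : ∀ x ∈ K, ∑' δ : PG F, ‖if E δ then k.ker x (δ • τX x) else 0‖ₑ ≤
      hfin.toFinset.card • ENNReal.ofReal (max M 0) := by
    intro x hx
    have h0 : ∀ δ ∉ hfin.toFinset, ‖if E δ then k.ker x (δ • τX x) else 0‖ₑ = 0 := by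
      intro δ hδ
      rw [Set.Finite.mem_toFinset, Set.mem_ofPred_eq] at hδ
      push Not at hδ
      rw [hsupp x hx _ (hδ (τX x) ⟨x, hx, rfl⟩), ite_self, enorm_zero]
    rw [tsum_eq_sum (s := hfin.toFinset) (fun δ hδ => h0 δ hδ)]
    refine Finset.sum_le_card_nsmul _ _ _ fun δ _ => ?_
    rw [← ofReal_norm]
    apply ENNReal.ofReal_le_ofReal
    by_cases hE : E δ
    · rw [if_pos hE]; exact hM' x hx _
    · rw [if_neg hE, norm_zero]; exact le_max_right _ _
  refine ⟨hfin.toFinset.card • ENNReal.ofReal (max M 0), ?_, fun x => ?_⟩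
  · rw [nsmul_eq_mul]
    exact ENNReal.mul_ne_top (ENNReal.natCast_ne_top _) ENNReal.ofReal_ne_top
  · by_cases hx : hmax x ≤ T
    · obtain ⟨γ, hγ⟩ := hKT x (hmax_le_iff.mp hx)
      have h1 := hKest (γ • x) hγ
      have e : ∑' δ : PG F, ‖if E δ then k.ker x (δ • τX x) else 0‖ₑ =
          ∑' δ : PG F, ‖if E δ then k.ker (γ • x) (δ • τX (γ • x)) else 0‖ₑ := by
        rw [← ((Equiv.mulLeft γ).trans (Equiv.mulRight (τ γ)⁻¹)).tsum_eq
          (fun δ : PG F => ‖if E δ then k.ker (γ • x) (δ • τX (γ • x)) else 0‖ₑ)]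
        refine tsum_congr fun δ => ?_
        have e2 : ((Equiv.mulLeft γ).trans (Equiv.mulRight (τ γ)⁻¹)) δ = γ * δ * (τ γ)⁻¹ := rfl
        rw [e2, hτ, mul_smul, inv_smul_smul, mul_smul, k.ker_smul_pg]
        simp only [hE]
      rw [e]
      exact h1
    · have h0 : ∀ δ : PG F, ‖if E δ then k.ker x (δ • τX x) else 0‖ₑ = 0 := by
        intro δ
        by_contra hne
        rw [enorm_eq_zero, ite_eq_right_iff, Classical.not_imp] at hne
        exact hx (hT x δ hne.1 hne.2)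
      simp [h0]

end conv

section cls

variable {K : Type} [Field K] [NumberField K] {D : Datum K}

/-- The contribution of one elliptic class converges absolutely. -/
theorem class_lintegral_ne_top (k : Pure D) {c : Cls K} (hc : Ell c.rep.1) {w : X D → ℝ≥0∞}
    (hw : IsWeight (Tc c.rep) w) : ∫⁻ x, w x * ‖k.ker x (c.rep • x)‖ₑ ≠ ∞ := by
  classical
  let _ : MeasurableSpace (PG K) := ⊤
  have _ : DiscreteMeasurableSpace (PG K) := ⟨fun _ => trivial⟩
  set R := (Orb.repsK K).restrict fun c => Ell c.rep.1 with hR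
  have _ : Countable {c : Cls K // Ell c.rep.1} := by
    have : Countable (Cls K) := inferInstance
    infer_instance
  obtain ⟨T, hT⟩ := exists_hmax_le k
  obtain ⟨A, hA, hAle⟩ := k.exists_tsum_le_of (τX := fun x => x) continuous_id (τ := fun g => g)
    (fun _ _ => rfl) (E := R.Mem) (fun g δ => Reps.mem_conj (R := R)) (T := T)
    (fun x δ hE hδ => by
      obtain ⟨γ, rfl⟩ := Matrix.ProjGenLinGroup.mk_surjective δ
      exact hT x γ hδ (Orb.repsK_ell_mem.mp hE))
  obtain ⟨wG, hwG⟩ := exists_isWeight_PG D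
  have hconv : ∫⁻ x, wG x * ∑' δ : PG K, ‖if R.Mem δ then k.ker x (δ • x) else 0‖ₑ ≠ ∞ := by
    refine ne_top_of_le_ne_top ?_ (lintegral_mono fun x => mul_le_mul_right (hAle x) (wG x))
    rw [lintegral_mul_const _ hwG.meas]
    exact ENNReal.mul_ne_top (covolume_lt_top hwG).ne hA
  choose wT hwT using fun i : {c : Cls K // Ell c.rep.1} => exists_isWeight_sub D (Tc i.1.rep)
  have hwi : ∀ i : {c : Cls K // Ell c.rep.1}, IsWeight (R.Z i)
      (fun x => (((Tc i.1.rep).relIndex (Zc i.1.rep) : ℕ) : ℝ≥0∞)⁻¹ * wT i x) :=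
    fun i => Orb.isWeight_Zc (hwT i)
  have hmeas : ∀ δ : PG K, Measurable fun x : X D => k.ker x (δ • x) := fun δ =>
    (k.continuous_ker.comp (continuous_id.prodMk (continuous_id.const_smul δ))).measurable
  have hΦ : ∀ δ : PG K, AEStronglyMeasurable
      ((fun (δ : PG K) (x : X D) => if R.Mem δ then k.ker x (δ • x) else 0) δ)
      (volume : Measure (X D)) := by
    intro δ
    by_cases h : R.Mem δ
    · simp only [if_pos h]
      exact (hmeas δ).aestronglyMeasurable
    · simp only [if_neg h]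
      exact aestronglyMeasurable_const
  have hinv : ∀ (g δ : PG K) (x : X D),
      (fun (δ : PG K) (x : X D) => if R.Mem δ then k.ker x (δ • x) else 0)
      (g * δ * ((MonoidHom.id (PG K)) g)⁻¹) (g • x) =
      (fun (δ : PG K) (x : X D) => if R.Mem δ then k.ker x (δ • x) else 0) δ x := by
    intro g δ x
    simp only [Reps.mem_conj]
    rw [MonoidHom.id_apply, mul_smul, inv_smul_smul, mul_smul, k.ker_smul_pg]
  obtain ⟨h1, -⟩ := Reps.class_expand (R := R) (μ := (volume : Measure (X D))) hwG hwi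
    (Φ := fun (δ : PG K) (x : X D) => if R.Mem δ then k.ker x (δ • x) else 0) hΦ hinv
    (fun δ x h => by
      by_contra hn
      exact h (if_neg hn)) hconv
  have h2 : ∫⁻ x, (((Tc c.rep).relIndex (Zc c.rep) : ℕ) : ℝ≥0∞)⁻¹ * wT ⟨c, hc⟩ x *
      ‖k.ker x (c.rep • x)‖ₑ ≠ ∞ := by
    have h3 := ne_top_of_le_ne_top (by rw [h1]; exact hconv) (ENNReal.le_tsum (f := fun i =>
      ∫⁻ x, (((Tc i.1.rep).relIndex (Zc i.1.rep) : ℕ) : ℝ≥0∞)⁻¹ * wT i x *
        ‖if R.Mem (R.r i) then k.ker x (R.r i • x) else 0‖ₑ) ⟨c, hc⟩)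
    have h4 : R.Mem (R.r ⟨c, hc⟩) := Reps.self_mem _
    simp only [if_pos h4] at h3
    exact h3
  have hmf : Measurable fun x : X D => ‖k.ker x (c.rep • x)‖ₑ := (hmeas (pmk c.rep)).enorm
  have h5 : ∫⁻ x, wT ⟨c, hc⟩ x * ‖k.ker x (c.rep • x)‖ₑ ≠ ∞ := by
    have h6 : ∀ x, (((Tc c.rep).relIndex (Zc c.rep) : ℕ) : ℝ≥0∞)⁻¹ * wT ⟨c, hc⟩ x *
      ‖k.ker x (c.rep • x)‖ₑ = (((Tc c.rep).relIndex (Zc c.rep) : ℕ) : ℝ≥0∞)⁻¹ *
        (wT ⟨c, hc⟩ x * ‖k.ker x (c.rep • x)‖ₑ) := fun x => mul_assoc _ _ _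
    simp_rw [h6] at h2
    rw [lintegral_const_mul _ (show Measurable fun x => wT ⟨c, hc⟩ x * ‖k.ker x (c.rep • x)‖ₑ from
      (hwT _).meas.mul hmf)] at h2
    intro h7
    apply h2
    rw [h7, ENNReal.mul_top]
    exact ENNReal.inv_ne_zero.mpr (ENNReal.natCast_ne_top _)
  rw [hw.lintegral_eq (hwT ⟨c, hc⟩) hmf.aemeasurable]
  · exact h5
  · intro t x
    obtain ⟨t', ht', he⟩ := mem_Tc.mp t.2
    have e1 : t • x = t' • x := by
      change (t : PG K) • x = _
      rw [← he]; rfl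
    rw [e1, ← mul_smul, ← ht', mul_smul, k.ker_smul]

end cls

section classid

variable {K L : Type} [Field K] [NumberField K] [Field L] [NumberField L] [Algebra K L]

namespace GeoDatum

variable {C : Cub K L} {G : GeoDatum C}

/-- relation between a kernel on the deep level and the flat weight -/
structure IsDeep (k : Pure G.DL.toDatum) (kK : Pure G.DK) (π : X G.DK → X G.DK0) (N : ℕ) :
    Prop where
  N_ne : N ≠ 0
  meas : Measurable π
  smul : ∀ (g : PG K) x, π (g • x) = g • π x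
  map : (volume : Measure (X G.DK)).map π = (N : ℝ≥0∞) • (volume : Measure (X G.DK0))
  ker : ∀ (γ : G2 K) x, kK.ker x (γ • x) = (N : ℂ)⁻¹ * flatW k γ (π x)
  measW : ∀ γ : G2 K, Measurable fun z : X G.DK0 => flatW k γ z

variable {k : Pure G.DL.toDatum} {kK kKa : Pure G.DK} {π : X G.DK → X G.DK0} {N : ℕ}

theorem IsDeep.lintegral (hD : IsDeep k kK π N) (γ : G2 K) {Φ : X G.DK0 → ℝ≥0∞}
    (hΦ : Measurable Φ) :
    ∫⁻ x, Φ (π x) * ‖kK.ker x (γ • x)‖ₑ = ∫⁻ z, Φ z * ‖flatW k γ z‖ₑ := by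
  have h1 : ∀ x, Φ (π x) * ‖kK.ker x (γ • x)‖ₑ =
      (fun z => (N : ℝ≥0∞)⁻¹ * (Φ z * ‖flatW k γ z‖ₑ)) (π x) := by
    intro x
    have hN : ‖((N : ℂ))⁻¹‖ₑ = (N : ℝ≥0∞)⁻¹ := by
      rw [enorm_inv (by exact_mod_cast hD.N_ne)]
      congr 1
      rw [← ofReal_norm, Complex.norm_natCast, ENNReal.ofReal_natCast]
    beta_reduce
    rw [hD.ker, enorm_mul, hN]
    ring
  have hm : Measurable (fun z => Φ z * ‖flatW k γ z‖ₑ) := hΦ.mul (hD.measW γ).enorm
  simp_rw [h1]
  rw [← lintegral_map (hm.const_mul _) hD.meas, hD.map, lintegral_smul_measure,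
    lintegral_const_mul _ hm, smul_eq_mul, ← mul_assoc, ENNReal.mul_inv_cancel, one_mul]
  · exact_mod_cast hD.N_ne
  · exact ENNReal.natCast_ne_top _

theorem IsDeep.integral (hD : IsDeep k kK π N) (γ : G2 K) {Φ : X G.DK0 → ℝ}
    (hΦ : Measurable Φ) :
    ∫ x, Φ (π x) • kK.ker x (γ • x) = ∫ z, Φ z • flatW k γ z := by
  have h1 : ∀ x, Φ (π x) • kK.ker x (γ • x) =
      (fun z => (N : ℂ)⁻¹ * (Φ z • flatW k γ z)) (π x) := by
    intro x
    beta_reduce
    rw [hD.ker, Complex.real_smul, Complex.real_smul]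
    ring
  have hm : Measurable (fun z => Φ z • flatW k γ z) := hΦ.smul (hD.measW γ)
  simp_rw [h1]
  rw [← integral_map hD.meas.aemeasurable (hm.const_mul _).aestronglyMeasurable, hD.map,
    integral_smul_measure, integral_const_mul, ENNReal.toReal_natCast, Complex.real_smul,
    ← mul_assoc, Complex.ofReal_natCast, mul_inv_cancel₀, one_mul]
  exact_mod_cast hD.N_ne

theorem smulInvX {F : Type} [Field F] [NumberField F] (D : Datum F) :
    SMulInvariantMeasure (PG F) (X D) volume := inferInstance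

/-- **Identity of the contributions of an elliptic class.** -/
theorem class_id (hD : IsDeep k kK π N) (hDa : IsDeep k.abs kKa π N) (c : ClsE C)
    {P : X G.DL.toDatum → X G.DK0} (hP : IsPush k c.1.rep c.δ P) :
    ∃ (w : X G.DL.toDatum → ℝ≥0∞) (w' : X G.DK → ℝ≥0∞),
      IsWeight ((Tc c.1.rep).map (Cub.pI (L := L))) w ∧ IsWeight (Tc c.1.rep) w' ∧
      ∫ x, (w x).toReal • k.ker x (c.δ • G.DL.σX x) =
        ∫ x, (w' x).toReal • kK.ker x (c.1.rep • x) := by
  set γ : G2 K := c.1.rep with hγ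
  obtain ⟨wA, hwA⟩ := exists_isWeight_sub G.DL.toDatum ((Tc γ).map (Cub.pI (L := L)))
  obtain ⟨w0, hw0⟩ := exists_isWeight_sub G.DK0 (Tc γ)
  have hw' : IsWeight (Tc γ) (fun x : X G.DK => w0 (π x)) :=
    Fermat.Agent.LT.F.IsWeight.comp hw0 hD.meas fun t x => hD.smul t x
  refine ⟨wA, fun x => w0 (π x), hwA, hw', ?_⟩
  rw [hD.integral γ hw0.meas.ennreal_toReal]
  -- integrability of the flat weight
  have hfin : ∫⁻ z, w0 z * ‖flatW k.abs γ z‖ₑ ≠ ∞ := by
    rw [← hDa.lintegral γ hw0.meas]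
    exact class_lintegral_ne_top kKa c.ell hw'
  have hint : Integrable (fun z => flatW k.abs γ z * (((w0 z).toReal : ℝ) : ℂ)) := by
    refine ⟨((hDa.measW γ).mul
      (Complex.measurable_ofReal.comp hw0.meas.ennreal_toReal)).aestronglyMeasurable, ?_⟩
    unfold HasFiniteIntegral
    refine lt_of_eq_of_lt (lintegral_congr fun z => ?_) hfin.lt_top
    rw [enorm_mul, mul_comm]
    congr 1
    rw [← ofReal_norm, Complex.norm_real, Real.norm_of_nonneg ENNReal.toReal_nonneg,
      ENNReal.ofReal_toReal (hw0.ne_top z)]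
  -- the action of the torus on the `L`-side
  let _ : MulAction (Tc γ) (X G.DL.toDatum) :=
    MulAction.compHom _ ((Cub.pI (L := L)).comp (Tc γ).subtype)
  have hact : ∀ (t : Tc γ) (x : X G.DL.toDatum), t • x = Cub.pI (L := L) (t : PG K) • x :=
    fun _ _ => rfl
  have _ : MeasurableConstSMul (Tc γ) (X G.DL.toDatum) :=
    ⟨fun t => measurable_const_smul (Cub.pI (L := L) (t : PG K))⟩
  have _ : SMulInvariantMeasure (Tc γ) (X G.DL.toDatum) volume :=
    ⟨fun t s hs => measure_preimage_smul (μ := (volume : Measure (X G.DL.toDatum)))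
      (Cub.pI (L := L) (t : PG K)) s⟩
  have hinvK : SMulInvariantMeasure (PG K) (X G.DK0) volume := smulInvX G.DK0
  have _ : SMulInvariantMeasure (Tc γ) (X G.DK0) volume :=
    ⟨fun t s hs => hinvK.measure_preimage_smul (t : PG K) hs⟩
  have hwA' : IsWeight (Tc γ) wA := by
    obtain ⟨h1, h2⟩ := (isWeight_map_iff Cub.pI_injective).mp hwA
    exact ⟨h1, h2⟩
  have hmκ : Measurable fun x : X G.DL.toDatum => k.ker x (c.δ • G.DL.σX x) :=
    (G.DL.continuous_ker_tw k (pmk c.δ)).measurable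
  refine class_ell (Γ := Tc γ) (μ := (volume : Measure (X G.DL.toDatum)))
    (ν := (volume : Measure (X G.DK0))) hwA' hw0 hP.meas hmκ ?_ ?_
    (κB' := flatW k.abs γ) (fun Φ hΦ hi => (hP.push Φ hΦ hi).2) hint
  · intro t x
    have h1 := (c.twCent (Cub.pI (L := L) (t : PG K))⁻¹).mpr
      ⟨(t : PG K)⁻¹, inv_mem (Tc_le_Zc _ t.2), map_inv _ _⟩
    rw [inv_inv, map_inv] at h1
    have h2 := G.DL.ker_tw_conj k (Cub.pI (L := L) (t : PG K)) (pmk c.δ) x
    rw [h1] at h2
    exact h2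
  · intro t x hx
    obtain ⟨t', ht', he⟩ := mem_Tc.mp t.2
    have h1 := hP.eqv t' ht' x hx
    have e1 : t • x = (Cub.Inc t' : G2 L) • x := by
      rw [hact, ← he]; rfl
    have e2 : t • P x = t' • P x := by
      change (t : PG K) • P x = _
      rw [← he]; rfl
    rw [e1, e2]
    exact h1

end GeoDatum

end classid

end Fermat.LT
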