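import Fermat.Agent.LT.Geo.Match
import Fermat.Agent.LT.Geo.AvPl
import Fermat.Agent.LT.A.Val
import Fermat.Agent.LT.D.Final

/-!
# LT, geometric side: (twisted) conjugacy classes, (CL1), (CL2), including trace zero

* `DiscP x` : the element `x` of `PGL₂` has distinct eigenvalues;
* `Cls K` : conjugacy classes of such elements of `PGL₂(K)`, `Cls.rep c : G2 K`;
* `DC C c` : the set of `δ ∈ PGL₂(L)` with norm in the class `c`;
* `exists_unique_class` : partition;  `DC_eq_range` : `DC C c` is one `σ`-conjugacy class and the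
  `σ`-centraliser of `δ_c` is the centraliser of `γ_c` in `PGL₂(K)`.
-/

set_option autoImplicit false
set_option linter.unusedSectionVars false

open Matrix
open Fermat.Agent.LT.D hiding pmk_mul pmk_inv pmk_one pmk_surj pmk_eq_iff comp

namespace Fermat.LT

namespace GC

variable {F : Type} [Field F]

theorem pmk_surj (x : PG F) : ∃ g : G2 F, pmk g = x := Matrix.ProjGenLinGroup.mk_surjective x

theorem pmk_mul (g h : G2 F) : pmk (g * h) = pmk g * pmk h := map_mul _ _ _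

theorem pmk_inv (g : G2 F) : pmk g⁻¹ = (pmk g)⁻¹ := map_inv _ _

theorem pmk_one : pmk (1 : G2 F) = 1 := map_one _

theorem pmk_eq_iff {g h : G2 F} : pmk g = pmk h ↔ ∃ c : Fˣ, g = Cub.sc c * h :=
  Fermat.Agent.LT.D.pmk_eq_iff

variable {K L : Type} [Field K] [Field L] [Algebra K L] (C : Cub K L)

theorem pI_pmk (g : G2 K) : Cub.pI (L := L) (pmk g) = pmk (Cub.Inc g) := rfl

theorem pS_pmk (g : G2 L) : C.pS (pmk g) = pmk (C.S g) := rfl

theorem pN_pmk (g : G2 L) : C.pN (pmk g) = pmk (C.N g) := rfl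

end GC

open GC

section DiscP

variable {F : Type} [Field F]

/-- distinct eigenvalues -/
def DiscP (x : PG F) : Prop := ∃ g : G2 F, pmk g = x ∧ Disc g.1

theorem disc_sc_mul {c : Fˣ} {g : G2 F} : Disc (Cub.sc c * g : G2 F).1 ↔ Disc g.1 := by
  unfold Disc
  rw [sc_mul_coe, Matrix.trace_smul, Matrix.det_smul, Fintype.card_fin, smul_eq_mul]
  have h : ((c : F) * g.1.trace) ^ 2 - 4 * ((c : F) ^ 2 * g.1.det) =
      (c : F) ^ 2 * (g.1.trace ^ 2 - 4 * g.1.det) := by ring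
  rw [h]
  constructor
  · intro h1 h2
    exact h1 (by rw [h2, mul_zero])
  · intro h1
    exact mul_ne_zero (pow_ne_zero _ c.ne_zero) h1

theorem discP_pmk {g : G2 F} : DiscP (pmk g) ↔ Disc g.1 := by
  constructor
  · rintro ⟨h, hh, hd⟩
    obtain ⟨c, rfl⟩ := pmk_eq_iff.mp hh
    exact disc_sc_mul.mp hd
  · intro h
    exact ⟨g, rfl, h⟩

theorem trace_conj (g x : G2 F) : (g⁻¹ * x * g : G2 F).1.trace = x.1.trace := by
  rw [Units.val_mul, Matrix.trace_mul_comm, ← Units.val_mul, ← mul_assoc, mul_inv_cancel,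
      one_mul]

theorem det_conj (g x : G2 F) : (g⁻¹ * x * g : G2 F).1.det = x.1.det := by
  rw [Units.val_mul, Matrix.det_mul, mul_comm, ← Matrix.det_mul, ← Units.val_mul, ← mul_assoc,
      mul_inv_cancel, one_mul]

theorem disc_conj {g x : G2 F} : Disc (g⁻¹ * x * g : G2 F).1 ↔ Disc x.1 := by
  unfold Disc
  rw [trace_conj, det_conj]

theorem discP_conj {g x : PG F} : DiscP (g⁻¹ * x * g) ↔ DiscP x := by
  obtain ⟨x, rfl⟩ := pmk_surj x
  obtain ⟨g, rfl⟩ := pmk_surj g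
  rw [← pmk_inv, ← pmk_mul, ← pmk_mul, discP_pmk, discP_pmk, disc_conj]

/-- the discriminant does not change under the choice of a lift -/
theorem DiscP.ne_one {x : PG F} (h : DiscP x) : x ≠ 1 := by
  rintro rfl
  rw [← pmk_one, discP_pmk] at h
  exact h.not_isSc ⟨1, by simp⟩

end DiscP

section rep

variable {K : Type} [Field K]

theorem disc_dg {a : Kˣ} (h : a ≠ 1) : Disc (dg a).1 := by
  unfold Disc
  change (!![(a : K), 0; 0, 1] : Matrix (Fin 2) (Fin 2) K).trace ^ 2 -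
    4 * (!![(a : K), 0; 0, 1] : Matrix (Fin 2) (Fin 2) K).det ≠ 0
  rw [Matrix.trace_fin_two_of, Matrix.det_fin_two_of]
  have h1 : ((a : K) + 1) ^ 2 - 4 * ((a : K) * 1 - 0 * 0) = ((a : K) - 1) ^ 2 := by ring
  rw [h1]
  apply pow_ne_zero
  rw [sub_ne_zero]
  intro h2
  exact h (Units.ext h2)

/-- A regular element is elliptic or conjugate (up to scalars) to `diag (a, 1)`. -/
theorem ell_or_dg {g : G2 K} (h : Disc g.1) :
    Ell g.1 ∨ ∃ a : Kˣ, a ≠ 1 ∧ ∃ k : PG K, pmk (dg a) = k⁻¹ * pmk g * k := by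
  by_cases hE : Ell g.1
  · exact Or.inl hE
  · right
    unfold Ell at hE
    push Not at hE
    obtain ⟨a, ha⟩ := hE
    obtain ⟨b, hb⟩ : ∃ b, b = g.1.trace - a := ⟨_, rfl⟩
    have htr : g.1.trace = a + b := by rw [hb]; ring
    have hdet : g.1.det = a * b := by
      rw [hb]; linear_combination ha
    have hdet0 : a * b ≠ 0 := by
      rw [← hdet]
      exact Cub.det_ne_zero' g
    have ha0 : a ≠ 0 := left_ne_zero_of_mul hdet0
    have hb0 : b ≠ 0 := right_ne_zero_of_mul hdet0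
    have hab : a ≠ b := by
      rintro rfl
      apply h
      rw [htr, hdet]
      ring
    let u : Kˣ := Units.mk0 a ha0 / Units.mk0 b hb0
    have hu : (u : K) = a / b := by simp [u]
    have hu1 : u ≠ 1 := by
      intro h1
      have h2 : (u : K) = 1 := by rw [h1]; rfl
      rw [hu, div_eq_one_iff_eq hb0] at h2
      exact hab h2
    let D : Matrix (Fin 2) (Fin 2) K := b • (dg u).1
    have hD : D = !![a, 0; 0, b] := by
      change b • (!![(u : K), 0; 0, 1] : Matrix (Fin 2) (Fin 2) K) = _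
      rw [hu]
      ext i j
      fin_cases i <;> fin_cases j <;> simp
      field_simp
    have hDns : ¬ IsSc D := by
      rw [hD, isSc_iff]
      simp [hab]
    obtain ⟨k, hk⟩ := exists_conj h.not_isSc hDns
      (by rw [hD, htr, Matrix.trace_fin_two_of]) (by rw [hD, hdet, Matrix.det_fin_two_of]; ring)
    refine ⟨u, hu1, pmk k, ?_⟩
    rw [← pmk_inv, ← pmk_mul, ← pmk_mul, pmk_eq_iff]
    refine ⟨(Units.mk0 b hb0)⁻¹, ?_⟩
    have h3 : g * k = k * (Cub.sc (Units.mk0 b hb0) * dg u) := by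
      apply Units.ext
      rw [Units.val_mul, Units.val_mul, sc_mul_coe, hk, Units.val_mk0]
    rw [mul_assoc, h3, inv_mul_cancel_left, ← mul_assoc, ← Cub.sc_mul, inv_mul_cancel]
    simp

/-- The regular conjugacy classes of `PGL₂(K)`. -/
def Cls (K : Type) [Field K] : Type := {c : ConjClasses (PG K) // ∃ g : G2 K, Disc g.1 ∧
  ConjClasses.mk (pmk g) = c}

theorem Cls.exists_rep (c : Cls K) : ∃ g : G2 K, Disc g.1 ∧ ConjClasses.mk (pmk g) = c.1 ∧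
    (Ell g.1 ∨ ∃ a : Kˣ, a ≠ 1 ∧ g = dg a) := by
  obtain ⟨g, hg, hc⟩ := c.2
  rcases ell_or_dg hg with h | ⟨a, ha, k, hk⟩
  · exact ⟨g, hg, hc, Or.inl h⟩
  · refine ⟨dg a, disc_dg ha, ?_, Or.inr ⟨a, ha, rfl⟩⟩
    rw [← hc, ConjClasses.mk_eq_mk_iff_isConj, isConj_comm, isConj_iff]
    exact ⟨k⁻¹, by rw [hk, inv_inv]⟩

/-- a representative: elliptic or `diag (a, 1)` -/
noncomputable def Cls.rep (c : Cls K) : G2 K := c.exists_rep.choose

theorem Cls.disc (c : Cls K) : Disc c.rep.1 := c.exists_rep.choose_spec.1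

theorem Cls.mk_rep (c : Cls K) : ConjClasses.mk (pmk c.rep) = c.1 := c.exists_rep.choose_spec.2.1

theorem Cls.rep_cases (c : Cls K) : Ell c.rep.1 ∨ ∃ a : Kˣ, a ≠ 1 ∧ c.rep = dg a :=
  c.exists_rep.choose_spec.2.2

/-- the class of a regular element -/
def Cls.of (x : PG K) (h : DiscP x) : Cls K :=
  ⟨ConjClasses.mk x, by obtain ⟨g, rfl, hg⟩ := h; exact ⟨g, hg, rfl⟩⟩

/-- the elements of the class, as a set -/
def Cls.car (c : Cls K) : Set (PG K) := {x | ConjClasses.mk x = c.1}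

theorem Cls.mem_car {c : Cls K} {x : PG K} : x ∈ c.car ↔ ∃ g : PG K, x = g⁻¹ * pmk c.rep * g := by
  change ConjClasses.mk x = c.1 ↔ _
  rw [← c.mk_rep, ConjClasses.mk_eq_mk_iff_isConj, isConj_comm, isConj_iff]
  constructor
  · rintro ⟨g, rfl⟩
    exact ⟨g⁻¹, by rw [inv_inv]⟩
  · rintro ⟨g, rfl⟩
    exact ⟨g⁻¹, by rw [inv_inv]⟩

theorem Cls.discP_of_mem {c : Cls K} {x : PG K} (h : x ∈ c.car) : DiscP x := by
  obtain ⟨g, rfl⟩ := Cls.mem_car.mp h
  rw [discP_conj, discP_pmk]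
  exact c.disc

theorem Cls.exists_unique {x : PG K} (h : DiscP x) : ∃! c : Cls K, x ∈ c.car := by
  refine ⟨Cls.of x h, rfl, ?_⟩
  intro c hc
  exact Subtype.ext hc.symm

/-- the centraliser of `γ` in `PGL₂(K)`. -/
def Zc (γ : G2 K) : Subgroup (PG K) := Subgroup.centralizer {pmk γ}

theorem mem_Zc {γ : G2 K} {x : PG K} : x ∈ Zc γ ↔ x * pmk γ = pmk γ * x := by
  rw [Zc, Subgroup.mem_centralizer_iff]
  constructor
  · intro h
    exact (h _ rfl).symm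
  · rintro h y hy
    rw [Set.mem_singleton_iff] at hy
    rw [hy, h]

/-- the torus `K[γ]^*/K^*` in `PGL₂(K)`. -/
def Tc (γ : G2 K) : Subgroup (PG K) :=
  (Subgroup.centralizer {γ}).map (Matrix.ProjGenLinGroup.mk (n := Fin 2) (R := K))

theorem mem_Tc {γ : G2 K} {x : PG K} : x ∈ Tc γ ↔ ∃ t : G2 K, t * γ = γ * t ∧ pmk t = x := by
  rw [Tc, Subgroup.mem_map]
  constructor
  · rintro ⟨t, ht, rfl⟩
    rw [Subgroup.mem_centralizer_iff] at ht
    exact ⟨t, (ht _ rfl).symm, rfl⟩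
  · rintro ⟨t, ht, rfl⟩
    refine ⟨t, ?_, rfl⟩
    rw [Subgroup.mem_centralizer_iff]
    rintro y hy
    rw [Set.mem_singleton_iff] at hy
    rw [hy, ht]

theorem Tc_le_Zc (γ : G2 K) : Tc γ ≤ Zc γ := by
  intro x hx
  obtain ⟨t, ht, rfl⟩ := mem_Tc.mp hx
  rw [mem_Zc, ← pmk_mul, ht, pmk_mul]

theorem sq_eq_one_iff_of_side {x : K} (h : x ^ 2 = 1) : x = 1 ∨ x = -1 := by
  have h1 : (x - 1) * (x + 1) = 0 := by linear_combination h
  rcases mul_eq_zero.mp h1 with h2 | h2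
  · exact Or.inl (sub_eq_zero.mp h2)
  · exact Or.inr (eq_neg_of_add_eq_zero_left h2)

/-- commutation up to sign -/
theorem sign_of_mem_Zc {γ : G2 K} {t : G2 K} (h : pmk t ∈ Zc γ) :
    t * γ = γ * t ∨ t * γ = Cub.sc (-1) * (γ * t) := by
  rw [mem_Zc, ← pmk_mul, ← pmk_mul, pmk_eq_iff] at h
  obtain ⟨c, hc⟩ := h
  have h1 := congrArg (fun x : G2 K => x.1.det) hc
  simp only [sc_mul_coe, Matrix.det_smul, Fintype.card_fin] at h1
  rw [Units.val_mul, Units.val_mul, Matrix.det_mul, Matrix.det_mul] at h1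
  have h2 : ((c : K)) ^ 2 = 1 := by
    have h3 : γ.1.det * t.1.det ≠ 0 := mul_ne_zero (Cub.det_ne_zero' γ) (Cub.det_ne_zero' t)
    apply mul_right_cancel₀ h3
    rw [← h1]; ring
  rcases sq_eq_one_iff_of_side h2 with h4 | h4
  · left
    have h5 : c = 1 := Units.ext h4
    rw [hc, h5]
    simp
  · right
    have h5 : c = -1 := Units.ext (by rw [h4]; simp)
    rw [hc, h5]

theorem Tc_eq_Zc_of_trace {γ : G2 K} (h : γ.1.trace ≠ 0) : Tc γ = Zc γ := by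
  refine le_antisymm (Tc_le_Zc γ) ?_
  intro x hx
  obtain ⟨t, rfl⟩ := pmk_surj x
  rw [mem_Zc] at hx
  exact mem_Tc.mpr ⟨t, commute_lift h hx, rfl⟩

/-- the product of two elements outside the torus lies in the torus -/
theorem inv_mul_mem_Tc {γ : G2 K} {x y : PG K} (hx : x ∈ Zc γ) (hy : y ∈ Zc γ)
    (hx' : x ∉ Tc γ) (hy' : y ∉ Tc γ) : x⁻¹ * y ∈ Tc γ := by
  obtain ⟨s, rfl⟩ := pmk_surj x
  obtain ⟨t, rfl⟩ := pmk_surj y
  have h1 : s * γ = Cub.sc (-1) * (γ * s) := by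
    rcases sign_of_mem_Zc hx with h | h
    · exact absurd (mem_Tc.mpr ⟨s, h, rfl⟩) hx'
    · exact h
  have h2 : t * γ = Cub.sc (-1) * (γ * t) := by
    rcases sign_of_mem_Zc hy with h | h
    · exact absurd (mem_Tc.mpr ⟨t, h, rfl⟩) hy'
    · exact h
  refine mem_Tc.mpr ⟨s⁻¹ * t, ?_, by rw [pmk_mul, pmk_inv]⟩
  have h3 : s⁻¹ * (Cub.sc (-1) * γ) = γ * s⁻¹ := by
    rw [inv_mul_eq_iff_eq_mul, ← mul_assoc, eq_mul_inv_iff_mul_eq, h1, mul_assoc]
  rw [mul_assoc, h2, ← mul_assoc (Cub.sc (-1)), ← mul_assoc, h3, mul_assoc]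

theorem relIndex_Tc (γ : G2 K) : (Tc γ).relIndex (Zc γ) = 1 ∨ (Tc γ).relIndex (Zc γ) = 2 := by
  by_cases h : Zc γ ≤ Tc γ
  · left
    exact Subgroup.relIndex_eq_one.mpr h
  · right
    rw [SetLike.not_le_iff_exists] at h
    obtain ⟨a, ha, ha'⟩ := h
    rw [Subgroup.relIndex, Subgroup.index_eq_two_iff]
    refine ⟨⟨a, ha⟩⁻¹, ?_⟩
    intro b
    by_cases hb : b.1 ∈ Tc γ
    · right
      refine ⟨hb, ?_⟩
      intro h1
      have h2 : b.1 * a⁻¹ ∈ Tc γ := h1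
      apply ha'
      have h3 := mul_mem (inv_mem hb) h2
      rw [inv_mul_cancel_left] at h3
      simpa using inv_mem h3
    · left
      refine ⟨?_, hb⟩
      change b.1 * a⁻¹ ∈ Tc γ
      have h1 : (b.1)⁻¹ ∉ Tc γ := fun h => hb (by simpa using inv_mem h)
      have h2 : a⁻¹ ∉ Tc γ := fun h => ha' (by simpa using inv_mem h)
      have := inv_mul_mem_Tc (inv_mem b.2) (inv_mem ha) h1 h2
      rwa [inv_inv] at this

end rep

section cubic

variable {K L : Type} [Field K] [Field L] [Algebra K L] (C : Cub K L)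

theorem discP_pI {x : PG K} : DiscP (Cub.pI (L := L) x) ↔ DiscP x := by
  obtain ⟨x, rfl⟩ := pmk_surj x
  rw [pI_pmk, discP_pmk, discP_pmk, Cub.coe_Inc, Cub.disc_inc]

/-- Every `δ ∈ GL₂(L)` with regular norm is `σ`-conjugate to some `δ'` with norm in `GL₂(K)`. -/
theorem exists_form {δ : G2 L} (h : Disc (C.N δ).1) :
    ∃ (g : G2 L) (γ : G2 K), Disc γ.1 ∧ C.N (g⁻¹ * δ * C.S g) = Cub.Inc γ ∧
      g⁻¹ * δ * C.S g ∈ Cub.Z (L := L) γ := by
  have h1 : (δ : Matrix (Fin 2) (Fin 2) L) * C.s (C.N δ) = C.N δ * δ := by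
    rw [← Cub.coe_S, ← Units.val_mul, Cub.mul_S_N, Units.val_mul]
  have h2 : C.s (C.N δ) = ((δ⁻¹ : GL (Fin 2) L) : Matrix (Fin 2) (Fin 2) L) * (C.N δ * δ) := by
    rw [← h1, ← mul_assoc, ← Units.val_mul, inv_mul_cancel, Units.val_one, one_mul]
  have htr : C.σ ((C.N δ : GL (Fin 2) L) : Matrix (Fin 2) (Fin 2) L).trace =
      ((C.N δ : GL (Fin 2) L) : Matrix (Fin 2) (Fin 2) L).trace := by
    rw [← Cub.s_trace, h2, Matrix.trace_mul_comm, mul_assoc, ← Units.val_mul, mul_inv_cancel,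
      Units.val_one, mul_one]
  have hdet : C.σ ((C.N δ : GL (Fin 2) L) : Matrix (Fin 2) (Fin 2) L).det =
      ((C.N δ : GL (Fin 2) L) : Matrix (Fin 2) (Fin 2) L).det := by
    rw [← Cub.s_det, h2, Matrix.det_mul, Matrix.det_mul, mul_comm, mul_assoc, ← Matrix.det_mul,
      ← Units.val_mul, mul_inv_cancel, Units.val_one, Matrix.det_one, mul_one]
  obtain ⟨t, ht'⟩ := C.fixed _ htr
  obtain ⟨d, hd'⟩ := C.fixed _ hdet
  obtain ⟨g, hg⟩ := exists_conj_comp h.not_isSc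
  rw [← ht', ← hd'] at hg
  have hd0 : (Fermat.Agent.LT.D.comp t d).det ≠ 0 := by
    rw [det_comp]
    rintro rfl
    rw [map_zero] at hd'
    exact Cub.det_ne_zero' (C.N δ) hd'.symm
  let γ : GL (Fin 2) K := Matrix.GeneralLinearGroup.mkOfDetNeZero (Fermat.Agent.LT.D.comp t d) hd0
  have hγ : (Cub.Inc γ : GL (Fin 2) L) = g⁻¹ * C.N δ * g := by
    rw [mul_assoc, eq_inv_mul_iff_mul_eq]
    apply Units.ext
    rw [Units.val_mul, Units.val_mul, hg]
    congr 1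
    ext i j
    change algebraMap K L (Fermat.Agent.LT.D.comp t d i j) = Fermat.Agent.LT.D.comp _ _ i j
    fin_cases i <;> fin_cases j <;> simp [Fermat.Agent.LT.D.comp]
  have hN : C.N (g⁻¹ * δ * C.S g) = Cub.Inc γ := by rw [Cub.N_tw, hγ]
  refine ⟨g, γ, ?_, hN, ?_⟩
  · rw [← Cub.disc_inc (L := L), ← Cub.coe_Inc, hγ, disc_conj]
    exact h
  · rw [Cub.mem_Z]
    have h3 := C.mul_S_N (g⁻¹ * δ * C.S g)
    rwa [hN, Cub.S_Inc] at h3

include C in
/-- `c ∈ L`, `c² ∈ K` implies `c ∈ K`. -/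
theorem mem_of_sq {c : L} {d : K} (h : c ^ 2 = algebraMap K L d) :
    ∃ e : K, algebraMap K L e = c := by
  apply C.fixed
  have h1 : C.σ c ^ 2 = c ^ 2 := by rw [← map_pow, h, AlgEquiv.commutes]
  rcases sq_eq_sq_iff_eq_or_eq_neg.mp h1 with h2 | h2
  · exact h2
  · have h3 := C.cube c
    rw [h2, map_neg, h2, neg_neg, h2] at h3
    rw [h2, h3]

include C in
/-- Regular elements of `PGL₂(K)` conjugate in `PGL₂(L)` are conjugate in `PGL₂(K)`. -/
theorem exists_conj_of_conj' {γ γ' : PG K} (hγ : DiscP γ) {g : PG L}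
    (h : Cub.pI γ' = g⁻¹ * Cub.pI γ * g) : ∃ k : PG K, γ' = k⁻¹ * γ * k := by
  obtain ⟨γ, rfl⟩ := pmk_surj γ
  obtain ⟨γ', rfl⟩ := pmk_surj γ'
  obtain ⟨g, rfl⟩ := pmk_surj g
  rw [discP_pmk] at hγ
  have h1 : pmk (Cub.Inc γ' : GL (Fin 2) L) = pmk (g⁻¹ * Cub.Inc γ * g) := by
    rw [pmk_mul, pmk_mul, pmk_inv]; exact h
  rw [pmk_eq_iff] at h1
  obtain ⟨c, hc⟩ := h1
  have hc' : Cub.inc (L := L) (γ' : Matrix (Fin 2) (Fin 2) K) =
      (c : L) • ((g⁻¹ * Cub.Inc γ * g : GL (Fin 2) L) : Matrix (Fin 2) (Fin 2) L) := by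
    rw [← Cub.coe_Inc, hc, sc_mul_coe]
  have ht1 := congrArg Matrix.trace hc'
  rw [Cub.trace_inc, Matrix.trace_smul, trace_conj, Cub.coe_Inc, Cub.trace_inc,
    smul_eq_mul] at ht1
  have hd1 := congrArg Matrix.det hc'
  rw [Cub.det_inc, Matrix.det_smul, det_conj, Cub.coe_Inc, Cub.det_inc, Fintype.card_fin] at hd1
  have hγd : algebraMap K L γ.1.det ≠ 0 := by
    rw [Ne, map_eq_zero]
    exact Cub.det_ne_zero' γ
  -- `c ∈ K`
  obtain ⟨e, hcK⟩ := mem_of_sq C (c := (c : L)) (d := γ'.1.det / γ.1.det) (by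
    rw [map_div₀, hd1, mul_div_cancel_right₀ _ hγd])
  have he0 : e ≠ 0 := by
    rintro rfl
    rw [map_zero] at hcK
    exact c.ne_zero hcK.symm
  have ht2 : (γ' : Matrix (Fin 2) (Fin 2) K).trace =
      (e • (γ : Matrix (Fin 2) (Fin 2) K)).trace := by
    apply (algebraMap K L).injective
    rw [ht1, Matrix.trace_smul, smul_eq_mul, map_mul, hcK]
  have hd2 : (γ' : Matrix (Fin 2) (Fin 2) K).det =
      (e • (γ : Matrix (Fin 2) (Fin 2) K)).det := by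
    apply (algebraMap K L).injective
    rw [hd1, Matrix.det_smul, Fintype.card_fin, map_mul, map_pow, hcK]
  have hns : ¬ IsSc (e • (γ : Matrix (Fin 2) (Fin 2) K)) := by
    rintro ⟨f, hf⟩
    apply hγ.not_isSc
    refine ⟨e⁻¹ * f, ?_⟩
    rw [← smul_smul, ← hf, smul_smul, inv_mul_cancel₀ he0, one_smul]
  have hns' : ¬ IsSc (γ' : Matrix (Fin 2) (Fin 2) K) := by
    have hD : Disc (γ' : Matrix (Fin 2) (Fin 2) K) := by
      unfold Disc
      rw [ht2, hd2, Matrix.trace_smul, Matrix.det_smul, Fintype.card_fin, smul_eq_mul]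
      have h3 : (e * (γ : Matrix (Fin 2) (Fin 2) K).trace) ^ 2 -
          4 * (e ^ 2 * (γ : Matrix (Fin 2) (Fin 2) K).det) = e ^ 2 *
          ((γ : Matrix (Fin 2) (Fin 2) K).trace ^ 2 - 4 * (γ : Matrix (Fin 2) (Fin 2) K).det) := by
        ring
      rw [h3]
      exact mul_ne_zero (pow_ne_zero _ he0) hγ
    exact hD.not_isSc
  obtain ⟨k, hk⟩ := exists_conj hns' hns ht2 hd2
  refine ⟨pmk k⁻¹, ?_⟩
  rw [← pmk_inv, ← pmk_mul, ← pmk_mul, inv_inv, pmk_eq_iff]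
  refine ⟨Units.mk0 e he0, ?_⟩
  rw [← mul_assoc, eq_mul_inv_iff_mul_eq]
  apply Units.ext
  rw [Units.val_mul, hk, ← mul_assoc, Cub.sc_comm, mul_assoc, Units.val_mul, sc_mul_coe,
    Units.val_mk0]

/-- The `δ ∈ PGL₂(L)` with norm in the class `c`. -/
def DC (c : Cls K) : Set (PG L) := {δ | ∃ g : PG L, C.pN δ = g⁻¹ * Cub.pI (pmk c.rep) * g}

theorem discP_of_mem_DC {c : Cls K} {δ : PG L} (h : δ ∈ DC C c) : DiscP (C.pN δ) := by
  obtain ⟨g, hg⟩ := h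
  rw [hg, discP_conj, discP_pI, discP_pmk]
  exact c.disc

/-- **(CL1)**, partition -/
theorem exists_unique_class {δ : PG L} (h : DiscP (C.pN δ)) : ∃! c : Cls K, δ ∈ DC C c := by
  obtain ⟨δ, rfl⟩ := pmk_surj δ
  rw [pN_pmk, discP_pmk] at h
  obtain ⟨g, γ, hγ, hN, -⟩ := exists_form C h
  have h1 : C.pN (pmk δ) = pmk g * Cub.pI (pmk γ) * (pmk g)⁻¹ := by
    rw [pN_pmk, pI_pmk, ← hN, Cub.N_tw, ← pmk_inv, ← pmk_mul, ← pmk_mul]
    congr 1
    group
  have h2 : DiscP (pmk γ) := discP_pmk.mpr hγ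
  have h3 : pmk γ ∈ (Cls.of (pmk γ) h2).car := rfl
  refine ⟨Cls.of (pmk γ) h2, ?_, ?_⟩
  · obtain ⟨k, hk⟩ := Cls.mem_car.mp h3
    refine ⟨Cub.pI k * (pmk g)⁻¹, ?_⟩
    rw [h1]
    conv_lhs => rw [hk]
    rw [map_mul, map_mul, map_inv]
    group
  · rintro c ⟨g', hg'⟩
    rw [h1] at hg'
    have h4 : Cub.pI (pmk c.rep) = ((pmk g)⁻¹ * g'⁻¹)⁻¹ * Cub.pI (pmk γ) *
        ((pmk g)⁻¹ * g'⁻¹) := by
      have h5 : Cub.pI (pmk γ) = (pmk g)⁻¹ * (g'⁻¹ * Cub.pI (pmk c.rep) * g') * pmk g := by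
        rw [← hg']; group
      rw [h5]; group
    obtain ⟨k, hk⟩ := exists_conj_of_conj' C h2 h4
    apply Subtype.ext
    change c.1 = ConjClasses.mk (pmk γ)
    rw [← c.mk_rep, ConjClasses.mk_eq_mk_iff_isConj, isConj_comm, isConj_iff]
    exact ⟨k⁻¹, by rw [hk, inv_inv]⟩

/-- `δ` and `γ` correspond: transport to another representative of the class. -/
theorem Corr.conj {γ γ' : G2 K} {δ : G2 L} (h : GeoDatum.Corr C γ δ) {k : PG K}
    (hk : pmk γ' = k⁻¹ * pmk γ * k) : ∃ δ' : G2 L, GeoDatum.Corr C γ' δ' ∧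
      ∃ g : PG L, pmk δ' = g⁻¹ * pmk δ * C.pS g := by
  obtain ⟨h1, h2, c, hc⟩ := h
  obtain ⟨k, rfl⟩ := pmk_surj k
  rw [← pmk_inv, ← pmk_mul, ← pmk_mul, pmk_eq_iff] at hk
  obtain ⟨a, rfl⟩ := hk
  have hN : C.N ((Cub.Inc k)⁻¹ * δ * C.S (Cub.Inc k)) =
      Cub.sc c * ((Cub.Inc k)⁻¹ * Cub.Inc γ * Cub.Inc k) := by
    rw [Cub.N_tw, hc, ← mul_assoc (Cub.Inc k)⁻¹, ← Cub.sc_comm]
    simp only [mul_assoc]
  have hI : (Cub.Inc (Cub.sc a * (k⁻¹ * γ * k)) : G2 L) =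
      Cub.sc (Units.map (algebraMap K L : K →* L) a) *
        ((Cub.Inc k)⁻¹ * Cub.Inc γ * Cub.Inc k) := by
    rw [map_mul, map_mul, map_mul, map_inv]
    congr 1
    exact Matrix.GeneralLinearGroup.map_scalar _ _
  refine ⟨(Cub.Inc k)⁻¹ * δ * C.S (Cub.Inc k), ⟨?_, ?_, ?_⟩, ?_⟩
  · rw [disc_sc_mul, disc_conj]
    exact h1
  · rw [Cub.mem_Z] at h2 ⊢
    rw [hI, Cub.S_Inc]
    generalize (Cub.Inc k : G2 L) = x at *
    generalize (Cub.Inc γ : G2 L) = y at *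
    generalize (Units.map (algebraMap K L : K →* L) a) = b at *
    have e1 : x⁻¹ * δ * x * (Cub.sc b * (x⁻¹ * y * x)) =
      Cub.sc b * (x⁻¹ * (δ * y) * x) := by
      rw [← mul_assoc, ← Cub.sc_comm]; group
    rw [e1, h2]
    group
  · refine ⟨c / Units.map (algebraMap K L : K →* L) a, ?_⟩
    rw [hN, hI, ← mul_assoc (Cub.sc (c / _)), ← Cub.sc_mul, div_mul_cancel]
  · exact ⟨pmk (Cub.Inc k), rfl⟩

/-- In a class of trace zero one can take `δ = γ`. -/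
theorem corr_of_trace_zero {γ : G2 K} (hγ : Disc γ.1) (ht : γ.1.trace = 0) :
    GeoDatum.Corr C γ (Cub.Inc γ) := by
  refine ⟨hγ, Cub.mem_Z.mpr rfl, ?_⟩
  refine ⟨Units.map (algebraMap K L : K →* L) (-Matrix.GeneralLinearGroup.det γ), ?_⟩
  have h1 : γ * γ = Cub.sc (-Matrix.GeneralLinearGroup.det γ) := by
    apply Units.ext
    rw [Units.val_mul, Cub.cayley, ht, zero_smul, zero_sub, Cub.coe_sc, Units.val_neg, neg_smul]
    rfl
  rw [Cub.N, Cub.S_Inc, Cub.S_Inc, ← map_mul, h1]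
  congr 1
  exact Matrix.GeneralLinearGroup.map_scalar _ _

theorem pN_of_corr {γ : G2 K} {δ : G2 L} (h : GeoDatum.Corr C γ δ) :
    C.pN (pmk δ) = Cub.pI (pmk γ) := by
  obtain ⟨h1, h2, c, hc⟩ := h
  rw [pN_pmk, pI_pmk, pmk_eq_iff]
  exact ⟨c, hc⟩

/-- The `δ`'s corresponding to a given `γ` are all `σ`-conjugate. -/
theorem Corr.unique {γ : G2 K} {δ δ' : G2 L} (h : GeoDatum.Corr C γ δ)
    (h' : GeoDatum.Corr C γ δ') : ∃ t : G2 L, t ∈ Cub.Z (L := L) γ ∧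
      pmk δ' = (pmk t)⁻¹ * pmk δ * C.pS (pmk t) := by
  obtain ⟨h1, h2, c, hc⟩ := h
  obtain ⟨-, h2', c', hc'⟩ := h'
  obtain ⟨t, b, ht, hb⟩ := C.unique h1 h2 h2' (c := c' / c) (by
    rw [hc, hc', ← mul_assoc, ← Cub.sc_mul, div_mul_cancel])
  refine ⟨t⁻¹, inv_mem ht, ?_⟩
  rw [pS_pmk, map_inv, ← pmk_inv, inv_inv, ← pmk_mul, ← pmk_mul, pmk_eq_iff]
  refine ⟨b, ?_⟩
  rw [← mul_assoc, eq_mul_inv_iff_mul_eq, hb]

/-- The `σ`-centraliser of `δ` is the centraliser of `γ` in `PGL₂(K)` (property of the pair). -/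
def TwCent (γ : G2 K) (δ : G2 L) : Prop :=
  ∀ g : PG L, g⁻¹ * pmk δ * C.pS g = pmk δ ↔ ∃ k ∈ Zc γ, Cub.pI k = g

/-- **(CL2)**: a good choice of `δ`. -/
theorem exists_twCent {γ : G2 K} {δ : G2 L} (h : GeoDatum.Corr C γ δ) :
    ∃ δ' : G2 L, GeoDatum.Corr C γ δ' ∧ TwCent C γ δ' ∧
      ∃ g : PG L, pmk δ' = g⁻¹ * pmk δ * C.pS g := by
  by_cases ht : γ.1.trace = 0
  · have h' := corr_of_trace_zero C h.1 ht
    obtain ⟨t, -, ht'⟩ := Corr.unique C h h'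
    refine ⟨Cub.Inc γ, h', ?_, pmk t, ht'⟩
    intro g
    have hN := pN_of_corr C h'
    rw [← pI_pmk] at hN
    constructor
    · intro hg
      have h1 : g * Cub.pI (pmk γ) = Cub.pI (pmk γ) * g := by
        have h2 := C.pN_tw g (Cub.pI (pmk γ))
        rw [pI_pmk] at h2
        rw [hg, ← pI_pmk, hN] at h2
        calc g * Cub.pI (pmk γ) = g * (g⁻¹ * Cub.pI (pmk γ) * g) := by rw [← h2]
          _ = Cub.pI (pmk γ) * g := by group
      have h3 : C.pS g = g := by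
        rw [← pI_pmk] at hg
        have h4 : Cub.pI (pmk γ) * C.pS g = Cub.pI (pmk γ) * g := by
          rw [← h1]
          have := congrArg (fun x => g * x) hg
          simpa [mul_assoc] using this
        exact mul_left_cancel h4
      obtain ⟨k, hk⟩ := C.exists_pI h3
      refine ⟨k, ?_, hk⟩
      rw [mem_Zc]
      apply Cub.pI_injective (L := L)
      rw [map_mul, map_mul, hk]
      exact h1
    · rintro ⟨k, hk, rfl⟩
      rw [mem_Zc] at hk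
      rw [Cub.pS_pI, ← pI_pmk, mul_assoc, ← map_mul, ← hk, map_mul, inv_mul_cancel_left]
  · refine ⟨δ, h, ?_, 1, by simp⟩
    intro g
    have hR : RegP (pmk γ) := regP_pmk.mpr ⟨ht, h.1⟩
    rw [C.tw_centralizer hR (pN_of_corr C h) g]
    constructor
    · rintro ⟨k, hk, hk'⟩
      exact ⟨k, mem_Zc.mpr hk, hk'⟩
    · rintro ⟨k, hk, hk'⟩
      exact ⟨k, mem_Zc.mp hk, hk'⟩

/-- `δ_c` exists if `DC C c` is non empty. -/
theorem exists_corr_of_mem_DC {c : Cls K} {δ : PG L} (h : δ ∈ DC C c) :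
    ∃ δc : G2 L, GeoDatum.Corr C c.rep δc ∧ TwCent C c.rep δc ∧
      ∃ g : PG L, δ = g⁻¹ * pmk δc * C.pS g := by
  obtain ⟨δ, rfl⟩ := pmk_surj δ
  have hD := discP_of_mem_DC C h
  rw [pN_pmk, discP_pmk] at hD
  obtain ⟨g, γ, hγ, hN, hZ⟩ := exists_form C hD
  have hC : GeoDatum.Corr C γ (g⁻¹ * δ * C.S g) := ⟨hγ, hZ, 1, by rw [hN]; simp⟩
  obtain ⟨g', hg'⟩ := h
  have h2 : DiscP (pmk γ) := discP_pmk.mpr hγ
  have h1 : C.pN (pmk δ) = pmk g * Cub.pI (pmk γ) * (pmk g)⁻¹ := by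
    rw [pN_pmk, pI_pmk, ← hN, Cub.N_tw, ← pmk_inv, ← pmk_mul, ← pmk_mul]
    congr 1
    group
  rw [h1] at hg'
  have h4 : Cub.pI (pmk c.rep) = ((pmk g)⁻¹ * g'⁻¹)⁻¹ * Cub.pI (pmk γ) *
      ((pmk g)⁻¹ * g'⁻¹) := by
    have h5 : Cub.pI (pmk γ) = (pmk g)⁻¹ * (g'⁻¹ * Cub.pI (pmk c.rep) * g') * pmk g := by
      rw [← hg']; group
    rw [h5]; group
  obtain ⟨k, hk⟩ := exists_conj_of_conj' C h2 h4
  obtain ⟨δ1, hδ1, a, ha⟩ := Corr.conj C hC hk
  obtain ⟨δ2, hδ2, hT, b, hb⟩ := exists_twCent C hδ1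
  refine ⟨δ2, hδ2, hT, (pmk g * a * b)⁻¹, ?_⟩
  rw [hb, ha, pmk_mul, pmk_mul, pmk_inv, ← pS_pmk]
  simp only [map_inv, map_mul]
  group

theorem mem_DC_of_corr {c : Cls K} {δc : G2 L} (h : GeoDatum.Corr C c.rep δc) (g : PG L) :
    g⁻¹ * pmk δc * C.pS g ∈ DC C c :=
  ⟨g, by rw [C.pN_tw, pN_of_corr C h]⟩

/-- **(CL1)**: `DC C c` is a single `σ`-conjugacy class. -/
theorem mem_DC_iff {c : Cls K} {δc : G2 L} (h : GeoDatum.Corr C c.rep δc) {δ : PG L} :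
    δ ∈ DC C c ↔ ∃ g : PG L, δ = g⁻¹ * pmk δc * C.pS g := by
  constructor
  · intro hδ
    obtain ⟨δ', h1, -, g, rfl⟩ := exists_corr_of_mem_DC C hδ
    obtain ⟨t, -, ht⟩ := Corr.unique C h h1
    refine ⟨pmk t * g, ?_⟩
    rw [ht, map_mul]
    group
  · rintro ⟨g, rfl⟩
    exact mem_DC_of_corr C h g

/-- fibres of `g ↦ g⁻¹ δ_c σ(g)`. -/
theorem tw_eq_iff {γ : G2 K} {δc : G2 L} (h : TwCent C γ δc) {g g' : PG L} :
    g⁻¹ * pmk δc * C.pS g = g'⁻¹ * pmk δc * C.pS g' ↔ ∃ k ∈ Zc γ, g' = Cub.pI k * g := by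
  have h1 : g⁻¹ * pmk δc * C.pS g = g'⁻¹ * pmk δc * C.pS g' ↔
      (g' * g⁻¹)⁻¹ * pmk δc * C.pS (g' * g⁻¹) = pmk δc := by
    rw [map_mul, map_inv]
    constructor
    · intro e
      have := congrArg (fun x => g * x * (C.pS g)⁻¹) e
      rw [show g * (g⁻¹ * pmk δc * C.pS g) * (C.pS g)⁻¹ = pmk δc by group] at this
      conv_rhs => rw [this]
      group
    · intro e
      have := congrArg (fun x => g⁻¹ * x * C.pS g) e
      rw [← this]
      group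
  rw [h1, h (g' * g⁻¹)]
  constructor
  · rintro ⟨k, hk, hk'⟩
    exact ⟨k, hk, by rw [hk', inv_mul_cancel_right]⟩
  · rintro ⟨k, hk, rfl⟩
    exact ⟨k, hk, by rw [mul_inv_cancel_right]⟩

end cubic

/-! ### Parity: distance one implies regular -/

section parity

variable {F : Type} [Field F] [NumberField F]

theorem exists_av_zpow (w : Pl F) {x : F} (hx : x ≠ 0) : ∃ n : ℤ, av w x = qv w ^ n :=
  ⟨_, av_eq_zpow w (Units.mk0 x hx)⟩

theorem nm_inv_mul (w : Pl F) (g : G2 F) : nm w (g⁻¹).1 * av w g.1.det = nm w g.1 := by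
  have h1 : g.1.det • (g⁻¹).1 = g.1.adjugate := by
    rw [Matrix.coe_units_inv, Matrix.inv_def, smul_smul, Ring.mul_inverse_cancel, one_smul]
    exact (Matrix.isUnit_iff_isUnit_det _).mp g.isUnit
  rw [mul_comm, ← nm_smul, h1, nm_adjugate]

theorem odd_of_T1 {w : Pl F} {g : G2 F} (h : nm w g.1 * nm w (g⁻¹).1 = qv w) :
    ∃ n : ℤ, av w g.1.det = qv w ^ (2 * n + 1) := by
  obtain ⟨c, hc⟩ := exists_nm_eq w g
  obtain ⟨m, hm⟩ := exists_av_zpow w c.ne_zero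
  have hq := (qv_pos w).ne'
  have h1 := nm_inv_mul w g
  have h2 : av w g.1.det * qv w = qv w ^ (2 * m) := by
    have h3 : nm w g.1 * nm w g.1 = qv w ^ (2 * m) := by
      rw [hc, hm, ← zpow_add₀ hq]
      congr 1; ring
    rw [← h3, ← h]
    linear_combination nm w g.1 * h1
  refine ⟨m - 1, ?_⟩
  apply mul_right_cancel₀ hq
  rw [h2, ← zpow_add_one₀ hq]
  congr 1; ring

theorem disc_of_odd {w : Pl F} {g : G2 F} (h : ∃ n : ℤ, av w g.1.det = qv w ^ (2 * n + 1)) :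
    Disc g.1 := by
  obtain ⟨n, hn⟩ := h
  intro h0
  have h1 : g.1.trace ^ 2 = 4 * g.1.det := sub_eq_zero.mp h0
  have hd := Cub.det_ne_zero' g
  have ht : g.1.trace ≠ 0 := by
    intro h2
    rw [h2] at h1
    apply hd
    have : (4 : F) * g.1.det = 0 := by rw [← h1]; ring
    exact (mul_eq_zero.mp this).resolve_left (by norm_num)
  obtain ⟨a, ha⟩ := exists_av_zpow w ht
  obtain ⟨b, hb⟩ := exists_av_zpow w (two_ne_zero (α := F))
  have h2 := congrArg (av w) h1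
  rw [map_pow, map_mul, show (4 : F) = 2 ^ 2 by norm_num, map_pow, ha, hb, hn] at h2
  have hq := (qv_pos w).ne'
  have h3 : qv w ^ (2 * a) = qv w ^ (2 * b + (2 * n + 1)) := by
    rw [zpow_add₀ hq, mul_comm 2 a, mul_comm 2 b, _root_.zpow_mul, _root_.zpow_mul]
    exact_mod_cast h2
  have h4 := zpow_right_injective₀ (qv_pos w) (one_lt_qv w).ne' h3
  omega

theorem disc_of_T1 {w : Pl F} {γ z : G2 F}
    (h : nm w (z⁻¹ * γ * z : G2 F).1 * nm w ((z⁻¹ * γ * z : G2 F)⁻¹).1 = qv w) : Disc γ.1 :=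
  disc_conj.mp (disc_of_odd (odd_of_T1 h))

variable {K L : Type} [Field K] [NumberField K] [Field L] [NumberField L] [Algebra K L]
  (C : Cub K L)

theorem disc_N_of_T1 {w : Pl L} (hw : pl C w = w) {δ y : G2 L}
    (h : nm w (y⁻¹ * δ * C.S y : G2 L).1 * nm w ((y⁻¹ * δ * C.S y : G2 L)⁻¹).1 = qv w) :
    Disc (C.N δ).1 := by
  obtain ⟨n, hn⟩ := odd_of_T1 h
  have hq := (qv_pos w).ne'
  have hy : av w y.1.det ≠ 0 := (AbsoluteValue.ne_zero_iff _).mpr (Cub.det_ne_zero' y)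
  have h1 : av w δ.1.det = qv w ^ (2 * n + 1) := by
    rw [← hn]
    have h2 : (y * (y⁻¹ * δ * C.S y) : G2 L).1.det = (δ * C.S y : G2 L).1.det := by
      congr 2; group
    rw [Units.val_mul y, Units.val_mul δ, Matrix.det_mul, Matrix.det_mul] at h2
    have h3 := congrArg (av w) h2
    have h4 : av w (C.S y : G2 L).1.det = av w y.1.det := by
      rw [Cub.coe_S, Cub.s_det]
      exact av_σ_of_fix C hw _
    rw [map_mul, map_mul, h4, mul_comm (av w y.1.det)] at h3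
    exact (mul_right_cancel₀ hy h3).symm
  apply disc_of_odd (w := w)
  refine ⟨3 * n + 1, ?_⟩
  rw [Cub.coe_N, Cub.det_nm, map_mul, map_mul, av_σ_of_fix C hw, av_σ_of_fix C hw,
    av_σ_of_fix C hw, h1, ← zpow_add₀ hq, ← zpow_add₀ hq]
  congr 1; ring

end parity

end Fermat.LT
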