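import Fermat.Agent.LT.Geo.Match
import Fermat.Agent.LT.Geo.Places

/-!
# LT, geometric side: construction of the comparison datum
-/

set_option autoImplicit false
set_option linter.unusedSectionVars false

open NumberField IsDedekindDomain Matrix Module
open Fermat.Agent.LT.D Fermat.Agent.CFT

namespace Fermat.LT

section arch

variable {K L : Type} [Field K] [NumberField K] [Field L] [NumberField L] [Algebra K L]

theorem totallyComplex_of_quad (hK : finrank ℚ K = 2) {φ : K →+* ℂ}
    (hφ : ¬ ComplexEmbedding.IsReal φ) : IsTotallyComplex K ∧ Fintype.card (InfinitePlace K) = 1 := by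
  classical
  have h1 := InfinitePlace.card_add_two_mul_card_eq_rank K
  have h2 := InfinitePlace.card_eq_nrRealPlaces_add_nrComplexPlaces K
  have h3 : 0 < InfinitePlace.nrComplexPlaces K := by
    rw [InfinitePlace.nrComplexPlaces]
    rw [Fintype.card_pos_iff]
    exact ⟨⟨InfinitePlace.mk φ, by rwa [← InfinitePlace.isComplex_mk_iff] at hφ⟩⟩
  rw [hK] at h1
  refine ⟨nrRealPlaces_eq_zero_iff.mp (by omega), by omega⟩

/-- the archimedean datum of an imaginary quadratic field -/
def archQuad (hK : finrank ℚ K = 2) (φ : K →+* ℂ) (hφ : ¬ ComplexEmbedding.IsReal φ) : Arch K where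
  I := Unit
  fI := inferInstance
  dI := inferInstance
  emb _ := φ
  bij := by
    have h := (totallyComplex_of_quad hK hφ).2
    rw [Fintype.bijective_iff_injective_and_card]
    exact ⟨fun _ _ _ => rfl, by rw [h]; rfl⟩
  cx _ := hφ

theorem σ_pow_three (C : Cub K L) : C.σ ^ 3 = 1 := by
  rw [← orderOf_σ C]; exact pow_orderOf_eq_one _

/-- the archimedean datum of `L`: the embeddings `φ ∘ σ^i`. -/
def archCub (C : Cub K L) (hK : finrank ℚ K = 2) (φ : L →+* ℂ)
    (hφ : ¬ ComplexEmbedding.IsReal (φ.comp (algebraMap K L))) : Arch L where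
  I := Fin 3
  fI := inferInstance
  dI := inferInstance
  emb i := φ.comp ((C.σ ^ (i : ℕ) : L ≃ₐ[K] L) : L →+* L)
  bij := by
    have htc := (totallyComplex_of_quad hK hφ).1
    have htL : IsTotallyComplex L := isTotallyComplex_of_algebra K L
    have hcard : Fintype.card (InfinitePlace L) = 3 := by
      have h1 := IsTotallyComplex.finrank L
      have h2 := IsTotallyComplex.nrRealPlaces_eq_zero L
      have h3 := InfinitePlace.card_eq_nrRealPlaces_add_nrComplexPlaces L
      have h4 : finrank ℚ K * finrank K L = finrank ℚ L := finrank_mul_finrank ℚ K L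
      rw [hK, finrank_of_cub C] at h4
      omega
    rw [Fintype.bijective_iff_injective_and_card]
    refine ⟨?_, by rw [hcard]; rfl⟩
    intro i j hij
    rw [InfinitePlace.mk_eq_iff] at hij
    rcases hij with hij | hij
    · have h1 : C.σ ^ (i : ℕ) = C.σ ^ (j : ℕ) := by
        ext x
        apply φ.injective
        exact DFunLike.congr_fun hij x
      exact Fin.ext (pow_injOn_Iio_orderOf (by rw [orderOf_σ C]; exact i.2)
        (by rw [orderOf_σ C]; exact j.2) h1)
    · exfalso
      apply hφ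
      rw [ComplexEmbedding.isReal_iff]
      ext x
      have h1 := DFunLike.congr_fun hij (algebraMap K L x)
      rw [ComplexEmbedding.conjugate_coe_eq] at h1 ⊢
      have h2 : ∀ n : ℕ, (φ.comp ((C.σ ^ n : L ≃ₐ[K] L) : L →+* L)) (algebraMap K L x) =
          φ (algebraMap K L x) := fun n => congrArg φ ((C.σ ^ n).commutes x)
      rw [h2, h2] at h1
      exact h1
  cx i hi := by
    apply hφ
    rw [ComplexEmbedding.isReal_iff] at hi ⊢
    ext x
    have h1 := DFunLike.congr_fun hi (algebraMap K L x)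
    rw [ComplexEmbedding.conjugate_coe_eq] at h1 ⊢
    have h2 : ∀ n : ℕ, (φ.comp ((C.σ ^ n : L ≃ₐ[K] L) : L →+* L)) (algebraMap K L x) =
        φ (algebraMap K L x) := fun n => congrArg φ ((C.σ ^ n).commutes x)
    rw [h2] at h1
    exact h1

/-- the twisted datum -/
def TwDatum.ofEmb (C : Cub K L) (hK : finrank ℚ K = 2) (φ : L →+* ℂ)
    (hφ : ¬ ComplexEmbedding.IsReal (φ.comp (algebraMap K L))) (U : Level L)
    (hU : ∀ w g, C.S g ∈ U.H (pl C w) ↔ g ∈ U.H w) : TwDatum C where
  toArch := archCub C hK φ hφ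
  toLevel := U
  perm := finRotate 3
  emb_perm := by
    have h3 : ∀ x, (C.σ ^ 3) x = x := fun x => by rw [σ_pow_three C]; rfl
    have h : ∀ (i : Fin 3) (x : L), φ ((C.σ ^ ((finRotate 3 i : Fin 3) : ℕ)) x) =
        φ ((C.σ ^ (i : ℕ)) (C.σ x)) := by
      intro i x
      congr 1
      rw [← AlgEquiv.mul_apply, ← pow_succ]
      fin_cases i
      · rfl
      · rfl
      · exact (h3 x).symm
    exact h
  H_pl := hU

end arch

section level

variable {F : Type} [Field F] [NumberField F]

theorem nm_inv' (w : Pl F) (g : G2 F) : nm w (g⁻¹).1 = (av w g.1.det)⁻¹ * nm w g.1 := by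
  have h1 : (g⁻¹).1 = (g.1.det)⁻¹ • g.1.adjugate := by
    rw [Matrix.coe_units_inv, Matrix.inv_def, Ring.inverse_eq_inv]
  rw [h1, nm_smul, nm_adjugate, map_inv₀]

theorem det_ne_zero'' (g : G2 F) : g.1.det ≠ 0 :=
  ((Matrix.isUnit_iff_isUnit_det _).mp g.isUnit).ne_zero

/-- the distance in the tree -/
theorem dist_eq (w : Pl F) (g : G2 F) : nm w g.1 * nm w (g⁻¹).1 = nm w g.1 ^ 2 / av w g.1.det := by
  rw [nm_inv']; field_simp

theorem av_lt_one_le (w : Pl F) {x : F} (h : av w x < 1) : av w x ≤ (qv w)⁻¹ := by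
  rcases eq_or_ne x 0 with rfl | hx
  · rw [map_zero]; exact (inv_pos.mpr (qv_pos w)).le
  have h0 : w.valuation F x ≠ 0 := (Valuation.ne_zero_iff _).mpr hx
  obtain ⟨n, hn⟩ : ∃ n : ℤ, w.valuation F x = WithZero.exp n :=
    ⟨WithZero.log _, (WithZero.exp_log h0).symm⟩
  have h1 := av_eq_of_valuation w hn
  rw [h1] at h ⊢
  have h2 : n < 0 := by
    by_contra hn
    push Not at hn
    exact absurd h (not_lt.mpr (one_le_zpow₀ (one_lt_qv w).le hn))
  rw [← _root_.zpow_neg_one]
  exact zpow_le_zpow_right₀ (one_lt_qv w).le (by omega)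

/-- `F^* K(w^n)` -/
def scalCong (w : Pl F) (n : ℕ) : Subgroup (G2 F) where
  carrier := {g | ∃ c : Fˣ, sc c * g ∈ congGL w n}
  mul_mem' := by
    rintro g h ⟨a, ha⟩ ⟨b, hb⟩
    refine ⟨a * b, ?_⟩
    have h1 : sc (a * b) * (g * h) = (sc a * g) * (sc b * h) := by
      have h2 : sc (a * b) = sc a * sc b := map_mul _ _ _
      rw [h2]
      calc sc a * sc b * (g * h) = sc a * (sc b * g) * h := by simp only [mul_assoc]
        _ = sc a * (g * sc b) * h := by rw [sc_comm b g]
        _ = _ := by simp only [mul_assoc]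
    rw [h1]
    exact mul_mem ha hb
  one_mem' := ⟨1, by
    have h1 : sc (1 : Fˣ) = 1 := map_one _
    rw [h1, one_mul]
    exact one_mem _⟩
  inv_mem' := by
    rintro g ⟨a, ha⟩
    refine ⟨a⁻¹, ?_⟩
    have h1 : sc a⁻¹ * g⁻¹ = (sc a * g)⁻¹ := by
      rw [_root_.mul_inv_rev, sc_inv, sc_comm]
    rw [h1]
    exact inv_mem ha

theorem congGL_le_scalCong (w : Pl F) (n : ℕ) : congGL w n ≤ scalCong w n := fun g hg =>
  ⟨1, by
    have h1 : sc (1 : Fˣ) = 1 := map_one _
    rwa [h1, one_mul]⟩

theorem scal_le_scalCong (w : Pl F) (n : ℕ) : scal F ≤ scalCong w n := by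
  intro g hg
  obtain ⟨c, hc⟩ := (mem_scal_iff g).mp hg
  refine ⟨c⁻¹, ?_⟩
  have h1 : g = sc c := Units.ext hc
  rw [h1, ← sc_inv, inv_mul_cancel]
  exact one_mem _

theorem scalCong_le_stdH (w : Pl F) (n : ℕ) : scalCong w n ≤ stdH w := by
  rintro g ⟨c, hc⟩
  rw [mem_stdH_iff]
  exact ⟨c⁻¹, by rw [inv_inv]; exact hc.1⟩

theorem td_sc_mul (c : Fˣ) (g : G2 F) : td (sc c * g) = td g := by
  have hc : (c : F) ≠ 0 := c.ne_zero
  have hd := det_ne_zero'' g
  rw [td, td, sc_mul_val, Matrix.trace_smul, Matrix.det_smul, Fintype.card_fin, smul_eq_mul,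
    mul_pow]
  field_simp

theorem td_mul_comm (g h : G2 F) : td (g * h) = td (h * g) := by
  rw [td, td, Units.val_mul, Units.val_mul, Matrix.trace_mul_comm, Matrix.det_mul_comm]

theorem av_trace_le (w : Pl F) (A : Matrix (Fin 2) (Fin 2) F) : av w A.trace ≤ nm w A := by
  rw [Matrix.trace_fin_two]
  exact (av_add_le w _ _).trans (max_le (av_le_nm w A 0 0) (av_le_nm w A 1 1))

/-- determinant of an element of the congruence subgroup -/
theorem av_det_sub_one_le (w : Pl F) {n : ℕ} {g : G2 F} (hg : g ∈ congGL w n) :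
    av w (g.1.det - 1) ≤ (qv w)⁻¹ ^ n := by
  have hq := qv_pos w
  have h1 : g.1.det - 1 = (g.1 - 1).trace + (g.1 - 1).det := by
    rw [Matrix.trace_fin_two, Matrix.det_fin_two, Matrix.det_fin_two]
    simp only [Matrix.sub_apply, Matrix.one_apply_eq, Fin.isValue, ne_eq, zero_ne_one,
      not_false_eq_true, Matrix.one_apply_ne, one_ne_zero, sub_zero]
    ring
  rw [h1]
  have h2 : nm w (g.1 - 1) ≤ (qv w)⁻¹ ^ n := hg.2
  have h3 : (qv w)⁻¹ ^ n ≤ 1 := pow_le_one₀ (inv_nonneg.mpr hq.le) (inv_le_one_of_one_le₀ (one_lt_qv w).le)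
  refine (av_add_le w _ _).trans (max_le ((av_trace_le w _).trans h2) ?_)
  refine (av_det_le w _).trans ?_
  calc nm w (g.1 - 1) ^ 2 = nm w (g.1 - 1) * nm w (g.1 - 1) := sq _
    _ ≤ (qv w)⁻¹ ^ n * 1 := mul_le_mul h2 (h2.trans h3) (nm_nonneg w _) (by positivity)
    _ = _ := mul_one _

end level

section phi

variable {K L : Type} [Field K] [NumberField K] [Field L] [NumberField L] [Algebra K L]

theorem av_eq_of_sub_lt (v : Pl K) {x y : K} (h : av v (x - y) < av v y) : av v x = av v y := by
  have hy := (E.av_sub_le v x (x - y))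
  have hx := (av_add_le v (x - y) y)
  rw [sub_add_cancel] at hx
  rw [sub_sub_cancel] at hy
  have h1 : av v x ≤ av v y := hx.trans (max_le h.le le_rfl)
  rcases le_max_iff.mp hy with h2 | h2
  · exact le_antisymm h1 h2
  · exact absurd h (not_lt.mpr h2)

/-- `phiR` is locally constant where `|x| > 1`. -/
theorem phiR_congr (C : Cub K L) (v : Pl K) (n : ℕ) {x y : K} (hx : 1 < av v x)
    (h : av v (x - y) ≤ av v x * (qv v)⁻¹ ^ n) (h' : av v (x - y) < av v x) :
    phiR C v n x = phiR C v n y := by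
  have hxy : av v y = av v x := by
    apply av_eq_of_sub_lt
    rwa [← (av v).map_neg, neg_sub]
  have key : ∀ a b : K, av v a = av v b → av v (a - b) ≤ av v a * (qv v)⁻¹ ^ n → ∀ z : K,
      av v (z - a) ≤ av v a * (qv v)⁻¹ ^ n → av v (z - b) ≤ av v b * (qv v)⁻¹ ^ n := by
    intro a b hab h1 z h2
    have e : z - b = (z - a) + (a - b) := by ring
    rw [e, ← hab]
    exact (av_add_le v _ _).trans (max_le h2 h1)
  have h'' : av v (y - x) ≤ av v y * (qv v)⁻¹ ^ n := by
    rw [hxy, ← (av v).map_neg, neg_sub]; exact h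
  unfold phiR
  rw [if_neg (not_le.mpr hx), if_neg (not_le.mpr (hxy ▸ hx))]
  congr 1
  rw [eq_iff_iff]
  constructor
  · rintro ⟨b, m, hb, hm, hlt⟩
    exact ⟨b, m, hb, hm, key x y hxy.symm h _ hlt⟩
  · rintro ⟨b, m, hb, hm, hlt⟩
    exact ⟨b, m, hb, hm, key y x hxy h'' _ hlt⟩

/-- invariance of the class function on the matrices at distance one -/
theorem phiR_td_congGL (C : Cub K L) (v : Pl K) (n N : ℕ) (hN : n ≤ N) (hN1 : 1 ≤ N) {g g' : G2 K}
    (hg : g ∈ congGL v N) (h : nm v g'.1 * nm v (g'⁻¹).1 = qv v) :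
    phiR C v n (td (g * g')) = phiR C v n (td g') := by
  have hq := qv_pos v
  have hq1 := one_lt_qv v
  have hε : (qv v)⁻¹ ^ N ≤ (qv v)⁻¹ ^ n :=
    pow_le_pow_of_le_one (inv_nonneg.mpr hq.le) (inv_le_one_of_one_le₀ hq1.le) hN
  have hε1 : (qv v)⁻¹ ^ N ≤ (qv v)⁻¹ ^ 1 :=
    pow_le_pow_of_le_one (inv_nonneg.mpr hq.le) (inv_le_one_of_one_le₀ hq1.le) hN1
  rw [pow_one] at hε1
  have hεlt : (qv v)⁻¹ ^ N < 1 := hε1.trans_lt (inv_lt_one_of_one_lt₀ hq1)
  have hεpos : 0 < (qv v)⁻¹ ^ N := by positivity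
  -- normalise `g'`
  obtain ⟨c, hc⟩ := exists_nm_eq v g'
  have hc0 : av v (c : K) ≠ 0 := (av v).ne_zero c.ne_zero
  set g₁ : G2 K := sc c⁻¹ * g' with hg₁
  have e1 : td g' = td g₁ := by rw [hg₁, td_sc_mul]
  have e2 : td (g * g') = td (g * g₁) := by
    rw [hg₁, ← mul_assoc, ← sc_comm, mul_assoc, td_sc_mul]
  have hn1 : nm v g₁.1 = 1 := by
    rw [hg₁, sc_mul_val, nm_smul, hc, Units.val_inv_eq_inv_val, map_inv₀, inv_mul_cancel₀ hc0]
  have hdet : av v g₁.1.det = (qv v)⁻¹ := by
    have h2 : nm v g₁.1 * nm v (g₁⁻¹).1 = qv v := by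
      rw [dist_eq] at h ⊢
      rw [hg₁, sc_mul_val, nm_smul, Matrix.det_smul, Fintype.card_fin, map_mul, map_pow, mul_pow,
        mul_div_mul_left _ _ (by rw [Units.val_inv_eq_inv_val, map_inv₀]; positivity)]
      exact h
    rw [dist_eq, hn1, one_pow, one_div] at h2
    rw [← h2, inv_inv]
  rw [e1, e2]
  set t := g₁.1.trace with ht
  set d := g₁.1.det with hd
  set t' := (g * g₁).1.trace with ht'
  set u := g.1.det with hu
  have hd0 : d ≠ 0 := det_ne_zero'' g₁
  have hu0 : u ≠ 0 := det_ne_zero'' g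
  have htd : td g₁ = t ^ 2 / d := rfl
  have htd' : td (g * g₁) = t' ^ 2 / (u * d) := by
    rw [td, Units.val_mul, Matrix.det_mul, ← Units.val_mul]
  have hu1 : av v (u - 1) ≤ (qv v)⁻¹ ^ N := av_det_sub_one_le v hg
  have huu : av v u = 1 := by
    have := av_eq_of_sub_lt v (x := u) (y := 1) (by rw [map_one]; exact hu1.trans_lt hεlt)
    rw [this, map_one]
  have htt : av v (t' - t) ≤ (qv v)⁻¹ ^ N := by
    have e3 : t' - t = ((g.1 - 1) * g₁.1).trace := by
      rw [ht', ht, Units.val_mul, sub_mul, one_mul, Matrix.trace_sub]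
    rw [e3]
    refine (av_trace_le v _).trans ((nm_mul_le v _ _).trans ?_)
    rw [hn1, mul_one]
    exact hg.2
  have ht1 : av v t ≤ 1 := (av_trace_le v _).trans hn1.le
  have ht'1 : av v t' ≤ 1 := by
    have e3 : t' = (t' - t) + t := by ring
    rw [e3]
    exact (av_add_le v _ _).trans (max_le (htt.trans hεlt.le) ht1)
  rw [htd, htd']
  rcases ht1.lt_or_eq with hlt | heq
  · -- both are integral
    have hlt' : av v t' < 1 := by
      have e3 : t' = (t' - t) + t := by ring
      rw [e3]
      exact (av_add_le v _ _).trans_lt (max_lt (htt.trans_lt hεlt) hlt)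
    have h3 := av_lt_one_le v hlt
    have h4 := av_lt_one_le v hlt'
    have hi : ((qv v)⁻¹) ^ 2 / (qv v)⁻¹ ≤ 1 := by
      rw [sq, mul_div_assoc, div_self (inv_ne_zero hq.ne'), mul_one]
      exact inv_le_one_of_one_le₀ hq1.le
    have h5 : av v (t ^ 2 / d) ≤ 1 := by
      rw [map_div₀, map_pow, hdet]
      refine le_trans ?_ hi
      gcongr
    have h6 : av v (t' ^ 2 / (u * d)) ≤ 1 := by
      rw [map_div₀, map_mul, huu, one_mul, map_pow, hdet]
      refine le_trans ?_ hi
      gcongr
    rw [phiR, phiR, if_pos h5, if_pos h6]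
  · have hx : av v (t ^ 2 / d) = qv v := by
      rw [map_div₀, map_pow, hdet, heq, one_pow, one_div, inv_inv]
    have hsub : av v (t ^ 2 / d - t' ^ 2 / (u * d)) ≤ av v (t ^ 2 / d) * (qv v)⁻¹ ^ N := by
      have e3 : t ^ 2 / d - t' ^ 2 / (u * d) =
          (t ^ 2 * (u - 1) - (t' - t) * (t' + t)) / (u * d) := by
        field_simp
        ring
      rw [e3, map_div₀, map_mul, huu, one_mul, hdet, hx, div_inv_eq_mul, mul_comm]
      refine mul_le_mul_of_nonneg_left ?_ hq.le
      refine (E.av_sub_le v _ _).trans (max_le ?_ ?_)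
      · rw [map_mul, map_pow, heq, one_pow, one_mul]; exact hu1
      · rw [map_mul]
        calc av v (t' - t) * av v (t' + t) ≤ (qv v)⁻¹ ^ N * 1 :=
              mul_le_mul htt ((av_add_le v _ _).trans (max_le ht'1 ht1)) ((av v).nonneg _)
                hεpos.le
          _ = _ := mul_one _
    refine (phiR_congr C v n (by rw [hx]; exact hq1) (hsub.trans ?_) (hsub.trans_lt ?_)).symm
    · exact mul_le_mul_of_nonneg_left hε ((av v).nonneg _)
    · rw [hx]
      exact mul_lt_of_lt_one_right hq hεlt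

theorem phiR_td_scalCong (C : Cub K L) (v : Pl K) (n N : ℕ) (hN : n ≤ N) (hN1 : 1 ≤ N)
    {g g' : G2 K} (hg : g ∈ scalCong v N) (h : nm v g'.1 * nm v (g'⁻¹).1 = qv v) :
    phiR C v n (td (g * g')) = phiR C v n (td g') := by
  obtain ⟨c, hc⟩ := hg
  rw [← phiR_td_congGL C v n N hN hN1 hc h, mul_assoc, td_sc_mul]

end phi

section cons

variable {K L : Type} [Field K] [NumberField K] [Field L] [NumberField L] [Algebra K L]

theorem nm_Inc_of_av {v : Pl K} {w : Pl L} (h : ∀ x : K, av w (algebraMap K L x) = av v x)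
    (A : Matrix (Fin 2) (Fin 2) K) : nm w (A.map (algebraMap K L)) = nm v A := by
  simp only [nm, Matrix.map_apply, h]

theorem Inc_val (g : G2 K) : (Cub.Inc (L := L) g).1 = g.1.map (algebraMap K L) := rfl

/-- the flat level on `K` -/
noncomputable def flatLevel (C : Cub K L) (U : Level L) (up : Pl K → Pl L)
    (hup : ∀ v, Above v (up v)) : Level K := by
  classical
  exact
  { H := fun v => if Split C v (up v) then (U.H (up v)).comap Cub.Inc else stdH v
    scal_le := by
      intro v g hg
      split_ifs with h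
      · obtain ⟨c, hc⟩ := (mem_scal_iff g).mp hg
        rw [Subgroup.mem_comap]
        apply U.scal_le
        rw [mem_scal_iff]
        refine ⟨Units.map (algebraMap K L : K →* L) c, ?_⟩
        rw [Inc_val, hc]
        ext i j
        fin_cases i <;> fin_cases j <;> simp
      · exact scal_le_stdH v hg
    le_std := by
      intro v g hg
      split_ifs at hg with h
      · have h1 := U.le_std _ (Subgroup.mem_comap.mp hg)
        rw [mem_stdH] at h1 ⊢
        rw [← map_inv, Inc_val, Inc_val, nm_Inc_of_av h.av_eq, nm_Inc_of_av h.av_eq] at h1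
        exact h1
      · exact hg
    n := fun v => if Split C v (up v) then U.n (up v) else 0
    cong_le := by
      intro v g hg
      split_ifs at hg ⊢ with h
      · rw [Subgroup.mem_comap]
        apply U.cong_le
        refine ⟨⟨?_, ?_⟩, ?_⟩
        · rw [Inc_val, nm_Inc_of_av h.av_eq]; exact hg.1.1
        · rw [← map_inv, Inc_val, nm_Inc_of_av h.av_eq]; exact hg.1.2
        · have e : (Cub.Inc (L := L) g).1 - 1 = (g.1 - 1).map (algebraMap K L) := by
            rw [Inc_val]
            ext i j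
            fin_cases i <;> fin_cases j <;> simp
          rw [e, nm_Inc_of_av h.av_eq, h.q_eq]
          exact hg.2
      · rw [congGL_zero] at hg
        exact intGL_le_stdH v hg
    n_fin := by
      refine (U.n_fin.image (SUH.below K)).subset ?_
      intro v hv
      simp only [Set.mem_ofPred_eq, ne_eq, ite_eq_right_iff, Classical.not_imp] at hv
      exact ⟨up v, hv.2, (above_iff v _).mp (hup v)⟩ }

/-- the deep level on `K` -/
noncomputable def deepLevel (C : Cub K L) (U0 : Level K) (up : Pl K → Pl L) (N : Pl K → ℕ)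
    : Level K := by
  classical
  exact
  { H := fun v => if Ram C v (up v) then scalCong v (N v) else U0.H v
    scal_le := by
      intro v
      split_ifs
      · exact scal_le_scalCong v _
      · exact U0.scal_le v
    le_std := by
      intro v
      split_ifs
      · exact scalCong_le_stdH v _
      · exact U0.le_std v
    n := fun v => if Ram C v (up v) then N v else U0.n v
    cong_le := by
      intro v
      split_ifs
      · exact congGL_le_scalCong v _
      · exact U0.cong_le v
    n_fin := by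
      refine ((ram_finite C).union U0.n_fin).subset ?_
      intro v hv
      by_cases h : Ram C v (up v)
      · exact Or.inl ⟨_, h⟩
      · refine Or.inr ?_
        simpa [h] using hv }

/-- **Construction of the comparison datum.** -/
noncomputable def GeoDatum.mk' (C : Cub K L) (hK : finrank ℚ K = 2) (φ : L →+* ℂ)
    (hφ : ¬ ComplexEmbedding.IsReal (φ.comp (algebraMap K L))) (U : Level L)
    (hU : ∀ w g, C.S g ∈ U.H (pl C w) ↔ g ∈ U.H w)
    (hstd : ∀ w, pl C w = w → U.H w = stdH w) (nr : Pl K → ℕ)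
    (hnr : ∀ v w, Ram C v w → (qv v)⁻¹ ^ nr v < av v 9) : GeoDatum C := by
  classical
  exact
  { DL := TwDatum.ofEmb C hK φ hφ U hU
    AK := archQuad hK (φ.comp (algebraMap K L)) hφ
    uK := inferInstanceAs (Unique Unit)
    U := deepLevel C (flatLevel C U (fun v => (exists_above (L := L) v).choose)
      (fun v => (exists_above (L := L) v).choose_spec)) (fun v => (exists_above (L := L) v).choose)
      (fun v => max (nr v) 1)
    U0 := flatLevel C U (fun v => (exists_above (L := L) v).choose)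
      (fun v => (exists_above (L := L) v).choose_spec)
    ι := (0 : Fin 3)
    emb_ι := fun x => rfl
    cover := by
      have h : ∀ i : Fin 3, i = 0 ∨ i = finRotate 3 0 ∨ i = finRotate 3 (finRotate 3 0) := by decide
      exact h
    up := fun v => (exists_above (L := L) v).choose
    down := SUH.below K
    above := fun w => above_below w
    up_down := fun w => above_cases C (exists_above (L := L) (SUH.below K w)).choose_spec
      (above_below w)
    down_up := fun v => (above_iff v _).mp (exists_above (L := L) v).choose_spec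
    down_pl := fun w => below_pl C w
    typ := fun v => trichotomy C (exists_above (L := L) v).choose_spec
    H_split := fun v h g => by
      change g ∈ (if Split C v _ then _ else _) ↔ _
      rw [if_pos h]
      exact Iff.rfl
    H_inert := fun v h => ⟨hstd _ h.fix, by
      change (if Split C v _ then _ else _) = _
      rw [if_neg (fun h' => h'.not_inert h)]⟩
    H_ram := fun v h => ⟨hstd _ h.fix, by
      change (if Split C v _ then _ else _) = _
      rw [if_neg (fun h' => h'.not_ram h)]⟩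
    U_le := fun v => by
      change (if Ram C v _ then scalCong v _ else _) ≤ _
      split_ifs with h
      · change _ ≤ (if Split C v _ then _ else _)
        rw [if_neg (fun h' => h'.not_ram h)]
        exact scalCong_le_stdH v _
      · exact le_rfl
    U_eq := fun v h => by
      change (if Ram C v _ then scalCong v _ else _) = _
      rw [if_neg h]
    nr := nr
    nr_big := fun v h => hnr v _ h
    ram_fin := (ram_finite C).subset fun v h => ⟨_, h⟩
    U_ram := fun v h g hg g' hg' => by
      have hg1 : g ∈ (if Ram C v (exists_above (L := L) v).choose then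
        scalCong v (max (nr v) 1) else _) := hg
      rw [if_pos h] at hg1
      have h1 := phiR_td_scalCong C v (nr v) (max (nr v) 1) (le_max_left _ _) (le_max_right _ _)
        hg1 hg'
      exact ⟨h1, by rw [td_mul_comm, h1]⟩ }

section mk_api

variable (C : Cub K L) (hK : finrank ℚ K = 2) (φ : L →+* ℂ)
    (hφ : ¬ ComplexEmbedding.IsReal (φ.comp (algebraMap K L))) (U : Level L)
    (hU : ∀ w g, C.S g ∈ U.H (pl C w) ↔ g ∈ U.H w)
    (hstd : ∀ w, pl C w = w → U.H w = stdH w) (nr : Pl K → ℕ)
    (hnr : ∀ v w, Ram C v w → (qv v)⁻¹ ^ nr v < av v 9)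

theorem GeoDatum.mk'_nr : (GeoDatum.mk' C hK φ hφ U hU hstd nr hnr).nr = nr := rfl

theorem GeoDatum.mk'_DL : (GeoDatum.mk' C hK φ hφ U hU hstd nr hnr).DL =
    TwDatum.ofEmb C hK φ hφ U hU := rfl

theorem GeoDatum.mk'_down : (GeoDatum.mk' C hK φ hφ U hU hstd nr hnr).down = SUH.below K := rfl

theorem GeoDatum.mk'_AK : (GeoDatum.mk' C hK φ hφ U hU hstd nr hnr).AK =
    archQuad hK (φ.comp (algebraMap K L)) hφ := rfl

theorem GeoDatum.mk'_U_ram {v : Pl K}
    (h : Ram C v ((GeoDatum.mk' C hK φ hφ U hU hstd nr hnr).up v)) :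
    (GeoDatum.mk' C hK φ hφ U hU hstd nr hnr).U.H v = scalCong v (max (nr v) 1) := by
  classical
  exact if_pos h

/-- a possible choice of the precision -/
theorem exists_nr (v : Pl K) : ∃ n : ℕ, (qv v)⁻¹ ^ n < av v 9 :=
  exists_pow_lt_of_lt_one ((av v).pos (by norm_num)) (inv_lt_one_of_one_lt₀ (one_lt_qv v))

theorem exists_nr_tame {v : Pl K} (h : av v 3 = 1) : (qv v)⁻¹ ^ 1 < av v 9 := by
  have e : (9 : K) = 3 * 3 := by norm_num
  rw [e, map_mul, h, pow_one, one_mul]
  exact inv_lt_one_of_one_lt₀ (one_lt_qv v)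

end mk_api

end cons

end Fermat.LT
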