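import Fermat.Agent.LT.A.XMeas
import Fermat.Agent.LT.A.Borel

/-!
# LT, geometric side: change of level `Y U → Y U'` (`U ⊆ U'`)

`pq : G/H → G/H'`, `Level.proj : Y U → Y U'`, the fibres have `∏ [U'.H v : U.H v]` elements,
push-forward of the measure of `X`.
-/

set_option autoImplicit false

open NumberField IsDedekindDomain Matrix MeasureTheory
open scoped ENNReal

namespace Fermat.LT

section group

variable {G : Type} [Group G]

/-- the projection `G/H → G/H'` for `H ≤ H'` -/
def pq {H H' : Subgroup G} (h : H ≤ H') : G ⧸ H → G ⧸ H' :=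
  Quotient.map' id (by
    intro a b hab
    rw [QuotientGroup.leftRel_apply] at hab ⊢
    exact h hab)

variable {H H' : Subgroup G} (h : H ≤ H')

@[simp] theorem pq_mk (g : G) : pq h (g : G ⧸ H) = (g : G ⧸ H') := rfl

theorem pq_surjective : Function.Surjective (pq h) := by
  intro y
  obtain ⟨g, rfl⟩ := QuotientGroup.mk_surjective y
  exact ⟨(g : G ⧸ H), rfl⟩

theorem pq_smul (g : G) (y : G ⧸ H) : pq h (g • y) = g • pq h y := by
  obtain ⟨a, rfl⟩ := QuotientGroup.mk_surjective y
  rfl

theorem pq_injective (h2 : H' ≤ H) : Function.Injective (pq h) := by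
  intro a b hab
  obtain ⟨a, rfl⟩ := QuotientGroup.mk_surjective a
  obtain ⟨b, rfl⟩ := QuotientGroup.mk_surjective b
  rw [pq_mk, pq_mk, QuotientGroup.eq] at hab
  exact QuotientGroup.eq.mpr (h2 hab)

/-- the fibre of `pq` over a point is a coset space -/
noncomputable def fibreEquiv (z : G ⧸ H') : {y : G ⧸ H // pq h y = z} ≃ H' ⧸ H.subgroupOf H' := by
  refine (Equiv.ofBijective (fun q : H' ⧸ H.subgroupOf H' =>
    (⟨Quotient.liftOn' q (fun k : H' => ((z.out * k : G) : G ⧸ H)) ?_, ?_⟩ :
      {y : G ⧸ H // pq h y = z})) ⟨?_, ?_⟩).symm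
  · intro a b hab
    rw [QuotientGroup.leftRel_apply] at hab
    rw [QuotientGroup.eq, _root_.mul_inv_rev, mul_assoc, inv_mul_cancel_left]
    exact hab
  · obtain ⟨k, rfl⟩ := QuotientGroup.mk_surjective q
    change ((z.out * k : G) : G ⧸ H') = z
    conv_rhs => rw [← QuotientGroup.out_eq' z]
    rw [QuotientGroup.eq, _root_.mul_inv_rev, mul_assoc, inv_mul_cancel, mul_one]
    exact inv_mem k.2
  · intro a b hab
    obtain ⟨a, rfl⟩ := QuotientGroup.mk_surjective a
    obtain ⟨b, rfl⟩ := QuotientGroup.mk_surjective b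
    have hab' : ((z.out * a : G) : G ⧸ H) = ((z.out * b : G) : G ⧸ H) := congrArg Subtype.val hab
    rw [QuotientGroup.eq, _root_.mul_inv_rev, mul_assoc, inv_mul_cancel_left] at hab'
    exact QuotientGroup.eq.mpr hab'
  · rintro ⟨y, hy⟩
    obtain ⟨g, rfl⟩ := QuotientGroup.mk_surjective y
    rw [pq_mk] at hy
    have h1 : z.out⁻¹ * g ∈ H' := by
      rw [← QuotientGroup.eq, QuotientGroup.out_eq', hy]
    refine ⟨((⟨z.out⁻¹ * g, h1⟩ : H') : H' ⧸ H.subgroupOf H'), Subtype.ext ?_⟩
    change ((z.out * (z.out⁻¹ * g) : G) : G ⧸ H) = (g : G ⧸ H)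
    rw [mul_inv_cancel_left]

theorem card_fibre (z : G ⧸ H') : Nat.card {y : G ⧸ H // pq h y = z} = H.relIndex H' := by
  rw [Nat.card_congr (fibreEquiv h z)]; rfl

theorem finite_fibre (hf : H.relIndex H' ≠ 0) (z : G ⧸ H') : Finite {y : G ⧸ H // pq h y = z} := by
  rw [← card_fibre h z] at hf
  exact Nat.finite_of_card_ne_zero hf

end group

section level

variable {F : Type} [Field F] [NumberField F] {U U' : Level F}

theorem Level.relIndex_ne_zero (h : ∀ w, U.H w ≤ U'.H w) (w : Pl F) :
    (U.H w).relIndex (U'.H w) ≠ 0 := by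
  have h1 : (U.H w).relIndex (stdH w) ≠ 0 := by
    have hfin := finite_intGL_Yl U w
    have h2 : {y : Yl U w | ∃ k ∈ stdH w, (k : Yl U w) = y} ⊆
        {y : Yl U w | ∃ k ∈ intGL w, (k : Yl U w) = y} := by
      rintro _ ⟨k, hk, rfl⟩
      obtain ⟨c, hc⟩ := (mem_stdH_iff w k).mp hk
      refine ⟨_, hc, ?_⟩
      rw [QuotientGroup.eq]
      have : (sc c⁻¹ * k)⁻¹ * k = sc c := by
        rw [_root_.mul_inv_rev, sc_inv, inv_inv, mul_assoc, sc_comm, inv_mul_cancel_left]
      rw [this]
      exact U.scal_le w (sc_mem c)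
    have hfin2 := hfin.subset h2
    have hfin3 : Finite (stdH w ⧸ (U.H w).subgroupOf (stdH w)) := by
      have : Finite {y : Yl U w | ∃ k ∈ stdH w, (k : Yl U w) = y} := hfin2
      refine Finite.of_injective (β := {y : Yl U w | ∃ k ∈ stdH w, (k : Yl U w) = y})
        (fun q => ⟨Quotient.liftOn' q (fun k : stdH w => ((k : G2 F) : Yl U w)) ?_, ?_⟩) ?_
      · intro a b hab
        rw [QuotientGroup.leftRel_apply] at hab
        exact QuotientGroup.eq.mpr hab
      · obtain ⟨k, rfl⟩ := QuotientGroup.mk_surjective q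
        exact ⟨k, k.2, rfl⟩
      · intro a b hab
        obtain ⟨a, rfl⟩ := QuotientGroup.mk_surjective a
        obtain ⟨b, rfl⟩ := QuotientGroup.mk_surjective b
        have hab' : ((a : G2 F) : Yl U w) = ((b : G2 F) : Yl U w) := congrArg Subtype.val hab
        rw [QuotientGroup.eq (s := U.H w)] at hab'
        exact QuotientGroup.eq.mpr hab'
    rw [Subgroup.relIndex, Subgroup.index_ne_zero_iff_finite]
    exact hfin3
  exact fun h0 => h1 (by
    rw [← Subgroup.relIndex_mul_relIndex (U.H w) (U'.H w) (stdH w) (h w) (U'.le_std w), h0,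
      zero_mul])

/-- change of level -/
def Level.proj (h : ∀ w, U.H w ≤ U'.H w) (y : Y U) : Y U' where
  val w := pq (h w) (y w)
  fin := by
    refine y.fin.subset ?_
    intro w hw hc
    apply hw
    rw [hc]; rfl

theorem Level.proj_apply (h : ∀ w, U.H w ≤ U'.H w) (y : Y U) (w : Pl F) :
    Level.proj h y w = pq (h w) (y w) := rfl

theorem Level.proj_smul (h : ∀ w, U.H w ≤ U'.H w) (g : G2 F) (y : Y U) :
    Level.proj h (g • y) = g • Level.proj h y :=
  Y.ext' fun w => pq_smul (h w) g (y w)

variable (h : ∀ w, U.H w ≤ U'.H w) (S : Finset (Pl F)) (hS : ∀ w ∉ S, U'.H w ≤ U.H w)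

open Classical in
include hS in
/-- the fibre of the change of level -/
noncomputable def Level.fibre (z : Y U') :
    {y : Y U // Level.proj h y = z} ≃ ∀ w : S, {a : Yl U w.1 // pq (h w.1) a = z w.1} where
  toFun y w := ⟨y.1 w.1, by rw [← Level.proj_apply, y.2]⟩
  invFun a := ⟨⟨fun w => if hw : w ∈ S then (a ⟨w, hw⟩).1 else (pq_surjective (h w) (z w)).choose, by
      refine (S.finite_toSet.union z.fin).subset ?_
      intro w hw
      by_contra hc
      simp only [Set.mem_union, Finset.mem_coe, Set.mem_ofPred_eq, not_or, not_not] at hc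
      apply hw
      simp only [dif_neg hc.1]
      apply pq_injective (h w) (hS w hc.1)
      rw [(pq_surjective (h w) (z w)).choose_spec, hc.2]; rfl⟩, by
    refine Y.ext' fun w => ?_
    rw [Level.proj_apply]
    by_cases hw : w ∈ S
    · simp only [dif_pos hw]; exact (a ⟨w, hw⟩).2
    · simp only [dif_neg hw]; exact (pq_surjective (h w) (z w)).choose_spec⟩
  left_inv y := by
    apply Subtype.ext
    refine Y.ext' fun w => ?_
    by_cases hw : w ∈ S
    · simp only [dif_pos hw]
    · simp only [dif_neg hw]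
      apply pq_injective (h w) (hS w hw)
      rw [(pq_surjective (h w) (z w)).choose_spec, ← Level.proj_apply, y.2]
  right_inv a := by
    funext w
    apply Subtype.ext
    simp only [dif_pos w.2]

include hS in
theorem Level.card_fibre (z : Y U') : Nat.card {y : Y U // Level.proj h y = z} =
    ∏ w ∈ S, (U.H w).relIndex (U'.H w) := by
  classical
  have hfin : ∀ w : S, Finite {a : Yl U w.1 // pq (h w.1) a = z w.1} := fun w =>
    finite_fibre (h w.1) (Level.relIndex_ne_zero h w.1) _
  rw [Nat.card_congr (Level.fibre h S hS z), Nat.card_pi]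
  have e : ∀ w : S, Nat.card {a : Yl U w.1 // pq (h w.1) a = z w.1} =
      (U.H w.1).relIndex (U'.H w.1) := fun w => Fermat.LT.card_fibre (h w.1) _
  simp_rw [e]
  exact Finset.prod_coe_sort S (fun w => (U.H w).relIndex (U'.H w))

include hS in
theorem Level.finite_fibre (z : Y U') : {y : Y U | Level.proj h y = z}.Finite := by
  have hfin : ∀ w : S, Finite {a : Yl U w.1 // pq (h w.1) a = z w.1} := fun w =>
    Fermat.LT.finite_fibre (h w.1) (Level.relIndex_ne_zero h w.1) _
  exact Set.finite_coe_iff.mp (Finite.of_equiv _ (Level.fibre h S hS z).symm)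

include hS in
/-- push-forward of the counting measure under change of level -/
theorem Level.map_count : (Measure.count : Measure (Y U)).map (Level.proj h) =
    ((∏ w ∈ S, (U.H w).relIndex (U'.H w) : ℕ) : ℝ≥0∞) • (Measure.count : Measure (Y U')) := by
  have hm : Measurable (Level.proj h) := fun _ _ => trivial
  refine Measure.ext_of_singleton fun z => ?_
  have hfin := Level.finite_fibre h S hS z
  have e1 : Level.proj h ⁻¹' {z} = {y : Y U | Level.proj h y = z} := rfl
  rw [Measure.map_apply hm (measurableSet_singleton z), e1, Measure.smul_apply,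
    Measure.count_singleton, smul_eq_mul, mul_one, Measure.count_apply_finite _ hfin]
  congr 1
  rw [← Level.card_fibre h S hS z, ← Nat.card_eq_card_finite_toFinset hfin]
  rfl

/-- change of level on `X` -/
def projX {A : Arch F} (h : ∀ w, U.H w ≤ U'.H w) (x : X (⟨A, U⟩ : Datum F)) :
    X (⟨A, U'⟩ : Datum F) := (x.1, Level.proj h x.2)

end level

end Fermat.LT
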