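import Mathlib

/-!
# `|Ĥ⁰| = |H¹|` for a finite module over a group of order three, in elementary form
-/

set_option autoImplicit false

namespace Fermat.LT

theorem herbrand_fin {A : Type*} [CommGroup A] [Finite A] (τ : A →* A)
    (h3 : ∀ x, τ (τ (τ x)) = x)
    (h1 : ∀ u : A, u * τ u * τ (τ u) = 1 → ∃ w, u * τ w = w) (g : A) (hg : τ g = g) :
    ∃ s, s * τ s * τ (τ s) = g := by
  let N : A →* A :=
    { toFun := fun x => x * τ x * τ (τ x)
      map_one' := by simp
      map_mul' := fun x y => by simp only [map_mul, mul_assoc, mul_left_comm] }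
  let D : A →* A :=
    { toFun := fun x => x * (τ x)⁻¹
      map_one' := by simp
      map_mul' := fun x y => by
        rw [map_mul, mul_inv]
        simp only [mul_assoc, mul_left_comm] }
  have hN : ∀ x, N x = x * τ x * τ (τ x) := fun _ => rfl
  have hD : ∀ x, D x = x * (τ x)⁻¹ := fun _ => rfl
  have hkN : N.ker = D.range := by
    ext u
    rw [MonoidHom.mem_ker, MonoidHom.mem_range, hN]
    constructor
    · intro h
      obtain ⟨w, hw⟩ := h1 u h
      exact ⟨w, by rw [hD, mul_inv_eq_iff_eq_mul, hw]⟩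
    · rintro ⟨w, rfl⟩
      rw [hD]
      simp only [map_mul, map_inv, h3]
      have : w * (τ w)⁻¹ * (τ w * (τ (τ w))⁻¹) * (τ (τ w) * w⁻¹) = 1 := by
        rw [mul_assoc w, inv_mul_cancel_left, mul_assoc w, inv_mul_cancel_left, mul_inv_cancel]
      exact this
  have hle : N.range ≤ D.ker := by
    rintro _ ⟨x, rfl⟩
    rw [MonoidHom.mem_ker, hD, hN, mul_inv_eq_one]
    simp only [map_mul, h3]
    rw [mul_comm (τ x * τ (τ x)) x, mul_assoc]
  have c1 := Subgroup.card_mul_index N.ker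
  have c2 := Subgroup.card_mul_index D.ker
  rw [Subgroup.index_ker] at c1 c2
  rw [hkN, ← c2, mul_comm] at c1
  have hpos : 0 < Nat.card D.range := Nat.card_pos
  have hcard : Nat.card N.range = Nat.card D.ker :=
    Nat.eq_of_mul_eq_mul_right hpos c1
  have heq : N.range = D.ker := Subgroup.eq_of_le_of_card_ge hle hcard.ge
  have hgm : g ∈ N.range := by
    rw [heq, MonoidHom.mem_ker, hD, hg, mul_inv_cancel]
  obtain ⟨s, hs⟩ := hgm
  exact ⟨s, hs⟩

theorem herbrand_mod {G : Type*} [CommGroup G] (H : Subgroup G) [H.FiniteIndex] (τ : G →* G)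
    (h3 : ∀ x, τ (τ (τ x)) = x) (hH : ∀ x ∈ H, τ x ∈ H)
    (h1 : ∀ u, u * τ u * τ (τ u) ∈ H → ∃ w, u * τ w * w⁻¹ ∈ H) (g : G) (hg : τ g * g⁻¹ ∈ H) :
    ∃ s, s * τ s * τ (τ s) * g⁻¹ ∈ H := by
  have hfin : Finite (G ⧸ H) := inferInstance
  let τ' : G ⧸ H →* G ⧸ H := QuotientGroup.map H H τ hH
  have hτ' : ∀ x : G, τ' (x : G ⧸ H) = ((τ x : G) : G ⧸ H) := fun _ => rfl
  have key : ∀ x y : G, ((x : G ⧸ H) = (y : G ⧸ H)) ↔ x * y⁻¹ ∈ H := by
    intro x y
    rw [QuotientGroup.eq, ← inv_mem_iff, mul_inv_rev, inv_inv, mul_comm]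
  obtain ⟨s, hs⟩ := herbrand_fin τ' (by
      intro x
      obtain ⟨x, rfl⟩ := QuotientGroup.mk_surjective x
      rw [hτ', hτ', hτ', h3])
    (by
      intro u hu
      obtain ⟨u, rfl⟩ := QuotientGroup.mk_surjective u
      rw [hτ', hτ', ← QuotientGroup.mk_mul, ← QuotientGroup.mk_mul, QuotientGroup.eq_one_iff] at hu
      obtain ⟨w, hw⟩ := h1 u hu
      refine ⟨(w : G ⧸ H), ?_⟩
      rw [hτ', ← QuotientGroup.mk_mul, key]
      exact hw)
    (g : G ⧸ H) (by rw [hτ', key]; exact hg)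
  obtain ⟨s, rfl⟩ := QuotientGroup.mk_surjective s
  refine ⟨s, ?_⟩
  rw [hτ', hτ', ← QuotientGroup.mk_mul, ← QuotientGroup.mk_mul, key] at hs
  exact hs

/-- A subgroup separated by a map to a finite type has finite index. -/
theorem finiteIndex_of_map {G X : Type*} [Group G] [Finite X] (H : Subgroup G) (f : G → X)
    (h : ∀ a b, f a = f b → a⁻¹ * b ∈ H) : H.FiniteIndex := by
  have hinj : Function.Injective (fun q : G ⧸ H => f q.out) := by
    intro p q hpq
    have := h _ _ hpq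
    rw [← QuotientGroup.eq] at this
    rwa [QuotientGroup.out_eq', QuotientGroup.out_eq'] at this
  have : Finite (G ⧸ H) := Finite.of_injective _ hinj
  exact Subgroup.finiteIndex_of_finite_quotient

end Fermat.LT
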