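import Fermat.Agent.LT.Geo.Order
import Fermat.Agent.LT.Geo.Herbrand

/-!
# Inert places: `δ` is `σ`-conjugate to a unit of `O_w[γ]`
-/

set_option autoImplicit false
set_option linter.unusedSectionVars false

open NumberField IsDedekindDomain Matrix
open Fermat.Agent.LT.D

namespace Fermat.LT

section

variable {K L : Type} [Field K] [NumberField K] [Field L] [NumberField L] [Algebra K L]
  {C : Cub K L} {w : Pl L} {γ₁ : G2 K}

/-- `Γ = γ₁` viewed over `L` -/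
abbrev Gm (L : Type) [Field L] [Algebra K L] (γ₁ : G2 K) : Matrix (Fin 2) (Fin 2) L :=
  Cub.inc (L := L) γ₁.1

theorem s_Gm : C.s (Gm L γ₁) = Gm L γ₁ := C.s_inc _

theorem Rc.mem_Z {r : ℝ} {g : G2 L} (h : Rc w (Gm L γ₁) r g.1) : g ∈ Cub.Z (L := L) γ₁ := by
  rw [Cub.mem_Z]
  apply Units.ext
  rw [Units.val_mul, Units.val_mul, Cub.coe_Inc]
  exact h.commute Rc.self

theorem exists_Rc_of_mem_Z (hns : ¬ IsSc (γ₁ : Matrix (Fin 2) (Fin 2) K)) {g : G2 L}
    (hg : g ∈ Cub.Z (L := L) γ₁) : ∃ r : ℝ, 1 ≤ r ∧ Rc w (Gm L γ₁) r g.1 := by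
  apply exists_Rc (Cub.isSc_inc.not.mpr hns)
  rw [Cub.mem_Z] at hg
  have := congrArg (fun g : GL (Fin 2) L => (g : Matrix (Fin 2) (Fin 2) L)) hg
  simp only [Units.val_mul, Cub.coe_Inc] at this
  exact this.symm

/-- The resolvent of a unit of the order with nearly trivial norm. -/
theorem Unr.exists_unit_res (h : Unr C w) (ht : av w (Gm L γ₁).trace ≤ 1)
    (hd : av w (Gm L γ₁).det ≤ 1) {B : ℝ} (hB : 1 ≤ B) {z : G2 L} (hz : Rc w (Gm L γ₁) B z.1)
    {r : ℝ} (hr : Rc w (Gm L γ₁) r ((C.N z).1 - 1)) :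
    ∃ θ : G2 L, Rc w (Gm L γ₁) (B * B) θ.1 ∧ 1 ≤ av w θ.1.det ∧
      Rc w (Gm L γ₁) (r * (B * B)) ((z * C.S θ * θ⁻¹).1 - 1) := by
  obtain ⟨c, hc, hdet⟩ := h.exists_res z.1
  have h0 : (res C z.1 c).det ≠ 0 := by
    intro h0
    rw [h0, map_zero] at hdet
    exact absurd hdet (by norm_num)
  have hθ : Rc w (Gm L γ₁) (B * B) (res C z.1 c) := Rc.res h.av_σ s_Gm ht hd hB hz hc
  refine ⟨Matrix.GeneralLinearGroup.mkOfDetNeZero _ h0, hθ, hdet, ?_⟩
  set θ : G2 L := Matrix.GeneralLinearGroup.mkOfDetNeZero _ h0 with hθd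
  have hθv : θ.1 = res C z.1 c := rfl
  have hinv : Rc w (Gm L γ₁) (1 * (B * B)) (θ⁻¹).1 := by
    apply Rc.inv ht (g := θ) hθ
    rw [map_inv₀]
    exact inv_le_one_of_one_le₀ hdet
  have e1 : (z * C.S θ * θ⁻¹).1 - 1 = (c • ((C.N z).1 - 1)) * (θ⁻¹).1 := by
    have h2 : z.1 * C.s θ.1 = θ.1 + c • ((C.N z).1 - 1) := mul_s_res C z.1 c
    have h3 : θ.1 * (θ⁻¹).1 = 1 := by rw [← Units.val_mul, mul_inv_cancel, Units.val_one]
    rw [Units.val_mul, Units.val_mul, Cub.coe_S, h2, add_mul, h3]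
    abel
  rw [e1]
  have := (hr.smul hc).mul ht hd hinv
  exact this.mono (by rw [one_mul, one_mul])

/-- Norms of units of the order: every `σ`-invariant unit is close to a norm. -/
theorem Unr.exists_norm_approx (h : Unr C w)
    (ht : av w (Gm L γ₁).trace ≤ 1)
    (hd : av w (Gm L γ₁).det ≤ 1) {g : G2 L} (hg : g ∈ RU w (Gm L γ₁) ht hd) (hσg : C.S g = g)
    {r : ℝ} (hr : 0 < r) :
    ∃ s ∈ RU w (Gm L γ₁) ht hd, Rc w (Gm L γ₁) r ((C.N s).1 - g.1) := by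
  let G : Type := RU w (Gm L γ₁) ht hd
  let _ : CommGroup G :=
    { (inferInstance : Group (RU w (Gm L γ₁) ht hd)) with
      mul_comm := fun a b => Subtype.ext (Units.ext (a.2.1.commute b.2.1)) }
  have hS : ∀ g : G2 L, g ∈ RU w (Gm L γ₁) ht hd → C.S g ∈ RU w (Gm L γ₁) ht hd := by
    rintro g ⟨h1, h2⟩
    refine ⟨h1.s h.av_σ s_Gm, ?_⟩
    rw [Cub.coe_S, C.s_det, h.av_σ, h2]
  let τ : G →* G :=
    { toFun := fun g => ⟨C.S g.1, hS _ g.2⟩
      map_one' := Subtype.ext (map_one _)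
      map_mul' := fun a b => Subtype.ext (map_mul _ _ _) }
  have hone : ∀ a : G, Rc w (Gm L γ₁) 1 a.1.1 := fun a => a.2.1
  let H : Subgroup G :=
    { carrier := {a | Rc w (Gm L γ₁) r (a.1.1 - 1)}
      mul_mem' := by
        intro a b ha hb
        change Rc w (Gm L γ₁) r ((a.1 * b.1).1 - 1)
        have e : (a.1 * b.1).1 - 1 = (a.1.1 - 1) * b.1.1 + (b.1.1 - 1) := by
          rw [Units.val_mul, sub_mul, one_mul]; abel
        rw [e]
        refine Rc.add ?_ hb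
        have := Rc.mul ht hd ha (hone b)
        exact this.mono (by rw [mul_one])
      one_mem' := by
        change Rc w (Gm L γ₁) r ((1 : G2 L).1 - 1)
        rw [Units.val_one, sub_self]
        exact ⟨0, 0, by rw [map_zero]; exact hr.le, by rw [map_zero]; exact hr.le, by simp⟩
      inv_mem' := by
        intro a ha
        change Rc w (Gm L γ₁) r ((a.1⁻¹).1 - 1)
        have e : (a.1⁻¹).1 - 1 = -((a.1.1 - 1) * (a.1⁻¹).1) := by
          rw [sub_mul, one_mul, ← Units.val_mul, mul_inv_cancel, Units.val_one]; abel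
        rw [e]
        refine Rc.neg ?_
        have := Rc.mul ht hd ha (hone a⁻¹)
        exact this.mono (by rw [mul_one]) }
  have hH : ∀ a : G, a ∈ H ↔ Rc w (Gm L γ₁) r (a.1.1 - 1) := fun _ => Iff.rfl
  have _ : H.FiniteIndex := by
    obtain ⟨X, hX, f, hf⟩ := E.exists_fin_classes w hr
    let F : G → X × X := fun a => (f a.2.1.choose, f a.2.1.choose_spec.choose)
    refine finiteIndex_of_map H F ?_
    intro a b hab
    rw [hH]
    have ha := a.2.1.choose_spec.choose_spec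
    have hb := b.2.1.choose_spec.choose_spec
    have e1 : f a.2.1.choose = f b.2.1.choose := congrArg Prod.fst hab
    have e2 : f a.2.1.choose_spec.choose = f b.2.1.choose_spec.choose := congrArg Prod.snd hab
    have d1 := hf _ _ ha.1 hb.1 e1
    have d2 := hf _ _ ha.2.1 hb.2.1 e2
    have hsub : Rc w (Gm L γ₁) r (b.1.1 - a.1.1) := by
      refine ⟨b.2.1.choose - a.2.1.choose, b.2.1.choose_spec.choose - a.2.1.choose_spec.choose,
        ?_, ?_, ?_⟩
      · rw [← (av w).map_neg, neg_sub]; exact d1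
      · rw [← (av w).map_neg, neg_sub]; exact d2
      · have hab2 := congrArg₂ (· - ·) hb.2.2 ha.2.2
        simp only [sub_smul] at hab2 ⊢
        refine hab2.trans ?_
        abel
    change Rc w (Gm L γ₁) r ((a.1⁻¹ * b.1).1 - 1)
    have e : (a.1⁻¹ * b.1).1 - 1 = (a.1⁻¹).1 * (b.1.1 - a.1.1) := by
      rw [mul_sub, ← Units.val_mul, ← Units.val_mul, inv_mul_cancel, Units.val_one]
    rw [e]
    have := Rc.mul ht hd (hone a⁻¹) hsub
    exact this.mono (by rw [one_mul])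
  obtain ⟨s, hs⟩ := herbrand_mod H τ
    (fun x => Subtype.ext (C.S_cube _))
    (by
      intro x hx
      rw [hH] at hx ⊢
      change Rc w (Gm L γ₁) r (C.s x.1.1 - 1)
      have := hx.s h.av_σ s_Gm
      rwa [map_sub, map_one] at this)
    (by
      intro u hu
      rw [hH] at hu
      have hu' : Rc w (Gm L γ₁) r ((C.N u.1).1 - 1) := hu
      obtain ⟨θ, h1, h2, h3⟩ := h.exists_unit_res ht hd le_rfl (hone u) hu'
      rw [mul_one] at h1 h3
      rw [mul_one] at h3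
      have hθ : θ ∈ RU w (Gm L γ₁) ht hd := by
        refine ⟨h1, le_antisymm ?_ h2⟩
        have := h1.det_le ht hd
        rwa [mul_one] at this
      exact ⟨⟨θ, hθ⟩, h3⟩)
    ⟨g, hg⟩
    (by
      rw [hH]
      change Rc w (Gm L γ₁) r ((C.S g * g⁻¹).1 - 1)
      rw [hσg, mul_inv_cancel, Units.val_one, sub_self]
      exact ⟨0, 0, by rw [map_zero]; exact hr.le, by rw [map_zero]; exact hr.le, by simp⟩)
  refine ⟨s.1, s.2, ?_⟩
  rw [hH] at hs
  have hs' : Rc w (Gm L γ₁) r ((C.N s.1 * g⁻¹).1 - 1) := hs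
  have e : (C.N s.1).1 - g.1 = ((C.N s.1 * g⁻¹).1 - 1) * g.1 := by
    rw [sub_mul, one_mul, ← Units.val_mul, inv_mul_cancel_right]
  rw [e]
  have := Rc.mul ht hd hs' hg.1
  exact this.mono (by rw [mul_one])

/-- **Key step**: if `N δ` is a unit of `O_w[γ₁]` then `δ` is `σ`-conjugate inside the
centraliser of `γ₁` to a unit of `O_w[γ₁]`. -/
theorem Unr.exists_tw (h : Unr C w) (hns : ¬ IsSc (γ₁ : Matrix (Fin 2) (Fin 2) K))
    (ht : av w (Gm L γ₁).trace ≤ 1)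
    (hd : av w (Gm L γ₁).det ≤ 1) {δ : G2 L} (hδ : δ ∈ Cub.Z (L := L) γ₁)
    (hN : C.N δ ∈ RU w (Gm L γ₁) ht hd) :
    ∃ t ∈ Cub.Z (L := L) γ₁, t⁻¹ * δ * C.S t ∈ RU w (Gm L γ₁) ht hd := by
  obtain ⟨B, hB, hBδ⟩ := exists_Rc_of_mem_Z (w := w) hns hδ
  have hB2 : 1 ≤ B * B := by nlinarith
  have hBpos : 0 < B * B := by linarith
  -- `N δ` is `σ`-invariant
  have hσN : C.S (C.N δ) = C.N δ := by
    have h1 := C.mul_S_N δ
    rw [Cub.Z_comm hns (C.N_mem_Z hδ) hδ] at h1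
    exact mul_left_cancel h1
  obtain ⟨s, hs, hsN⟩ := h.exists_norm_approx ht hd hN hσN (r := (2 * (B * B))⁻¹)
    (by positivity)
  have hsZ : s ∈ Cub.Z (L := L) γ₁ := hs.1.mem_Z
  set z : G2 L := δ * s⁻¹ with hz
  have hzZ : z ∈ Cub.Z (L := L) γ₁ := mul_mem hδ (inv_mem hsZ)
  have hzB : Rc w (Gm L γ₁) B z.1 := by
    have := hBδ.mul ht hd (inv_mem hs).1
    rw [mul_one] at this
    exact this
  have hNz : C.N z = C.N δ * (C.N s)⁻¹ := by
    rw [hz, C.N_mul hns hδ (inv_mem hsZ), C.N_inv hns hsZ]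
  have hNs : C.N s ∈ RU w (Gm L γ₁) ht hd := by
    have hS : ∀ g : G2 L, g ∈ RU w (Gm L γ₁) ht hd → C.S g ∈ RU w (Gm L γ₁) ht hd := by
      rintro g ⟨h1, h2⟩
      refine ⟨h1.s h.av_σ s_Gm, ?_⟩
      rw [Cub.coe_S, C.s_det, h.av_σ, h2]
    exact mul_mem (mul_mem hs (hS _ hs)) (hS _ (hS _ hs))
  have hr : Rc w (Gm L γ₁) (2 * (B * B))⁻¹ ((C.N z).1 - 1) := by
    have e : (C.N z).1 - 1 = -(((C.N s).1 - (C.N δ).1) * ((C.N s)⁻¹).1) := by
      rw [hNz, Units.val_mul, sub_mul, ← Units.val_mul, ← Units.val_mul, mul_inv_cancel,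
        Units.val_one]
      abel
    rw [e]
    refine Rc.neg ?_
    have := hsN.mul ht hd (inv_mem hNs).1
    exact this.mono (by rw [mul_one])
  obtain ⟨θ, h1, h2, h3⟩ := h.exists_unit_res ht hd hB hzB hr
  have hθZ : θ ∈ Cub.Z (L := L) γ₁ := h1.mem_Z
  have hlt : (2 * (B * B))⁻¹ * (B * B) < 1 := by
    rw [mul_inv, mul_assoc, inv_mul_cancel₀ hBpos.ne']
    norm_num
  have hu : z * C.S θ * θ⁻¹ ∈ RU w (Gm L γ₁) ht hd := by
    have e : (z * C.S θ * θ⁻¹).1 = 1 + ((z * C.S θ * θ⁻¹).1 - 1) := by abel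
    refine ⟨?_, ?_⟩
    · rw [e]; exact Rc.one.add (h3.mono hlt.le)
    · rw [e]; exact h3.det_one_add ht hd hlt
  refine ⟨θ, hθZ, ?_⟩
  have e : θ⁻¹ * δ * C.S θ = s * (z * C.S θ * θ⁻¹) := by
    have c1 : s * z = δ := by
      rw [Cub.Z_comm hns hsZ hzZ, hz, inv_mul_cancel_right]
    have c2 : θ⁻¹ * (δ * C.S θ) = (δ * C.S θ) * θ⁻¹ :=
      Cub.Z_comm hns (inv_mem hθZ) (mul_mem hδ (C.S_mem_Z hθZ))
    rw [mul_assoc, c2, ← c1]
    simp only [mul_assoc]
  rw [e]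
  exact mul_mem hs hu

end

end Fermat.LT
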