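import Fermat.Agent.LT.Geo.SumY
import Fermat.Agent.LT.A.KernelTest
import Fermat.Agent.LT.B.FinKer

/-!
# Composition of families of local kernels (LT, PMUL)

* `LKer.comp k k'`, `LKer.ker_comp : ∑ᶠ z, k.ker x z * k'.ker z y = (k.comp k').ker x y`;
* `Pure.toLKer k`, with `(k.toLKer).ker = k.kerY` (by `rfl`);
* `hkK U w t` : the Hecke kernel of `t` at `w`, `hkK_ker`.
-/

set_option autoImplicit false
set_option linter.unusedSectionVars false

open NumberField IsDedekindDomain Matrix
open Fermat.Agent.LT.B (upd upd_same upd_ne upd_self upd_injective)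

namespace Fermat.LT

variable {F : Type} [Field F] [NumberField F] {U : Level F}

namespace LKer

theorem rowFin (k : LKer U) (w : Pl F) : RowFin (k.κ w) := fun y =>
  (dlY_finite w y (k.c w)).subset fun y' h => k.supp w y y' h

theorem colFin (k : LKer U) (w : Pl F) : ColFin (k.κ w) := fun y =>
  (dlY_finite w y (k.c w)).subset fun y' h => by
    rw [Set.mem_ofPred_eq, dlY_comm]
    exact k.supp w y' y h

theorem κ_eq_unitK (k : LKer U) {w : Pl F} (hw : w ∉ k.bad) : k.κ w = unitK := by
  funext y y'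
  by_cases h : y = y'
  · rw [(k.of_not_bad hw y y').1 h, h, unitK_self]
  · rw [(k.of_not_bad hw y y').2 h, unitK_ne h]

/-- composition -/
noncomputable def comp (k k' : LKer U) : LKer U where
  κ w := kcomp (k.κ w) (k'.κ w)
  inv w g y y' := kcomp_smul_smul (k.inv w) (k'.inv w) g y y'
  c w := max (k.c w) 1 * max (k'.c w) 1
  supp w y y' h := by
    obtain ⟨z, hz⟩ : ∃ z, k.κ w y z * k'.κ w z y' ≠ 0 := by
      by_contra hc
      push Not at hc
      exact h (finsum_eq_zero_of_forall_eq_zero hc)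
    refine (dlY_triangle w y z y').trans ?_
    exact mul_le_mul ((k.supp w _ _ (left_ne_zero_of_mul hz)).trans (le_max_left _ _))
      ((k'.supp w _ _ (right_ne_zero_of_mul hz)).trans (le_max_left _ _))
      (zero_le_one.trans (one_le_dlY w _ _)) (zero_le_one.trans (le_max_right _ _))
  c_fin := by
    refine (k.c_fin.union k'.c_fin).subset ?_
    intro w hw
    by_contra hc
    simp only [Set.mem_union, Set.mem_ofPred_eq, not_or, not_lt] at hc
    rw [Set.mem_ofPred_eq, max_eq_right hc.1, max_eq_right hc.2, mul_one] at hw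
    exact lt_irrefl _ hw
  diag_fin := by
    refine (k.bad.finite_toSet.union k'.bad.finite_toSet).subset ?_
    intro w hw
    by_contra hc
    simp only [Set.mem_union, Finset.mem_coe, not_or] at hc
    apply hw
    rw [k.κ_eq_unitK hc.1, kcomp_unitK_left, k'.κ_eq_unitK hc.2, unitK_self]

/-- **Composition of product kernels.** -/
theorem ker_comp (k k' : LKer U) (x y : Y U) :
    {z | k.ker x z * k'.ker z y ≠ 0}.Finite ∧
      ∑ᶠ z : Y U, k.ker x z * k'.ker z y = (k.comp k').ker x y := by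
  have h1 : {w | ¬ (k.κ w (x w) (bs U w) * k'.κ w (bs U w) (y w) = 1 ∧
      ∀ z, k.κ w (x w) z * k'.κ w z (y w) ≠ 0 → z = bs U w)}.Finite := by
    refine (((x.fin.union y.fin).union k.bad.finite_toSet).union k'.bad.finite_toSet).subset ?_
    intro w hw
    by_contra hc
    simp only [Set.mem_union, Set.mem_ofPred_eq, not_or, not_not, Finset.mem_coe] at hc
    apply hw
    rw [k.κ_eq_unitK hc.1.2, k'.κ_eq_unitK hc.2, hc.1.1.1, hc.1.1.2]
    refine ⟨by rw [unitK_self, one_mul], fun z hz => ?_⟩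
    by_contra hne
    exact hz (by rw [unitK_ne (fun h => hne h.symm), zero_mul])
  obtain ⟨hf, hs⟩ := finsum_Y (fun w z => k.κ w (x w) z * k'.κ w z (y w))
    (fun w => (k.rowFin w (x w)).subset fun z hz => left_ne_zero_of_mul hz) h1
  have e : ∀ z : Y U, k.ker x z * k'.ker z y =
      ∏ᶠ w, k.κ w (x w) (z w) * k'.κ w (z w) (y w) := fun z =>
    (finprod_mul_distrib (k.fin_mulSupport x z) (k'.fin_mulSupport z y)).symm
  refine ⟨?_, ?_⟩
  · simp only [e]
    exact hf
  · simp only [e]
    exact hs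

open Classical in
/-- `k.ker x y` for a kernel which is trivial outside `w`. -/
theorem ker_of_unit {k : LKer U} {w : Pl F} (h : ∀ v, v ≠ w → k.κ v = unitK) (x y : Y U) :
    k.ker x y = if (∀ v, v ≠ w → x v = y v) then k.κ w (x w) (y w) else 0 := by
  split_ifs with hxy
  · unfold ker
    rw [finprod_eq_single _ w]
    intro v hv
    rw [h v hv, hxy v hv, unitK_self]
  · push Not at hxy
    obtain ⟨v, hv, hne⟩ := hxy
    by_contra h0
    exact k.κ_ne_zero h0 v (by rw [h v hv, unitK_ne hne])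

end LKer

namespace LKer

/-- summation against a kernel trivial outside `w` -/
theorem finsum_ker_of_unit {k : LKer U} {w : Pl F} (h : ∀ v, v ≠ w → k.κ v = unitK)
    (φ : Y U → ℂ) (y : Y U) :
    ∑ᶠ x, φ x * k.ker x y = ∑ᶠ z, φ (upd y w z) * k.κ w z (y w) := by
  classical
  have e : ∀ z, φ (upd y w z) * k.κ w z (y w) = φ (upd y w z) * k.ker (upd y w z) y := by
    intro z
    rw [ker_of_unit h, if_pos (fun v hv => upd_ne y hv z), upd_same y w _]
  simp only [e]
  have h2 : ∀ x : Y U, x ∉ Set.range (upd y w) → φ x * k.ker x y = 0 := by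
    intro x hx
    rw [ker_of_unit h, if_neg, mul_zero]
    intro hxy
    apply hx
    refine ⟨x w, Y.ext' fun v => ?_⟩
    by_cases hv : v = w
    · subst hv; exact upd_same y v _
    · rw [upd_ne y hv, hxy v hv]
  rw [← finsum_mem_range (f := fun x => φ x * k.ker x y) (upd_injective y w)]
  refine finsum_congr fun x => ?_
  by_cases hx : x ∈ Set.range (upd y w)
  · rw [finsum_eq_single _ hx (fun h hne => absurd rfl hne)]
  · rw [h2 x hx]
    exact finsum_zero.symm

theorem finsum_ker_of_unit' {k : LKer U} {w : Pl F} (h : ∀ v, v ≠ w → k.κ v = unitK)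
    (φ : Y U → ℂ) (y : Y U) :
    ∑ᶠ x, k.ker y x * φ x = ∑ᶠ z, k.κ w (y w) z * φ (upd y w z) := by
  have := finsum_ker_of_unit (k := k.flip) (w := w) (by
    intro v hv
    funext a b
    change k.κ v b a = unitK a b
    rw [h v hv]
    by_cases hab : a = b
    · rw [hab]
    · rw [unitK_ne hab, unitK_ne (Ne.symm hab)]) φ y
  calc ∑ᶠ x, k.ker y x * φ x = ∑ᶠ x, φ x * k.flip.ker x y :=
        finsum_congr fun x => by rw [flip_ker, mul_comm]
    _ = _ := this
    _ = _ := finsum_congr fun z => by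
        change φ (upd y w z) * k.κ w (y w) z = _
        rw [mul_comm]

end LKer

theorem exists_dl_bound (U : Level F) (w : Pl F) {f : G2 F → ℂ} (hf : BiInv (U.H w) f)
    (h : FinS (U.H w) f) : ∃ R : ℝ, ∀ g, f g ≠ 0 → dl w g ≤ R := by
  unfold FinS at h
  refine ⟨∑ c ∈ h.toFinset, dl w c.out, fun g hg => ?_⟩
  obtain ⟨t, ht⟩ := QuotientGroup.mk_out_eq_mul (U.H w) g
  have h1 : f ((g : G2 F ⧸ U.H w).out) ≠ 0 := by
    rw [ht, ← one_mul (g * (t : G2 F)), ← mul_assoc, hf 1 (one_mem _) _ t.2]
    exact hg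
  have h2 : dl w g = dl w ((g : G2 F ⧸ U.H w).out) := by
    rw [ht, dl_mul_right w _ (U.le_std w t.2)]
  rw [h2]
  refine Finset.single_le_sum (f := fun c : G2 F ⧸ U.H w => dl w c.out)
    (fun c _ => (dl_pos w _).le) ?_
  rw [Set.Finite.mem_toFinset]
  exact h1

theorem kw_supp {w : Pl F} {f : G2 F → ℂ} (hf : BiInv (U.H w) f) {R : ℝ}
    (h : ∀ g, f g ≠ 0 → dl w g ≤ R) (y y' : Yl U w) (hy : kw (U.H w) f y y' ≠ 0) :
    dlY w y y' ≤ R := by
  obtain ⟨g, rfl⟩ := QuotientGroup.mk_surjective y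
  obtain ⟨g', rfl⟩ := QuotientGroup.mk_surjective y'
  rw [kw_mk hf] at hy
  rw [dlY_mk]
  exact h _ hy

theorem colFin_kw {w : Pl F} {f : G2 F → ℂ} (hf : BiInv (U.H w) f) (h : FinS (U.H w) f) :
    ColFin (kw (U.H w) f) := by
  obtain ⟨R, hR⟩ := exists_dl_bound U w hf h
  intro y
  refine (dlY_finite w y R).subset fun y' hy' => ?_
  rw [Set.mem_ofPred_eq, dlY_comm]
  exact kw_supp hf hR y' y hy'

/-- `f ∘ inv` has finite support when `f` has -/
theorem finS_inv {w : Pl F} {f : G2 F → ℂ} (hf : BiInv (U.H w) f) (h : FinS (U.H w) f) :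
    FinS (U.H w) (fun g => f g⁻¹) := by
  have hf' : BiInv (U.H w) (fun g => f g⁻¹) := by
    intro h1 hh1 h2 hh2 g
    change f (h1 * g * h2)⁻¹ = f g⁻¹
    rw [← hf h2⁻¹ (inv_mem hh2) h1⁻¹ (inv_mem hh1) g⁻¹]
    congr 1
    group
  apply finS_of_rowFin hf'
  intro a
  refine (colFin_kw hf h a).subset fun b hb => ?_
  obtain ⟨a, rfl⟩ := QuotientGroup.mk_surjective a
  obtain ⟨b, rfl⟩ := QuotientGroup.mk_surjective b
  rw [Set.mem_ofPred_eq, kw_mk hf'] at hb
  rw [Set.mem_ofPred_eq, kw_mk hf]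
  intro h0
  apply hb
  rw [← h0, _root_.mul_inv_rev, inv_inv]

section pure

variable {D : Datum F} (k : Pure D)

theorem Pure.exists_radius (w : Pl F) : ∃ R : ℝ, (∀ g, k.f w g ≠ 0 → dl w g ≤ R) ∧
    (k.f w = unitF (D.H w) → R ≤ 1) := by
  by_cases h : k.f w = unitF (D.H w)
  · refine ⟨1, fun g hg => ?_, fun _ => le_rfl⟩
    rw [h] at hg
    have hg' : g ∈ D.H w := by
      by_contra hc
      exact hg (if_neg hc)
    exact D.le_std w hg'
  · obtain ⟨R, hR⟩ := exists_dl_bound D.toLevel w (k.f_bi w) (k.f_fin w)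
    exact ⟨R, hR, fun h' => absurd h' h⟩

/-- The family of local kernels of a pure tensor. -/
noncomputable def Pure.toLKer : LKer D.toLevel where
  κ w := kw (D.H w) (k.f w)
  inv w g y y' := kw_smul (k.f_bi w) g y y'
  c w := (k.exists_radius w).choose
  supp w y y' h := kw_supp (k.f_bi w) (k.exists_radius w).choose_spec.1 y y' h
  c_fin := by
    refine k.f_one.subset fun w hw h => ?_
    exact absurd ((k.exists_radius w).choose_spec.2 h) (not_le.mpr hw)
  diag_fin := by
    refine k.f_one.subset fun w hw h => ?_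
    apply hw
    rw [k.kw_eq_unitK h, unitK_self]

theorem Pure.toLKer_κ (w : Pl F) : k.toLKer.κ w = kw (D.H w) (k.f w) := rfl

theorem Pure.toLKer_ker : k.toLKer.ker = k.kerY := rfl

/-- The finite part of a pure tensor is a finite test kernel. -/
theorem Pure.isFinTest : Fermat.Agent.LT.B.IsFinTest k.kerY := k.toLKer.isFinTest

end pure

section hecke

variable (U) (w : Pl F) {t : G2 F → ℂ} (ht : BiInv (U.H w) t) (ht' : FinS (U.H w) t)

/-- The Hecke kernel attached to `t` at the place `w`. -/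
noncomputable def hkK : LKer U :=
  (LKer.unit U).update w (kw (U.H w) t) (fun g y y' => kw_smul ht g y y')
    (exists_dl_bound U w ht ht').choose
    (fun y y' h => kw_supp ht (exists_dl_bound U w ht ht').choose_spec y y' h)

theorem hkK_self : (hkK U w ht ht').κ w = kw (U.H w) t := by
  classical
  exact Function.update_self w (kw (U.H w) t) (LKer.unit U).κ

theorem hkK_ne {v : Pl F} (h : v ≠ w) : (hkK U w ht ht').κ v = unitK := by
  classical
  have : (hkK U w ht ht').κ v = (LKer.unit U).κ v := by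
    unfold hkK LKer.update
    exact Function.update_of_ne h _ _
  rw [this]
  funext y y'
  change (if y = y' then (1 : ℂ) else 0) = _
  unfold unitK
  split_ifs <;> rfl

/-- The Hecke kernel is a finite test kernel. -/
theorem hkK_isFinTest : Fermat.Agent.LT.B.IsFinTest (hkK U w ht ht').ker :=
  (hkK U w ht ht').isFinTest

end hecke

end Fermat.LT
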