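import Mathlib
import Fermat.Agent.CFT.NormGal

/-!
# Local norm groups and quadratic extensions

`M ≤ M'` intermediate fields of a Galois extension `Ω / k`, `M' = M(x)` with `x + x⁻¹ ∈ M`,
`x ∉ M`; `a ∈ M`. Then `x` lies in the norm group `normGrp M' p a` (`p` odd), if both norm groups
have index `p` (or `a` is a `p`-th power).
-/

set_option autoImplicit false
set_option linter.unusedSectionVars false

open Module Polynomial IntermediateField
open Fermat.Agent.CFT.NormGrp Fermat.Agent.CFT.NormGal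

namespace Fermat.LT.NormStab

variable {k Ω : Type*} [Field k] [Field Ω] [Algebra k Ω] [IsGalois k Ω]
  {M M' : IntermediateField k Ω} {p : ℕ}

theorem fix_of_mem {M : IntermediateField k Ω} {g : Ω ≃ₐ[k] Ω} (hg : g ∈ M.fixingSubgroup) {x : Ω}
    (hx : x ∈ M) : g x = x := (IntermediateField.mem_fixingSubgroup_iff _ _).1 hg x hx

theorem pow_root {g : Ω ≃ₐ[k] Ω} {ζ α : Ω} (hζ : g ζ = ζ) (hα : g α = ζ * α) (j : ℕ) :
    (g ^ j) α = ζ ^ j * α := by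
  induction j with
  | zero => simp
  | succ j ih => rw [pow_succ', AlgEquiv.mul_apply, ih, map_mul, map_pow, hζ, hα]; ring

/-- the key lemma -/
theorem mem_of_quadratic (hp : p.Prime) (hp2 : p ≠ 2) (hMM : M ≤ M') {ζ : Ω} (hζM : ζ ∈ M)
    (hζ : IsPrimitiveRoot ζ p) {a α : Ω} (haM : a ∈ M) (hα : α ^ p = a)
    (hiM : (∀ c : M, c ^ p ≠ (⟨a, haM⟩ : M)) → (normGrp M p ⟨a, haM⟩).index = p)
    (hiM' : (∀ c : M', c ^ p ≠ (⟨a, hMM haM⟩ : M')) →
      (normGrp M' p ⟨a, hMM haM⟩).index = p)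
    {x : Ω} (hx' : x ∈ M') (hx : x ∉ M) (hx0 : x ≠ 0) (hxs : x + x⁻¹ ∈ M)
    (hgen : ∀ g ∈ M.fixingSubgroup, g x = x → g ∈ M'.fixingSubgroup) (X : M'ˣ)
    (hX : ((X : M') : Ω) = x) : X ∈ normGrp M' p ⟨a, hMM haM⟩ := by
  by_cases hA : ∃ c : M', c ^ p = (⟨a, hMM haM⟩ : M')
  · rw [normGrp_eq_top hA]; exact Subgroup.mem_top _
  push Not at hA
  have : NeZero p := ⟨hp.ne_zero⟩
  have hle : M'.fixingSubgroup ≤ M.fixingSubgroup := IntermediateField.fixingSubgroup_antitone hMM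
  -- the root is not in `M'`
  have hαM' : α ∉ M' := by
    intro h
    exact hA ⟨α, h⟩ (Subtype.ext hα)
  have hα0 : α ≠ 0 := by
    rintro rfl
    exact hαM' M'.zero_mem
  have hζ0 : ζ ≠ 0 := hζ.ne_zero hp.ne_zero
  have hAM : ∀ c : M, c ^ p ≠ (⟨a, haM⟩ : M) := by
    intro c hc
    have hc' : (c : Ω) ^ p = a := congrArg Subtype.val hc
    exact hA ⟨c, hMM c.2⟩ (Subtype.ext hc')
  -- action on the root
  have hroot : ∀ g ∈ M.fixingSubgroup, ∃ i : ℕ, i < p ∧ g α = ζ ^ i * α := by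
    intro g hg
    have hga : g a = a := fix_of_mem hg haM
    have h1 : (g α / α) ^ p = 1 := by
      rw [div_pow, ← map_pow, hα, hga, div_self]
      rw [← hα]; exact pow_ne_zero _ hα0
    obtain ⟨i, hi, hi2⟩ := hζ.eq_pow_of_pow_eq_one h1
    exact ⟨i, hi, by rw [hi2, div_mul_cancel₀ _ hα0]⟩
  -- `σ`
  obtain ⟨σ, hσ, hσα⟩ : ∃ σ ∈ M'.fixingSubgroup, σ α ≠ α := by
    by_contra h
    push Not at h
    exact hαM' (mem_of_fixed M' h)
  obtain ⟨i, hi, hiα⟩ := hroot σ (hle hσ)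
  have hi0 : i ≠ 0 := by
    rintro rfl
    apply hσα
    rw [hiα, pow_zero, one_mul]
  have hζi : IsPrimitiveRoot (ζ ^ i) p := by
    refine hζ.pow_of_coprime i ?_
    rw [Nat.coprime_comm, hp.coprime_iff_not_dvd]
    intro h
    exact hi0 (Nat.eq_zero_of_dvd_of_lt h hi)
  have hfixζ : ∀ g ∈ M.fixingSubgroup, ∀ j : ℕ, g (ζ ^ j) = ζ ^ j := fun g hg j ↦
    fix_of_mem hg (pow_mem hζM j)
  have hσj : ∀ j : ℕ, (σ ^ j) α = (ζ ^ i) ^ j * α := pow_root (hfixζ σ (hle hσ) i) hiα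
  -- images of `x`
  have himg : ∀ g ∈ M.fixingSubgroup, g x = x ∨ g x = x⁻¹ := by
    intro g hg
    have h1 : g x + (g x)⁻¹ = x + x⁻¹ := by
      rw [← map_inv₀, ← map_add]
      exact fix_of_mem hg hxs
    have hgx : g x ≠ 0 := by rwa [Ne, map_eq_zero]
    have h2 : (g x - x) * (g x - x⁻¹) = 0 := by
      field_simp at h1 ⊢
      linear_combination h1
    rcases mul_eq_zero.1 h2 with h3 | h3
    · exact Or.inl (sub_eq_zero.1 h3)
    · exact Or.inr (sub_eq_zero.1 h3)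
  -- `τ`
  obtain ⟨τ, hτ, hτx, hτα⟩ : ∃ τ ∈ M.fixingSubgroup, τ x ≠ x ∧ τ α = α := by
    obtain ⟨τ, hτ, hτx⟩ : ∃ τ ∈ M.fixingSubgroup, τ x ≠ x := by
      by_contra h
      push Not at h
      exact hx (mem_of_fixed M h)
    obtain ⟨j, -, hj⟩ := hroot τ hτ
    obtain ⟨m, -, hm⟩ := hζi.eq_pow_of_pow_eq_one (ξ := (ζ ^ j)⁻¹) (by
      rw [inv_pow, ← pow_mul, mul_comm, pow_mul, hζ.pow_eq_one, one_pow, inv_one])
    refine ⟨τ * σ ^ m, mul_mem hτ (pow_mem (hle hσ) _), ?_, ?_⟩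
    · rw [AlgEquiv.mul_apply, fix_of_mem (pow_mem hσ m) hx']
      exact hτx
    · rw [AlgEquiv.mul_apply, hσj, map_mul, ← pow_mul, hfixζ τ hτ, pow_mul, hm, hj,
        inv_mul_cancel_left₀ (pow_ne_zero _ hζ0)]
  have hτx' : τ x = x⁻¹ := (himg τ hτ).resolve_left hτx
  have hτinvx : τ⁻¹ x = x⁻¹ := by
    apply τ.injective
    rw [map_inv₀, hτx', inv_inv]
    exact τ.apply_symm_apply x
  have hτinvα : τ⁻¹ α = α := by
    apply τ.injective
    rw [hτα]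
    exact τ.apply_symm_apply α
  have happ : ∀ (g h : Ω ≃ₐ[k] Ω) (y : Ω), (g * h) y = g (h y) := fun _ _ _ ↦ rfl
  have hinv : ∀ (g : Ω ≃ₐ[k] Ω) (y : Ω), g⁻¹ (g y) = y := fun g y ↦ g.symm_apply_apply y
  have hinv' : ∀ (g : Ω ≃ₐ[k] Ω) (y : Ω), g (g⁻¹ y) = y := fun g y ↦ g.apply_symm_apply y
  -- conjugation
  have hconj : ∀ g ∈ M'.fixingSubgroup, τ * g * τ⁻¹ ∈ M'.fixingSubgroup := by
    intro g hg
    apply hgen _ (mul_mem (mul_mem hτ (hle hg)) (inv_mem hτ))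
    rw [happ, happ, hτinvx, map_inv₀, fix_of_mem hg hx', map_inv₀, hτx', inv_inv]
  have hconj' : ∀ g ∈ M'.fixingSubgroup, τ⁻¹ * g * τ ∈ M'.fixingSubgroup := by
    intro g hg
    apply hgen _ (mul_mem (mul_mem (inv_mem hτ) (hle hg)) hτ)
    rw [happ, happ, hτx', map_inv₀, fix_of_mem hg hx', map_inv₀, hτinvx, inv_inv]
  let ζM' : M' := ⟨ζ, hMM hζM⟩
  have hζM' : IsPrimitiveRoot ζM' p :=
    IsPrimitiveRoot.of_map_of_injective (f := M'.val) hζ M'.val.injective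
  let ζMM : M := ⟨ζ, hζM⟩
  have hζMM : IsPrimitiveRoot ζMM p :=
    IsPrimitiveRoot.of_map_of_injective (f := M.val) hζ M.val.injective
  -- Claim 1
  have claim1 : ∀ Y Y' : M'ˣ, ((Y' : M') : Ω) = τ ((Y : M') : Ω) →
      Y ∈ normGrp M' p ⟨a, hMM haM⟩ → Y' ∈ normGrp M' p ⟨a, hMM haM⟩ := by
    intro Y Y' hYY hY
    obtain ⟨b, hb, hYb⟩ := (mem_normGrp_iff M' hp hζM' (a := ⟨a, hMM haM⟩) hα hσ hσα Y).1 hY
    have hs : (τ * σ * τ⁻¹) ∈ M'.fixingSubgroup := hconj σ hσ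
    have hsα : (τ * σ * τ⁻¹) α ≠ α := by
      rw [happ, happ, hτinvα, hiα, map_mul, hfixζ τ hτ, hτα, ← hiα]
      exact hσα
    refine (mem_normGrp_iff M' hp hζM' (a := ⟨a, hMM haM⟩) hα hs hsα Y').2
      ⟨Units.map (τ : Ω →* Ω) b, ?_, ?_⟩
    · intro v hv hvα
      change v (τ (b : Ω)) = τ (b : Ω)
      have h1 : (τ⁻¹ * v * τ) (b : Ω) = b := by
        apply hb _ (hconj' v hv)
        rw [happ, happ, hτα, hvα, hτinvα]
      rw [happ, happ] at h1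
      have h2 := congrArg τ h1
      rwa [hinv'] at h2
    · rw [hYY, hYb, map_prod]
      refine Finset.prod_congr rfl fun j _ ↦ ?_
      change τ ((σ ^ j) (b : Ω)) = ((τ * σ * τ⁻¹) ^ j) (τ (b : Ω))
      rw [conj_pow, happ, happ, hinv]
  -- Claim 2
  have claim2 : ∀ (Y : M'ˣ) (Z : Mˣ), ((Y : M') : Ω) = ((Z : M) : Ω) →
      Y ∈ normGrp M' p ⟨a, hMM haM⟩ → Z ∈ normGrp M p ⟨a, haM⟩ := by
    intro Y Z hYZ hY
    obtain ⟨b, hb, hYb⟩ := (mem_normGrp_iff M' hp hζM' (a := ⟨a, hMM haM⟩) hα hσ hσα Y).1 hY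
    have h2 : Z ^ 2 ∈ normGrp M p ⟨a, haM⟩ := by
      refine (mem_normGrp_iff M hp hζMM (a := ⟨a, haM⟩) hα (hle hσ) hσα (Z ^ 2)).2
        ⟨b * Units.map (τ : Ω →* Ω) b, ?_, ?_⟩
      · intro v hv hvα
        change v ((b : Ω) * τ (b : Ω)) = (b : Ω) * τ (b : Ω)
        rw [map_mul]
        rcases himg v hv with hvx | hvx
        · have hv' := hgen v hv hvx
          have h1 : (τ⁻¹ * v * τ) (b : Ω) = b := by
            apply hb _ (hconj' v hv')
            rw [happ, happ, hτα, hvα, hτinvα]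
          rw [happ, happ] at h1
          have h2 := congrArg τ h1
          rw [hinv'] at h2
          rw [h2, hb v hv' hvα]
        · have h1 : (τ⁻¹ * v) (b : Ω) = b := by
            apply hb _ (hgen _ (mul_mem (inv_mem hτ) hv) _)
            · rw [happ, hvα, hτinvα]
            · rw [happ, hvx, map_inv₀, hτinvx, inv_inv]
          rw [happ] at h1
          have h2 := congrArg τ h1
          rw [hinv'] at h2
          have h3 : (v * τ) (b : Ω) = b := by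
            apply hb _ (hgen _ (mul_mem hv hτ) _)
            · rw [happ, hτα, hvα]
            · rw [happ, hτx', map_inv₀, hvx, inv_inv]
          rw [happ] at h3
          rw [h2, h3, mul_comm]
      · change ((Z : M) : Ω) ^ 2 = ∏ j ∈ Finset.range p, (σ ^ j) ((b : Ω) * τ (b : Ω))
        have h3 : ∀ j : ℕ, (σ ^ j) ((b : Ω) * τ (b : Ω)) = (σ ^ j) (b : Ω) * τ ((σ ^ j) (b : Ω)) := by
          intro j
          rw [map_mul]
          congr 1
          have h4 : ((σ ^ j)⁻¹ * (τ⁻¹ * σ ^ j * τ)) (b : Ω) = b := by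
            apply hb _ (mul_mem (inv_mem (pow_mem hσ j)) (hconj' _ (pow_mem hσ j)))
            rw [happ, happ, happ, hτα, hσj, ← pow_mul, map_mul, hfixζ _ (inv_mem hτ), hτinvα,
              pow_mul, ← hσj, hinv]
          rw [happ, happ, happ] at h4
          have h5 := congrArg (σ ^ j) h4
          rw [hinv'] at h5
          have h6 := congrArg τ h5
          rwa [hinv'] at h6
        rw [Finset.prod_congr rfl fun j _ ↦ h3 j, Finset.prod_mul_distrib, ← map_prod, ← hYb, hYZ,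
          fix_of_mem hτ (Z : M).2, sq]
    have h3 : Z ^ p ∈ normGrp M p ⟨a, haM⟩ := pow_mem_normGrp hp Z
    obtain ⟨n, hn⟩ : ∃ n, p = 2 * n + 1 := by
      obtain ⟨n, hn⟩ := hp.odd_of_ne_two hp2
      exact ⟨n, hn⟩
    have h4 : Z = Z ^ p * ((Z ^ 2) ^ n)⁻¹ := by
      rw [eq_mul_inv_iff_mul_eq, ← pow_mul, ← pow_succ', hn]
    rw [h4]
    exact mul_mem h3 (inv_mem (pow_mem h2 n))
  -- Claim 3
  obtain ⟨Z, hZ⟩ : ∃ Z : Mˣ, Z ∉ normGrp M p ⟨a, haM⟩ := by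
    by_contra h
    push Not at h
    have h1 : normGrp M p ⟨a, haM⟩ = ⊤ := (Subgroup.eq_top_iff' _).2 h
    have h2 := hiM hAM
    rw [h1, Subgroup.index_top] at h2
    exact hp.one_lt.ne h2
  let ZM' : M'ˣ := Units.map ((IntermediateField.inclusion hMM : M →ₐ[k] M') : M →* M') Z
  have hZM' : ((ZM' : M') : Ω) = ((Z : M) : Ω) := rfl
  have hZ' : ZM' ∉ normGrp M' p ⟨a, hMM haM⟩ := fun h ↦ hZ (claim2 ZM' Z rfl h)
  -- `1 + x`
  have hx1 : 1 + x ≠ 0 := by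
    intro h
    apply hx
    rw [show x = -1 by linear_combination h]
    exact neg_mem M.one_mem
  let W : M'ˣ := Units.mk0 (⟨1 + x, add_mem M'.one_mem hx'⟩ : M') (by
    intro h; exact hx1 (congrArg Subtype.val h))
  have hcard : Nat.card (M'ˣ ⧸ normGrp M' p ⟨a, hMM haM⟩) = p := hiM' hA
  have hfact : Fact p.Prime := ⟨hp⟩
  obtain ⟨m, hm⟩ := mem_zpowers_of_prime_card hcard
    (g := (ZM' : M'ˣ ⧸ normGrp M' p ⟨a, hMM haM⟩)) (g' := (W : M'ˣ ⧸ normGrp M' p ⟨a, hMM haM⟩))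
    (by rwa [Ne, QuotientGroup.eq_one_iff])
  have hm' : (ZM' ^ m)⁻¹ * W ∈ normGrp M' p ⟨a, hMM haM⟩ := by
    rw [← QuotientGroup.eq]
    exact hm
  obtain ⟨n, hn⟩ : ∃ n, n = (ZM' ^ m)⁻¹ * W := ⟨_, rfl⟩
  rw [← hn] at hm'
  have hnΩ : ((n : M') : Ω) = (((Z : M) : Ω) ^ m)⁻¹ * (1 + x) := by
    rw [hn]
    have h1 : (((ZM' ^ m)⁻¹ * W : M'ˣ) : M') = ((ZM' : M') ^ m)⁻¹ * (W : M') := by
      rw [Units.val_mul, Units.val_inv_eq_inv_val, Units.val_zpow_eq_zpow_val]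
    rw [h1]
    rfl
  have hτn : τ ((n : M') : Ω) = ((n : M') : Ω) / x := by
    rw [hnΩ, map_mul, map_inv₀, map_zpow₀, fix_of_mem hτ (Z : M).2, map_add, map_one, hτx']
    field_simp
    ring
  have h1 : ((n * X⁻¹ : M'ˣ) : M') = (n : M') * ((X : M'))⁻¹ := by
    rw [Units.val_mul, Units.val_inv_eq_inv_val]
  have hn2 : n * X⁻¹ ∈ normGrp M' p ⟨a, hMM haM⟩ := by
    apply claim1 n _ _ hm'
    rw [h1, hτn, ← hX, div_eq_mul_inv]
    rfl
  have h5 : X = (n * X⁻¹)⁻¹ * n := by group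
  rw [h5]
  exact mul_mem (inv_mem hn2) hm'

end Fermat.LT.NormStab
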