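import Mathlib
import Fermat.Agent.LT.Geo.NormStab
import Fermat.Agent.LT.D.Final

/-!
# LT, geometric side: global classes in the support of the matching function are norms
-/

set_option autoImplicit false
set_option linter.unusedSectionVars false

open NumberField IsDedekindDomain Module Polynomial Matrix
open Fermat.Agent.CFT Fermat.Agent.CFT.W Fermat.Agent.CFT.Embed Fermat.Agent.CFT.NormGrp
open Fermat.Agent.LT.D

namespace Fermat.Agent.LT.D.N2

section loc

variable {K E : Type*} [Field K] [NumberField K] [Field E] [NumberField E] [Algebra K E] {p : ℕ}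

/-- the local statement at the places where `|s| ≤ 1` is not a square -/
theorem toU_mem_N_of_odd (e : LocEmb E) (hp : p.Prime) (hp2 : p ≠ 2) {ζ : K}
    (hζ : IsPrimitiveRoot ζ p) (a : K) (u : Eˣ) {s : K}
    (hu : (u : E) ^ 2 - (algebraMap K E s - 2) * u + 1 = 0)
    (hgen : ∀ z : E, ∃ c d : K, z = algebraMap K E c + algebraMap K E d * u)
    (hs : (SUH.below K e.v).valuation K s ≤ 1)
    (hsq : ∀ c : K, (SUH.below K e.v).valuation K c ^ 2 ≠ (SUH.below K e.v).valuation K s) :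
    e.toU u ∈ e.N p (algebraMap K E a) := by
  let φ : K →+* PadicAlgCl e.q := e.φ.comp (algebraMap K E)
  let e0 : LocEmb K := ⟨e.q, φ⟩
  have hv : e0.v = SUH.below K e.v := (Embed.below_pl e.q (fun x ↦ rfl)).symm
  have hMM : locF e.q φ ≤ e.L := by
    change IntermediateField.adjoin ℚ_[e.q] (Set.range φ) ≤ _
    rw [IntermediateField.adjoin_le_iff]
    rintro _ ⟨x, rfl⟩
    exact mem_locF e.q e.φ _
  have hu' : (e.φ u) ^ 2 - (φ s - 2) * e.φ u + 1 = 0 := by
    have h1 := congrArg e.φ hu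
    change (e.φ u) ^ 2 - (e.φ (algebraMap K E s) - 2) * e.φ u + 1 = 0
    simpa only [map_add, map_sub, map_mul, map_pow, map_one, map_ofNat, map_zero] using h1
  have hu0 : e.φ u ≠ 0 := by rw [Ne, map_eq_zero]; exact u.ne_zero
  have hsx : φ s - 2 = e.φ u + (e.φ u)⁻¹ := by
    field_simp
    linear_combination -hu'
  obtain ⟨α, hα⟩ := IsAlgClosed.exists_pow_nat_eq (φ a) hp.pos
  have hζM : IsPrimitiveRoot (toLocF e.q φ ζ) p := hζ.map_of_injective (toLocF e.q φ).injective
  have hζM' : IsPrimitiveRoot (e.toL (algebraMap K E ζ)) p :=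
    (hζ.map_of_injective (algebraMap K E).injective).map_of_injective e.toL.injective
  have hun : ‖e.φ u‖ = 1 := by
    have h2 : (e.v.valuation E) (algebraMap K E s) ≤ 1 := by
      rw [← HeightOneSpectrum.valuation_liesOver E (SUH.below K e.v) e.v s]
      exact pow_le_one₀ zero_le hs
    have h3 : (e.v.valuation E) (2 : E) ≤ 1 := by
      have h5 : e.v.valuation E (algebraMap (𝓞 E) E 2) ≤ 1 :=
        e.v.valuation_le_one (K := E) (2 : 𝓞 E)
      have h6 : algebraMap (𝓞 E) E 2 = 2 := map_ofNat _ 2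
      rwa [h6] at h5
    exact (e.valuation_eq_one_iff (u : E)).1
      (val_eq_one (e.v.valuation E) hu (Valuation.map_sub_le _ h2 h3))
  have hx : e.φ u ∉ locF e.q φ := by
    intro hmem
    have hs0 : s ≠ 0 := by
      rintro rfl
      exact hsq 0 (by rw [map_zero]; exact zero_pow two_ne_zero)
    have hfac : φ s * e.φ u = (e.φ u + 1) ^ 2 := by
      linear_combination -hu'
    have hy0 : (⟨e.φ u + 1, add_mem hmem (one_mem _)⟩ : locF e.q φ) ≠ 0 := by
      intro h0
      have h1 : e.φ u + 1 = 0 := congrArg Subtype.val h0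
      rw [h1, zero_pow two_ne_zero, mul_eq_zero, map_eq_zero] at hfac
      exact hfac.elim hs0 hu0
    obtain ⟨c, -, hc⟩ := e0.exists_norm_eq hy0
    have hc' : ‖φ c‖ = ‖e.φ u + 1‖ := hc
    apply hsq c
    rw [← map_pow, ← hv, LocEmb.valuation_eq_iff]
    change ‖φ (c ^ 2)‖ = ‖φ s‖
    have h2 : ‖φ s‖ = ‖e.φ u + 1‖ ^ 2 := by
      rw [← norm_pow, ← hfac, norm_mul, hun, mul_one]
    rw [h2, map_pow, norm_pow, hc']
  refine Fermat.LT.NormStab.mem_of_quadratic (k := ℚ_[e.q]) (Ω := PadicAlgCl e.q) (M := locF e.q φ)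
    (M' := e.L) hp hp2 hMM (ζ := φ ζ) (mem_locF _ _ ζ) (hζ.map_of_injective φ.injective)
    (a := φ a) (mem_locF _ _ a) hα ?_ ?_ (x := e.φ u) (mem_locF _ _ _) hx hu0 ?_ ?_ (e.toU u) rfl
  · exact fun h ↦ index_normGrp (locF e.q φ) hp hp2 hζM h
  · exact fun h ↦ index_normGrp e.L hp hp2 hζM' h
  · rw [← hsx]
    exact sub_mem (mem_locF _ _ s) (ofNat_mem _ 2)
  · intro g hg hgx
    have h1 : (g : PadicAlgCl e.q →ₐ[ℚ_[e.q]] PadicAlgCl e.q).comp (e.L).val = (e.L).val := by
      apply IntermediateField.algHom_ext_of_eq_adjoin (E := PadicAlgCl e.q)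
        (s := Set.range e.φ) _ rfl
      rintro _ ⟨z, rfl⟩
      obtain ⟨c, d, rfl⟩ := hgen z
      change g (e.φ _) = e.φ _
      have h2 : ∀ c : K, g (e.φ (algebraMap K E c)) = e.φ (algebraMap K E c) := fun c ↦
        Fermat.LT.NormStab.fix_of_mem hg (mem_locF e.q φ c)
      rw [map_add, map_mul, map_add, map_mul, h2, h2, hgx]
    rw [IntermediateField.mem_fixingSubgroup_iff]
    intro y hy
    exact DFunLike.congr_fun h1 ⟨y, hy⟩

end loc

section val

variable {E : Type*} [Field E] {Γ₀ : Type*} [LinearOrderedCommGroupWithZero Γ₀]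
  (V : Valuation E Γ₀)

theorem val_add_inv {x : E} (hx : x ≠ 0) (h : 1 < V (x + x⁻¹)) :
    (1 < V x ∧ V x = V (x + x⁻¹)) ∨ (1 < V x⁻¹ ∧ V x⁻¹ = V (x + x⁻¹)) := by
  rcases lt_trichotomy (V x) 1 with h1 | h1 | h1
  · right
    have h2 : 1 < V x⁻¹ := by
      rw [map_inv₀]
      exact (one_lt_inv₀ (zero_lt_iff.2 ((Valuation.ne_zero_iff _).2 hx))).2 h1
    exact ⟨h2, (Valuation.map_add_eq_of_lt_right V (h1.trans h2)).symm⟩
  · exfalso
    have h2 : V x⁻¹ = 1 := by rw [map_inv₀, h1, inv_one]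
    exact absurd (Valuation.map_add_le V h1.le h2.le) (not_le.2 h)
  · left
    have h2 : V x⁻¹ < 1 := by
      rw [map_inv₀]
      exact inv_lt_one_of_one_lt₀ h1
    exact ⟨h1, (Valuation.map_add_eq_of_lt_left V (h2.trans h1)).symm⟩

theorem val_core {u m s : E} (hu : 1 < V u) (hm : 1 < V m) (hus : V u = V s) (hms : V m = V s)
    (hsu : s - 2 = u + u⁻¹) (hlt : V (m + 2 + m⁻¹ - s) < V (9 * s)) :
    V (u - m) < V (9 * u) := by
  have hu0 : u ≠ 0 := by rintro rfl; rw [map_zero] at hu; exact absurd hu (not_lt.2 zero_le)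
  have hm0 : m ≠ 0 := by rintro rfl; rw [map_zero] at hm; exact absurd hm (not_lt.2 zero_le)
  have h1 : V (m - u⁻¹) = V m := by
    have h2 : V u⁻¹ < V m := by
      rw [map_inv₀]
      exact (inv_lt_one_of_one_lt₀ hu).trans hm
    exact Valuation.map_sub_eq_of_lt_left V h2
  have h2 : (m - u) * (m - u⁻¹) = m * (m + 2 + m⁻¹ - s) := by
    have h3 : s = u + u⁻¹ + 2 := by linear_combination hsu
    rw [h3]
    field_simp
    ring
  have h3 := congrArg V h2
  rw [map_mul, map_mul, h1, mul_comm] at h3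
  have h4 := mul_left_cancel₀ ((Valuation.ne_zero_iff _).2 hm0) h3
  rw [Valuation.map_sub_swap, h4, map_mul, hus, ← map_mul]
  exact hlt

theorem val_close2 (h9 : V 9 ≤ 1) (h2 : V 2 ≤ 1) {u s m : E} (hu : u ^ 2 - (s - 2) * u + 1 = 0)
    (hm : m ≠ 0) (hs : 1 < V s) (hlt : V (m + 2 + m⁻¹ - s) < V (9 * s)) :
    V (u - m) < V (9 * u) ∨ V (u - m⁻¹) < V (9 * u) := by
  have hu0 : u ≠ 0 := by
    rintro rfl
    simp at hu
  have hsu : s - 2 = u + u⁻¹ := by
    field_simp
    linear_combination -hu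
  have hVs : V (s - 2) = V s := Valuation.map_sub_eq_of_lt_left V (h2.trans_lt hs)
  have h9s : V (9 * s) ≤ V s := by
    rw [map_mul]
    exact mul_le_of_le_one_left' h9
  have hVm : V (m + m⁻¹) = V s := by
    have h3 : m + m⁻¹ = (s - 2) + (m + 2 + m⁻¹ - s) := by ring
    rw [h3, ← hVs]
    exact Valuation.map_add_eq_of_lt_left V (by rw [hVs]; exact hlt.trans_le h9s)
  have hVu : V (u + u⁻¹) = V s := by rw [← hsu, hVs]
  -- the general form
  have key : ∀ u' m' : E, u' ≠ 0 → m' ≠ 0 → 1 < V u' → 1 < V m' → V u' = V s → V m' = V s →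
      s - 2 = u' + u'⁻¹ → V (m' + 2 + m'⁻¹ - s) < V (9 * s) →
      V (u' - m') < V (9 * u') ∧ V (u'⁻¹ - m'⁻¹) < V (9 * u'⁻¹) := by
    intro u' m' hu0 hm0 hu hm hus hms hsu hlt
    have h1 := val_core V hu hm hus hms hsu hlt
    refine ⟨h1, ?_⟩
    have h3 : u'⁻¹ - m'⁻¹ = (m' - u') * (u'⁻¹ * m'⁻¹) := by
      field_simp
    have h4 : V u' ≠ 0 := (Valuation.ne_zero_iff _).2 hu0
    have h5 : 0 < V u'⁻¹ * V m'⁻¹ := by
      apply zero_lt_iff.2
      apply mul_ne_zero
      · rw [Valuation.ne_zero_iff]; exact inv_ne_zero hu0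
      · rw [Valuation.ne_zero_iff]; exact inv_ne_zero hm0
    rw [h3, map_mul, map_mul, Valuation.map_sub_swap]
    calc V (u' - m') * (V u'⁻¹ * V m'⁻¹) < V (9 * u') * (V u'⁻¹ * V m'⁻¹) :=
          mul_lt_mul_of_pos_right h1 h5
      _ = V (9 * u'⁻¹) := by
          rw [map_mul, map_mul, map_inv₀, map_inv₀, hms, ← hus]
          rw [mul_assoc, mul_inv_cancel_left₀ h4]
  rcases val_add_inv V hu0 (by rw [hVu]; exact hs) with ⟨hu1, hu2⟩ | ⟨hu1, hu2⟩ <;>
  rcases val_add_inv V hm (by rw [hVm]; exact hs) with ⟨hm1, hm2⟩ | ⟨hm1, hm2⟩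
  · exact Or.inl (key u m hu0 hm hu1 hm1 (hu2.trans hVu) (hm2.trans hVm) hsu hlt).1
  · refine Or.inr (key u m⁻¹ hu0 (inv_ne_zero hm) hu1 hm1 (hu2.trans hVu) (hm2.trans hVm) hsu ?_).1
    rw [inv_inv, show m⁻¹ + 2 + m - s = m + 2 + m⁻¹ - s by ring]
    exact hlt
  · have h3 := (key u⁻¹ m (inv_ne_zero hu0) hm hu1 hm1 (hu2.trans hVu) (hm2.trans hVm)
      (by rw [inv_inv, hsu, add_comm]) hlt).2
    rw [inv_inv] at h3
    exact Or.inr h3
  · have h3 := (key u⁻¹ m⁻¹ (inv_ne_zero hu0) (inv_ne_zero hm) hu1 hm1 (hu2.trans hVu)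
      (hm2.trans hVm) (by rw [inv_inv, hsu, add_comm])
      (by rw [inv_inv, show m⁻¹ + 2 + m - s = m + 2 + m⁻¹ - s by ring]; exact hlt)).2
    rw [inv_inv, inv_inv] at h3
    exact Or.inl h3

end val

section gen

theorem gen_of_not_mem {K E : Type*} [Field K] [Field E] [Algebra K E] [FiniteDimensional K E]
    (h2 : finrank K E < 3) {u : E} (hu : ∀ c : K, algebraMap K E c ≠ u) (z : E) :
    ∃ c d : K, z = algebraMap K E c + algebraMap K E d * u := by
  have hli : LinearIndependent K ![(1 : E), u] := by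
    rw [LinearIndependent.pair_iff]
    intro a b hab
    have hb : b = 0 := by
      by_contra hb
      apply hu (-(a / b))
      rw [Algebra.smul_def, Algebra.smul_def, mul_one] at hab
      have hb' : algebraMap K E b ≠ 0 := by rwa [Ne, map_eq_zero]
      rw [map_neg, map_div₀, neg_eq_iff_eq_neg, div_eq_iff hb']
      linear_combination hab
    subst hb
    rw [zero_smul, add_zero, Algebra.smul_def, mul_one, map_eq_zero] at hab
    exact ⟨hab, rfl⟩
  have h3 := hli.fintype_card_le_finrank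
  rw [Fintype.card_fin] at h3
  have h4 : Submodule.span K (Set.range ![(1 : E), u]) = ⊤ :=
    hli.span_eq_top_of_card_eq_finrank (by rw [Fintype.card_fin]; omega)
  have h5 : z ∈ Submodule.span K (Set.range ![(1 : E), u]) := by rw [h4]; trivial
  have h6 : Set.range ![(1 : E), u] = {1, u} := by
    ext y
    simp [eq_comm, or_comm]
  rw [h6, Submodule.mem_span_pair] at h5
  obtain ⟨c, d, h⟩ := h5
  exact ⟨c, d, by rw [← h, Algebra.smul_def, Algebra.smul_def, mul_one]⟩

end gen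

section tower

variable {K L E F : Type*} [Field K] [NumberField K] [Field L] [NumberField L]
  [Field E] [NumberField E] [Field F] [NumberField F] [Algebra K L] [Algebra K E] [Algebra L F]
  [Algebra E F] [Algebra K F] [IsScalarTower K L F] [IsScalarTower K E F] {p : ℕ}

/-- **Hasse norm theorem for `F = EL` over `E`**, more local conditions. -/
theorem exists_norm_eq' (hp : p.Prime) (hp2 : p ≠ 2) {ζ : K} (hζ : IsPrimitiveRoot ζ p)
    [IsGalois K L] (hKL : finrank K L = p) (hE : finrank K E < p) (hEF : finrank E F = p)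
    (u : Eˣ)
    (h : ∀ P : HeightOneSpectrum (𝓞 E),
      (∃ w w' : HeightOneSpectrum (𝓞 L), w ≠ w' ∧ SUH.below K w = SUH.below K P ∧
        SUH.below K w' = SUH.below K P) ∨
      ((∀ w : HeightOneSpectrum (𝓞 L), SUH.below K w = SUH.below K P →
        (SUH.below K P).asIdeal.ramificationIdx' w.asIdeal = 1) ∧
        P.valuation E (u : E) = 1) ∨
      (∃ c : E, P.valuation E ((u : E) - c ^ p) < P.valuation E ((p : E) ^ 2 * (u : E))) ∨
      (∃ y : Fˣ, P.valuation E ((u : E) - Algebra.norm E (y : F)) <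
        P.valuation E ((p : E) ^ 2 * (u : E))) ∨
      (∃ s : K, (u : E) ^ 2 - (algebraMap K E s - 2) * u + 1 = 0 ∧
        (∀ z : E, ∃ c d : K, z = algebraMap K E c + algebraMap K E d * u) ∧
        (SUH.below K P).valuation K s ≤ 1 ∧
        ∀ c : K, (SUH.below K P).valuation K c ^ 2 ≠ (SUH.below K P).valuation K s)) :
    ∃ y : Fˣ, Units.map (Algebra.norm E : F →* E) y = u := by
  obtain ⟨a, α, σ, hD, hα, ha⟩ := exists_kummer hp hζ hKL
  have hζE : IsPrimitiveRoot (algebraMap K E ζ) p :=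
    hζ.map_of_injective (algebraMap K E).injective
  have haE := pow_ne_of_finrank_lt (E := E) hp hE ha
  have hαF : (algebraMap L F α) ^ p = algebraMap E F (algebraMap K E a) := by
    rw [← map_pow, hD.pow_eq, ← IsScalarTower.algebraMap_apply, ← IsScalarTower.algebraMap_apply]
  obtain ⟨σ', hD'⟩ := Kummer.exists_data hp hζE haE hαF hEF
  have hα' : algebraMap L F α ≠ 0 := by
    rwa [Ne, FaithfulSMul.algebraMap_eq_zero_iff]
  have hgal := hD'.galois
  apply HasseNorm.hasse_norm hp hp2 hζE hD' hα' u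
  intro e
  -- close to a `p`-th power
  have hclose : ∀ (u : Eˣ), (∃ c : E, e.v.valuation E ((u : E) - c ^ p) <
      e.v.valuation E ((p : E) ^ 2 * (u : E))) → e.toU u ∈ e.N p (algebraMap K E a) := by
    rintro u ⟨c, hc⟩
    obtain ⟨x, hx⟩ := exists_pow_eq_of_close hp hp2 e u.ne_zero hc
    have hx0 : x ≠ 0 := by
      rintro rfl
      rw [zero_pow hp.ne_zero, eq_comm, map_eq_zero] at hx
      exact u.ne_zero hx
    have h1 : e.toU u = (Units.mk0 x hx0) ^ p := by
      apply Units.ext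
      exact hx.symm
    rw [h1]
    exact pow_mem_normGrp hp _
  rcases h e.v with ⟨w, w', hne, hw, hw'⟩ | ⟨hur, hu⟩ | hc | ⟨y, hy⟩ | ⟨s, hus, hgen, hs, hsq⟩
  · -- split
    let φ : K →+* PadicAlgCl e.q := e.φ.comp (algebraMap K E)
    have hv : W.pl φ = SUH.below K e.v := (Embed.below_pl e.q (fun x ↦ rfl)).symm
    have hg : SUH.gnum L (W.pl φ) ≠ 1 := by
      intro h1
      rw [SUH.gnum, Set.ncard_eq_one] at h1
      obtain ⟨Q, hQ⟩ := h1
      have h2 : ∀ t : HeightOneSpectrum (𝓞 L), SUH.below K t = SUH.below K e.v →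
          t.asIdeal = Q := by
        intro t ht
        have h3 : t.asIdeal ∈ Ideal.primesOver (W.pl φ).asIdeal (𝓞 L) := by
          rw [hv, ← ht]
          exact ⟨t.isPrime, inferInstance⟩
        rw [hQ] at h3
        exact h3
      exact hne (HeightOneSpectrum.ext ((h2 w hw).trans (h2 w' hw').symm))
    rw [Ne, gnum_eq_one_iff e.q hD hp hζ hα] at hg
    push Not at hg
    obtain ⟨c, hc, hca⟩ := hg
    have hle : locF e.q φ ≤ e.L := by
      change IntermediateField.adjoin ℚ_[e.q] (Set.range φ) ≤ _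
      rw [IntermediateField.adjoin_le_iff]
      rintro _ ⟨x, rfl⟩
      exact mem_locF e.q e.φ _
    rw [LocEmb.N, normGrp_eq_top ⟨⟨c, hle hc⟩, Subtype.ext hca⟩]
    exact Subgroup.mem_top _
  · -- unramified
    refine unit_mem_N_of_unramified e hp hp2 hD' hζE ?_ (e.toU u) ?_
    · intro w hw
      exact ramificationIdx_eq_one (L := L) hp hE hEF hKL e.v hur w hw
    · rw [LocEmb.coe_toU]
      exact (e.valuation_eq_one_iff (u : E)).1 hu
  · exact hclose u hc
  · -- close to a norm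
    obtain ⟨m, hm⟩ : ∃ m : Eˣ, m = Units.map (Algebra.norm E : F →* E) y := ⟨_, rfl⟩
    have hm' : (m : E) = Algebra.norm E (y : F) := by rw [hm]; rfl
    have h1 : e.toU m ∈ e.N p (algebraMap K E a) := by
      rw [hm]
      exact LocEmb.toU_norm_mem_N e hD' hp hζE y
    have h2 : e.toU (u * m⁻¹) ∈ e.N p (algebraMap K E a) := by
      refine hclose _ ⟨1, ?_⟩
      have hm0 : e.v.valuation E (m : E) ≠ 0 := (Valuation.ne_zero_iff _).2 m.ne_zero
      have h3 : ((u * m⁻¹ : Eˣ) : E) - 1 ^ p = ((u : E) - Algebra.norm E (y : F)) * (m : E)⁻¹ := by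
        rw [Units.val_mul, Units.val_inv_eq_inv_val, ← hm', one_pow, sub_mul,
          mul_inv_cancel₀ m.ne_zero]
      have h4 : (p : E) ^ 2 * ((u * m⁻¹ : Eˣ) : E) = ((p : E) ^ 2 * u) * (m : E)⁻¹ := by
        rw [Units.val_mul, Units.val_inv_eq_inv_val, mul_assoc]
      rw [h3, h4, map_mul _ _ (m : E)⁻¹, map_mul _ ((p : E) ^ 2 * u) (m : E)⁻¹]
      refine mul_lt_mul_of_pos_right hy (zero_lt_iff.2 ?_)
      rw [Valuation.ne_zero_iff]
      exact inv_ne_zero m.ne_zero
    have h3 : u = (u * m⁻¹) * m := by group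
    rw [h3, map_mul]
    exact mul_mem h2 h1
  · exact toU_mem_N_of_odd e hp hp2 hζ a u hus hgen hs hsq

/-- The local condition at `v` for `γ ∈ GL₂(K)` with `s = (tr γ)²/det γ`. -/
def LocCond' (C : Cub K L) (v : HeightOneSpectrum (𝓞 K)) (s : K) : Prop :=
  LocCond L v s ∨
  (1 < v.valuation K s ∧ ∃ (b : L) (m : K), b ≠ 0 ∧ algebraMap K L m = C.nL b ∧
    v.valuation K (m + 2 + m⁻¹ - s) < v.valuation K (9 * s)) ∨
  (v.valuation K s ≤ 1 ∧ ∀ c : K, v.valuation K c ^ 2 ≠ v.valuation K s)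

theorem exists_norm_of_loc' (C : Cub K L) {ζ : K} (hζ : IsPrimitiveRoot ζ 3) [IsGalois K L]
    (hKL : finrank K L = 3) (hE : finrank K E < 3) (hEF : finrank E F = 3) (u : Eˣ) (s : K)
    (hu : (u : E) ^ 2 - (algebraMap K E s - 2) * u + 1 = 0)
    (hloc : ∀ v : HeightOneSpectrum (𝓞 K), LocCond' C v s) :
    ∃ y : Fˣ, Units.map (Algebra.norm E : F →* E) y = u := by
  obtain ⟨hgal, τ, hτ1, hτ⟩ := exists_tau (K := K) (L := L) (E := E) (F := F) hζ hKL
    hE hEF C.σ C.σ_ne_one
  apply exists_norm_eq' (K := K) (L := L) Nat.prime_three (by norm_num) hζ hKL hE hEF u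
  intro P
  have h2 : (P.valuation E) (2 : E) ≤ 1 := by
    have h5 : P.valuation E (algebraMap (𝓞 E) E 2) ≤ 1 :=
      P.valuation_le_one (K := E) (2 : 𝓞 E)
    have h6 : algebraMap (𝓞 E) E 2 = 2 := map_ofNat _ 2
    rwa [h6] at h5
  have h9 : (P.valuation E) (9 : E) ≤ 1 := by
    have h5 : P.valuation E (algebraMap (𝓞 E) E 9) ≤ 1 :=
      P.valuation_le_one (K := E) (9 : 𝓞 E)
    have h6 : algebraMap (𝓞 E) E 9 = 9 := map_ofNat _ 9
    rwa [h6] at h5
  have he : (SUH.below K P).asIdeal.ramificationIdx' P.asIdeal ≠ 0 :=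
    Ideal.IsDedekindDomain.ramificationIdx'_ne_zero_of_liesOver P.asIdeal (SUH.below K P).ne_bot
  rcases hloc (SUH.below K P) with (h | ⟨hur, hs⟩ | ⟨b, hb, hlt⟩) | ⟨hs, b, m, hb, hm, hlt⟩ |
    ⟨hs, hsq⟩
  · exact Or.inl h
  · refine Or.inr (Or.inl ⟨hur, ?_⟩)
    apply val_eq_one (P.valuation E) hu
    have h2' : (P.valuation E) (algebraMap K E s) ≤ 1 := by
      rw [← HeightOneSpectrum.valuation_liesOver E (SUH.below K P) P s]
      exact pow_le_one₀ zero_le hs
    exact (Valuation.map_sub_le _ h2' h2)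
  · refine Or.inr (Or.inr (Or.inl ?_))
    apply val_close (P.valuation E) h9 hu (b := algebraMap K E b)
      (by rwa [Ne, map_eq_zero])
    have h4 := pow_lt_pow_left₀ hlt zero_le he
    rw [← pow_mul ((SUH.below K P).valuation K (9 * b ^ 3)), mul_comm 2, pow_mul,
      HeightOneSpectrum.valuation_liesOver E _ P,
      HeightOneSpectrum.valuation_liesOver E _ P] at h4
    simpa only [map_add, map_sub, map_mul, map_pow, map_one, map_ofNat] using h4
  · refine Or.inr (Or.inr (Or.inr (Or.inl ?_)))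
    have hm0 : m ≠ 0 := by
      rintro rfl
      rw [map_zero] at hm
      have h3 : b * C.σ b * C.σ (C.σ b) = 0 := hm.symm
      have h4 : C.σ b ≠ 0 := by rwa [Ne, map_eq_zero]
      have h5 : C.σ (C.σ b) ≠ 0 := by rwa [Ne, map_eq_zero]
      exact mul_ne_zero (mul_ne_zero hb h4) h5 h3
    have hb' : algebraMap L F b ≠ 0 := by rwa [Ne, map_eq_zero]
    have hn : Algebra.norm E (algebraMap L F b) = algebraMap K E m := by
      apply (algebraMap E F).injective
      rw [norm_three hEF τ hτ1, hτ, hτ, ← map_mul, ← map_mul]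
      have h3 : b * C.σ b * C.σ (C.σ b) = algebraMap K L m := hm.symm
      rw [h3, ← IsScalarTower.algebraMap_apply, ← IsScalarTower.algebraMap_apply]
    have hlt' : P.valuation E (algebraMap K E m + 2 + (algebraMap K E m)⁻¹ - algebraMap K E s) <
        P.valuation E (9 * algebraMap K E s) := by
      have h4 := pow_lt_pow_left₀ hlt zero_le he
      rw [HeightOneSpectrum.valuation_liesOver E _ P,
        HeightOneSpectrum.valuation_liesOver E _ P] at h4
      simpa only [map_add, map_sub, map_mul, map_inv₀, map_ofNat] using h4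
    have hs' : 1 < P.valuation E (algebraMap K E s) := by
      rw [← HeightOneSpectrum.valuation_liesOver E (SUH.below K P) P s]
      exact one_lt_pow₀ hs he
    have h39 : ((3 : ℕ) : E) ^ 2 = 9 := by norm_num
    rw [h39]
    rcases val_close2 (P.valuation E) h9 h2 hu (m := algebraMap K E m)
      (by rwa [Ne, map_eq_zero]) hs' hlt' with h | h
    · refine ⟨Units.mk0 _ hb', ?_⟩
      rw [Units.val_mk0, hn]
      exact h
    · refine ⟨(Units.mk0 _ hb')⁻¹, ?_⟩
      have h5 := congrArg Units.val (map_inv (Units.map (Algebra.norm E : F →* E))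
        (Units.mk0 _ hb'))
      rw [Units.val_inv_eq_inv_val] at h5
      have h6 : Algebra.norm E (((Units.mk0 _ hb')⁻¹ : Fˣ) : F) = (algebraMap K E m)⁻¹ := by
        rw [← hn]
        exact h5
      rw [h6]
      exact h
  · refine Or.inr (Or.inr (Or.inr (Or.inr ⟨s, hu, ?_, hs, hsq⟩)))
    apply gen_of_not_mem hE
    intro c hc
    have hc' : c ^ 2 - (s - 2) * c + 1 = 0 := by
      apply (algebraMap K E).injective
      rw [map_zero, ← hu, ← hc]
      simp only [map_add, map_sub, map_mul, map_pow, map_one, map_ofNat]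
    have h2K : ((SUH.below K P).valuation K) (2 : K) ≤ 1 := by
      have h5 : (SUH.below K P).valuation K (algebraMap (𝓞 K) K 2) ≤ 1 :=
        (SUH.below K P).valuation_le_one (K := K) (2 : 𝓞 K)
      have h6 : algebraMap (𝓞 K) K 2 = 2 := map_ofNat _ 2
      rwa [h6] at h5
    have h3 := val_eq_one ((SUH.below K P).valuation K) hc' (Valuation.map_sub_le _ hs h2K)
    apply hsq (1 + c)
    rw [← map_pow]
    have h4 : (1 + c) ^ 2 = s * c := by linear_combination hc'
    rw [h4, map_mul, h3, mul_one]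

end tower

end Fermat.Agent.LT.D.N2

namespace Fermat.Agent.LT.D

section classes

variable {K L : Type*} [Field K] [NumberField K] [Field L] [NumberField L] [Algebra K L]
  (C : Cub K L)

namespace Cub

/-- elliptic case -/
theorem exists_z_of_ell' {ζ : K} (hζ : IsPrimitiveRoot ζ 3) [IsGalois K L]
    (hKL : finrank K L = 3) {γ : GL (Fin 2) K} (hE : Ell (γ : Matrix (Fin 2) (Fin 2) K))
    (hloc : ∀ v : HeightOneSpectrum (𝓞 K), N2.LocCond' C v (sInv γ)) :
    ∃ z ∈ Z (L := L) γ,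
      C.N z = Inc (γ * γ) * (sc (Matrix.GeneralLinearGroup.det (Inc γ)))⁻¹ := by
  obtain ⟨t, ht⟩ : ∃ t, t = (γ : Matrix (Fin 2) (Fin 2) K).trace := ⟨_, rfl⟩
  obtain ⟨d, hd⟩ : ∃ d, d = (γ : Matrix (Fin 2) (Fin 2) K).det := ⟨_, rfl⟩
  have hd0 : d ≠ 0 := by rw [hd]; exact det_ne_zero' γ
  let fK : K[X] := X ^ 2 - Polynomial.C t * X + Polynomial.C d
  let f : L[X] := X ^ 2 - Polynomial.C (algebraMap K L t) * X + Polynomial.C (algebraMap K L d)
  have hfK : fK.natDegree = 2 := by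
    simp only [fK]
    compute_degree!
  have hf : f.natDegree = 2 := by
    simp only [f]
    compute_degree!
  have hfKm : fK.Monic := by
    simp only [fK]
    monicity!
  have hfm : f.Monic := by
    simp only [f]
    monicity!
  have hirrK : Irreducible fK := by
    apply irreducible_of_degree_le_three_of_not_isRoot (by rw [hfK]; simp)
    intro x hx
    apply hE x
    rw [← ht, ← hd]
    simpa [fK, IsRoot.def] using hx
  have hirr : Irreducible f := by
    apply irreducible_of_degree_le_three_of_not_isRoot (by rw [hf]; simp)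
    intro x hx
    apply C.ell_inc hE x
    rw [trace_inc, det_inc, ← ht, ← hd]
    simpa [f, IsRoot.def] using hx
  haveI : Fact (Irreducible f) := ⟨hirr⟩
  haveI hfin : FiniteDimensional L (AdjoinRoot f) := (AdjoinRoot.powerBasis hirr.ne_zero).finite
  haveI : NumberField (AdjoinRoot f) := NumberField.of_module_finite L (AdjoinRoot f)
  obtain ⟨θ, hθdef⟩ : ∃ θ : AdjoinRoot f, θ = AdjoinRoot.root f := ⟨_, rfl⟩
  have hθ : θ ^ 2 - algebraMap K (AdjoinRoot f) t * θ + algebraMap K (AdjoinRoot f) d = 0 := by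
    have h1 : aeval θ f = 0 := by
      rw [hθdef, AdjoinRoot.aeval_eq, AdjoinRoot.mk_self]
    simp only [f, map_add, map_sub, map_mul, map_pow, aeval_X, aeval_C,
      ← IsScalarTower.algebraMap_apply] at h1
    exact h1
  have hminK : minpoly K θ = fK := by
    symm
    apply minpoly.eq_of_irreducible_of_monic hirrK _ hfKm
    simp only [fK, map_add, map_sub, map_mul, map_pow, aeval_X, aeval_C]
    exact hθ
  have hint : IsIntegral K θ := by
    by_contra h
    have := minpoly.eq_zero h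
    rw [hminK] at this
    exact hirrK.ne_zero this
  let E : IntermediateField K (AdjoinRoot f) := IntermediateField.adjoin K {θ}
  have hKE : finrank K E = 2 := by
    rw [IntermediateField.adjoin.finrank hint, hminK, hfK]
  have hLF : finrank L (AdjoinRoot f) = 2 := by
    rw [(AdjoinRoot.powerBasis hirr.ne_zero).finrank, AdjoinRoot.powerBasis_dim, hf]
  have hEF : finrank E (AdjoinRoot f) = 3 := by
    have h1 := finrank_mul_finrank K E (AdjoinRoot f)
    have h2 := finrank_mul_finrank K L (AdjoinRoot f)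
    rw [hKE, ← h2, hKL, hLF] at h1
    omega
  let θE : E := ⟨θ, IntermediateField.mem_adjoin_simple_self K θ⟩
  have hθE : θE ^ 2 - algebraMap K E t * θE + algebraMap K E d = 0 := Subtype.ext hθ
  have hdE : algebraMap K E d ≠ 0 := by rwa [Ne, map_eq_zero]
  have hθ0 : θE ≠ 0 := by
    intro h0
    rw [h0] at hθE
    apply hdE
    simpa using hθE
  let u : Eˣ := Units.mk0 (θE ^ 2 / algebraMap K E d) (div_ne_zero (pow_ne_zero _ hθ0) hdE)
  have hs : sInv γ = t ^ 2 / d := by rw [sInv, ← ht, ← hd]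
  have hu : (u : E) ^ 2 - (algebraMap K E (sInv γ) - 2) * u + 1 = 0 := by
    rw [hs, Units.val_mk0, map_div₀, map_pow]
    field_simp
    linear_combination (θE ^ 2 + algebraMap K E t * θE + algebraMap K E d) * hθE
  obtain ⟨y, hy⟩ := N2.exists_norm_of_loc' C (K := K) (L := L) (E := E) (F := AdjoinRoot f) hζ hKL
    (by rw [hKE]; norm_num) hEF u (sInv γ) hu hloc
  obtain ⟨hgal, τ, hτ1, hτ⟩ := exists_tau (K := K) (L := L) (E := E) (F := AdjoinRoot f) hζ hKL
    (by rw [hKE]; norm_num) hEF C.σ C.σ_ne_one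
  have hn := norm_three hEF τ hτ1 (y : AdjoinRoot f)
  have hy' : Algebra.norm E (y : AdjoinRoot f) = θE ^ 2 / algebraMap K E d :=
    congrArg Units.val hy
  rw [hy'] at hn
  have hτθ : τ θ = θ := τ.commutes θE
  obtain ⟨g, hg⟩ := AdjoinRoot.mk_surjective (y : AdjoinRoot f)
  have hτa : ∀ g : L[X], τ (aeval θ g) = aeval θ (g.map (C.σ : L →+* L)) := by
    intro g
    induction g using Polynomial.induction_on' with
    | add p q hp hq => rw [map_add, map_add, hp, hq, Polynomial.map_add, map_add]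
    | monomial n a =>
      rw [aeval_monomial, Polynomial.map_monomial, aeval_monomial, map_mul, map_pow, hτθ, hτ]
      rfl
  have hy2 : (y : AdjoinRoot f) = aeval θ g := by
    rw [hθdef, AdjoinRoot.aeval_eq, hg]
  have hn2 : algebraMap L (AdjoinRoot f) (algebraMap K L d) *
      aeval θ (g * g.map (C.σ : L →+* L) * (g.map (C.σ : L →+* L)).map (C.σ : L →+* L)) =
        θ ^ 2 := by
    rw [map_mul, map_mul, ← hτa, ← hτa, ← hτa, ← hy2, ← hn, ← IsScalarTower.algebraMap_apply]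
    have h3 : algebraMap E (AdjoinRoot f) (θE ^ 2 / algebraMap K E d) =
        θ ^ 2 / algebraMap K (AdjoinRoot f) d := by
      rw [map_div₀, map_pow, ← IsScalarTower.algebraMap_apply]
      rfl
    rw [h3, mul_div_cancel₀]
    rwa [Ne, map_eq_zero]
  have hdvd : f ∣ Polynomial.C (algebraMap K L d) *
      (g * g.map (C.σ : L →+* L) * (g.map (C.σ : L →+* L)).map (C.σ : L →+* L)) - X ^ 2 := by
    rw [← AdjoinRoot.mk_eq_zero, ← AdjoinRoot.aeval_eq, ← hθdef, map_sub, map_mul, aeval_C, hn2,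
      map_pow, aeval_X, sub_self]
  obtain ⟨Q, hQ⟩ := hdvd
  obtain ⟨Γ, hΓdef⟩ : ∃ Γ : Matrix (Fin 2) (Fin 2) L,
    Γ = inc (L := L) (γ : Matrix (Fin 2) (Fin 2) K) := ⟨_, rfl⟩
  have hΓ : aeval Γ f = 0 := by
    simp only [f, map_add, map_sub, map_mul, map_pow, aeval_X, aeval_C]
    rw [sq, cayley Γ, hΓdef, trace_inc, det_inc, ← ht, ← hd]
    simp only [Algebra.algebraMap_eq_smul_one, Matrix.smul_mul, one_mul, smul_assoc, one_smul]
    abel
  have hΓQ := congrArg (aeval Γ) hQ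
  rw [map_mul, hΓ, zero_mul, map_sub, map_mul, map_mul, map_mul, aeval_C, map_pow, aeval_X,
    sub_eq_zero] at hΓQ
  have hsΓ : C.s Γ = Γ := by rw [hΓdef, s_inc]
  have hs1 : aeval Γ (g.map (C.σ : L →+* L)) = C.s (aeval Γ g) := by
    rw [s_aeval, hsΓ]
  have hs2 : aeval Γ ((g.map (C.σ : L →+* L)).map (C.σ : L →+* L)) =
      C.s (C.s (aeval Γ g)) := by
    rw [← hs1, s_aeval, hsΓ]
  rw [hs1, hs2] at hΓQ
  apply C.exists_z_of_matrix (z := aeval Γ g)
  · rw [← hΓdef]
    have h1 : aeval Γ (g * X) = aeval Γ (X * g) := by rw [mul_comm]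
    rwa [map_mul, map_mul, aeval_X] at h1
  · rw [← hd, ← hΓdef, ← sq, ← hΓQ,
      Algebra.algebraMap_eq_smul_one (A := Matrix (Fin 2) (Fin 2) L) (algebraMap K L d),
      Matrix.smul_mul, one_mul]
    rfl

/-- split case -/
theorem exists_z_of_split' {ζ : K} (hζ : IsPrimitiveRoot ζ 3) [IsGalois K L]
    (hKL : finrank K L = 3) {γ : GL (Fin 2) K} (hD : Disc (γ : Matrix (Fin 2) (Fin 2) K))
    (hE : ¬ Ell (γ : Matrix (Fin 2) (Fin 2) K))
    (hloc : ∀ v : HeightOneSpectrum (𝓞 K), N2.LocCond' C v (sInv γ)) :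
    ∃ z ∈ Z (L := L) γ,
      C.N z = Inc (γ * γ) * (sc (Matrix.GeneralLinearGroup.det (Inc γ)))⁻¹ := by
  unfold Ell at hE
  push Not at hE
  obtain ⟨a, ha⟩ := hE
  obtain ⟨b, hb⟩ : ∃ b, b = (γ : Matrix (Fin 2) (Fin 2) K).trace - a := ⟨_, rfl⟩
  have ht : (γ : Matrix (Fin 2) (Fin 2) K).trace = a + b := by rw [hb]; ring
  have hd : (γ : Matrix (Fin 2) (Fin 2) K).det = a * b := by
    rw [ht] at ha
    linear_combination ha
  have hab : a - b ≠ 0 := by
    intro h
    apply hD
    rw [ht, hd]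
    linear_combination (a - b) * h
  have hd0 : a * b ≠ 0 := by rw [← hd]; exact det_ne_zero' γ
  have ha0 : a ≠ 0 := left_ne_zero_of_mul hd0
  have hb0 : b ≠ 0 := right_ne_zero_of_mul hd0
  have hs : sInv γ = (a + b) ^ 2 / (a * b) := by rw [sInv, ht, hd]
  have hu : ((Units.mk0 (a / b) (div_ne_zero ha0 hb0) : Kˣ) : K) ^ 2 -
      (algebraMap K K (sInv γ) - 2) * (Units.mk0 (a / b) (div_ne_zero ha0 hb0) : Kˣ) + 1 = 0 := by
    rw [hs, Units.val_mk0, Algebra.algebraMap_self, RingHom.id_apply]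
    field_simp
    ring
  obtain ⟨y, hy⟩ := N2.exists_norm_of_loc' C (K := K) (L := L) (E := K) (F := L) hζ hKL
    (by rw [finrank_self]; norm_num) hKL _ (sInv γ) hu hloc
  have hn := norm_three hKL C.σ C.σ_ne_one (y : L)
  have hy' : Algebra.norm K (y : L) = a / b := congrArg Units.val hy
  rw [hy'] at hn
  -- idempotents
  obtain ⟨Γ, hΓdef⟩ : ∃ Γ : Matrix (Fin 2) (Fin 2) L,
    Γ = inc (L := L) (γ : Matrix (Fin 2) (Fin 2) K) := ⟨_, rfl⟩
  obtain ⟨A, hA⟩ : ∃ A, A = algebraMap K L a := ⟨_, rfl⟩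
  obtain ⟨B, hB⟩ : ∃ B, B = algebraMap K L b := ⟨_, rfl⟩
  have hΓΓ : Γ * Γ = (A + B) • Γ - (A * B) • (1 : Matrix (Fin 2) (Fin 2) L) := by
    rw [cayley Γ, hΓdef, trace_inc, det_inc, ht, hd, map_add, map_mul, hA, hB]
  have hAB : A - B ≠ 0 := by
    rw [hA, hB, ← map_sub, Ne, map_eq_zero]
    exact hab
  obtain ⟨c, hc⟩ : ∃ c, c = (A - B)⁻¹ := ⟨_, rfl⟩
  have hc1 : c * (A - B) = 1 := by rw [hc, inv_mul_cancel₀ hAB]
  obtain ⟨p, hp⟩ : ∃ p, p = c • (Γ - B • (1 : Matrix (Fin 2) (Fin 2) L)) := ⟨_, rfl⟩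
  obtain ⟨q, hq⟩ : ∃ q, q = c • (A • (1 : Matrix (Fin 2) (Fin 2) L) - Γ) := ⟨_, rfl⟩
  have hΓpq : Γ = A • p + B • q := by
    rw [hp, hq]
    match_scalars
    · linear_combination -hc1
    · ring
  have hpp : p * p = p := by
    rw [hp]
    simp only [Matrix.smul_mul, Matrix.mul_smul, sub_mul, mul_sub, one_mul, mul_one, hΓΓ]
    match_scalars
    · linear_combination c * hc1
    · linear_combination -(c * B) * hc1
  have hqq : q * q = q := by
    rw [hq]
    simp only [Matrix.smul_mul, Matrix.mul_smul, sub_mul, mul_sub, one_mul, mul_one, hΓΓ]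
    match_scalars
    · linear_combination (c * A) * hc1
    · linear_combination -c * hc1
  have hpq : p * q = 0 := by
    rw [hp, hq]
    simp only [Matrix.smul_mul, Matrix.mul_smul, sub_mul, mul_sub, one_mul, mul_one, hΓΓ]
    match_scalars <;> ring
  have hqp : q * p = 0 := by
    rw [hp, hq]
    simp only [Matrix.smul_mul, Matrix.mul_smul, sub_mul, mul_sub, one_mul, mul_one, hΓΓ]
    match_scalars <;> ring
  have hsA : C.σ A = A := by rw [hA, AlgEquiv.commutes]
  have hsB : C.σ B = B := by rw [hB, AlgEquiv.commutes]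
  have hsc : C.σ c = c := by rw [hc, map_inv₀, map_sub, hsA, hsB]
  have hsΓ : C.s Γ = Γ := by rw [hΓdef, s_inc]
  have hsp : C.s p = p := by
    rw [hp, s_smul, map_sub, s_smul, map_one, hsc, hsΓ, hsB]
  have hsq : C.s q = q := by
    rw [hq, s_smul, map_sub, s_smul, map_one, hsc, hsΓ, hsA]
  have hmul : ∀ x x' y y' : L, (x • p + y • q) * (x' • p + y' • q) =
      (x * x') • p + (y * y') • q := by
    intro x x' y y'
    simp only [Matrix.smul_mul, Matrix.mul_smul, add_mul, mul_add, hpp, hqq, hpq, hqp]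
    match_scalars <;> ring
  have hs' : ∀ x y : L, C.s (x • p + y • q) = C.σ x • p + C.σ y • q := by
    intro x y
    rw [map_add, s_smul, s_smul, hsp, hsq]
  have hnm : C.nm ((y : L) • p + (y : L)⁻¹ • q) = (A / B) • p + (A / B)⁻¹ • q := by
    rw [nm, hs', hs', hmul, hmul, map_inv₀, map_inv₀, ← mul_inv, ← mul_inv, ← hn, map_div₀,
      ← hA, ← hB]
  have hA0 : A ≠ 0 := by rwa [hA, Ne, map_eq_zero]
  have hB0 : B ≠ 0 := by rwa [hB, Ne, map_eq_zero]
  apply C.exists_z_of_matrix (z := (y : L) • p + (y : L)⁻¹ • q)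
  · rw [← hΓdef]
    conv_lhs => rw [hΓpq]
    conv_rhs => rw [hΓpq]
    rw [hmul, hmul, mul_comm A, mul_comm B]
  · rw [← hΓdef, hnm, hd, map_mul, ← hA, ← hB, hΓpq, hmul, smul_add, smul_smul, smul_smul]
    congr 2
    · field_simp
    · field_simp

end Cub

end classes

end Fermat.Agent.LT.D
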