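import Mathlib
import Fermat.Agent.LT.Geo.NormsLoc
import Fermat.Agent.LT.Geo.Places
import Fermat.Agent.LT.Geo.Cons
import Fermat.Agent.LT.Geo.Match
import Fermat.Agent.LT.E.Av

/-!
# LT, geometric side: global classes in the support of the matching function are norms
-/

set_option autoImplicit false
set_option linter.unusedSectionVars false

open NumberField IsDedekindDomain Matrix Module
open Fermat.Agent.LT.D Fermat.Agent.CFT

namespace Fermat.LT

variable {K L : Type} [Field K] [NumberField K] [Field L] [NumberField L] [Algebra K L]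
  {C : Cub K L}

theorem td_eq_sInv (γ : G2 K) : td γ = Cub.sInv γ := rfl

theorem td_conj_mul (g γ : G2 K) : td (g⁻¹ * γ * g) = td γ := by
  rw [mul_assoc, td_mul_comm, mul_assoc, mul_inv_cancel, mul_one]

theorem av_td_eq (v : Pl K) (h : G2 K) : av v (td h) = av v h.1.trace ^ 2 / av v h.1.det := by
  rw [td, map_div₀, map_pow]

theorem av_td_le (v : Pl K) (h : G2 K) : av v (td h) ≤ nm v h.1 * nm v (h⁻¹).1 := by
  rw [av_td_eq, dist_eq]
  have h1 : 0 ≤ av v h.1.det := apply_nonneg _ _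
  exact div_le_div_of_nonneg_right (pow_le_pow_left₀ (apply_nonneg _ _) (av_trace_le v _) 2) h1

theorem val_sq_ne_of_av {v : Pl K} {x : K} (h : ∀ c : K, av v c ^ 2 ≠ av v x) (c : K) :
    v.valuation K c ^ 2 ≠ v.valuation K x := by
  intro h1
  apply h c
  rw [← map_pow] at h1 ⊢
  exact le_antisymm ((E.av_le_av_iff v _ _).mpr h1.le) ((E.av_le_av_iff v _ _).mpr h1.ge)

theorem exists_zpow_of_ne_zero (v : Pl K) {x : K} (hx : x ≠ 0) : ∃ n : ℤ, av v x = qv v ^ n := by
  have h0 : v.valuation K x ≠ 0 := (Valuation.ne_zero_iff _).mpr hx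
  exact ⟨_, av_eq_of_valuation v (WithZero.exp_log h0).symm⟩

theorem av_sq_ne_qv (v : Pl K) (x : K) : av v x ^ 2 ≠ qv v := by
  intro h
  rcases eq_or_ne x 0 with rfl | hx
  · rw [map_zero, zero_pow two_ne_zero] at h
    exact (qv_pos v).ne h
  · obtain ⟨n, hn⟩ := exists_zpow_of_ne_zero v hx
    rw [hn, ← zpow_natCast, ← _root_.zpow_mul] at h
    have h2 : qv v ^ (n * ((2 : ℕ) : ℤ)) = qv v ^ (1 : ℤ) := by rw [h, zpow_one]
    have h3 := zpow_right_injective₀ (qv_pos v) (one_lt_qv v).ne' h2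
    push_cast at h3
    omega

/-- at distance one, `|td|` is not a square -/
theorem av_sq_ne_td (v : Pl K) {h : G2 K} (hh : nm v h.1 * nm v (h⁻¹).1 = qv v) (ht : td h ≠ 0)
    (c : K) : av v c ^ 2 ≠ av v (td h) := by
  intro hc
  rw [dist_eq] at hh
  rw [av_td_eq] at hc
  have htr : h.1.trace ≠ 0 := by
    intro h0
    apply ht
    rw [td, h0, zero_pow two_ne_zero, zero_div]
  obtain ⟨m, hm⟩ := exists_nm_eq v h
  have hd : 0 < av v h.1.det := (av v).pos (det_ne_zero'' h)
  have htr' : av v h.1.trace ≠ 0 := (av v).ne_zero htr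
  apply av_sq_ne_qv v (c * m / h.1.trace)
  rw [← hh, hm, map_div₀, map_mul]
  field_simp
  field_simp at hc
  rw [mul_comm, ← hc, mul_comm]

variable (G : GeoDatum C)

/-- the local conditions for classes in the support of the matching function -/
theorem locCond_of_supp (v : Pl K) (γ : G2 K)
    (hin : Inert C v (G.up v) → ∃ g : G2 K, g⁻¹ * γ * g ∈ stdH v)
    (hra : Ram C v (G.up v) →
      (∃ g : G2 K, nm v (g⁻¹ * γ * g).1 * nm v ((g⁻¹ * γ * g)⁻¹).1 = qv v) ∧
      phiR C v (G.nr v) (td γ) ≠ 0) : N2.LocCond' C v (Cub.sInv γ) := by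
  rcases G.typ v with hs | hi | hr
  · -- split
    refine Or.inl (Or.inl ⟨G.up v, pl C (G.up v), hs.ne.symm, (above_iff _ _).mp hs.above, ?_⟩)
    rw [below_pl]
    exact (above_iff _ _).mp hs.above
  · -- inert
    refine Or.inl (Or.inr (Or.inl ⟨?_, ?_⟩))
    · intro w hw
      have hw' : Above v w := (above_iff _ _).mpr hw
      have h1 : w = G.up v := by
        rcases above_cases (C := C) hi.above hw' with h | h | h
        · exact h
        · rw [h, hi.fix]
        · rw [h, hi.fix, hi.fix]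
      subst h1
      obtain ⟨x, hx0, hx⟩ := E.exists_av_lt_one v
      have hx1 : 0 < av v x := (av v).pos hx0
      have h2 := av_above hi.above x
      rw [hi.av_eq] at h2
      have h3 := pow_right_injective₀ hx1 hx.ne h2
      have h4 := qv_above hi.above
      rw [hi.q_eq] at h4
      have h5 := pow_right_injective₀ (qv_pos v) (one_lt_qv v).ne' h4
      have h6 : (G.up v).asIdeal.ramificationIdx (𝓞 K) = 1 := by
        rw [← h5] at h3
        omega
      have hLO : (G.up v).asIdeal.LiesOver v.asIdeal := by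
        have h7 : (G.up v).asIdeal.LiesOver (SUH.below K (G.up v)).asIdeal := inferInstance
        rwa [hw] at h7
      rw [Ideal.ramificationIdx'_eq_ramificationIdx _ _ v.ne_bot]
      exact h6
    · obtain ⟨g, hg⟩ := hin hi
      rw [← td_eq_sInv, ← td_conj_mul g, ← E.av_le_one_iff]
      exact (av_td_le v _).trans ((mem_stdH _ _).mp hg)
  · -- ramified
    obtain ⟨⟨g, hg⟩, hphi⟩ := hra hr
    rw [← td_eq_sInv]
    by_cases h1 : av v (td γ) ≤ 1
    · by_cases h0 : td γ = 0
      · refine Or.inl (Or.inr (Or.inr ⟨-1, by norm_num, ?_⟩))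
        rw [h0]
        have h2 : (((-1 : K)) ^ 3) ^ 2 - (0 - 2) * (-1) ^ 3 + 1 = 0 := by norm_num
        rw [h2, map_zero]
        refine zero_lt_iff.mpr (pow_ne_zero _ ?_)
        rw [Valuation.ne_zero_iff]
        norm_num
      · refine Or.inr (Or.inr ⟨(E.av_le_one_iff v _).mp h1, val_sq_ne_of_av ?_⟩)
        rw [← td_conj_mul g] at h0 ⊢
        exact av_sq_ne_td v hg h0
    · rw [phiR, if_neg h1] at hphi
      have h2 : ∃ (b : L) (m : K), b ≠ 0 ∧ algebraMap K L m = C.nL b ∧
          av v (m + 2 + m⁻¹ - td γ) ≤ av v (td γ) * (qv v)⁻¹ ^ G.nr v := by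
        by_contra h
        rw [if_neg h] at hphi
        exact hphi rfl
      obtain ⟨b, m, hb, hm, hle⟩ := h2
      push Not at h1
      refine Or.inr (Or.inl ⟨?_, b, m, hb, hm, ?_⟩)
      · by_contra h
        push Not at h
        exact absurd h1 (not_lt.mpr ((E.av_le_one_iff v _).mpr h))
      · rw [← E.av_lt_av_iff]
        refine hle.trans_lt ?_
        rw [map_mul, mul_comm]
        exact mul_lt_mul_of_pos_right (G.nr_big v hr) (zero_lt_one.trans h1)

/-- **Existence of corresponding classes.** -/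
theorem exists_corr (hζ : ∃ ζ : K, IsPrimitiveRoot ζ 3) (γ : G2 K) (hγ : Disc γ.1)
    (hin : ∀ v, Inert C v (G.up v) → ∃ g : G2 K, g⁻¹ * γ * g ∈ stdH v)
    (hra : ∀ v, Ram C v (G.up v) →
      (∃ g : G2 K, nm v (g⁻¹ * γ * g).1 * nm v ((g⁻¹ * γ * g)⁻¹).1 = qv v) ∧
      phiR C v (G.nr v) (td γ) ≠ 0) :
    ∃ δ : G2 L, GeoDatum.Corr C γ δ := by
  obtain ⟨ζ, hζ⟩ := hζ
  have := isGalois_of_cub C
  have hloc : ∀ v : HeightOneSpectrum (𝓞 K), N2.LocCond' C v (Cub.sInv γ) := fun v =>
    locCond_of_supp G v γ (hin v) (hra v)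
  have hz : ∃ z ∈ Cub.Z (L := L) γ,
      C.N z = Cub.Inc (γ * γ) * (Cub.sc (Matrix.GeneralLinearGroup.det (Cub.Inc γ)))⁻¹ := by
    by_cases hE : Ell γ.1
    · exact C.exists_z_of_ell' hζ (finrank_of_cub C) hE hloc
    · exact C.exists_z_of_split' hζ (finrank_of_cub C) hγ hE hloc
  obtain ⟨δ, hδ, c, hc⟩ := (C.exists_iff hγ.not_isSc).mpr hz
  exact ⟨δ, hγ, hδ, c, hc⟩

end Fermat.LT
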