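import Fermat.Agent.LT.Geo.Resolvent

/-!
# The quadratic order `O_w[Γ]` and its unit group
-/

set_option autoImplicit false
set_option linter.unusedSectionVars false

open NumberField IsDedekindDomain Matrix
open Fermat.Agent.LT.D

namespace Fermat.LT

section

variable {L : Type} [Field L] [NumberField L] (w : Pl L) (Γ : Matrix (Fin 2) (Fin 2) L)

/-- `A = a + b Γ` with `|a|, |b| ≤ r`. -/
def Rc (r : ℝ) (A : Matrix (Fin 2) (Fin 2) L) : Prop :=
  ∃ a b : L, av w a ≤ r ∧ av w b ≤ r ∧ A = a • (1 : Matrix (Fin 2) (Fin 2) L) + b • Γ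

variable {w Γ}

theorem cayley (A : Matrix (Fin 2) (Fin 2) L) :
    A * A = A.trace • A - A.det • (1 : Matrix (Fin 2) (Fin 2) L) := by
  ext i j
  fin_cases i <;> fin_cases j <;>
    simp [Matrix.mul_apply, Fin.sum_univ_two, Matrix.trace_fin_two, Matrix.det_fin_two] <;> ring

theorem Rc.mono {r s : ℝ} (h : r ≤ s) {A : Matrix (Fin 2) (Fin 2) L} (hA : Rc w Γ r A) :
    Rc w Γ s A := by
  obtain ⟨a, b, ha, hb, e⟩ := hA
  exact ⟨a, b, ha.trans h, hb.trans h, e⟩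

theorem Rc.add {r : ℝ} {A B : Matrix (Fin 2) (Fin 2) L} (hA : Rc w Γ r A) (hB : Rc w Γ r B) :
    Rc w Γ r (A + B) := by
  obtain ⟨a, b, ha, hb, rfl⟩ := hA
  obtain ⟨c, d, hc, hd, rfl⟩ := hB
  refine ⟨a + c, b + d, (av_add_le w _ _).trans (max_le ha hc),
    (av_add_le w _ _).trans (max_le hb hd), ?_⟩
  rw [add_smul, add_smul]; abel

theorem Rc.neg {r : ℝ} {A : Matrix (Fin 2) (Fin 2) L} (hA : Rc w Γ r A) : Rc w Γ r (-A) := by
  obtain ⟨a, b, ha, hb, rfl⟩ := hA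
  refine ⟨-a, -b, by rwa [(av w).map_neg], by rwa [(av w).map_neg], ?_⟩
  rw [neg_smul, neg_smul]; abel

theorem Rc.sub {r : ℝ} {A B : Matrix (Fin 2) (Fin 2) L} (hA : Rc w Γ r A) (hB : Rc w Γ r B) :
    Rc w Γ r (A - B) := by
  rw [sub_eq_add_neg]; exact hA.add hB.neg

theorem Rc.smul {r s : ℝ} {c : L} (hc : av w c ≤ s) {A : Matrix (Fin 2) (Fin 2) L}
    (hA : Rc w Γ r A) : Rc w Γ (s * r) (c • A) := by
  obtain ⟨a, b, ha, hb, rfl⟩ := hA
  have hs : 0 ≤ s := ((av w).nonneg _).trans hc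
  refine ⟨c * a, c * b, ?_, ?_, ?_⟩
  · rw [map_mul]; exact mul_le_mul hc ha ((av w).nonneg _) hs
  · rw [map_mul]; exact mul_le_mul hc hb ((av w).nonneg _) hs
  · rw [smul_add, smul_smul, smul_smul]

theorem Rc.one : Rc w Γ 1 1 := ⟨1, 0, by rw [map_one], by rw [map_zero]; exact zero_le_one, by simp⟩

theorem Rc.self : Rc w Γ 1 Γ := ⟨0, 1, by rw [map_zero]; exact zero_le_one, by rw [map_one], by simp⟩

theorem Rc.mul (ht : av w Γ.trace ≤ 1) (hd : av w Γ.det ≤ 1) {r s : ℝ}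
    {A B : Matrix (Fin 2) (Fin 2) L} (hA : Rc w Γ r A) (hB : Rc w Γ s B) :
    Rc w Γ (r * s) (A * B) := by
  obtain ⟨a, b, ha, hb, rfl⟩ := hA
  obtain ⟨a', b', ha', hb', rfl⟩ := hB
  have hr : 0 ≤ r := ((av w).nonneg _).trans ha
  have hs : 0 ≤ s := ((av w).nonneg _).trans ha'
  have m : ∀ x y : L, av w x ≤ r → av w y ≤ s → av w (x * y) ≤ r * s := fun x y hx hy => by
    rw [map_mul]; exact mul_le_mul hx hy ((av w).nonneg _) hr
  have m1 : ∀ x y : L, av w x ≤ r * s → av w y ≤ 1 → av w (x * y) ≤ r * s := fun x y hx hy => by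
    rw [map_mul]
    exact (mul_le_mul hx hy ((av w).nonneg _) (mul_nonneg hr hs)).trans (by rw [mul_one])
  refine ⟨a * a' - b * b' * Γ.det, a * b' + b * a' + b * b' * Γ.trace, ?_, ?_, ?_⟩
  · exact (E.av_sub_le w _ _).trans (max_le (m _ _ ha ha') (m1 _ _ (m _ _ hb hb') hd))
  · exact (av_add_le w _ _).trans (max_le ((av_add_le w _ _).trans
      (max_le (m _ _ ha hb') (m _ _ hb ha'))) (m1 _ _ (m _ _ hb hb') ht))
  · rw [add_mul, mul_add, mul_add, Matrix.smul_mul, Matrix.mul_smul, Matrix.smul_mul,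
      Matrix.mul_smul, Matrix.smul_mul, Matrix.mul_smul, Matrix.smul_mul, Matrix.mul_smul, one_mul,
      one_mul, mul_one, cayley Γ]
    simp only [smul_sub, smul_smul, sub_smul, add_smul, mul_assoc]
    abel

theorem adj_lin (a b : L) (Γ : Matrix (Fin 2) (Fin 2) L) :
    (a • (1 : Matrix (Fin 2) (Fin 2) L) + b • Γ).adjugate =
      (a + b * Γ.trace) • (1 : Matrix (Fin 2) (Fin 2) L) + (-b) • Γ := by
  rw [Matrix.adjugate_fin_two]
  ext i j
  fin_cases i <;> fin_cases j <;> simp [Matrix.trace_fin_two] <;> ring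

theorem Rc.adj (ht : av w Γ.trace ≤ 1) {r : ℝ} {A : Matrix (Fin 2) (Fin 2) L}
    (hA : Rc w Γ r A) : Rc w Γ r A.adjugate := by
  obtain ⟨a, b, ha, hb, rfl⟩ := hA
  refine ⟨_, _, ?_, ?_, adj_lin a b Γ⟩
  · refine (av_add_le w _ _).trans (max_le ha ?_)
    rw [map_mul]
    exact (mul_le_of_le_one_right ((av w).nonneg _) ht).trans hb
  · rwa [(av w).map_neg]

theorem det_lin' (a b : L) (Γ : Matrix (Fin 2) (Fin 2) L) :
    (a • (1 : Matrix (Fin 2) (Fin 2) L) + b • Γ).det =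
      a * a + a * b * Γ.trace + b * b * Γ.det := by
  simp [Matrix.trace_fin_two, Matrix.det_fin_two]
  ring

theorem Rc.det_le (ht : av w Γ.trace ≤ 1) (hd : av w Γ.det ≤ 1) {r : ℝ}
    {A : Matrix (Fin 2) (Fin 2) L} (hA : Rc w Γ r A) : av w A.det ≤ r * r := by
  obtain ⟨a, b, ha, hb, rfl⟩ := hA
  have hr : 0 ≤ r := ((av w).nonneg _).trans ha
  have m : ∀ x y : L, av w x ≤ r → av w y ≤ r → av w (x * y) ≤ r * r := fun x y hx hy => by
    rw [map_mul]; exact mul_le_mul hx hy ((av w).nonneg _) hr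
  have m1 : ∀ x y : L, av w x ≤ r * r → av w y ≤ 1 → av w (x * y) ≤ r * r := fun x y hx hy => by
    rw [map_mul]
    exact (mul_le_mul hx hy ((av w).nonneg _) (mul_nonneg hr hr)).trans (by rw [mul_one])
  rw [det_lin']
  exact (av_add_le w _ _).trans (max_le ((av_add_le w _ _).trans
    (max_le (m _ _ ha ha) (m1 _ _ (m _ _ ha hb) ht))) (m1 _ _ (m _ _ hb hb) hd))

theorem Rc.trace_le (ht : av w Γ.trace ≤ 1) {r : ℝ}
    {A : Matrix (Fin 2) (Fin 2) L} (hA : Rc w Γ r A) : av w A.trace ≤ r := by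
  obtain ⟨a, b, ha, hb, rfl⟩ := hA
  have : (a • (1 : Matrix (Fin 2) (Fin 2) L) + b • Γ).trace = a + (a + b * Γ.trace) := by
    simp [Matrix.trace_fin_two]; ring
  rw [this]
  refine (av_add_le w _ _).trans (max_le ha ((av_add_le w _ _).trans (max_le ha ?_)))
  rw [map_mul]
  exact (mul_le_of_le_one_right ((av w).nonneg _) ht).trans hb

theorem det_one_add (A : Matrix (Fin 2) (Fin 2) L) : (1 + A).det = 1 + (A.trace + A.det) := by
  simp [Matrix.trace_fin_two, Matrix.det_fin_two]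
  ring

theorem av_eq_one_of_add {x : L} (h : av w x < 1) : av w (1 + x) = 1 := by
  apply le_antisymm
  · refine (av_add_le w _ _).trans (max_le ?_ h.le)
    rw [map_one]
  · by_contra hc
    have h2 : av w (1 : L) < 1 := by
      have : (1 : L) = (1 + x) - x := by ring
      rw [this]
      exact (E.av_sub_le w _ _).trans_lt (max_lt (not_le.mp hc) h)
    rw [map_one] at h2
    exact lt_irrefl _ h2

theorem Rc.det_one_add (ht : av w Γ.trace ≤ 1) (hd : av w Γ.det ≤ 1) {r : ℝ} (hr : r < 1)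
    {A : Matrix (Fin 2) (Fin 2) L} (hA : Rc w Γ r A) : av w (1 + A).det = 1 := by
  have hr0 : 0 ≤ r := by
    obtain ⟨a, b, ha, hb, rfl⟩ := hA
    exact ((av w).nonneg _).trans ha
  rw [Fermat.LT.det_one_add]
  apply av_eq_one_of_add
  refine (av_add_le w _ _).trans_lt (max_lt ((hA.trace_le ht).trans_lt hr)
    ((hA.det_le ht hd).trans_lt ?_))
  nlinarith

theorem val_inv_eq (g : G2 L) : (g⁻¹).1 = (g.1.det)⁻¹ • g.1.adjugate := by
  have h0 : g.1.det ≠ 0 := (Matrix.isUnit_iff_isUnit_det _).mp g.isUnit |>.ne_zero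
  have h1 : g.1 * ((g.1.det)⁻¹ • g.1.adjugate) = 1 := by
    rw [Matrix.mul_smul, Matrix.mul_adjugate, smul_smul, inv_mul_cancel₀ h0, one_smul]
  calc (g⁻¹).1 = (g⁻¹).1 * (g.1 * ((g.1.det)⁻¹ • g.1.adjugate)) := by rw [h1, mul_one]
    _ = (g.1.det)⁻¹ • g.1.adjugate := by
      rw [← mul_assoc, ← Units.val_mul, inv_mul_cancel, Units.val_one, one_mul]

theorem Rc.inv (ht : av w Γ.trace ≤ 1) {r s : ℝ} {g : G2 L} (hg : Rc w Γ r g.1)
    (hs : av w (g.1.det)⁻¹ ≤ s) : Rc w Γ (s * r) (g⁻¹).1 := by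
  rw [val_inv_eq]
  exact (hg.adj ht).smul hs

theorem det_ne_zero' (g : G2 L) : g.1.det ≠ 0 :=
  (Matrix.isUnit_iff_isUnit_det _).mp g.isUnit |>.ne_zero

theorem av_det_inv (g : G2 L) : av w (g⁻¹).1.det = (av w g.1.det)⁻¹ := by
  have h3 : av w g.1.det * av w (g⁻¹).1.det = 1 := by
    rw [← map_mul, ← Matrix.det_mul, ← Units.val_mul, mul_inv_cancel, Units.val_one, det_one,
      map_one]
  exact eq_inv_of_mul_eq_one_right h3

variable (w Γ)

/-- the unit group of `O_w[Γ]` -/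
def RU (ht : av w Γ.trace ≤ 1) (hd : av w Γ.det ≤ 1) : Subgroup (G2 L) where
  carrier := {g | Rc w Γ 1 g.1 ∧ av w g.1.det = 1}
  mul_mem' := by
    rintro g h ⟨h1, h2⟩ ⟨h3, h4⟩
    refine ⟨by simpa using h1.mul ht hd h3, ?_⟩
    rw [Units.val_mul, Matrix.det_mul, map_mul, h2, h4, mul_one]
  one_mem' := ⟨Rc.one, by simp⟩
  inv_mem' := by
    rintro g ⟨h1, h2⟩
    refine ⟨?_, ?_⟩
    · have := h1.inv ht (s := 1) (by rw [map_inv₀, h2, inv_one])
      simpa using this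
    · rw [av_det_inv, h2, inv_one]

variable {w Γ}

theorem mem_RU {ht : av w Γ.trace ≤ 1} {hd : av w Γ.det ≤ 1} {g : G2 L} :
    g ∈ RU w Γ ht hd ↔ Rc w Γ 1 g.1 ∧ av w g.1.det = 1 := Iff.rfl

theorem Rc.commute {r s : ℝ} {A B : Matrix (Fin 2) (Fin 2) L} (hA : Rc w Γ r A)
    (hB : Rc w Γ s B) : A * B = B * A := by
  obtain ⟨a, b, ha, hb, rfl⟩ := hA
  obtain ⟨a', b', ha', hb', rfl⟩ := hB
  simp only [add_mul, mul_add, Matrix.smul_mul, Matrix.mul_smul, one_mul, mul_one, smul_smul]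
  rw [mul_comm a a', mul_comm b b', mul_comm a b', mul_comm b a']
  abel

theorem exists_Rc {A : Matrix (Fin 2) (Fin 2) L} (hΓ : ¬ IsSc Γ) (h : Γ * A = A * Γ) :
    ∃ r : ℝ, 1 ≤ r ∧ Rc w Γ r A := by
  obtain ⟨a, b, rfl⟩ := eq_of_commute hΓ h
  exact ⟨max 1 (max (av w a) (av w b)), le_max_left _ _, a, b,
    (le_max_left _ _).trans (le_max_right _ _), (le_max_right _ _).trans (le_max_right _ _), rfl⟩

end

section

variable {K L : Type} [Field K] [NumberField K] [Field L] [NumberField L] [Algebra K L]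
  {C : Cub K L} {w : Pl L} {Γ : Matrix (Fin 2) (Fin 2) L}

theorem Rc.s (h : ∀ x, av w (C.σ x) = av w x) (hΓ : C.s Γ = Γ) {r : ℝ}
    {A : Matrix (Fin 2) (Fin 2) L} (hA : Rc w Γ r A) : Rc w Γ r (C.s A) := by
  obtain ⟨a, b, ha, hb, rfl⟩ := hA
  refine ⟨C.σ a, C.σ b, by rwa [h], by rwa [h], ?_⟩
  rw [map_add, C.s_smul, C.s_smul, map_one, hΓ]

theorem Rc.res (h : ∀ x, av w (C.σ x) = av w x) (hΓ : C.s Γ = Γ) (ht : av w Γ.trace ≤ 1)
    (hd : av w Γ.det ≤ 1) {B : ℝ} (hB : 1 ≤ B) {A : Matrix (Fin 2) (Fin 2) L}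
    (hA : Rc w Γ B A) {c : L} (hc : av w c ≤ 1) : Rc w Γ (B * B) (res C A c) := by
  have hBB : B ≤ B * B := by nlinarith
  have h1 : 1 ≤ B * B := hB.trans hBB
  have e1 : Rc w Γ (B * B) (c • (1 : Matrix (Fin 2) (Fin 2) L)) := by
    have := (Rc.one (w := w) (Γ := Γ)).smul hc
    exact this.mono (by linarith)
  have e2 : Rc w Γ (B * B) (C.σ c • A) := by
    have := hA.smul (s := 1) (c := C.σ c) (by rw [h]; exact hc)
    exact this.mono (by linarith)
  have e3 : Rc w Γ (B * B) (C.σ (C.σ c) • (A * C.s A)) := by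
    have := (hA.mul ht hd (hA.s h hΓ)).smul (s := 1) (c := C.σ (C.σ c)) (by rw [h, h]; exact hc)
    exact this.mono (by linarith)
  exact (e1.add e2).add e3

end

end Fermat.LT
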