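import Fermat.Agent.LT.Geo.Match
import Fermat.Agent.LT.CArch.Compose
import Fermat.Agent.LT.A.Arch
import Fermat.Agent.LT.B.PoincareSeries

/-!
# Point pair invariants on `H3` and their compositions

* `PPI a`: `a` is a continuous point pair invariant of compact support;
* `PPI.symm`, `PPI.acomp`, `acomp_comm`, `acomp_assoc`;
* `lcomp` : the composition for `ℝ≥0∞`-valued kernels; `enorm` version of `acomp`.
-/

set_option autoImplicit false
set_option linter.unusedSectionVars false

open MeasureTheory Matrix Complex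
open scoped ENNReal

namespace Fermat.LT

open Fermat.Agent.LT.CArch (pt exists_normal_form)
open Fermat.LT.GeoDatum (acomp)

/-- Two points of `H3` can be swapped by an isometry. -/
theorem H3.exists_swap (P Q : H3) : ∃ g : GL (Fin 2) ℂ, g • P = Q ∧ g • Q = P := by
  obtain ⟨g, t, ht, -, h1, h2⟩ := exists_normal_form P Q
  have ht0 : (t : ℂ) ≠ 0 := by exact_mod_cast ht.ne'
  let W : GL (Fin 2) ℂ := Matrix.GeneralLinearGroup.mkOfDetNeZero !![0, (t : ℂ); 1, 0] (by
    rw [Matrix.det_fin_two_of]
    simpa using ht0)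
  have h00 : W 0 0 = 0 := rfl
  have h01 : W 0 1 = t := rfl
  have h10 : W 1 0 = 1 := rfl
  have h11 : W 1 1 = 0 := rfl
  have hdet : ‖(W : Matrix (Fin 2) (Fin 2) ℂ).det‖ = t := by
    rw [Matrix.det_fin_two, h00, h01, h10, h11]
    simp [abs_of_pos ht]
  have key : ∀ (s : ℝ) (hs : 0 < s), W • pt s hs = pt (t / s) (div_pos ht hs) := by
    intro s hs
    have hden : H3.den W (pt s hs) = s ^ 2 := by
      rw [H3.den, h10, h11]
      simp [pt]
    refine H3.ext ?_ ?_
    · rw [H3.smul_z, h00, h01, h10, h11]
      simp [pt]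
    · rw [H3.smul_t, hden, hdet]
      simp only [pt, H3.t_mk]
      field_simp
  have k1 : W • pt 1 one_pos = pt t ht := by
    rw [key]
    congr 1
    exact div_one t
  have k2 : W • pt t ht = pt 1 one_pos := by
    rw [key]
    congr 1
    exact div_self ht.ne'
  refine ⟨g⁻¹ * W * g, ?_, ?_⟩
  · rw [mul_smul, mul_smul, h1, k1, ← h2, inv_smul_smul]
  · rw [mul_smul, mul_smul, h2, k2, ← h1, inv_smul_smul]

/-- Continuous point pair invariants with compact support. -/
structure PPI (a : H3 → H3 → ℂ) : Prop where
  inv : ∀ (g : GL (Fin 2) ℂ) P Q, a (g • P) (g • Q) = a P Q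
  cont : Continuous fun p : H3 × H3 => a p.1 p.2
  supp : ∃ R : ℝ, ∀ P Q, a P Q ≠ 0 → H3.ch P Q ≤ R

namespace PPI

variable {a b c : H3 → H3 → ℂ}

theorem symm (ha : PPI a) (P Q : H3) : a P Q = a Q P := by
  obtain ⟨g, h1, h2⟩ := H3.exists_swap P Q
  calc a P Q = a (g • Q) (g • P) := by rw [h1, h2]
    _ = a Q P := ha.inv g Q P

theorem cont_left (ha : PPI a) (Q : H3) : Continuous fun P => a P Q :=
  ha.cont.comp (continuous_id.prodMk continuous_const)

theorem cont_right (ha : PPI a) (P : H3) : Continuous fun Q => a P Q :=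
  ha.cont.comp (continuous_const.prodMk continuous_id)

theorem norm (ha : PPI a) : PPI fun P Q => ((‖a P Q‖ : ℝ) : ℂ) where
  inv g P Q := by rw [ha.inv]
  cont := Complex.continuous_ofReal.comp (continuous_norm.comp ha.cont)
  supp := by
    obtain ⟨R, hR⟩ := ha.supp
    exact ⟨R, fun P Q h => hR P Q (by simpa using h)⟩

/-- the integrand of a composition is continuous with compact support -/
theorem integrable_mul (ha : PPI a) {f : H3 → ℂ} (hf : Continuous f) (P : H3) :
    Integrable fun R => a P R * f R := by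
  obtain ⟨R₀, hR⟩ := ha.supp
  refine (((ha.cont_right P).mul hf).integrable_of_hasCompactSupport ?_)
  refine HasCompactSupport.intro (H3.isCompact_ball P R₀) fun Q hQ => ?_
  have : a P Q = 0 := by
    by_contra h
    exact hQ (hR P Q h)
  change a P Q * f Q = 0
  rw [this, zero_mul]

theorem integrable_acomp (ha : PPI a) (hb : PPI b) (P Q : H3) :
    Integrable fun R => a P R * b R Q := ha.integrable_mul (hb.cont_left Q) P

theorem acomp (ha : PPI a) (hb : PPI b) : PPI (acomp a b) where
  inv g P Q := by
    unfold GeoDatum.acomp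
    rw [← integral_smul_eq_self (fun R => a (g • P) R * b R (g • Q)) (g := g)]
    simp only [ha.inv, hb.inv]
  cont := by
    obtain ⟨R₁, hR₁⟩ := ha.supp
    rw [continuous_iff_continuousAt]
    rintro ⟨P₀, Q₀⟩
    set s : Set (H3 × H3) := {p | H3.ch P₀ p.1 < 2} with hs
    have hso : IsOpen s := by
      have h1 : Continuous fun p : H3 × H3 => H3.ch P₀ p.1 :=
        H3.continuous_ch.comp (continuous_const.prodMk continuous_fst)
      exact isOpen_lt h1 continuous_const
    have hmem : (P₀, Q₀) ∈ s := by
      change H3.ch P₀ P₀ < 2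
      rw [H3.ch_self]; norm_num
    have h := continuousOn_integral_of_compact_support (μ := (volume : Measure H3))
      (f := fun (p : H3 × H3) (R : H3) => a p.1 R * b R p.2) (s := s)
      (H3.isCompact_ball P₀ (4 * |R₁|)) ?_ ?_
    · exact h.continuousAt (hso.mem_nhds hmem)
    · apply Continuous.continuousOn
      refine Continuous.mul ?_ ?_
      · exact ha.cont.comp ((continuous_fst.comp continuous_fst).prodMk continuous_snd)
      · exact hb.cont.comp (continuous_snd.prodMk (continuous_snd.comp continuous_fst))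
    · intro p R hp hR
      have h0 : a p.1 R = 0 := by
        by_contra h0
        apply hR
        rw [H3.mem_ball]
        have e1 := hR₁ _ _ h0
        have e2 := Fermat.Agent.LT.B.ch_le_two_mul P₀ p.1 R
        have e3 : H3.ch P₀ p.1 < 2 := hp
        have e4 := H3.one_le_ch P₀ p.1
        have e5 := H3.one_le_ch p.1 R
        have e6 : H3.ch p.1 R ≤ |R₁| := e1.trans (le_abs_self _)
        nlinarith
      rw [h0, zero_mul]
  supp := by
    obtain ⟨R₁, hR₁⟩ := ha.supp
    obtain ⟨R₂, hR₂⟩ := hb.supp
    refine ⟨2 * (|R₁| * |R₂|), fun P Q h => ?_⟩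
    obtain ⟨R, hR⟩ : ∃ R, a P R * b R Q ≠ 0 := by
      by_contra hcon
      push Not at hcon
      apply h
      unfold GeoDatum.acomp
      simp [hcon]
    have e1 := (hR₁ _ _ (left_ne_zero_of_mul hR)).trans (le_abs_self _)
    have e2 := (hR₂ _ _ (right_ne_zero_of_mul hR)).trans (le_abs_self _)
    have e3 := Fermat.Agent.LT.B.ch_le_two_mul P R Q
    have e4 := H3.one_le_ch P R
    have e5 := H3.one_le_ch R Q
    have e6 : H3.ch P R * H3.ch R Q ≤ |R₁| * |R₂| :=
      mul_le_mul e1 e2 (by linarith) (abs_nonneg _)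
    linarith

end PPI

theorem acomp_comm {a b : H3 → H3 → ℂ} (ha : PPI a) (hb : PPI b) : acomp a b = acomp b a := by
  funext P Q
  obtain ⟨g, h1, h2⟩ := H3.exists_swap P Q
  unfold GeoDatum.acomp
  rw [← integral_smul_eq_self (fun R => a P R * b R Q) (g := g)]
  refine integral_congr_ae (Filter.Eventually.of_forall fun R => ?_)
  simp only
  have e1 : a P (g • R) = a R Q := by
    calc a P (g • R) = a (g • Q) (g • R) := by rw [h2]
      _ = a Q R := ha.inv g Q R
      _ = a R Q := ha.symm Q R
  have e2 : b (g • R) Q = b P R := by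
    calc b (g • R) Q = b (g • R) (g • P) := by rw [h1]
      _ = b R P := hb.inv g R P
      _ = b P R := hb.symm R P
  rw [e1, e2, mul_comm]

theorem acomp_assoc {a b c : H3 → H3 → ℂ} (ha : PPI a) (hb : PPI b) (hc : PPI c) :
    acomp (acomp a b) c = acomp a (acomp b c) := by
  funext P Q
  unfold GeoDatum.acomp
  have e1 : ∀ R, (∫ S, a P S * b S R) * c R Q = ∫ S, a P S * b S R * c R Q := fun R => by
    rw [← integral_mul_const]
  have e2 : ∀ S, a P S * (∫ R, b S R * c R Q) = ∫ R, a P S * (b S R * c R Q) := fun S => by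
    rw [← integral_const_mul]
  simp only [e1, e2]
  rw [integral_integral_swap]
  · simp only [mul_assoc]
  · obtain ⟨R₁, hR₁⟩ := ha.supp
    obtain ⟨R₂, hR₂⟩ := hc.supp
    have hcont : Continuous (Function.uncurry fun (R S : H3) => a P S * b S R * c R Q) := by
      refine Continuous.mul (Continuous.mul ?_ ?_) ?_
      · exact ha.cont.comp (continuous_const.prodMk continuous_snd)
      · exact hb.cont.comp (continuous_snd.prodMk continuous_fst)
      · exact hc.cont.comp (continuous_fst.prodMk continuous_const)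
    refine hcont.integrable_of_hasCompactSupport ?_
    refine HasCompactSupport.intro ((H3.isCompact_ball Q R₂).prod (H3.isCompact_ball P R₁))
      fun p hp => ?_
    rw [Set.mem_prod, not_and_or] at hp
    rcases hp with h | h
    · have : c p.1 Q = 0 := by
        by_contra h0
        apply h
        rw [H3.mem_ball, H3.ch_comm]
        exact hR₂ _ _ h0
      simp [Function.uncurry, this]
    · have : a P p.2 = 0 := by
        by_contra h0
        exact h (hR₁ _ _ h0)
      simp [Function.uncurry, this]

end Fermat.LT
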