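import Mathlib

/-!
# LT, geometric side: the measure theoretic core of the push-forward formula
-/

set_option autoImplicit false
set_option linter.unusedSectionVars false

open MeasureTheory Set
open scoped ENNReal

namespace Fermat.LT

section core

variable {XI H YL Y0 : Type*} [MeasurableSpace XI] [MeasurableSpace H]
  [MeasurableSpace YL] [MeasurableSingletonClass YL] [Countable YL]
  [MeasurableSpace Y0] [MeasurableSingletonClass Y0] [Countable Y0]
  {μ : Measure XI} {ν : Measure H} [SFinite μ] [SFinite ν]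

theorem lintegral_prod_count {f : XI × YL → ℝ≥0∞} (hf : Measurable f) :
    ∫⁻ p, f p ∂(μ.prod Measure.count) = ∑' y : YL, ∫⁻ x, f (x, y) ∂μ := by
  rw [lintegral_prod_symm' _ hf, lintegral_count]

theorem integral_prod_count {f : XI × YL → ℂ} (hf : Integrable f (μ.prod Measure.count)) :
    ∫ p, f p ∂(μ.prod Measure.count) = ∑' y : YL, ∫ x, f (x, y) ∂μ := by
  rw [integral_prod_symm _ hf, integral_countable hf.integral_prod_right]
  refine tsum_congr fun y => ?_
  simp [Measure.real]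

theorem summable_integral_prod_count {f : XI × YL → ℂ}
    (hf : Integrable f (μ.prod Measure.count)) : Summable fun y : YL => ∫ x, f (x, y) ∂μ := by
  have h := hf.integral_prod_right
  rw [integrable_count_iff] at h
  exact h.of_norm

/-- fibrewise summation, `ℝ≥0∞` version -/
theorem tsum_fiber (pY : YL → Y0) (F : YL → ℝ≥0∞) (J : Y0 → ℝ≥0∞) :
    ∑' y, F y * J (pY y) = ∑' z, (∑' y : {y // pY y = z}, F y.1) * J z := by
  rw [← (Equiv.sigmaFiberEquiv pY).tsum_eq, ENNReal.tsum_sigma']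
  refine tsum_congr fun z => ?_
  rw [← ENNReal.tsum_mul_right]
  refine tsum_congr fun y => ?_
  rw [Equiv.sigmaFiberEquiv_apply, y.2]

theorem core_push {a : XI → ℂ} {F : YL → ℂ} {pY : YL → Y0} {pj : XI → H} {A Aa : H → ℂ}
    {G : Y0 → ℂ} {Ga : Y0 → ℂ}
    (ha : Measurable a) (hpj : Measurable pj) (hAa : Measurable Aa)
    (hfin : ∀ z, {y | pY y = z ∧ F y ≠ 0}.Finite)
    (hsum : ∀ z, ∑ᶠ y ∈ {y | pY y = z ∧ F y ≠ 0}, F y = G z)
    (hsuma : ∀ z, ∑ᶠ y ∈ {y | pY y = z ∧ F y ≠ 0}, ((‖F y‖ : ℝ) : ℂ) = Ga z)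
    (harchl : ∀ ψ : H → ℝ≥0∞, Measurable ψ →
      ∫⁻ x, ‖a x‖ₑ * ψ (pj x) ∂μ = ∫⁻ P, ‖Aa P‖ₑ * ψ P ∂ν)
    (harch : ∀ ψ : H → ℂ, Measurable ψ → Integrable (fun P => Aa P * ψ P) ν →
      ∫ x, a x * ψ (pj x) ∂μ = ∫ P, A P * ψ P ∂ν)
    {Φ : H × Y0 → ℝ} (hΦ : Measurable Φ)
    (hint : Integrable (fun p : H × Y0 => Aa p.1 * Ga p.2 * (Φ p : ℂ)) (ν.prod Measure.count))
    (hint' : Integrable (fun p : H × Y0 => A p.1 * G p.2 * (Φ p : ℂ)) (ν.prod Measure.count)) :
    Integrable (fun p : XI × YL => a p.1 * F p.2 * (Φ (pj p.1, pY p.2) : ℂ))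
      (μ.prod Measure.count) ∧
    ∫ p : XI × YL, a p.1 * F p.2 * (Φ (pj p.1, pY p.2) : ℂ) ∂(μ.prod Measure.count) =
      ∫ p : H × Y0, A p.1 * G p.2 * (Φ p : ℂ) ∂(ν.prod Measure.count) := by
  have hGa : ∀ z, ‖Ga z‖ₑ = ∑' y : {y // pY y = z}, ‖F y.1‖ₑ := by
    intro z
    have hf := hfin z
    rw [← hsuma z, finsum_mem_eq_finite_toFinset_sum _ hf, ← Complex.ofReal_sum]
    have h1 : ‖((∑ y ∈ hf.toFinset, ‖F y‖ : ℝ) : ℂ)‖ₑ = ∑ y ∈ hf.toFinset, ‖F y‖ₑ := by
      rw [← ofReal_norm, Complex.norm_real, Real.norm_of_nonneg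
        (Finset.sum_nonneg fun _ _ => norm_nonneg _), ENNReal.ofReal_sum_of_nonneg
        (fun _ _ => norm_nonneg _)]
      exact Finset.sum_congr rfl fun y _ => ofReal_norm _
    change _ = ∑' y : ({y | pY y = z} : Set YL), ‖F y.1‖ₑ
    rw [h1, tsum_subtype {y | pY y = z} (fun y => ‖F y‖ₑ), ← tsum_subtype_eq_of_support_subset
      (s := (hf.toFinset : Set YL))]
    · rw [Finset.tsum_subtype' hf.toFinset ({y | pY y = z}.indicator fun y => ‖F y‖ₑ)]
      refine Finset.sum_congr rfl fun y hy => ?_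
      rw [Set.Finite.mem_toFinset] at hy
      rw [indicator_of_mem (show y ∈ {y | pY y = z} from hy.1)]
    · intro y hy
      rw [Function.mem_support] at hy
      by_cases h : y ∈ {y | pY y = z}
      · rw [indicator_of_mem h] at hy
        rw [Finset.mem_coe, Set.Finite.mem_toFinset]
        exact ⟨h, fun h0 => hy (by rw [h0]; simp)⟩
      · rw [indicator_of_notMem h] at hy
        exact absurd rfl hy
  have hmeas : Measurable (fun p : XI × YL => a p.1 * F p.2 * (Φ (pj p.1, pY p.2) : ℂ)) := by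
    have m1 : Measurable F := measurable_of_countable F
    have m2 : Measurable pY := measurable_of_countable pY
    exact ((ha.comp measurable_fst).mul (m1.comp measurable_snd)).mul
      (Complex.measurable_ofReal.comp (hΦ.comp
        ((hpj.comp measurable_fst).prodMk (m2.comp measurable_snd))))
  have hmeasF : Measurable (fun p : H × Y0 => Aa p.1 * Ga p.2 * (Φ p : ℂ)) := by
    have m1 : Measurable Ga := measurable_of_countable Ga
    exact ((hAa.comp measurable_fst).mul (m1.comp measurable_snd)).mul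
      (Complex.measurable_ofReal.comp hΦ)
  have hΦz : ∀ z, Measurable fun P : H => Φ (P, z) := fun z => hΦ.comp measurable_prodMk_right
  -- the norm of the integrand
  have hl : ∫⁻ p : XI × YL, ‖a p.1 * F p.2 * (Φ (pj p.1, pY p.2) : ℂ)‖ₑ ∂(μ.prod Measure.count) =
      ∫⁻ p : H × Y0, ‖Aa p.1 * Ga p.2 * (Φ p : ℂ)‖ₑ ∂(ν.prod Measure.count) := by
    rw [lintegral_prod_count hmeas.enorm, lintegral_prod_count hmeasF.enorm]
    have e1 : ∀ y, ∫⁻ x, ‖a x * F y * (Φ (pj x, pY y) : ℂ)‖ₑ ∂μ =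
        ‖F y‖ₑ * ∫⁻ P, ‖Aa P‖ₑ * ‖(Φ (P, pY y) : ℂ)‖ₑ ∂ν := by
      intro y
      rw [← harchl (fun P => ‖(Φ (P, pY y) : ℂ)‖ₑ)
        (Complex.measurable_ofReal.comp (hΦz _)).enorm, ← lintegral_const_mul]
      · refine lintegral_congr fun x => ?_
        rw [enorm_mul, enorm_mul]; ring
      · exact ha.enorm.mul (Complex.measurable_ofReal.comp ((hΦz _).comp hpj)).enorm
    have e2 : ∀ z, ∫⁻ P, ‖Aa P * Ga z * (Φ (P, z) : ℂ)‖ₑ ∂ν =
        ‖Ga z‖ₑ * ∫⁻ P, ‖Aa P‖ₑ * ‖(Φ (P, z) : ℂ)‖ₑ ∂ν := by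
      intro z
      rw [← lintegral_const_mul]
      · refine lintegral_congr fun x => ?_
        rw [enorm_mul, enorm_mul]; ring
      · exact hAa.enorm.mul (Complex.measurable_ofReal.comp (hΦz _)).enorm
    simp only
    simp_rw [e1, e2, hGa]
    exact tsum_fiber pY (fun y => ‖F y‖ₑ) (fun z => ∫⁻ P, ‖Aa P‖ₑ * ‖(Φ (P, z) : ℂ)‖ₑ ∂ν)
  have hI : Integrable (fun p : XI × YL => a p.1 * F p.2 * (Φ (pj p.1, pY p.2) : ℂ))
      (μ.prod Measure.count) := by
    refine ⟨hmeas.aestronglyMeasurable, ?_⟩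
    unfold HasFiniteIntegral
    rw [hl]
    exact hint.2
  refine ⟨hI, ?_⟩
  rw [integral_prod_count hI, integral_prod_count hint']
  -- sections
  have hsec : ∀ z, Ga z ≠ 0 → Integrable (fun P => Aa P * (Φ (P, z) : ℂ)) ν := by
    intro z hz
    have h1 : Integrable (fun P => Aa P * Ga z * (Φ (P, z) : ℂ)) ν := by
      refine ⟨(hmeasF.comp measurable_prodMk_right).aestronglyMeasurable, ?_⟩
      unfold HasFiniteIntegral
      have h2 := hint.2
      unfold HasFiniteIntegral at h2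
      rw [lintegral_prod_count hmeasF.enorm] at h2
      exact lt_of_le_of_lt (ENNReal.le_tsum (f := fun z =>
        ∫⁻ P, ‖Aa P * Ga z * (Φ (P, z) : ℂ)‖ₑ ∂ν) z) h2
    have h3 := h1.const_mul (Ga z)⁻¹
    refine h3.congr (Filter.Eventually.of_forall fun P => ?_)
    simp only
    field_simp
  have hGaz : ∀ y, F y ≠ 0 → Ga (pY y) ≠ 0 := by
    intro y hy h0
    have h1 := hGa (pY y)
    rw [h0, enorm_zero] at h1
    have h2 := (ENNReal.tsum_eq_zero.mp h1.symm) ⟨y, rfl⟩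
    simp at h2
    exact hy h2
  have e1 : ∀ y, ∫ x, a x * F y * (Φ (pj x, pY y) : ℂ) ∂μ =
      F y * ∫ P, A P * (Φ (P, pY y) : ℂ) ∂ν := by
    intro y
    by_cases hy : F y = 0
    · simp [hy]
    · rw [← harch (fun P => (Φ (P, pY y) : ℂ)) (Complex.measurable_ofReal.comp (hΦz _))
        (hsec _ (hGaz y hy)), ← integral_const_mul]
      congr 1
      ext x
      ring
  have e2 : ∀ z, ∫ P, A P * G z * (Φ (P, z) : ℂ) ∂ν = G z * ∫ P, A P * (Φ (P, z) : ℂ) ∂ν := by
    intro z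
    rw [← integral_const_mul]
    congr 1
    ext x
    ring
  have hS := summable_integral_prod_count hI
  simp only at hS ⊢
  simp_rw [e1] at hS ⊢
  simp_rw [e2]
  have hS' : Summable fun p : Σ z, {y // pY y = z} =>
      F p.2.1 * ∫ P, A P * (Φ (P, pY p.2.1) : ℂ) ∂ν :=
    (Equiv.sigmaFiberEquiv pY).summable_iff.mpr hS
  rw [← (Equiv.sigmaFiberEquiv pY).tsum_eq]
  change ∑' p : Σ z, {y // pY y = z}, F p.2.1 * ∫ P, A P * (Φ (P, pY p.2.1) : ℂ) ∂ν = _
  rw [hS'.tsum_sigma]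
  refine tsum_congr fun z => ?_
  have h1 : ∀ y : {y // pY y = z}, F y.1 * ∫ P, A P * (Φ (P, pY y.1) : ℂ) ∂ν =
      F y.1 * ∫ P, A P * (Φ (P, z) : ℂ) ∂ν := by
    rintro ⟨y, rfl⟩; rfl
  simp_rw [h1]
  rw [tsum_mul_right]
  congr 1
  change ∑' y : ({y | pY y = z} : Set YL), F y.1 = _
  rw [← hsum z, finsum_mem_eq_finite_toFinset_sum _ (hfin z),
    tsum_subtype {y | pY y = z} (fun y => F y), tsum_eq_sum (s := (hfin z).toFinset)]
  · refine Finset.sum_congr rfl fun y hy => ?_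
    rw [Set.Finite.mem_toFinset] at hy
    rw [indicator_of_mem (show y ∈ {y | pY y = z} from hy.1)]
  · intro y hy
    by_cases h : y ∈ {y | pY y = z}
    · rw [indicator_of_mem h]
      by_contra h0
      exact hy ((Set.Finite.mem_toFinset _).mpr ⟨h, h0⟩)
    · rw [indicator_of_notMem h]

end core

end Fermat.LT
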