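import Fermat.Agent.LT.Geo.Twist
import Fermat.Agent.LT.Geo.Match
import Fermat.Agent.LT.Geo.AvPl

/-!
# LT, geometric side: local matching at a totally ramified place (E3)
-/

set_option autoImplicit false
set_option linter.unusedSectionVars false
set_option linter.unusedVariables false

open NumberField IsDedekindDomain Matrix
open Fermat.Agent.LT.D

namespace Fermat.LT.Tr

section ram

variable {K L : Type} [Field K] [NumberField K] [Field L] [NumberField L] [Algebra K L]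
  {C : Cub K L} {v : Pl K} {w : Pl L}

/-- residue fields agree -/
theorem _root_.Fermat.LT.Ram.exists_res (h : Ram C v w) (x : 𝓞 L) :
    ∃ a : 𝓞 K, x - algebraMap (𝓞 K) (𝓞 L) a ∈ w.asIdeal := by
  have hle : v.asIdeal ≤ w.asIdeal.comap (algebraMap (𝓞 K) (𝓞 L)) := fun a ha =>
    (h.above a).mp ha
  let φ : 𝓞 K ⧸ v.asIdeal →+* 𝓞 L ⧸ w.asIdeal :=
    Ideal.quotientMap w.asIdeal (algebraMap (𝓞 K) (𝓞 L)) hle
  have hφ : Function.Injective φ := by
    rw [injective_iff_map_eq_zero]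
    intro a ha
    obtain ⟨a, rfl⟩ := Ideal.Quotient.mk_surjective a
    rw [Ideal.quotientMap_mk, Ideal.Quotient.eq_zero_iff_mem] at ha
    rw [Ideal.Quotient.eq_zero_iff_mem]
    exact (h.above a).mpr ha
  have hcard : Nat.card (𝓞 K ⧸ v.asIdeal) = Nat.card (𝓞 L ⧸ w.asIdeal) := by
    have h1 := h.q_eq
    unfold qv at h1
    have h2 : Ideal.absNorm w.asIdeal = Ideal.absNorm v.asIdeal := by exact_mod_cast h1
    rw [Ideal.absNorm_apply, Ideal.absNorm_apply, Submodule.cardQuot_apply,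
      Submodule.cardQuot_apply] at h2
    exact h2.symm
  have hfin : Finite (𝓞 L ⧸ w.asIdeal) := by
    apply Nat.finite_of_card_ne_zero
    have h1 := one_lt_qv w
    unfold qv at h1
    rw [Ideal.absNorm_apply, Submodule.cardQuot_apply] at h1
    intro h0
    rw [h0] at h1
    norm_num at h1
  have hsurj : Function.Surjective φ := (hφ.bijective_of_nat_card_le hcard.ge).2
  obtain ⟨a, ha⟩ := hsurj (Ideal.Quotient.mk _ x)
  obtain ⟨a, rfl⟩ := Ideal.Quotient.mk_surjective a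
  rw [Ideal.quotientMap_mk, eq_comm, Ideal.Quotient.eq] at ha
  exact ⟨a, ha⟩

theorem _root_.Fermat.LT.Ram.rtriv (h : Ram C v w) : RTriv w (C.σ : L ≃+* L) where
  av_eq x := av_σ_of_fix C h.fix x
  res x hx := by
    obtain ⟨a, ha⟩ := E.exists_int_approx w hx (qinv_pos w)
    obtain ⟨b, hb⟩ := h.exists_res a
    have h1 : av w (x - algebraMap (𝓞 L) L a) < 1 := ha.trans_lt (qinv_lt_one w)
    have h2 : av w (algebraMap (𝓞 L) L (a - algebraMap (𝓞 K) (𝓞 L) b)) < 1 :=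
      (E.av_int_lt_one_iff w _).mpr hb
    have h3 : av w (x - algebraMap K L (algebraMap (𝓞 K) K b)) < 1 := by
      have e : x - algebraMap K L (algebraMap (𝓞 K) K b) = (x - algebraMap (𝓞 L) L a) +
          algebraMap (𝓞 L) L (a - algebraMap (𝓞 K) (𝓞 L) b) := by
        rw [map_sub]
        have : algebraMap (𝓞 L) L (algebraMap (𝓞 K) (𝓞 L) b) =
          algebraMap K L (algebraMap (𝓞 K) K b) := rfl
        rw [this]; ring
      rw [e]
      exact av_add_lt w h1 h2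
    set u := x - algebraMap K L (algebraMap (𝓞 K) K b) with hu
    have h4 : av w (C.σ u) < 1 := by rw [av_σ_of_fix C h.fix]; exact h3
    have e : (C.σ : L ≃+* L) x - x = C.σ u - u := by
      rw [hu, map_sub, AlgEquiv.commutes]
      change C.σ x - x = _
      ring
    rw [e]
    exact av_sub_lt w h4 h3

theorem fG_σ (g : G2 L) : fG (C.σ : L ≃+* L) g = C.S g := rfl

theorem _root_.Fermat.LT.Ram.nm_inc (h : Ram C v w) (A : Matrix (Fin 2) (Fin 2) K) :
    nm w (Cub.inc (L := L) A) = nm v A ^ 3 := by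
  apply le_antisymm
  · rw [nm_le_iff]
    intro i j
    rw [Cub.inc_apply, h.av_eq]
    exact pow_le_pow_left₀ ((av v).nonneg _) (av_le_nm v A i j) 3
  · obtain ⟨i, j, hij⟩ := exists_entry v A
    rw [hij, ← h.av_eq, ← Cub.inc_apply]
    exact av_le_nm w _ i j

theorem _root_.Fermat.LT.Ram.dd_Inc (h : Ram C v w) (g : G2 K) : dd w (Cub.Inc (L := L) g) = dd v g ^ 3 := by
  unfold dd
  rw [← map_inv, Cub.coe_Inc, Cub.coe_Inc, h.nm_inc, h.nm_inc, mul_pow]

/-- the embedding of vertices -/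
noncomputable def iot (h : Ram C v w) : G2 K ⧸ stdH v → G2 L ⧸ stdH w :=
  Quotient.map' Cub.Inc (by
    intro a b hab
    rw [QuotientGroup.leftRel_apply] at hab ⊢
    rw [← map_inv, ← map_mul, ← dd_eq_one_iff, h.dd_Inc, (dd_eq_one_iff v _).mpr hab, one_pow])

theorem iot_mk (h : Ram C v w) (g : G2 K) :
    iot h (g : G2 K ⧸ stdH v) = ((Cub.Inc g : G2 L) : G2 L ⧸ stdH w) := rfl

theorem iot_smul (h : Ram C v w) (t : G2 K) (z : G2 K ⧸ stdH v) :
    iot h (t • z) = Cub.Inc (L := L) t • iot h z := by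
  obtain ⟨g, rfl⟩ := QuotientGroup.mk_surjective z
  change ((Cub.Inc (t * g) : G2 L) : G2 L ⧸ stdH w) = ((Cub.Inc t * Cub.Inc g : G2 L) : G2 L ⧸ stdH w)
  rw [map_mul]

variable {γ : G2 K} {δ : G2 L}

/-- translation by `γ` -/
noncomputable abbrev TK (v : Pl K) (γ : G2 K) : Equiv.Perm (G2 K ⧸ stdH v) := twp (RTriv.refl v) γ

/-- twisted translation by `δ` -/
noncomputable abbrev TL (h : Ram C v w) (δ : G2 L) : Equiv.Perm (G2 L ⧸ stdH w) := twp h.rtriv δ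

theorem TK_apply (z : G2 K ⧸ stdH v) : TK v γ z = γ • z := by
  obtain ⟨g, rfl⟩ := QuotientGroup.mk_surjective z
  rfl

theorem TL_mk (h : Ram C v w) (g : G2 L) :
    TL h δ (g : G2 L ⧸ stdH w) = ((δ * C.S g : G2 L) : G2 L ⧸ stdH w) := rfl

theorem TK_pow (z : G2 K ⧸ stdH v) (k : ℤ) : (TK v γ ^ k) z = γ ^ k • z := by
  have h : TK v γ = MulAction.toPerm γ := by
    ext z; exact TK_apply z
  rw [h, ← MulAction.toPermHom_apply, ← map_zpow]
  rfl

theorem TL_cube (h : Ram C v w) (hc : GeoDatum.Corr C γ δ) (y : G2 L ⧸ stdH w) :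
    (TL h δ ^ 3) y = Cub.Inc (L := L) γ • y := by
  obtain ⟨g, rfl⟩ := QuotientGroup.mk_surjective y
  obtain ⟨-, -, c, hN⟩ := hc
  change ((δ * C.S (δ * C.S (δ * C.S g)) : G2 L) : G2 L ⧸ stdH w) =
    ((Cub.Inc γ * g : G2 L) : G2 L ⧸ stdH w)
  have e : δ * C.S (δ * C.S (δ * C.S g)) = C.N δ * g := by
    simp only [map_mul, Cub.S_cube, Cub.N]
    group
  rw [e, hN]
  have e2 : Cub.sc c * Cub.Inc γ * g = Cub.Inc γ * g * sc c := by
    rw [mul_assoc]
    exact sc_comm c _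
  rw [e2, mk_mul_sc]

theorem TL_Inc (h : Ram C v w) (hc : GeoDatum.Corr C γ δ) {t : G2 K} (ht : t * γ = γ * t)
    (y : G2 L ⧸ stdH w) : TL h δ (Cub.Inc (L := L) t • y) = Cub.Inc (L := L) t • TL h δ y := by
  obtain ⟨g, rfl⟩ := QuotientGroup.mk_surjective y
  obtain ⟨hd, hZ, -⟩ := hc
  change ((δ * C.S (Cub.Inc t * g) : G2 L) : G2 L ⧸ stdH w) =
    ((Cub.Inc t * (δ * C.S g) : G2 L) : G2 L ⧸ stdH w)
  have h2 : Cub.Inc (L := L) t ∈ Cub.Z (L := L) γ := by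
    rw [Cub.mem_Z, ← map_mul, ht, map_mul]
  have h3 := Cub.Z_comm hd.not_isSc hZ h2
  rw [map_mul, Cub.S_Inc, ← mul_assoc, h3, mul_assoc]

/-- the axis in `L` -/
def OmL (h : Ram C v w) (δ : G2 L) (y : G2 L ⧸ stdH w) : Prop := dq w y (TL h δ y) = qv w

/-- the axis in `K` -/
def OmK (v : Pl K) (γ : G2 K) (z : G2 K ⧸ stdH v) : Prop := dq v z (TK v γ z) = qv v

theorem omL_mk (h : Ram C v w) (g : G2 L) :
    OmL h δ (g : G2 L ⧸ stdH w) ↔ dd w (g⁻¹ * δ * C.S g) = qv w := by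
  unfold OmL
  rw [TL_mk, dq_mk, mul_assoc]

theorem omK_mk (g : G2 K) : OmK v γ (g : G2 K ⧸ stdH v) ↔ dd v (g⁻¹ * γ * g) = qv v := by
  unfold OmK
  rw [TK_apply]
  change dd v (g⁻¹ * (γ * g)) = _ ↔ _
  rw [mul_assoc]

theorem omL_TL (h : Ram C v w) (y : G2 L ⧸ stdH w) : OmL h δ (TL h δ y) ↔ OmL h δ y := by
  unfold OmL
  rw [dq_twp]

theorem omL_zpow (h : Ram C v w) (y : G2 L ⧸ stdH w) (k : ℤ) :
    OmL h δ ((TL h δ ^ k) y) ↔ OmL h δ y := by
  induction k using Int.induction_on with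
  | zero => rw [zpow_zero]; rfl
  | succ n ih =>
    rw [add_comm, _root_.zpow_add, zpow_one, Equiv.Perm.mul_apply, omL_TL, ih]
  | pred n ih =>
    rw [← omL_TL, ← Equiv.Perm.mul_apply, ← _root_.zpow_one_add, add_sub_cancel, ih]

theorem omK_smul {t : G2 K} (ht : t * γ = γ * t) (z : G2 K ⧸ stdH v) :
    OmK v γ (t • z) ↔ OmK v γ z := by
  unfold OmK
  rw [TK_apply, TK_apply, ← mul_smul, ← ht, mul_smul, dq_smul]

theorem omL_smul (h : Ram C v w) (hc : GeoDatum.Corr C γ δ) {t : G2 K} (ht : t * γ = γ * t)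
    (y : G2 L ⧸ stdH w) : OmL h δ (Cub.Inc (L := L) t • y) ↔ OmL h δ y := by
  unfold OmL
  rw [TL_Inc h hc ht, dq_smul]

theorem omK_orbit {z₀ z : G2 K ⧸ stdH v} (h0 : OmK v γ z₀) (h1 : OmK v γ z) :
    ∃ k : ℤ, z = γ ^ k • z₀ := by
  obtain ⟨k, hk⟩ := orbit (RTriv.refl v) h0 z h1
  exact ⟨k, by rw [hk, TK_pow]⟩

theorem omL_orbit (h : Ram C v w) {y₀ y : G2 L ⧸ stdH w} (h0 : OmL h δ y₀) (h1 : OmL h δ y) :
    ∃ k : ℤ, y = (TL h δ ^ k) y₀ := orbit h.rtriv h0 y h1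

/-- `N (y⁻¹ δ σ(y))` is proportional to a conjugate of `γ`. -/
theorem corr_N (hc : GeoDatum.Corr C γ δ) (g : G2 L) :
    ∃ c : Lˣ, C.N (g⁻¹ * δ * C.S g) = sc c * (g⁻¹ * Cub.Inc γ * g) ∧
      C.N δ = sc c * Cub.Inc γ := by
  obtain ⟨-, -, c, hN⟩ := hc
  refine ⟨c, ?_, hN⟩
  rw [Cub.N_tw, hN]
  have : ∀ x : G2 L, Cub.sc c * x = x * Cub.sc c := fun x => sc_comm c x
  change g⁻¹ * (Cub.sc c * Cub.Inc γ) * g = Cub.sc c * (g⁻¹ * Cub.Inc γ * g)
  rw [← mul_assoc, ← this g⁻¹]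
  group

/-- the values of `det` -/
theorem corr_det (h : Ram C v w) (hc : GeoDatum.Corr C γ δ) :
    ∃ c : Lˣ, C.N δ = sc c * Cub.Inc γ ∧
      av w δ.1.det ^ 3 = av w (c : L) ^ 2 * av v γ.1.det ^ 3 := by
  obtain ⟨c, -, hN⟩ := corr_N hc 1
  refine ⟨c, hN, ?_⟩
  have h1 := congrArg (fun g : G2 L => av w g.1.det) hN
  rw [Cub.coe_N, Cub.det_nm, map_mul, map_mul, av_σ_of_fix C h.fix, av_σ_of_fix C h.fix,
    av_σ_of_fix C h.fix, sc_mul_val, Matrix.det_smul, Fintype.card_fin, map_mul, map_pow,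
    Cub.coe_Inc, Cub.det_inc, h.av_eq] at h1
  rw [← h1]; ring

theorem av_v_cube (h : Ram C v w) (γ : G2 K) :
    av w (Cub.Inc (L := L) γ).1.det = av v γ.1.det ^ 3 ∧
      av w (Cub.Inc (L := L) γ).1.trace = av v γ.1.trace ^ 3 := by
  rw [Cub.coe_Inc, Cub.det_inc, Cub.trace_inc, h.av_eq, h.av_eq]
  exact ⟨rfl, rfl⟩

/-- **nonemptiness, `L ⇒ K`** -/
theorem exists_omK (h : Ram C v w) (hc : GeoDatum.Corr C γ δ) {y : G2 L ⧸ stdH w}
    (hy : OmL h δ y) : ∃ z : G2 K ⧸ stdH v, OmK v γ z := by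
  obtain ⟨g, rfl⟩ := QuotientGroup.mk_surjective y
  rw [omL_mk] at hy
  obtain ⟨c, hN, -⟩ := corr_N hc g
  set s := g⁻¹ * δ * C.S g with hs
  obtain ⟨b, hb⟩ := exists_nm_eq w s
  have hq := qv_pos w
  have hqv : qv w = qv v := h.q_eq
  have hdet : av w s.1.det = (qv w)⁻¹ * av w (b : L) ^ 2 := by
    rw [dd_eq, hb] at hy
    have h1 := av_det_pos' w s
    rw [div_eq_iff h1.ne'] at hy
    rw [hy]; field_simp
  -- determinants
  have h1 := congrArg (fun g : G2 L => av w g.1.det) hN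
  rw [Cub.coe_N, Cub.det_nm, map_mul, map_mul, av_σ_of_fix C h.fix, av_σ_of_fix C h.fix,
    av_σ_of_fix C h.fix, sc_mul_val, Matrix.det_smul, Fintype.card_fin, map_mul, map_pow,
    det_conj, (av_v_cube h γ).1, hdet] at h1
  -- traces
  have h2 : av w (C.N s).1.trace ≤ av w (b : L) ^ 3 := by
    refine (av_trace_le w _).trans ?_
    have e : (C.N s).1 = s.1 * (C.S s).1 * (C.S (C.S s)).1 := rfl
    rw [e]
    have h3 : nm w (C.S s).1 = nm w s.1 := h.rtriv.nm_fG s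
    have h4 : nm w (C.S (C.S s)).1 = nm w s.1 := by rw [← h3]; exact h.rtriv.nm_fG (C.S s)
    calc nm w (s.1 * (C.S s).1 * (C.S (C.S s)).1)
        ≤ nm w (s.1 * (C.S s).1) * nm w (C.S (C.S s)).1 := nm_mul_le w _ _
      _ ≤ (nm w s.1 * nm w (C.S s).1) * nm w (C.S (C.S s)).1 :=
          mul_le_mul_of_nonneg_right (nm_mul_le w _ _) (nm_nonneg w _)
      _ = av w (b : L) ^ 3 := by rw [h3, h4, hb]; ring
  rw [hN, sc_mul_val, Matrix.trace_smul, smul_eq_mul, map_mul, trace_conj, (av_v_cube h γ).2] at h2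
  -- exponents
  obtain ⟨m, hm⟩ := av_zpow w b.ne_zero
  obtain ⟨n, hn⟩ := av_zpow w c.ne_zero
  obtain ⟨k, hk⟩ := av_zpow v (det_ne γ)
  rw [hm, hn, hk, hqv] at h1
  have h5 : qv v ^ (2 * n + 3 * k) = qv v ^ (6 * m - 3) := by
    have hv0 := (qv_pos v).ne'
    have e1 : qv v ^ (2 * n + 3 * k) = (qv v ^ n) ^ 2 * (qv v ^ k) ^ 3 := by
      rw [zpow_add₀ hv0, mul_comm 2 n, mul_comm 3 k, _root_.zpow_mul, _root_.zpow_mul]
      norm_cast
    have e2 : qv v ^ (6 * m - 3) = (qv v)⁻¹ * (qv v ^ m) ^ 2 * ((qv v)⁻¹ * (qv v ^ m) ^ 2) *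
        ((qv v)⁻¹ * (qv v ^ m) ^ 2) := by
      have : (6 * m - 3 : ℤ) = (-1 + m * 2) + (-1 + m * 2) + (-1 + m * 2) := by ring
      rw [this, zpow_add₀ hv0, zpow_add₀ hv0, zpow_add₀ hv0, _root_.zpow_neg_one, _root_.zpow_mul]
      norm_cast
    rw [e1, e2]
    exact h1.symm
  have h6 := qzpow_inj v h5
  obtain ⟨n', hn'⟩ : ∃ n', n = 3 * n' := ⟨n - 2 * m + 1 + k, by omega⟩
  have hk' : k = -1 + (m - n') * 2 := by omega
  obtain ⟨c₁, hc₁⟩ := exists_av_zpow v (m - n')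
  have hv0 := (qv_pos v).ne'
  obtain ⟨z, hz, -⟩ := exists_axis v hc.1.not_isSc c₁ (by
    rw [hk, hk', hc₁, zpow_add₀ hv0, _root_.zpow_neg_one, _root_.zpow_mul]
    norm_cast) (by
    have h7 : av v γ.1.trace ^ 3 ≤ (qv v ^ (m - n')) ^ 3 := by
      rw [hn, hm, hqv, hn'] at h2
      have e1 : qv v ^ (3 * n') = (qv v ^ n') ^ 3 := by
        rw [mul_comm 3 n', _root_.zpow_mul]; norm_cast
      rw [e1, ← mul_pow] at h2
      have h8 : qv v ^ n' * av v γ.1.trace ≤ qv v ^ m :=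
        le_of_pow_le_pow_left₀ (by norm_num) (qzpow_pos v m).le h2
      have h9 : av v γ.1.trace ≤ qv v ^ (m - n') := by
        rw [zpow_sub₀ hv0, le_div_iff₀ (qzpow_pos v n'), mul_comm]
        exact h8
      exact pow_le_pow_left₀ ((av v).nonneg _) h9 3
    rw [hc₁]
    exact le_of_pow_le_pow_left₀ (by norm_num) (qzpow_pos v _).le h7)
  exact ⟨(z : G2 K ⧸ stdH v), (omK_mk z).mpr hz⟩

/-- the hyperbolic case: normal form -/
theorem hyp_form (h : Ram C v w) {A : G2 K} {s : G2 L} (hA : nm v A.1 = 1)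
    (hdA : av v A.1.det = (qv v)⁻¹) (htA : av v A.1.trace = 1) (hs : nm w s.1 = 1)
    (hcomm : s * Cub.Inc (L := L) A = Cub.Inc (L := L) A * s) {c : Lˣ}
    (hN : C.N s = sc c * Cub.Inc A) :
    ∃ α β : L, s.1 = α • (1 : Matrix (Fin 2) (Fin 2) L) + β • Cub.inc A.1 ∧ av w α ≤ 1 ∧
      av w β ≤ 1 ∧ av w (c : L) = 1 ∧ av w s.1.det = (qv w)⁻¹ := by
  have hq := qv_pos w
  have hqi := qinv_lt_one w
  have hqi0 := qinv_pos w
  have hqv : qv w = qv v := h.q_eq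
  have hdA' : av w (Cub.Inc (L := L) A).1.det = (qv w)⁻¹ ^ 3 := by
    rw [(av_v_cube h A).1, hdA, hqv]
  have htA' : av w (Cub.Inc (L := L) A).1.trace = 1 := by
    rw [(av_v_cube h A).2, htA, one_pow]
  have hnA' : nm w (Cub.Inc (L := L) A).1 = 1 := by
    rw [Cub.coe_Inc, h.nm_inc, hA, one_pow]
  -- the norm of `c`
  have hNle : nm w (C.N s).1 ≤ 1 := by
    have e : (C.N s).1 = s.1 * (C.S s).1 * (C.S (C.S s)).1 := rfl
    rw [e]
    have h3 : nm w (C.S s).1 = nm w s.1 := h.rtriv.nm_fG s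
    have h4 : nm w (C.S (C.S s)).1 = nm w s.1 := by rw [← h3]; exact h.rtriv.nm_fG (C.S s)
    calc nm w (s.1 * (C.S s).1 * (C.S (C.S s)).1)
        ≤ nm w (s.1 * (C.S s).1) * nm w (C.S (C.S s)).1 := nm_mul_le w _ _
      _ ≤ (nm w s.1 * nm w (C.S s).1) * nm w (C.S (C.S s)).1 :=
          mul_le_mul_of_nonneg_right (nm_mul_le w _ _) (nm_nonneg w _)
      _ = 1 := by rw [h3, h4, hs]; ring
  have hNc : nm w (C.N s).1 = av w (c : L) := by
    rw [hN, sc_mul_val, nm_smul, hnA', mul_one]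
  have hc1 : av w (c : L) ≤ 1 := by rw [← hNc]; exact hNle
  have hdet3 : av w s.1.det ^ 3 = av w (c : L) ^ 2 * (qv w)⁻¹ ^ 3 := by
    have h1 := congrArg (fun g : G2 L => av w g.1.det) hN
    rw [Cub.coe_N, Cub.det_nm, map_mul, map_mul, av_σ_of_fix C h.fix, av_σ_of_fix C h.fix,
      av_σ_of_fix C h.fix, sc_mul_val, Matrix.det_smul, Fintype.card_fin, map_mul, map_pow,
      hdA'] at h1
    rw [← h1]; ring
  have hdle : av w s.1.det ≤ (qv w)⁻¹ := by
    apply le_of_pow_le_pow_left₀ (n := 3) (by norm_num) hqi0.le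
    rw [hdet3]
    have h1 : av w (c : L) ^ 2 ≤ 1 := pow_le_one₀ ((av w).nonneg _) hc1
    calc av w (c : L) ^ 2 * (qv w)⁻¹ ^ 3 ≤ 1 * (qv w)⁻¹ ^ 3 :=
          mul_le_mul_of_nonneg_right h1 (by positivity)
      _ = _ := one_mul _
  have hd1 : av w s.1.det < 1 := hdle.trans_lt hqi
  -- `s = α + β A`
  have hnsc : ¬ IsSc (Cub.Inc (L := L) A).1 := by
    rintro ⟨e, he⟩
    rw [he, Matrix.trace_smul, Matrix.trace_one, smul_eq_mul, map_mul, Fintype.card_fin] at htA'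
    rw [he, Matrix.det_smul, Matrix.det_one, mul_one, Fintype.card_fin, map_pow] at hdA'
    rw [he, nm_smul, nm_one, mul_one] at hnA'
    rw [hnA', one_pow] at hdA'
    have : (qv w)⁻¹ ^ 3 < 1 := pow_lt_one₀ hqi0.le hqi (by norm_num)
    linarith
  obtain ⟨α, β, hαβ⟩ := eq_of_commute (B := s.1) hnsc (by
    have := congrArg Units.val hcomm
    rw [Units.val_mul, Units.val_mul] at this
    exact this.symm)
  -- trace and determinant
  have htr : s.1.trace = 2 * α + β * (Cub.Inc (L := L) A).1.trace := by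
    rw [hαβ, Matrix.trace_add, Matrix.trace_smul, Matrix.trace_smul, Matrix.trace_one,
      Fintype.card_fin, smul_eq_mul, smul_eq_mul]
    push_cast
    ring
  have hdet : s.1.det = α ^ 2 + α * β * (Cub.Inc (L := L) A).1.trace +
      β ^ 2 * (Cub.Inc (L := L) A).1.det := by
    rw [hαβ, det_lin]
  set T := (Cub.Inc (L := L) A).1.trace with hT
  set D := (Cub.Inc (L := L) A).1.det with hD
  have h4le : av w (4 : L) ≤ 1 := by
    have : (4 : L) = algebraMap (𝓞 L) L 4 := (map_ofNat (algebraMap (𝓞 L) L) 4).symm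
    rw [this]
    exact E.av_int_le_one w 4
  have hdisc : av w (T ^ 2 - 4 * D) = 1 := by
    have h1 : av w (T ^ 2) = 1 := by rw [map_pow, htA', one_pow]
    rw [← h1]
    apply av_eq_of_sub_lt
    rw [h1, sub_sub_cancel_left, (av w).map_neg, map_mul, hdA']
    calc av w (4 : L) * (qv w)⁻¹ ^ 3 ≤ 1 * (qv w)⁻¹ ^ 3 :=
          mul_le_mul_of_nonneg_right h4le (by positivity)
      _ = (qv w)⁻¹ ^ 3 := one_mul _
      _ < 1 := pow_lt_one₀ hqi0.le hqi (by norm_num)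
  have hkey : s.1.trace ^ 2 - 4 * s.1.det = β ^ 2 * (T ^ 2 - 4 * D) := by
    rw [htr, hdet]; ring
  have h4d : av w (4 * s.1.det) < 1 := by
    rw [map_mul]
    exact mul_lt_one_of_nonneg_of_lt_one_right h4le ((av w).nonneg _) hd1
  have ht1 : av w s.1.trace ≤ 1 := by rw [← hs]; exact av_trace_le w _
  have hβ2 : av w β ^ 2 = av w (s.1.trace ^ 2 - 4 * s.1.det) := by
    rw [hkey, map_mul, hdisc, mul_one, map_pow]
  have hβ : av w β ≤ 1 := by
    have h1 : av w β ^ 2 ≤ 1 := by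
      rw [hβ2]
      refine (av_sub_le w _ _).trans (max_le ?_ h4d.le)
      rw [map_pow]
      exact pow_le_one₀ ((av w).nonneg _) ht1
    exact (pow_le_one_iff_of_nonneg ((av w).nonneg _) (by norm_num)).mp h1
  have hβA : nm w (β • (Cub.Inc (L := L) A).1) = av w β := by rw [nm_smul, hnA', mul_one]
  have hα : av w α ≤ 1 := by
    have e : α • (1 : Matrix (Fin 2) (Fin 2) L) = s.1 - β • (Cub.Inc (L := L) A).1 := by
      rw [hαβ]; abel
    have h1 := nm_sub_le w s.1 (β • (Cub.Inc (L := L) A).1)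
    rw [← e, nm_smul, nm_one, mul_one, hs, hβA] at h1
    exact h1.trans (max_le le_rfl hβ)
  have hβ1 : av w β = 1 := by
    by_contra hne
    have hlt : av w β < 1 := lt_of_le_of_ne hβ hne
    have hα1 : av w α = 1 := by
      by_contra hne'
      have hlt' : av w α < 1 := lt_of_le_of_ne hα hne'
      have : nm w s.1 < 1 := by
        rw [hαβ]
        refine nm_add_lt w ?_ ?_
        · rw [nm_smul, nm_one, mul_one]; exact hlt'
        · rw [hβA]; exact hlt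
      rw [hs] at this
      exact lt_irrefl _ this
    have h1 : av w s.1.det = 1 := by
      have h2 : av w (α ^ 2) = 1 := by rw [map_pow, hα1, one_pow]
      rw [← h2]
      apply av_eq_of_sub_lt
      rw [h2, hdet]
      have e : α ^ 2 + α * β * T + β ^ 2 * D - α ^ 2 = α * β * T + β ^ 2 * D := by ring
      rw [e]
      refine av_add_lt w ?_ ?_
      · rw [map_mul, map_mul, hα1, htA', one_mul, mul_one]; exact hlt
      · rw [map_mul, map_pow, hdA']
        have h3 : av w β ^ 2 ≤ 1 := pow_le_one₀ ((av w).nonneg _) hβ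
        calc av w β ^ 2 * (qv w)⁻¹ ^ 3 ≤ 1 * (qv w)⁻¹ ^ 3 :=
              mul_le_mul_of_nonneg_right h3 (by positivity)
          _ = (qv w)⁻¹ ^ 3 := one_mul _
          _ < 1 := pow_lt_one₀ hqi0.le hqi (by norm_num)
    linarith
  have ht2 : av w s.1.trace = 1 := by
    by_contra hne
    have hlt : av w s.1.trace < 1 := lt_of_le_of_ne ht1 hne
    have : av w β ^ 2 < 1 := by
      rw [hβ2]
      refine (av_sub_le w _ _).trans_lt (max_lt ?_ h4d)
      rw [map_pow]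
      exact pow_lt_one₀ ((av w).nonneg _) hlt (by norm_num)
    rw [hβ1] at this
    norm_num at this
  have hc : av w (c : L) = 1 := by
    rw [← hNc]
    have h1 := h.rtriv.tw3 hs.le hd1
    have h2 : nm w (s.1.trace ^ 2 • s.1) = 1 := by
      rw [nm_smul, map_pow, ht2, hs]; norm_num
    rw [← h2]
    apply nm_eq_of_sub_lt
    rw [h2]
    exact h1
  refine ⟨α, β, hαβ, hα, hβ, hc, ?_⟩
  rw [hc, one_pow, one_mul] at hdet3
  exact (pow_left_inj₀ ((av w).nonneg _) hqi0.le (by norm_num)).mp hdet3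

/-- normal form at a vertex of the axis, hyperbolic case -/
theorem hyp_vertex (h : Ram C v w) (hc : GeoDatum.Corr C γ δ)
    (hx : av v γ.1.det < av v γ.1.trace ^ 2) {g : G2 K} (hg : dd v (g⁻¹ * γ * g) = qv v) :
    ∃ (c₁ : Kˣ) (e c : Lˣ) (A : G2 K) (s : G2 L) (α β : L),
      g⁻¹ * γ * g = sc c₁ * A ∧ s = sc e * ((Cub.Inc g)⁻¹ * δ * C.S (Cub.Inc g)) ∧
      nm v A.1 = 1 ∧ av v A.1.det = (qv v)⁻¹ ∧ av v A.1.trace = 1 ∧ nm w s.1 = 1 ∧
      C.N s = sc c * Cub.Inc A ∧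
      s.1 = α • (1 : Matrix (Fin 2) (Fin 2) L) + β • Cub.inc A.1 ∧ av w α ≤ 1 ∧
      av w β ≤ 1 ∧ av w (c : L) = 1 ∧ av w s.1.det = (qv w)⁻¹ := by
  obtain ⟨c₁, h1, h2, h3⟩ := good_of_dd v hg
  have hq := qv_pos v
  have hqi := qinv_lt_one v
  have hqi0 := qinv_pos v
  have hcp : 0 < av v (c₁ : K) := (av v).pos c₁.ne_zero
  set A : G2 K := sc c₁⁻¹ * (g⁻¹ * γ * g) with hA
  have hgA : g⁻¹ * γ * g = sc c₁ * A := by
    rw [hA, ← sc_inv, ← mul_assoc (sc c₁), mul_inv_cancel, one_mul]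
  have hnA : nm v A.1 = 1 := by
    rw [hA, sc_mul_val, nm_smul, h1, Units.val_inv_eq_inv_val, map_inv₀, inv_mul_cancel₀ hcp.ne']
  have hdA : av v A.1.det = (qv v)⁻¹ := by
    rw [hA, sc_mul_val, Matrix.det_smul, Fintype.card_fin, map_mul, map_pow, det_conj, h2,
      Units.val_inv_eq_inv_val, map_inv₀]
    field_simp
  have htA : av v A.1.trace = 1 := by
    have e : av v A.1.trace = (av v (c₁ : K))⁻¹ * av v γ.1.trace := by
      rw [hA, sc_mul_val, Matrix.trace_smul, smul_eq_mul, map_mul, trace_conj,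
        Units.val_inv_eq_inv_val, map_inv₀]
    have hle : av v A.1.trace ≤ 1 := by
      rw [← hnA]; exact av_trace_le v _
    by_contra hne
    have hlt := av_le_inv v (lt_of_le_of_ne hle hne)
    have h4 : av v γ.1.trace = av v (c₁ : K) * av v A.1.trace := by
      rw [e]; field_simp
    rw [h2, h4, mul_pow] at hx
    have h5 : (qv v)⁻¹ < av v A.1.trace ^ 2 := by
      rw [mul_comm] at hx
      exact lt_of_mul_lt_mul_left hx (by positivity)
    have h6 : av v A.1.trace ^ 2 ≤ (qv v)⁻¹ ^ 2 := pow_le_pow_left₀ ((av v).nonneg _) hlt 2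
    have h7 : (qv v)⁻¹ ^ 2 < (qv v)⁻¹ := by nlinarith
    linarith
  obtain ⟨e, he⟩ := exists_sc_nm w ((Cub.Inc g)⁻¹ * δ * C.S (Cub.Inc g))
  set s : G2 L := sc e * ((Cub.Inc g)⁻¹ * δ * C.S (Cub.Inc g)) with hs
  obtain ⟨c, hN, -⟩ := corr_N hc (Cub.Inc g)
  have hIA : (Cub.Inc (L := L) g)⁻¹ * Cub.Inc γ * Cub.Inc g =
      sc (Units.map (algebraMap K L : K →* L) c₁) * Cub.Inc A := by
    rw [← map_inv, ← map_mul, ← map_mul, hgA, map_mul]
    congr 1
    exact Matrix.GeneralLinearGroup.map_scalar _ _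
  have hN' : C.N s = sc (C.nu e * c * Units.map (algebraMap K L : K →* L) c₁) * Cub.Inc A := by
    apply Units.ext
    rw [sc_mul_val, Cub.coe_N, hs, sc_mul_val, Cub.nm_smul, ← Cub.coe_N, hN, sc_mul_val, hIA,
      sc_mul_val, smul_smul, smul_smul]
    rfl
  have hcomm : s * Cub.Inc (L := L) A = Cub.Inc (L := L) A * s := by
    have h4 : ((Cub.Inc (L := L) g)⁻¹ * δ * C.S (Cub.Inc g)) *
        ((Cub.Inc (L := L) g)⁻¹ * Cub.Inc γ * Cub.Inc g) =
        ((Cub.Inc (L := L) g)⁻¹ * Cub.Inc γ * Cub.Inc g) *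
        ((Cub.Inc (L := L) g)⁻¹ * δ * C.S (Cub.Inc g)) := by
      have h5 := Cub.mem_Z.mp hc.2.1
      rw [Cub.S_Inc]
      calc (Cub.Inc (L := L) g)⁻¹ * δ * Cub.Inc g * ((Cub.Inc g)⁻¹ * Cub.Inc γ * Cub.Inc g)
          = (Cub.Inc (L := L) g)⁻¹ * (δ * Cub.Inc γ) * Cub.Inc g := by group
        _ = (Cub.Inc (L := L) g)⁻¹ * (Cub.Inc γ * δ) * Cub.Inc g := by rw [h5]
        _ = _ := by group
    rw [hIA] at h4
    set s₀ := (Cub.Inc (L := L) g)⁻¹ * δ * C.S (Cub.Inc g) with hs₀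
    set x := Units.map (algebraMap K L : K →* L) c₁ with hx₁
    have h6 : s₀ * Cub.Inc (L := L) A = Cub.Inc (L := L) A * s₀ := by
      apply mul_left_cancel (a := sc x)
      rw [← mul_assoc, sc_comm x s₀, mul_assoc, h4, mul_assoc]
    rw [hs, mul_assoc, h6, ← mul_assoc, sc_comm e (Cub.Inc A), mul_assoc]
  obtain ⟨α, β, h4, h5, h6, h7, h8⟩ := hyp_form h hnA hdA htA he hcomm hN'
  exact ⟨c₁, e, _, A, s, α, β, hgA, rfl, hnA, hdA, htA, he, hN', h4, h5, h6, h7, h8⟩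

/-- **nonemptiness, `K ⇒ L`, hyperbolic case** -/
theorem omL_iot (h : Ram C v w) (hc : GeoDatum.Corr C γ δ)
    (hx : av v γ.1.det < av v γ.1.trace ^ 2) {z : G2 K ⧸ stdH v} (hz : OmK v γ z) :
    OmL h δ (iot h z) := by
  obtain ⟨g, rfl⟩ := QuotientGroup.mk_surjective z
  rw [omK_mk] at hz
  obtain ⟨c₁, e, c, A, s, α, β, -, hs, -, -, -, hs1, -, -, -, -, -, hd⟩ := hyp_vertex h hc hx hz
  rw [iot_mk, omL_mk, ← dd_sc_mul w e, ← hs, dd_eq, hs1, hd]
  have := qv_pos w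
  field_simp

theorem iot_TK (h : Ram C v w) (hc : GeoDatum.Corr C γ δ) (z : G2 K ⧸ stdH v) (k : ℤ) :
    (TL h δ ^ (3 * k)) (iot h z) = iot h (γ ^ k • z) := by
  have h3 : TL h δ ^ (3 : ℤ) = MulAction.toPerm (Cub.Inc (L := L) γ) := by
    ext y
    rw [show (3 : ℤ) = ((3 : ℕ) : ℤ) from rfl, zpow_natCast, TL_cube h hc]
    rfl
  rw [_root_.zpow_mul, h3, ← MulAction.toPermHom_apply, ← map_zpow, iot_smul,
    map_zpow (Cub.Inc (K := K) (L := L)) γ k]
  rfl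

/-- freeness in the hyperbolic case -/
theorem TL_free (h : Ram C v w) (hc : GeoDatum.Corr C γ δ)
    (hx : av v γ.1.det < av v γ.1.trace ^ 2) (y : G2 L ⧸ stdH w) (k : ℤ)
    (hk : (TL h δ ^ k) y = y) : k = 0 := by
  by_contra hne
  -- a positive power of `γ` fixes `y`
  have h1 : ∀ n : ℕ, (TL h δ ^ (n + 1)) y ≠ y := by
    intro n hn
    have h3 : TL h δ ^ 3 = MulAction.toPerm (Cub.Inc (L := L) γ) := by
      ext y
      rw [TL_cube h hc]
      rfl
    have h4 : ((TL h δ ^ (n + 1)) ^ 3) y = y := by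
      rw [pow_succ, pow_two, Equiv.Perm.mul_apply, Equiv.Perm.mul_apply, hn, hn, hn]
    rw [← pow_mul, mul_comm, pow_mul, h3, ← MulAction.toPermHom_apply, ← map_pow] at h4
    obtain ⟨a, rfl⟩ := QuotientGroup.mk_surjective y
    have h5 : ((Cub.Inc (L := L) γ ^ (n + 1) * a : G2 L) : G2 L ⧸ stdH w) =
      (a : G2 L ⧸ stdH w) := h4
    rw [eq_comm, QuotientGroup.eq, ← mul_assoc] at h5
    refine not_mem_of_trace w (g := Cub.Inc (L := L) γ) ?_ n a h5
    rw [(av_v_cube h γ).1, (av_v_cube h γ).2]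
    have h6 : av v γ.1.det ^ 3 < (av v γ.1.trace ^ 2) ^ 3 :=
      pow_lt_pow_left₀ hx ((av v).nonneg _) (by norm_num)
    calc av v γ.1.det ^ 3 < (av v γ.1.trace ^ 2) ^ 3 := h6
      _ = _ := by ring
  rcases k with n | n
  · rcases n with _ | n
    · exact hne rfl
    · exact h1 n hk
  · apply h1 n
    have h2 : (TL h δ ^ (Int.negSucc n)) y = y := hk
    rw [zpow_negSucc, Equiv.Perm.inv_eq_iff_eq] at h2
    exact h2.symm

/-- the three vertices above `z` -/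
theorem hyp_exists (h : Ram C v w) (hc : GeoDatum.Corr C γ δ)
    (hx : av v γ.1.det < av v γ.1.trace ^ 2) {y : G2 L ⧸ stdH w} (hy : OmL h δ y) :
    ∃ z, OmK v γ z ∧ ∃ i : Fin 3, y = (TL h δ ^ (i : ℕ)) (iot h z) := by
  obtain ⟨z₀, hz₀⟩ := exists_omK h hc hy
  obtain ⟨k, hk⟩ := omL_orbit h (omL_iot h hc hx hz₀) hy
  refine ⟨γ ^ (k / 3) • z₀, (omK_smul ((Commute.refl γ).zpow_left (k / 3)) z₀).mpr hz₀,
    ⟨(k % 3).toNat, by omega⟩, ?_⟩
  rw [← iot_TK h hc, ← zpow_natCast, ← Equiv.Perm.mul_apply, ← _root_.zpow_add, hk]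
  congr 2
  change k = ((k % 3).toNat : ℤ) + 3 * (k / 3)
  omega

theorem hyp_unique (h : Ram C v w) (hc : GeoDatum.Corr C γ δ)
    (hx : av v γ.1.det < av v γ.1.trace ^ 2) {z z' : G2 K ⧸ stdH v} (hz : OmK v γ z)
    (hz' : OmK v γ z') {i j : Fin 3}
    (he : (TL h δ ^ (i : ℕ)) (iot h z) = (TL h δ ^ (j : ℕ)) (iot h z')) : z = z' ∧ i = j := by
  obtain ⟨k, hk⟩ := omK_orbit hz hz'
  rw [hk, ← iot_TK h hc, ← zpow_natCast, ← zpow_natCast, ← Equiv.Perm.mul_apply,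
    ← _root_.zpow_add] at he
  have h1 : (TL h δ ^ (((j : ℕ) : ℤ) + 3 * k - ((i : ℕ) : ℤ))) (iot h z) = iot h z := by
    rw [sub_eq_neg_add, _root_.zpow_add, Equiv.Perm.mul_apply, ← he, ← Equiv.Perm.mul_apply,
      ← _root_.zpow_add, neg_add_cancel, zpow_zero, Equiv.Perm.one_apply]
  have h2 := TL_free h hc hx _ _ h1
  have hi := i.2
  have hj := j.2
  have hk0 : k = 0 := by omega
  subst hk0
  refine ⟨by rw [hk, zpow_zero, one_smul], Fin.ext (by omega)⟩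

end ram

end Fermat.LT.Tr
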