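import Fermat.Agent.LT.Geo.Ram

/-!
# LT, geometric side: local matching at a totally ramified place (E3), elliptic case
-/

set_option autoImplicit false
set_option linter.unusedSectionVars false
set_option linter.unusedVariables false

open NumberField IsDedekindDomain Matrix
open Fermat.Agent.LT.D

namespace Fermat.LT.Tr

section parity

variable {F : Type} [Field F] [NumberField F] (w : Pl F)

/-- even valuation of the determinant -/
def evn (g : G2 F) : Prop := ∃ m : ℤ, av w g.1.det = qv w ^ (2 * m)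

theorem evn_iff {g : G2 F} {n : ℤ} (h : av w g.1.det = qv w ^ n) : evn w g ↔ Even n := by
  constructor
  · rintro ⟨m, hm⟩
    rw [h] at hm
    exact ⟨m, by rw [qzpow_inj w hm]; ring⟩
  · rintro ⟨m, hm⟩
    exact ⟨m, by rw [h, hm]; congr 1; ring⟩

theorem evn_mul (g h : G2 F) : evn w (g * h) ↔ (evn w g ↔ evn w h) := by
  obtain ⟨a, ha⟩ := av_zpow w (det_ne g)
  obtain ⟨b, hb⟩ := av_zpow w (det_ne h)
  have hab : av w (g * h).1.det = qv w ^ (a + b) := by
    rw [Units.val_mul, Matrix.det_mul, map_mul, ha, hb, zpow_add₀ (qv_pos w).ne']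
  rw [evn_iff w ha, evn_iff w hb, evn_iff w hab, Int.even_add]

theorem evn_mem {g : G2 F} (h : g ∈ stdH w) : evn w g := by
  obtain ⟨c, hc⟩ := exists_nm_eq w g
  obtain ⟨a, ha⟩ := av_zpow w c.ne_zero
  refine ⟨a, ?_⟩
  rw [av_det_of_mem w h, hc, ha, mul_comm, _root_.zpow_mul]
  norm_cast

theorem evn_inv (g : G2 F) : evn w g⁻¹ ↔ evn w g := by
  have h1 := evn_mul w g g⁻¹
  rw [mul_inv_cancel] at h1
  have h2 : evn w (1 : G2 F) := evn_mem w (one_mem _)
  exact (h1.mp h2).symm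

theorem not_evn_of_dd {g : G2 F} (h : dd w g = qv w) : ¬ evn w g := by
  obtain ⟨c, hc⟩ := exists_nm_eq w g
  obtain ⟨a, ha⟩ := av_zpow w c.ne_zero
  have h1 : av w g.1.det = qv w ^ (2 * a - 1) := by
    have h2 := av_det_pos' w g
    have hq := qv_pos w
    rw [dd_eq, hc, ha, div_eq_iff h2.ne'] at h
    rw [zpow_sub₀ hq.ne', zpow_one, mul_comm 2 a, _root_.zpow_mul]
    rw [eq_div_iff hq.ne', mul_comm, ← h]
    norm_cast
  rw [evn_iff w h1]
  intro h2
  rw [Int.even_iff] at h2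
  omega

/-- parity of a vertex -/
def evq : G2 F ⧸ stdH w → Prop :=
  Quotient.lift (evn w) (by
    intro a b hab
    have h : a⁻¹ * b ∈ stdH w := QuotientGroup.leftRel_apply.mp hab
    have h1 : b = a * (a⁻¹ * b) := by group
    have h2 := evn_mul w a (a⁻¹ * b)
    rw [← h1] at h2
    have h3 := evn_mem w h
    exact propext (by tauto))

theorem evq_mk (g : G2 F) : evq w (g : G2 F ⧸ stdH w) ↔ evn w g := Iff.rfl

theorem evq_of_dq {y z : G2 F ⧸ stdH w} (h : dq w y z = qv w) : evq w z ↔ ¬ evq w y := by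
  obtain ⟨a, rfl⟩ := QuotientGroup.mk_surjective y
  obtain ⟨b, rfl⟩ := QuotientGroup.mk_surjective z
  rw [dq_mk] at h
  have h1 := not_evn_of_dd w h
  rw [evq_mk, evq_mk]
  rw [evn_mul, evn_inv] at h1
  tauto

theorem evq_smul (t : G2 F) (y : G2 F ⧸ stdH w) : evq w (t • y) ↔ (evn w t ↔ evq w y) := by
  obtain ⟨a, rfl⟩ := QuotientGroup.mk_surjective y
  exact evn_mul w t a

/-- a permutation which squares to the identity at a point -/
theorem perm_cases {α : Type*} (T : Equiv.Perm α) {y : α} (h : T (T y) = y) (k : ℤ) :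
    (T ^ k) y = y ∨ (T ^ k) y = T y := by
  have h2 : ∀ m : ℤ, (T ^ (2 * m)) y = y := by
    intro m
    rw [_root_.zpow_mul]
    apply Equiv.Perm.zpow_apply_eq_self_of_apply_eq_self
    rw [zpow_ofNat, pow_two, Equiv.Perm.mul_apply, h]
  rcases Int.even_or_odd' k with ⟨m, rfl | rfl⟩
  · left; exact h2 m
  · right
    rw [add_comm, _root_.zpow_add, Equiv.Perm.mul_apply, h2, zpow_one]

end parity

section ram

variable {K L : Type} [Field K] [NumberField K] [Field L] [NumberField L] [Algebra K L]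
  {C : Cub K L} {v : Pl K} {w : Pl L} {γ : G2 K} {δ : G2 L}

theorem evn_Inc (h : Ram C v w) (g : G2 K) : evn w (Cub.Inc (L := L) g) ↔ evn v g := by
  obtain ⟨a, ha⟩ := av_zpow v (det_ne g)
  have h1 : av w (Cub.Inc (L := L) g).1.det = qv w ^ (a * 3) := by
    rw [(av_v_cube h g).1, ha, h.q_eq, _root_.zpow_mul]
    norm_cast
  rw [evn_iff w h1, evn_iff v ha, Int.even_mul]
  constructor
  · rintro (h | h)
    · exact h
    · exact absurd h (by decide)
  · exact Or.inl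

theorem sq_fix {F : Type} [Field F] [NumberField F] {w : Pl F} {f : F ≃+* F} (hf : RTriv w f)
    {s g : G2 F} (hg : dd w (g⁻¹ * s * fG f g) = qv w)
    (ht : ∀ c : Fˣ, nm w (sc c * (g⁻¹ * s * fG f g)).1 = 1 →
      av w (sc c * (g⁻¹ * s * fG f g)).1.trace < 1) :
    twp hf s (twp hf s (g : G2 F ⧸ stdH w)) = g := by
  obtain ⟨c, hc⟩ := exists_sc_nm w (g⁻¹ * s * fG f g)
  have ht' := ht c hc
  have hdd : dd w (sc c * (g⁻¹ * s * fG f g)) = qv w := by rw [dd_sc_mul]; exact hg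
  have h1 := hf.sq_mem hc hdd ht'
  rw [← twp_sc hf c s, twp_mk, twp_mk, eq_comm, QuotientGroup.eq]
  have e : sc c * (g⁻¹ * s * fG f g) = g⁻¹ * (sc c * s) * fG f g := by
    rw [← mul_assoc g⁻¹, ← sc_comm c g⁻¹, mul_assoc (sc c), mul_assoc (sc c)]
  rw [e] at h1
  have e2 : g⁻¹ * (sc c * s * fG f (sc c * s * fG f g)) =
      g⁻¹ * (sc c * s) * fG f g * fG f (g⁻¹ * (sc c * s) * fG f g) := by
    simp only [map_mul, map_inv]
    group
  rw [e2]
  exact h1

theorem ell_K (hx : av v γ.1.trace ^ 2 ≤ av v γ.1.det) {z : G2 K ⧸ stdH v} (hz : OmK v γ z) :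
    TK v γ (TK v γ z) = z := by
  obtain ⟨g, rfl⟩ := QuotientGroup.mk_surjective z
  rw [omK_mk] at hz
  apply sq_fix (RTriv.refl v) hz
  intro c hc
  have hqi := qinv_lt_one v
  change nm v (sc c * (g⁻¹ * γ * g)).1 = 1 at hc
  change av v (sc c * (g⁻¹ * γ * g)).1.trace < 1
  have hdd : dd v (sc c * (g⁻¹ * γ * g)) = qv v := by rw [dd_sc_mul]; exact hz
  have hdet := av_det_of_nm v hc
  rw [hdd] at hdet
  have h1 : av v (sc c * (g⁻¹ * γ * g)).1.trace ^ 2 ≤ (qv v)⁻¹ := by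
    rw [← hdet, sc_mul_val, Matrix.trace_smul, Matrix.det_smul, Fintype.card_fin, smul_eq_mul,
      map_mul, map_mul, mul_pow, map_pow, trace_conj, det_conj]
    exact mul_le_mul_of_nonneg_left hx (by positivity)
  by_contra hne
  push Not at hne
  have h2 : 1 ≤ av v (sc c * (g⁻¹ * γ * g)).1.trace ^ 2 := one_le_pow₀ hne
  linarith

theorem ell_L (h : Ram C v w) (hc : GeoDatum.Corr C γ δ)
    (hx : av v γ.1.trace ^ 2 ≤ av v γ.1.det) {y : G2 L ⧸ stdH w} (hy : OmL h δ y) :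
    TL h δ (TL h δ y) = y := by
  obtain ⟨g, rfl⟩ := QuotientGroup.mk_surjective y
  rw [omL_mk] at hy
  apply sq_fix h.rtriv hy
  intro e he
  have hqi := qinv_lt_one w
  have hqi0 := qinv_pos w
  obtain ⟨c, hN, -⟩ := corr_N hc g
  change nm w (sc e * (g⁻¹ * δ * C.S g)).1 = 1 at he
  change av w (sc e * (g⁻¹ * δ * C.S g)).1.trace < 1
  have hdd : dd w (sc e * (g⁻¹ * δ * C.S g)) = qv w := by rw [dd_sc_mul]; exact hy
  set s := sc e * (g⁻¹ * δ * C.S g) with hs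
  have hdet := av_det_of_nm w he
  rw [hdd] at hdet
  have hle : av w s.1.trace ≤ 1 := by rw [← he]; exact av_trace_le w _
  by_contra hne
  have ht : av w s.1.trace = 1 := le_antisymm hle (not_lt.mp hne)
  have hd1 : av w s.1.det < 1 := by rw [hdet]; exact hqi
  -- `tr N(s)` is a unit
  have h3 := h.rtriv.tw3 he.le hd1
  have h4 : av w (C.N s).1.trace = 1 := by
    have h5 := (av_trace_le w _).trans_lt h3
    have e1 : (s * fG (C.σ : L ≃+* L) s * fG (C.σ : L ≃+* L) (fG (C.σ : L ≃+* L) s)) = C.N s := rfl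
    rw [e1, Matrix.trace_sub, Matrix.trace_smul, smul_eq_mul] at h5
    have h6 : av w (s.1.trace ^ 2 * s.1.trace) = 1 := by rw [map_mul, map_pow, ht]; norm_num
    rw [← h6]
    apply av_eq_of_sub_lt
    rw [h6]; exact h5
  have h5 : av w (C.N s).1.det = (qv w)⁻¹ ^ 3 := by
    rw [Cub.coe_N, Cub.det_nm, map_mul, map_mul, av_σ_of_fix C h.fix, av_σ_of_fix C h.fix,
      av_σ_of_fix C h.fix, hdet]
    ring
  have hNs : (C.N s).1 = (C.nL e * c : L) • (g⁻¹ * Cub.Inc γ * g).1 := by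
    rw [hs, Cub.coe_N, sc_mul_val, Cub.nm_smul, ← Cub.coe_N, hN, sc_mul_val, smul_smul]
    rfl
  rw [hNs, Matrix.trace_smul, smul_eq_mul, map_mul, trace_conj, (av_v_cube h γ).2] at h4
  rw [hNs, Matrix.det_smul, Fintype.card_fin, map_mul, map_pow, det_conj, (av_v_cube h γ).1] at h5
  have h6 : (av v γ.1.trace ^ 3) ^ 2 ≤ av v γ.1.det ^ 3 := by
    rw [← pow_mul, mul_comm 3 2, pow_mul]
    exact pow_le_pow_left₀ (by positivity) hx 3
  have h7 : (av w (C.nL e * c : L) * av v γ.1.trace ^ 3) ^ 2 ≤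
      av w (C.nL e * c : L) ^ 2 * av v γ.1.det ^ 3 := by
    rw [mul_pow]
    exact mul_le_mul_of_nonneg_left h6 (by positivity)
  rw [h4, h5, one_pow] at h7
  have h8 : (qv w)⁻¹ ^ 3 < 1 := pow_lt_one₀ hqi0.le hqi (by norm_num)
  linarith

theorem ell_unique_K (hx : av v γ.1.trace ^ 2 ≤ av v γ.1.det) {z z' : G2 K ⧸ stdH v}
    (hz : OmK v γ z) (hz' : OmK v γ z') (he : evq v z ↔ evq v z') : z = z' := by
  obtain ⟨k, hk⟩ := orbit (RTriv.refl v) hz z' hz'
  rcases perm_cases (TK v γ) (ell_K hx hz) k with h | h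
  · rw [hk]; exact h.symm
  · rw [h] at hk
    have h1 := evq_of_dq v hz
    rw [← hk] at h1
    tauto

theorem ell_unique_L (h : Ram C v w) (hc : GeoDatum.Corr C γ δ)
    (hx : av v γ.1.trace ^ 2 ≤ av v γ.1.det) {y y' : G2 L ⧸ stdH w}
    (hy : OmL h δ y) (hy' : OmL h δ y') (he : evq w y ↔ evq w y') : y = y' := by
  obtain ⟨k, hk⟩ := orbit h.rtriv hy y' hy'
  rcases perm_cases (TL h δ) (ell_L h hc hx hy) k with h2 | h2
  · rw [hk]; exact h2.symm
  · rw [h2] at hk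
    have h1 := evq_of_dq w hy
    rw [← hk] at h1
    tauto

/-- choose the parity -/
theorem exists_par_K {z : G2 K ⧸ stdH v} (hz : OmK v γ z) (P : Prop) :
    ∃ z', OmK v γ z' ∧ (P ↔ evq v z') := by
  by_cases hP : P ↔ evq v z
  · exact ⟨z, hz, hP⟩
  · refine ⟨TK v γ z, ?_, ?_⟩
    · unfold OmK
      rw [dq_twp]; exact hz
    · have := evq_of_dq v hz
      tauto

theorem exists_par_L (h : Ram C v w) {y : G2 L ⧸ stdH w} (hy : OmL h δ y) (P : Prop) :
    ∃ y', OmL h δ y' ∧ (P ↔ evq w y') := by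
  by_cases hP : P ↔ evq w y
  · exact ⟨y, hy, hP⟩
  · refine ⟨TL h δ y, (omL_TL h y).mpr hy, ?_⟩
    have := evq_of_dq w hy
    tauto

theorem evn_corr (h : Ram C v w) (hc : GeoDatum.Corr C γ δ) : evn w δ ↔ evn v γ := by
  obtain ⟨c, -, hd⟩ := corr_det h hc
  obtain ⟨a, ha⟩ := av_zpow w (det_ne δ)
  obtain ⟨n, hn⟩ := av_zpow w c.ne_zero
  obtain ⟨b, hb⟩ := av_zpow v (det_ne γ)
  rw [ha, hn, hb, h.q_eq] at hd
  have hv0 := (qv_pos v).ne'
  have h1 : qv v ^ (a * 3) = qv v ^ (n * 2 + b * 3) := by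
    rw [zpow_add₀ hv0, _root_.zpow_mul, _root_.zpow_mul, _root_.zpow_mul]
    norm_cast
  have h2 := qzpow_inj v h1
  rw [evn_iff w ha, evn_iff v hb, Int.even_iff, Int.even_iff]
  omega

theorem av_det_tw (h : Ram C v w) (g : G2 L) : av w (g⁻¹ * δ * C.S g).1.det = av w δ.1.det := by
  have h1 : av w (C.S g).1.det = av w g.1.det := h.rtriv.av_det g
  have h2 : (g⁻¹).1.det * g.1.det = 1 := by
    rw [← Matrix.det_mul, ← Units.val_mul, inv_mul_cancel, Units.val_one, Matrix.det_one]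
  have h3 : av w (g⁻¹).1.det * av w g.1.det = 1 := by rw [← map_mul, h2, map_one]
  rw [Units.val_mul, Units.val_mul, Matrix.det_mul, Matrix.det_mul, map_mul, map_mul, h1]
  linear_combination av w δ.1.det * h3

/-- `(Inc g)⁻¹ δ Inc g` is a combination of `1` and `A`, where `g⁻¹ γ g = c₁ A`. -/
theorem conj_form (hc : GeoDatum.Corr C γ δ) {g : G2 K} {c₁ : Kˣ} {A : Matrix (Fin 2) (Fin 2) K}
    (hA : (g⁻¹ * γ * g).1 = (c₁ : K) • A) :
    ∃ α β : L, ((Cub.Inc (L := L) g)⁻¹ * δ * C.S (Cub.Inc g)).1 =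
      α • (1 : Matrix (Fin 2) (Fin 2) L) + β • Cub.inc A := by
  set s₀ := (Cub.Inc (L := L) g)⁻¹ * δ * C.S (Cub.Inc g) with hs₀
  have h4 : s₀ * Cub.Inc (L := L) (g⁻¹ * γ * g) = Cub.Inc (L := L) (g⁻¹ * γ * g) * s₀ := by
    have h5 := Cub.mem_Z.mp hc.2.1
    rw [hs₀, Cub.S_Inc, map_mul, map_mul, map_inv]
    calc (Cub.Inc (L := L) g)⁻¹ * δ * Cub.Inc g * ((Cub.Inc g)⁻¹ * Cub.Inc γ * Cub.Inc g)
        = (Cub.Inc (L := L) g)⁻¹ * (δ * Cub.Inc γ) * Cub.Inc g := by group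
      _ = (Cub.Inc (L := L) g)⁻¹ * (Cub.Inc γ * δ) * Cub.Inc g := by rw [h5]
      _ = _ := by group
  have hns : ¬ IsSc (Cub.Inc (L := L) (g⁻¹ * γ * g)).1 := by
    rw [Cub.coe_Inc, Cub.isSc_inc]
    intro h
    apply hc.1.not_isSc
    obtain ⟨x, hx⟩ := h
    refine ⟨x, ?_⟩
    have h6 : γ = g * (g⁻¹ * γ * g) * g⁻¹ := by group
    have h7 : γ.1 = g.1 * (g⁻¹ * γ * g).1 * (g⁻¹).1 := by
      conv_lhs => rw [h6]
      rw [Units.val_mul, Units.val_mul g]
    rw [h7, hx, Matrix.mul_smul, mul_one, Matrix.smul_mul, ← Units.val_mul, mul_inv_cancel,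
      Units.val_one]
  obtain ⟨α, β, hαβ⟩ := eq_of_commute (B := s₀.1) hns (by
    have := congrArg Units.val h4
    rw [Units.val_mul, Units.val_mul] at this
    exact this.symm)
  refine ⟨α, β * algebraMap K L c₁, ?_⟩
  rw [hαβ, Cub.coe_Inc, hA, mul_smul]
  congr 2
  ext i j
  rw [Cub.inc_apply, Matrix.smul_apply, smul_eq_mul, map_mul, Matrix.smul_apply, Cub.inc_apply,
    smul_eq_mul]

/-- **nonemptiness, `K ⇒ L`, elliptic case** -/
theorem exists_omL_ell (h : Ram C v w) (hc : GeoDatum.Corr C γ δ)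
    (hx : av v γ.1.trace ^ 2 ≤ av v γ.1.det) {z : G2 K ⧸ stdH v} (hz : OmK v γ z) :
    ∃ y, OmL h δ y := by
  obtain ⟨g₀, rfl⟩ := QuotientGroup.mk_surjective z
  rw [omK_mk] at hz
  obtain ⟨c₁, -, hd, ht⟩ := good_of_dd v hz
  obtain ⟨g, hg, hgA⟩ := exists_axis v hc.1.not_isSc c₁ hd ht
  have hodd : ¬ evn w δ := by
    rw [evn_corr h hc]
    have h1 := not_evn_of_dd v hz
    rw [evn_mul, evn_mul, evn_inv] at h1
    tauto
  obtain ⟨α, β, hs⟩ := conj_form hc hgA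
  set s₀ := (Cub.Inc (L := L) g)⁻¹ * δ * C.S (Cub.Inc g) with hs₀
  set e : K := γ.1.det / (c₁ : K) ^ 2 with he
  set t : K := γ.1.trace / (c₁ : K) with ht'
  have hcp : 0 < av v (c₁ : K) := (av v).pos c₁.ne_zero
  have hq := qv_pos w
  have hq1 := one_lt_qv w
  have hqi := qinv_lt_one w
  have hqi0 := qinv_pos w
  have hqv : qv w = qv v := h.q_eq
  have hev : av v e = (qv v)⁻¹ := by
    rw [he, map_div₀, hd, map_pow]; field_simp
  have htv : av v t ≤ (qv v)⁻¹ := by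
    apply av_le_inv
    have h1 : av v t ^ 2 ≤ (qv v)⁻¹ := by
      rw [← hev, he, ht', map_div₀, map_div₀, map_pow, div_pow]
      exact div_le_div_of_nonneg_right hx (by positivity)
    by_contra hne
    push Not at hne
    have h2 : 1 ≤ av v t ^ 2 := one_le_pow₀ hne
    have := qinv_lt_one v
    linarith
  have hew : av w (algebraMap K L e) = (qv w)⁻¹ ^ 3 := by rw [h.av_eq, hev, hqv]
  have htw : av w (algebraMap K L t) ≤ (qv w)⁻¹ ^ 3 := by
    rw [h.av_eq, hqv]; exact pow_le_pow_left₀ ((av v).nonneg _) htv 3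
  set e' := algebraMap K L e with he'
  set t' := algebraMap K L t with ht''
  have hs1 : s₀.1 = !![α, -(β * e'); β, α + β * t'] := by
    rw [hs]
    ext i j
    fin_cases i <;> fin_cases j <;> simp [Cub.inc_apply, he', ht'']
  have hdet0 : s₀.1.det = α ^ 2 + α * β * t' + β ^ 2 * e' := by
    rw [hs1, Matrix.det_fin_two]
    simp
    ring
  have hdetδ : av w s₀.1.det = av w δ.1.det := av_det_tw h _
  -- first case is impossible
  have hle : av w α ≤ av w β * (qv w)⁻¹ ^ 2 := by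
    by_contra hne
    push Not at hne
    have hα : 0 < av w α := lt_of_le_of_lt (by positivity) hne
    have hα0 : α ≠ 0 := (av w).pos_iff.mp hα
    have hx1 : av w (β / α) ≤ qv w := by
      have h1 : av w (β / α) < qv w ^ (2 : ℤ) := by
        rw [map_div₀, div_lt_iff₀ hα]
        have h2 : qv w ^ (2 : ℤ) = ((qv w)⁻¹ ^ 2)⁻¹ := by rw [inv_pow, inv_inv]; norm_cast
        rw [h2, inv_mul_eq_div, lt_div_iff₀ (by positivity)]
        exact hne
      have h2 := av_le_of_lt w h1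
      rwa [show (2 : ℤ) - 1 = 1 by norm_num, zpow_one] at h2
    apply hodd
    have h3 : av w δ.1.det = av w α ^ 2 := by
      rw [← hdetδ, hdet0, ← map_pow]
      apply av_eq_of_sub_lt
      have e1 : α ^ 2 + α * β * t' + β ^ 2 * e' - α ^ 2 =
          α ^ 2 * ((β / α) * t' + (β / α) ^ 2 * e') := by
        field_simp; ring
      rw [e1, map_mul]
      have h4 : av w ((β / α) * t' + (β / α) ^ 2 * e') < 1 := by
        apply av_add_lt
        · rw [map_mul]
          calc av w (β / α) * av w t' ≤ qv w * (qv w)⁻¹ ^ 3 :=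
                mul_le_mul hx1 htw ((av w).nonneg _) hq.le
            _ = (qv w)⁻¹ ^ 2 := by field_simp
            _ < 1 := pow_lt_one₀ hqi0.le hqi (by norm_num)
        · rw [map_mul, map_pow, hew]
          calc av w (β / α) ^ 2 * (qv w)⁻¹ ^ 3 ≤ qv w ^ 2 * (qv w)⁻¹ ^ 3 :=
                mul_le_mul_of_nonneg_right (pow_le_pow_left₀ ((av w).nonneg _) hx1 2) (by positivity)
            _ = (qv w)⁻¹ := by field_simp
            _ < 1 := hqi
      have h5 : 0 < av w (α ^ 2) := by rw [map_pow]; positivity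
      calc av w (α ^ 2) * _ < av w (α ^ 2) * 1 := mul_lt_mul_of_pos_left h4 h5
        _ = _ := mul_one _
    obtain ⟨n, hn⟩ := av_zpow w hα0
    refine ⟨n, ?_⟩
    rw [h3, hn, mul_comm, _root_.zpow_mul]
    norm_cast
  have hβ0 : β ≠ 0 := by
    rintro rfl
    rw [map_zero, zero_mul] at hle
    have hα0 : α = 0 := (av w).eq_zero.mp (le_antisymm hle ((av w).nonneg _))
    apply det_ne s₀
    rw [hdet0, hα0]; ring
  have hβ : 0 < av w β := (av w).pos hβ0
  set x := α / β with hxdef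
  have hαx : α = β * x := by rw [hxdef]; field_simp
  have hx2 : av w x ≤ (qv w)⁻¹ ^ 2 := by
    rw [hxdef, map_div₀, div_le_iff₀ hβ, mul_comm]; exact hle
  have hdet2 : av w δ.1.det = av w β ^ 2 * (qv w)⁻¹ ^ 3 := by
    rw [← hdetδ, hdet0, ← hew, ← map_pow, ← map_mul]
    apply av_eq_of_sub_lt
    have e1 : α ^ 2 + α * β * t' + β ^ 2 * e' - β ^ 2 * e' = β ^ 2 * (x ^ 2 + x * t') := by
      rw [hαx]; ring
    rw [e1, map_mul, map_mul]
    have h4 : av w (x ^ 2 + x * t') < av w e' := by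
      rw [hew]
      apply av_add_lt
      · rw [map_pow]
        calc av w x ^ 2 ≤ ((qv w)⁻¹ ^ 2) ^ 2 := pow_le_pow_left₀ ((av w).nonneg _) hx2 2
          _ = (qv w)⁻¹ ^ 3 * (qv w)⁻¹ := by ring
          _ < (qv w)⁻¹ ^ 3 * 1 := mul_lt_mul_of_pos_left hqi (by positivity)
          _ = _ := mul_one _
      · rw [map_mul]
        calc av w x * av w t' ≤ (qv w)⁻¹ ^ 2 * (qv w)⁻¹ ^ 3 :=
              mul_le_mul hx2 htw ((av w).nonneg _) (by positivity)
          _ = (qv w)⁻¹ ^ 3 * (qv w)⁻¹ ^ 2 := by ring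
          _ < (qv w)⁻¹ ^ 3 * 1 :=
              mul_lt_mul_of_pos_left (pow_lt_one₀ hqi0.le hqi (by norm_num)) (by positivity)
          _ = _ := mul_one _
    have h5 : 0 < av w (β ^ 2) := by rw [map_pow]; positivity
    exact mul_lt_mul_of_pos_left h4 h5
  -- the vertex
  obtain ⟨ϖ, hϖ0, hϖ⟩ := exists_unif w
  have hσϖ : av w (C.σ ϖ) = (qv w)⁻¹ := by rw [av_σ_of_fix C h.fix, hϖ]
  have hσϖ0 : C.σ ϖ ≠ 0 := by
    rw [← (av w).pos_iff, hσϖ]; exact hqi0
  let D : G2 L := Matrix.GeneralLinearGroup.mkOfDetNeZero !![1, 0; 0, ϖ⁻¹] (by simpa using hϖ0)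
  have hD : D.1 = !![1, 0; 0, ϖ⁻¹] := rfl
  have hDi : (D⁻¹).1 = !![1, 0; 0, ϖ] := by
    rw [inv_eq_smul_adj, hD]
    ext i j
    fin_cases i <;> fin_cases j <;> simp [Matrix.adjugate_fin_two, Matrix.det_fin_two, hϖ0]
  have hSD : (C.S D).1 = !![1, 0; 0, (C.σ ϖ)⁻¹] := by
    rw [Cub.coe_S, hD]
    ext i j
    rw [Cub.s_apply]
    fin_cases i <;> fin_cases j <;> simp
  refine ⟨((Cub.Inc g * D : G2 L) : G2 L ⧸ stdH w), ?_⟩
  rw [omL_mk]
  have e1 : (Cub.Inc g * D)⁻¹ * δ * C.S (Cub.Inc g * D) = D⁻¹ * s₀ * C.S D := by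
    rw [hs₀, map_mul]; group
  have hM : ((Cub.Inc g * D)⁻¹ * δ * C.S (Cub.Inc g * D)).1 =
      β • !![x, -(e' / C.σ ϖ); ϖ, (x + t') * (ϖ / C.σ ϖ)] := by
    rw [e1, Units.val_mul, Units.val_mul, hDi, hSD, hs1, hαx]
    ext i j
    fin_cases i <;> fin_cases j <;>
      simp [Matrix.mul_apply, Fin.sum_univ_two] <;> field_simp
  have hnm : nm w !![x, -(e' / C.σ ϖ); ϖ, (x + t') * (ϖ / C.σ ϖ)] = (qv w)⁻¹ := by
    apply le_antisymm
    · rw [nm_le_iff]
      have h2 : (qv w)⁻¹ ^ 2 ≤ (qv w)⁻¹ := by nlinarith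
      intro i j
      fin_cases i <;> fin_cases j
      · exact hx2.trans h2
      · change av w (-(e' / C.σ ϖ)) ≤ _
        rw [(av w).map_neg, map_div₀, hew, hσϖ]
        calc (qv w)⁻¹ ^ 3 / (qv w)⁻¹ = (qv w)⁻¹ ^ 2 := by field_simp
          _ ≤ _ := h2
      · exact hϖ.le
      · change av w ((x + t') * (ϖ / C.σ ϖ)) ≤ _
        rw [map_mul, map_div₀, hϖ, hσϖ, div_self hqi0.ne', mul_one]
        refine (av_add_le w _ _).trans (max_le (hx2.trans h2) (htw.trans ?_))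
        calc (qv w)⁻¹ ^ 3 = (qv w)⁻¹ ^ 2 * (qv w)⁻¹ := by ring
          _ ≤ (qv w)⁻¹ ^ 2 * 1 := mul_le_mul_of_nonneg_left hqi.le (by positivity)
          _ = (qv w)⁻¹ ^ 2 := mul_one _
          _ ≤ _ := h2
    · have := av_le_nm w !![x, -(e' / C.σ ϖ); ϖ, (x + t') * (ϖ / C.σ ϖ)] 1 0
      rw [← hϖ]
      exact this
  rw [dd_eq, av_det_tw h, hM, nm_smul, hnm, hdet2]
  field_simp

end ram

end Fermat.LT.Tr
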