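import Fermat.Agent.LT.Geo.Ram

/-!
# LT, geometric side: norms and traces at a ramified place (hyperbolic case)
-/

set_option autoImplicit false
set_option linter.unusedSectionVars false
set_option linter.unusedVariables false

open NumberField IsDedekindDomain Matrix
open Fermat.Agent.LT.D

namespace Fermat.LT.Tr

variable {K L : Type} [Field K] [NumberField K] [Field L] [NumberField L] [Algebra K L]
  {C : Cub K L} {v : Pl K} {w : Pl L}

theorem av_one_sub_of_lt {F : Type} [Field F] [NumberField F] (w : Pl F) {x : F}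
    (hx : av w x < 1) : av w (1 - x) = 1 := by
  have := av_eq_of_sub_lt w (x := 1 - x) (y := 1)
    (by rw [show (1 - x - 1 : F) = -x by ring, (av w).map_neg, map_one]; exact hx)
  rw [this, map_one]

/-- approximate roots of `μ² - μ + e` -/
theorem exists_mu {e : K} (he : av v e = (qv v)⁻¹) (N : ℕ) :
    ∃ μ : K, av v μ = 1 ∧ av v (μ ^ 2 - μ + e) ≤ (qv v)⁻¹ ^ (N + 1) := by
  induction N with
  | zero =>
    refine ⟨1, map_one _, ?_⟩
    rw [show (1 : K) ^ 2 - 1 + e = e by ring, he, zero_add, pow_one]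
  | succ N ih =>
    obtain ⟨μ, h1, h2⟩ := ih
    have hμ : μ ≠ 0 := by
      rintro rfl
      rw [map_zero] at h1
      exact zero_ne_one h1
    refine ⟨1 - e / μ, av_one_sub_of_lt v ?_, ?_⟩
    · rw [map_div₀, h1, div_one, he]; exact qinv_lt_one v
    · have e1 : (1 - e / μ) ^ 2 - (1 - e / μ) + e = e * (μ ^ 2 - μ + e) / μ ^ 2 := by
        field_simp
        ring
      rw [e1, map_div₀, map_mul, map_pow, h1, he, one_pow, div_one, pow_succ' _ (N + 1)]
      exact mul_le_mul_of_nonneg_left h2 (qinv_pos v).le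

theorem exists_phi (h : Ram C v w) {e : K} (he : av v e = (qv v)⁻¹) {α β c : L}
    (hα : av w α ≤ 1) (hβ : av w β ≤ 1) (hc : av w c = 1)
    (hN : C.nm !![α, -(β * algebraMap K L e); β, α + β] = c • !![0, -(algebraMap K L e); 1, 1])
    (n : ℕ) :
    ∃ (b : L) (m : K), b ≠ 0 ∧ algebraMap K L m = C.nL b ∧
      av v (m + 2 + m⁻¹ - e⁻¹) ≤ av v e⁻¹ * (qv v)⁻¹ ^ n := by
  have hσ : ∀ x, av w (C.σ x) = av w x := av_σ_of_fix C h.fix
  set Q := (qv v)⁻¹ with hQ
  have hQ0 : 0 < Q := qinv_pos v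
  have hQ1 : Q < 1 := qinv_lt_one v
  have he0 : e ≠ 0 := by
    rintro rfl
    rw [map_zero] at he
    exact hQ0.ne he
  obtain ⟨μ, hμ1, hμ2⟩ := exists_mu he (n + 1)
  set E := algebraMap K L e with hE
  set M := algebraMap K L μ with hM
  have hE0 : E ≠ 0 := (_root_.map_ne_zero _).mpr he0
  have hEσ : C.σ E = E := C.σ.commutes _
  have hMσ : C.σ M = M := C.σ.commutes _
  set a1 := C.σ α with ha1
  set a2 := C.σ a1 with ha2
  set b1 := C.σ β with hb1
  set b2 := C.σ b1 with hb2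
  have hva1 : av w a1 ≤ 1 := by rw [ha1, hσ]; exact hα
  have hva2 : av w a2 ≤ 1 := by rw [ha2, hσ]; exact hva1
  have hvb1 : av w b1 ≤ 1 := by rw [hb1, hσ]; exact hβ
  have hvb2 : av w b2 ≤ 1 := by rw [hb2, hσ]; exact hvb1
  -- entries of the norm
  have h00 : α * a1 * a2 - E * (α * b1 * b2 + β * a1 * b2 + β * b1 * a2) - E * (β * b1 * b2) = 0 := by
    have := congrFun (congrFun hN 0) 0
    simp only [Cub.nm, Matrix.mul_apply, Fin.sum_univ_two, Cub.s_apply, Matrix.smul_apply,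
      Matrix.of_apply, Matrix.cons_val', Matrix.cons_val_zero, Matrix.cons_val_one,
      Matrix.cons_val_fin_one, smul_eq_mul, mul_zero, map_neg, map_mul, map_add, hEσ] at this
    linear_combination this
  have h10 : (β * a1 * a2 + α * b1 * a2 + α * a1 * b2) +
      (α * b1 * b2 + β * a1 * b2 + β * b1 * a2) + (1 - E) * (β * b1 * b2) = c := by
    have := congrFun (congrFun hN 1) 0
    simp only [Cub.nm, Matrix.mul_apply, Fin.sum_univ_two, Cub.s_apply, Matrix.smul_apply,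
      Matrix.of_apply, Matrix.cons_val', Matrix.cons_val_zero, Matrix.cons_val_one,
      Matrix.cons_val_fin_one, smul_eq_mul, mul_one, map_neg, map_mul, map_add, hEσ] at this
    linear_combination this
  set p2 := α * b1 * b2 + β * a1 * b2 + β * b1 * a2 with hp2
  set p3 := β * b1 * b2 with hp3
  set ε := M ^ 2 - M + E with hε
  -- the norm of `α + β μ`
  have hP : ∀ t : L, C.σ t = t → C.nL (α + β * t) = c * t + (t ^ 2 - t + E) * (p2 + p3 * (t + 1)) := by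
    intro t ht
    simp only [Cub.nL, map_add, map_mul, ht]
    change (α + β * t) * (a1 + b1 * t) * (a2 + b2 * t) = _
    linear_combination h00 + t * h10
  have hm1 : ∀ x y : L, av w x ≤ 1 → av w y ≤ 1 → av w (x * y) ≤ 1 := fun x y hx hy => by
    rw [map_mul]; exact mul_le_one₀ hx ((av w).nonneg _) hy
  have ha1' : ∀ x y : L, av w x ≤ 1 → av w y ≤ 1 → av w (x + y) ≤ 1 := fun x y hx hy =>
    (av_add_le w _ _).trans (max_le hx hy)
  have hvp2 : av w p2 ≤ 1 := ha1' _ _ (ha1' _ _ (hm1 _ _ (hm1 _ _ hα hvb1) hvb2)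
    (hm1 _ _ (hm1 _ _ hβ hva1) hvb2)) (hm1 _ _ (hm1 _ _ hβ hvb1) hva2)
  have hvp3 : av w p3 ≤ 1 := hm1 _ _ (hm1 _ _ hβ hvb1) hvb2
  have hvM : av w M = 1 := by rw [hM, h.av_eq, hμ1, one_pow]
  have hvE : av w E = Q ^ 3 := by rw [hE, h.av_eq, he]
  have hQ31 : Q ^ 3 < 1 := pow_lt_one₀ hQ0.le hQ1 (by norm_num)
  have hvM' : av w (1 - M) ≤ 1 := (av_sub_le w _ _).trans (max_le (map_one _).le hvM.le)
  set ρ := av w ε with hρ
  have hρle : ρ ≤ (Q ^ (n + 2)) ^ 3 := by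
    have e1 : ε = algebraMap K L (μ ^ 2 - μ + e) := by
      rw [hε, hM, hE, map_add, map_sub, map_pow]
    rw [hρ, e1, h.av_eq]
    exact pow_le_pow_left₀ ((av v).nonneg _) hμ2 3
  have hρ0 : 0 ≤ ρ := (av w).nonneg _
  have hρ3 : ρ < Q ^ 3 := by
    refine hρle.trans_lt ?_
    rw [← pow_mul]
    exact pow_lt_pow_right_of_lt_one₀ hQ0 hQ1 (by omega)
  have hρ1 : ρ ≤ 1 := (hρ3.trans hQ31).le
  have hadd : ∀ x y : L, av w x ≤ ρ → av w y ≤ ρ → av w (x + y) ≤ ρ := fun x y hx hy =>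
    (av_add_le w _ _).trans (max_le hx hy)
  have hsub : ∀ x y : L, av w x ≤ ρ → av w y ≤ ρ → av w (x - y) ≤ ρ := fun x y hx hy =>
    (av_sub_le w _ _).trans (max_le hx hy)
  have hmul : ∀ x y : L, av w x ≤ 1 → av w y ≤ ρ → av w (x * y) ≤ ρ := fun x y hx hy => by
    rw [map_mul, ← one_mul ρ]
    exact mul_le_mul hx hy ((av w).nonneg _) zero_le_one
  set η := ε * (p2 + p3 * (M + 1)) with hη
  set η' := ε * (p2 + p3 * ((1 - M) + 1)) with hη'
  have hvη : av w η ≤ ρ := by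
    rw [hη, mul_comm]
    exact hmul _ _ (ha1' _ _ hvp2 (hm1 _ _ hvp3 (ha1' _ _ hvM.le (map_one _).le))) le_rfl
  have hvη' : av w η' ≤ ρ := by
    rw [hη', mul_comm]
    exact hmul _ _ (ha1' _ _ hvp2 (hm1 _ _ hvp3 (ha1' _ _ hvM' (map_one _).le))) le_rfl
  have hA : C.nL (α + β * M) = c * M + η := hP M hMσ
  have hB : C.nL (α + β * (1 - M)) = c * (1 - M) + η' := by
    rw [hP (1 - M) (by rw [map_sub, map_one, hMσ]), hη', hε]
    ring
  set A1 := C.nL (α + β * M) with hA1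
  set B1 := C.nL (α + β * (1 - M)) with hB1
  have hAB : A1 * B1 - c ^ 2 * E = -(c ^ 2 * ε) + c * M * η' + c * (1 - M) * η + η * η' := by
    rw [hA, hB, hε]; ring
  have hvc2 : av w (c ^ 2) = 1 := by rw [map_pow, hc, one_pow]
  have hvAB : av w (A1 * B1) = Q ^ 3 := by
    have h1 : av w (c ^ 2 * E) = Q ^ 3 := by rw [map_mul, hvc2, hvE, one_mul]
    rw [← h1]
    apply av_eq_of_sub_lt
    rw [h1, hAB]
    refine lt_of_le_of_lt ?_ hρ3
    refine hadd _ _ (hadd _ _ (hadd _ _ ?_ (hmul _ _ (hm1 _ _ hc.le hvM.le) hvη'))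
      (hmul _ _ (hm1 _ _ hc.le hvM') hvη)) (hmul _ _ (hvη.trans hρ1) hvη')
    rw [(av w).map_neg]
    exact hmul _ _ hvc2.le le_rfl
  have hAB0 : A1 * B1 ≠ 0 := by
    intro h0
    rw [h0, map_zero] at hvAB
    exact (pow_pos hQ0 3).ne hvAB
  have hA0 : A1 ≠ 0 := left_ne_zero_of_mul hAB0
  have hB0 : B1 ≠ 0 := right_ne_zero_of_mul hAB0
  have hx0 : α + β * M ≠ 0 := by
    intro h0
    apply hA0
    rw [hA1, h0, Cub.nL, zero_mul, zero_mul]
  have hy0 : α + β * (1 - M) ≠ 0 := by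
    intro h0
    apply hB0
    rw [hB1, h0, Cub.nL, zero_mul, zero_mul]
  have hnb : C.nL ((α + β * M) / (α + β * (1 - M))) = A1 / B1 := by
    rw [div_eq_mul_inv, C.nL_mul, C.nL_inv, ← div_eq_mul_inv]
  obtain ⟨m, hm⟩ := C.fixed (C.nL ((α + β * M) / (α + β * (1 - M)))) (C.σ_nL _)
  refine ⟨(α + β * M) / (α + β * (1 - M)), m, div_ne_zero hx0 hy0, hm, ?_⟩
  -- the estimate
  have hnum : av w ((A1 + B1) ^ 2 * E - A1 * B1) ≤ ρ := by
    have e1 : (A1 + B1) ^ 2 * E - A1 * B1 = c ^ 2 * ε + (2 * c * E) * (η + η') +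
        ((η + η') * E) * (η + η') - (c * M) * η' - (c * (1 - M)) * η - η * η' := by
      rw [hA, hB, hε]; ring
    have hv2 : av w (2 : L) ≤ 1 := by
      rw [show (2 : L) = 1 + 1 by norm_num]
      exact ha1' _ _ (map_one _).le (map_one _).le
    have hvE1 : av w E ≤ 1 := hvE.le.trans hQ31.le
    have hs : av w (η + η') ≤ ρ := hadd _ _ hvη hvη'
    rw [e1]
    refine hsub _ _ (hsub _ _ (hsub _ _ (hadd _ _ (hadd _ _ ?_ ?_) ?_) ?_) ?_) ?_
    · exact hmul _ _ hvc2.le le_rfl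
    · exact hmul _ _ (hm1 _ _ (hm1 _ _ hv2 hc.le) hvE1) hs
    · exact hmul _ _ (hm1 _ _ (hs.trans hρ1) hvE1) hs
    · exact hmul _ _ (hm1 _ _ hc.le hvM.le) hvη'
    · exact hmul _ _ (hm1 _ _ hc.le hvM') hvη
    · exact hmul _ _ (hvη.trans hρ1) hvη'
  have hL : algebraMap K L (m + 2 + m⁻¹ - e⁻¹) =
      ((A1 + B1) ^ 2 * E - A1 * B1) / (A1 * B1 * E) := by
    rw [map_sub, map_add, map_add, map_inv₀, map_inv₀, hm, hnb, map_ofNat]
    change A1 / B1 + 2 + (A1 / B1)⁻¹ - E⁻¹ = _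
    field_simp
    ring
  have hv : av v (m + 2 + m⁻¹ - e⁻¹) ^ 3 ≤ (Q ^ n) ^ 3 := by
    rw [← h.av_eq, hL, map_div₀, map_mul, hvAB, hvE, div_le_iff₀ (by positivity)]
    refine hnum.trans (hρle.trans (le_of_eq ?_))
    ring
  have hv' : av v (m + 2 + m⁻¹ - e⁻¹) ≤ Q ^ n :=
    le_of_pow_le_pow_left₀ (by norm_num) (by positivity) hv
  refine hv'.trans ?_
  rw [map_inv₀, he, inv_inv]
  have h1 : 1 ≤ qv v := (one_lt_qv v).le
  calc Q ^ n = 1 * Q ^ n := (one_mul _).symm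
    _ ≤ qv v * Q ^ n := mul_le_mul_of_nonneg_right h1 (by positivity)

end Fermat.LT.Tr
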