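import Fermat.Agent.LT.Geo.RamEll
import Fermat.Agent.LT.Geo.RamPhi
import Fermat.Agent.LT.Geo.LocInert

/-!
# LT, geometric side: local matching at the totally ramified places (E3), conclusion
-/

set_option autoImplicit false
set_option linter.unusedSectionVars false
set_option linter.unusedVariables false

open NumberField IsDedekindDomain Matrix
open Fermat.Agent.LT.D

namespace Fermat.LT.Tr

section core

variable {K L : Type} [Field K] [NumberField K] [Field L] [NumberField L] [Algebra K L]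
  {C : Cub K L} {v : Pl K} {w : Pl L} {γ : G2 K} {δ : G2 L}

theorem av_td (v : Pl K) (γ : G2 K) : av v (td γ) = av v γ.1.trace ^ 2 / av v γ.1.det := by
  unfold td
  rw [map_div₀, map_pow]

theorem phiR_ell (n : ℕ) (hx : av v γ.1.trace ^ 2 ≤ av v γ.1.det) :
    phiR C v n (td γ) = 1 := by
  unfold phiR
  rw [if_pos]
  rw [av_td, div_le_one (av_det_pos' v γ)]
  exact hx

theorem phiR_hyp (h : Ram C v w) (hc : GeoDatum.Corr C γ δ) (n : ℕ)
    (hx : av v γ.1.det < av v γ.1.trace ^ 2) {z : G2 K ⧸ stdH v} (hz : OmK v γ z) :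
    phiR C v n (td γ) = 3 := by
  have hd0 := av_det_pos' v γ
  have ht0 : γ.1.trace ≠ 0 := by
    intro h0
    rw [h0, map_zero] at hx
    norm_num at hx
    linarith
  have ht1 : 0 < av v γ.1.trace := (av v).pos ht0
  have hq := qv_pos v
  obtain ⟨g₀, rfl⟩ := QuotientGroup.mk_surjective z
  rw [omK_mk] at hz
  -- `|det γ| = q⁻¹ |tr γ|²`
  have hdt : av v γ.1.det = (qv v)⁻¹ * av v γ.1.trace ^ 2 := by
    obtain ⟨c₁, e, c, A, s, α, β, hgA, -, -, hdA, htA, -⟩ := hyp_vertex h hc hx hz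
    rw [← trace_conj g₀ γ, ← det_conj g₀ γ, hgA, sc_mul_val, Matrix.trace_smul, Matrix.det_smul,
      Fintype.card_fin, smul_eq_mul, map_mul, map_mul, map_pow, hdA, htA]
    ring
  obtain ⟨g, hg, hgA⟩ := exists_axis v hc.1.not_isSc (Units.mk0 _ ht0) hdt le_rfl
  rw [Units.val_mk0] at hgA
  set e : K := γ.1.det / γ.1.trace ^ 2 with he
  have hev : av v e = (qv v)⁻¹ := by
    rw [he, map_div₀, hdt, map_pow]; field_simp
  have he0 : e ≠ 0 := by
    rw [← (av v).pos_iff, hev]; exact qinv_pos v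
  -- normalise
  set A : G2 K := sc (Units.mk0 _ ht0)⁻¹ * (g⁻¹ * γ * g) with hA
  have hA1 : A.1 = !![0, -e; 1, 1] := by
    rw [hA, sc_mul_val, hgA, Units.val_inv_eq_inv_val, Units.val_mk0, smul_smul,
      inv_mul_cancel₀ ht0, one_smul, div_self ht0]
  have hnA : nm v A.1 = 1 := by
    rw [hA1]
    apply le_antisymm
    · rw [nm_le_iff]
      intro i j
      fin_cases i <;> fin_cases j
      · change av v 0 ≤ 1
        rw [map_zero]; exact zero_le_one
      · change av v (-e) ≤ 1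
        rw [(av v).map_neg, hev]; exact (qinv_lt_one v).le
      · change av v 1 ≤ 1
        rw [map_one]
      · change av v 1 ≤ 1
        rw [map_one]
    · have := av_le_nm v !![0, -e; 1, 1] 1 0
      refine le_trans ?_ this
      change 1 ≤ av v 1
      rw [map_one]
  have hdA : av v A.1.det = (qv v)⁻¹ := by
    rw [hA1, Matrix.det_fin_two, ← hev]
    simp
  have htA : av v A.1.trace = 1 := by
    rw [hA1, Matrix.trace_fin_two]
    simp
  obtain ⟨e₁, he₁⟩ := exists_sc_nm w ((Cub.Inc g)⁻¹ * δ * C.S (Cub.Inc g))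
  set s : G2 L := sc e₁ * ((Cub.Inc g)⁻¹ * δ * C.S (Cub.Inc g)) with hs
  obtain ⟨c, hN, -⟩ := corr_N hc (Cub.Inc g)
  have hgA' : g⁻¹ * γ * g = sc (Units.mk0 _ ht0) * A := by
    rw [hA, ← sc_inv, ← mul_assoc (sc (Units.mk0 _ ht0)), mul_inv_cancel, one_mul]
  have hIA : (Cub.Inc (L := L) g)⁻¹ * Cub.Inc γ * Cub.Inc g =
      sc (Units.map (algebraMap K L : K →* L) (Units.mk0 _ ht0)) * Cub.Inc A := by
    rw [← map_inv, ← map_mul, ← map_mul, hgA', map_mul]
    congr 1
    exact Matrix.GeneralLinearGroup.map_scalar _ _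
  have hN' : C.N s = sc (C.nu e₁ * c * Units.map (algebraMap K L : K →* L) (Units.mk0 _ ht0)) *
      Cub.Inc A := by
    apply Units.ext
    rw [sc_mul_val, Cub.coe_N, hs, sc_mul_val, Cub.nm_smul, ← Cub.coe_N, hN, sc_mul_val, hIA,
      sc_mul_val, smul_smul, smul_smul]
    rfl
  have hcomm : s * Cub.Inc (L := L) A = Cub.Inc (L := L) A * s := by
    obtain ⟨α, β, h1⟩ := conj_form (A := A.1) (c₁ := Units.mk0 _ ht0) hc
      (by rw [hgA', sc_mul_val])
    have hs1 : s.1 = (e₁ : L) • (α • (1 : Matrix (Fin 2) (Fin 2) L) + β • Cub.inc A.1) := by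
      rw [hs, sc_mul_val, h1]
    apply Units.ext
    change s.1 * Cub.inc A.1 = Cub.inc A.1 * s.1
    rw [hs1]
    simp only [smul_add, Matrix.add_mul, Matrix.mul_add, Matrix.smul_mul, Matrix.mul_smul,
      Matrix.one_mul, Matrix.mul_one]
  obtain ⟨α, β, h4, h5, h6, h7, h8⟩ := hyp_form h hnA hdA htA he₁ hcomm hN'
  have hs1 : s.1 = !![α, -(β * algebraMap K L e); β, α + β] := by
    rw [h4, hA1]
    ext i j
    fin_cases i <;> fin_cases j <;> simp [Cub.inc_apply]
  have hIncA : (Cub.Inc (L := L) A).1 = !![0, -(algebraMap K L e); 1, 1] := by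
    rw [Cub.coe_Inc, hA1]
    ext i j
    fin_cases i <;> fin_cases j <;> simp [Cub.inc_apply]
  have hNm : C.nm !![α, -(β * algebraMap K L e); β, α + β] =
      ((C.nu e₁ * c * Units.map (algebraMap K L : K →* L) (Units.mk0 _ ht0) : Lˣ) : L) •
        !![0, -(algebraMap K L e); 1, 1] := by
    rw [← hs1, ← Cub.coe_N, hN', sc_mul_val, hIncA]
  obtain ⟨b, m, hb, hm, hbm⟩ := exists_phi h hev h5 h6 h7 hNm n
  have htd : td γ = e⁻¹ := by
    rw [he, td, inv_div]
  unfold phiR
  rw [if_neg, if_pos]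
  · exact ⟨b, m, hb, hm, by rw [htd]; exact hbm⟩
  · rw [av_td, not_le, one_lt_div hd0]
    exact hx

/-- abstract gluing -/
theorem exists_proj {Y Z : Type} [Inhabited Z] {A : Y → Prop} {B : Z → Prop} {R : Y → Z → Prop}
    (h1 : ∀ y, A y → ∃ z, B z ∧ R y z)
    (h2 : ∀ y z z', A y → B z → B z' → R y z → R y z' → z = z') :
    ∃ P : Y → Z, ∀ y z, A y → (P y = z ↔ B z ∧ R y z) := by
  classical
  refine ⟨fun y => if h : A y then (h1 y h).choose else default, ?_⟩
  intro y z hy
  simp only [dif_pos hy]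
  constructor
  · rintro rfl
    exact (h1 y hy).choose_spec
  · rintro ⟨hz, hR⟩
    exact h2 y _ _ hy (h1 y hy).choose_spec.1 hz (h1 y hy).choose_spec.2 hR

instance (v : Pl K) : Inhabited (G2 K ⧸ stdH v) := ⟨((1 : G2 K) : G2 K ⧸ stdH v)⟩

open Classical in
/-- **(E3)**, abstract form. -/
theorem ram_core (h : Ram C v w) (hc : GeoDatum.Corr C γ δ) :
    ∃ P : G2 L ⧸ stdH w → G2 K ⧸ stdH v,
      (∀ z, {y | P y = z ∧ OmL h δ y}.Finite) ∧
      (∀ (n : ℕ) z, (({y | P y = z ∧ OmL h δ y}.ncard : ℕ) : ℂ) =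
        phiR C v n (td γ) * (if OmK v γ z then 1 else 0)) ∧
      (∀ t : G2 K, t * γ = γ * t → ∀ y, OmL h δ y → P (Cub.Inc (L := L) t • y) = t • P y) := by
  -- it is enough to have a good relation
  have key : ∀ (R : G2 L ⧸ stdH w → G2 K ⧸ stdH v → Prop),
      (∀ y, OmL h δ y → ∃ z, OmK v γ z ∧ R y z) →
      (∀ y z z', OmL h δ y → OmK v γ z → OmK v γ z' → R y z → R y z' → z = z') →
      (∀ t : G2 K, t * γ = γ * t → ∀ y z, R y z → R (Cub.Inc (L := L) t • y) (t • z)) →
      (∀ z, OmK v γ z → {y | OmL h δ y ∧ R y z}.Finite ∧ ∀ n,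
        (({y | OmL h δ y ∧ R y z}.ncard : ℕ) : ℂ) = phiR C v n (td γ)) →
      ∃ P : G2 L ⧸ stdH w → G2 K ⧸ stdH v,
      (∀ z, {y | P y = z ∧ OmL h δ y}.Finite) ∧
      (∀ (n : ℕ) z, (({y | P y = z ∧ OmL h δ y}.ncard : ℕ) : ℂ) =
        phiR C v n (td γ) * (if OmK v γ z then 1 else 0)) ∧
      (∀ t : G2 K, t * γ = γ * t → ∀ y, OmL h δ y → P (Cub.Inc (L := L) t • y) = t • P y) := by
    intro R h1 h2 h3 h4
    obtain ⟨P, hP⟩ := exists_proj h1 h2
    have hset : ∀ z, OmK v γ z → {y | P y = z ∧ OmL h δ y} = {y | OmL h δ y ∧ R y z} := by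
      intro z hz
      ext y
      constructor
      · rintro ⟨ha, hb⟩
        exact ⟨hb, ((hP y z hb).mp ha).2⟩
      · rintro ⟨ha, hb⟩
        exact ⟨(hP y z ha).mpr ⟨hz, hb⟩, ha⟩
    have hempty : ∀ z, ¬ OmK v γ z → {y | P y = z ∧ OmL h δ y} = ∅ := by
      intro z hz
      ext y
      constructor
      · rintro ⟨ha, hb⟩
        exact (hz ((hP y z hb).mp ha).1).elim
      · exact fun h => h.elim
    refine ⟨P, ?_, ?_, ?_⟩
    · intro z
      by_cases hz : OmK v γ z
      · rw [hset z hz]; exact (h4 z hz).1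
      · rw [hempty z hz]; exact Set.finite_empty
    · intro n z
      by_cases hz : OmK v γ z
      · rw [hset z hz, if_pos hz, mul_one]; exact (h4 z hz).2 n
      · rw [hempty z hz, if_neg hz, mul_zero, Set.ncard_empty, Nat.cast_zero]
    · intro t ht y hy
      have h5 := (hP y (P y) hy).mp rfl
      rw [hP _ _ ((omL_smul h hc ht y).mpr hy)]
      exact ⟨(omK_smul ht _).mpr h5.1, h3 t ht y _ h5.2⟩
  by_cases hx : av v γ.1.trace ^ 2 ≤ av v γ.1.det
  · -- elliptic case
    refine key (fun y z => evq w y ↔ evq v z) ?_ ?_ ?_ ?_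
    · intro y hy
      obtain ⟨z, hz⟩ := exists_omK h hc hy
      exact exists_par_K hz _
    · intro y z z' hy hz hz' h1 h2
      exact ell_unique_K hx hz hz' (h1.symm.trans h2)
    · intro t ht y z h1
      rw [evq_smul, evq_smul, evn_Inc h, h1]
    · intro z hz
      obtain ⟨y₁, hy₁⟩ := exists_omL_ell h hc hx hz
      obtain ⟨y₀, hy₀, hp⟩ := exists_par_L h hy₁ (evq v z)
      have hset : {y | OmL h δ y ∧ (evq w y ↔ evq v z)} = {y₀} := by
        ext y
        constructor
        · rintro ⟨ha, hb⟩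
          exact ell_unique_L h hc hx ha hy₀ (hb.trans hp)
        · rintro rfl
          exact ⟨hy₀, hp.symm⟩
      rw [hset]
      refine ⟨Set.finite_singleton _, fun n => ?_⟩
      rw [Set.ncard_singleton, phiR_ell n hx, Nat.cast_one]
  · -- hyperbolic case
    push Not at hx
    refine key (fun y z => ∃ i : Fin 3, y = (TL h δ ^ (i : ℕ)) (iot h z)) ?_ ?_ ?_ ?_
    · intro y hy
      exact hyp_exists h hc hx hy
    · rintro y z z' hy hz hz' ⟨i, hi⟩ ⟨j, hj⟩
      exact (hyp_unique h hc hx hz hz' (hi.symm.trans hj)).1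
    · rintro t ht y z ⟨i, rfl⟩
      refine ⟨i, ?_⟩
      rw [iot_smul]
      have h1 : ∀ (n : ℕ) (y : G2 L ⧸ stdH w), (TL h δ ^ n) (Cub.Inc (L := L) t • y) =
          Cub.Inc (L := L) t • (TL h δ ^ n) y := by
        intro n
        induction n with
        | zero => intro y; rfl
        | succ n ih =>
          intro y
          rw [pow_succ, Equiv.Perm.mul_apply, Equiv.Perm.mul_apply, TL_Inc h hc ht, ih]
      exact (h1 _ _).symm
    · intro z hz
      have hset : {y | OmL h δ y ∧ ∃ i : Fin 3, y = (TL h δ ^ (i : ℕ)) (iot h z)} =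
          Set.range (fun i : Fin 3 => (TL h δ ^ (i : ℕ)) (iot h z)) := by
        ext y
        constructor
        · rintro ⟨ha, i, hi⟩
          exact ⟨i, hi.symm⟩
        · rintro ⟨i, rfl⟩
          refine ⟨?_, i, rfl⟩
          have h1 := (omL_zpow h (iot h z) (i : ℕ)).mpr (omL_iot h hc hx hz)
          rwa [zpow_natCast] at h1
      have hinj : Function.Injective (fun i : Fin 3 => (TL h δ ^ (i : ℕ)) (iot h z)) :=
        fun i j hij => (hyp_unique h hc hx hz hz hij).2
      rw [hset]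
      refine ⟨Set.finite_range _, fun n => ?_⟩
      rw [← Set.image_univ, Set.ncard_image_of_injective _ hinj, Set.ncard_univ, Nat.card_fin,
        phiR_hyp h hc n hx hz]
      norm_num

end core

section glue

open GeoDatum

variable {K L : Type} [Field K] [NumberField K] [Field L] [NumberField L] [Algebra K L]
variable {C : Cub K L} {G : GeoDatum C}

/-- coordinates above a ramified place -/
noncomputable def ramL {v : Pl K} (hv : Ram C v (G.up v)) :
    Yl G.DL.toLevel (G.up v) ≃ G2 L ⧸ stdH (G.up v) :=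
  Subgroup.quotientEquivOfEq (G.H_ram v hv).1

/-- coordinates at a ramified place -/
noncomputable def ramK {v : Pl K} (hv : Ram C v (G.up v)) : Yl G.U0 v ≃ G2 K ⧸ stdH v :=
  Subgroup.quotientEquivOfEq (G.H_ram v hv).2

theorem ramL_smul {v : Pl K} (hv : Ram C v (G.up v)) (g : G2 L) (y : Yl G.DL.toLevel (G.up v)) :
    ramL hv (g • y) = g • ramL hv y := by
  obtain ⟨a, rfl⟩ := QuotientGroup.mk_surjective y
  rfl

theorem ramK_smul {v : Pl K} (hv : Ram C v (G.up v)) (g : G2 K) (y : Yl G.U0 v) :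
    ramK hv (g • y) = g • ramK hv y := by
  obtain ⟨a, rfl⟩ := QuotientGroup.mk_surjective y
  rfl

theorem biInv_T1 {F : Type} [Field F] [NumberField F] (w : Pl F) : BiInv (stdH w) (T1 w) := by
  intro h hh h' hh' g
  unfold T1
  have : nm w (h * g * h').1 * nm w ((h * g * h')⁻¹).1 = nm w g.1 * nm w (g⁻¹).1 := by
    change dd w (h * g * h') = dd w g
    rw [dd_mul_mem w _ hh', dd_mem_mul w _ hh]
  rw [this]

theorem ramL_σl {v : Pl K} (hv : Ram C v (G.up v)) (δ : G2 L) (y : Yl G.DL.toLevel (G.up v)) :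
    ramL hv (δ • G.DL.σl hv.fix y) = TL hv δ (ramL hv y) := by
  obtain ⟨a, rfl⟩ := QuotientGroup.mk_surjective y
  rfl

open Classical in
theorem kw_T1 {F : Type} [Field F] [NumberField F] {w : Pl F} {H : Subgroup (G2 F)}
    (hH : H = stdH w) (y y' : G2 F ⧸ H) :
    kw H (T1 w) y y' = if dq w (Subgroup.quotientEquivOfEq hH y)
      (Subgroup.quotientEquivOfEq hH y') = qv w then 1 else 0 := by
  subst hH
  obtain ⟨a, rfl⟩ := QuotientGroup.mk_surjective y
  obtain ⟨b, rfl⟩ := QuotientGroup.mk_surjective y'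
  rw [kw_mk (biInv_T1 w)]
  rfl

open Classical in
theorem Fv_ram {v : Pl K} (hv : Ram C v (G.up v)) {k : Pure G.DL.toDatum} (hk : Good k)
    (δ : G2 L) (y : G.AL v) : Fv k v δ y =
      if OmL hv δ (ramL hv (y (G.ix v))) then 1 else 0 := by
  rw [Fv_fix hv.fix, hk.ram v hv, kw_T1 (G.H_ram v hv).1]
  unfold OmL
  rw [← ramL_σl]
  rfl

theorem not_split_of_ram {v : Pl K} {w : Pl L} (h : Ram C v w) : ¬ Split C v w :=
  fun hs => hs.ne h.fix

open Classical in
theorem Gv_ram {v : Pl K} (hv : Ram C v (G.up v)) (k : Pure G.DL.toDatum)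
    (γ : G2 K) (z : Yl G.U0 v) : Gv k v γ z =
      phiR C v (G.nr v) (td γ) * (if OmK v γ (ramK hv z) then 1 else 0) := by
  unfold Gv
  rw [if_neg (not_split_of_ram hv), if_pos hv, kw_T1 (G.H_ram v hv).2]
  unfold OmK
  rw [TK_apply, ← ramK_smul]
  rfl

/-- **(E3)**: matching at the ramified places. -/
theorem _root_.Fermat.LT.GeoDatum.locRam (G : GeoDatum C) {γ : G2 K} {δ : G2 L} (hc : Corr C γ δ) : LocRam G γ δ := by
  classical
  have key : ∀ v, ∃ P : G.AL v → Yl G.U0 v, Ram C v (G.up v) →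
      ∀ k : Pure G.DL.toDatum, Good k → LocMatch k v γ δ P := by
    intro v
    by_cases hv : Ram C v (G.up v)
    swap
    · exact ⟨fun _ => ((1 : G2 K) : Yl G.U0 v), fun h => absurd h hv⟩
    obtain ⟨P, hP1, hP2, hP3⟩ := ram_core hv hc
    refine ⟨fun y => (ramK hv).symm (P (ramL hv (y (G.ix v)))), fun _ k hk => ?_⟩
    have hne : ∀ y, Fv k v δ y ≠ 0 ↔ OmL hv δ (ramL hv (y (G.ix v))) := by
      intro y
      rw [Fv_ram hv hk]
      split_ifs with h
      · exact ⟨fun _ => h, fun _ => one_ne_zero⟩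
      · exact ⟨fun h' => absurd rfl h', fun h' => absurd h' h⟩
    -- the bijection
    have hbij : ∀ z, Set.BijOn (fun y : G.AL v => ramL hv (y (G.ix v)))
        {y | (ramK hv).symm (P (ramL hv (y (G.ix v)))) = z ∧ Fv k v δ y ≠ 0}
        {y | P y = ramK hv z ∧ OmL hv δ y} := by
      intro z
      refine ⟨?_, ?_, ?_⟩
      · rintro y ⟨h1, h2⟩
        refine ⟨?_, (hne y).mp h2⟩
        rw [← h1, Equiv.apply_symm_apply]
      · intro y _ y' _ h
        exact AL_ext hv.fix ((ramL hv).injective h)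
      · rintro y ⟨h1, h2⟩
        have hs := down_subsingleton (G := G) hv.fix
        have hU : ∃ y' : G.AL v, y' (G.ix v) = (ramL hv).symm y := by
          refine ⟨fun w => by
            have : w = G.ix v := hs.elim _ _
            exact this ▸ (ramL hv).symm y, rfl⟩
        obtain ⟨y', hy'⟩ := hU
        have e : ramL hv (y' (G.ix v)) = y := by rw [hy', Equiv.apply_symm_apply]
        refine ⟨y', ⟨?_, ?_⟩, e⟩
        · rw [e, h1, Equiv.symm_apply_apply]
        · rw [hne, e]; exact h2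
    refine ⟨?_, ?_, ?_⟩
    · intro z
      exact (hbij z).finite_iff_finite.mpr (hP1 _)
    · intro z
      have h1 : ∑ᶠ y ∈ {y | (ramK hv).symm (P (ramL hv (y (G.ix v)))) = z ∧ Fv k v δ y ≠ 0},
          Fv k v δ y = ∑ᶠ y ∈ {y | P y = ramK hv z ∧ OmL hv δ y}, (1 : ℂ) := by
        apply finsum_mem_eq_of_bijOn _ (hbij z)
        rintro y ⟨-, h2⟩
        rw [Fv_ram hv hk, if_pos ((hne y).mp h2)]
      rw [h1, Gv_ram hv k, ← hP2, finsum_mem_eq_finite_toFinset_sum _ (hP1 _), Finset.sum_const,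
        nsmul_one, Set.ncard_eq_toFinset_card _ (hP1 _)]
    · intro t ht y hy
      have h1 := hP3 t ht _ ((hne y).mp hy)
      change (ramK hv).symm (P (ramL hv (Cub.Inc (L := L) t • y (G.ix v)))) = _
      rw [ramL_smul, h1]
      apply (ramK hv).injective
      rw [ramK_smul, Equiv.apply_symm_apply, Equiv.apply_symm_apply]
  choose P hP using key
  exact ⟨P, fun v hv k hk => hP v hv k hk⟩

end glue

end Fermat.LT.Tr
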