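import Fermat.Agent.LT.Geo.AvPl

/-!
# Resolvents for an inert unramified place

`w` is a place of `L` with `|σ x|_w = |x|_w` and there is `θ` with `|θ|_w ≤ 1`, `|σ θ - θ|_w = 1`.
-/

set_option autoImplicit false
set_option linter.unusedSectionVars false

open NumberField IsDedekindDomain Matrix
open Fermat.Agent.LT.D

namespace Fermat.LT

section

variable {K L : Type} [Field K] [NumberField K] [Field L] [NumberField L] [Algebra K L]
  (C : Cub K L)

/-- `σ` acts isometrically and non trivially on the residue field. -/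
structure Unr (w : Pl L) : Prop where
  av_σ : ∀ x, av w (C.σ x) = av w x
  gen : ∃ θ : L, av w θ ≤ 1 ∧ av w (C.σ θ - θ) = 1

theorem Inert.unr {C : Cub K L} {v : Pl K} {w : Pl L} (h : Inert C v w) : Unr C w :=
  ⟨av_σ_of_fix C h.fix, h.gen⟩

variable {C} {w : Pl L}

theorem Unr.exists_dual (h : Unr C w) : ∃ c d : Fin 3 → L, (∀ i, av w (c i) ≤ 1) ∧
    (∀ i, av w (d i) ≤ 1) ∧ ∑ i, d i * c i = 1 ∧ ∑ i, d i * C.σ (c i) = 0 ∧
    ∑ i, d i * C.σ (C.σ (c i)) = 0 := by
  obtain ⟨θ, h1, h2⟩ := h.gen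
  have hs1 : av w (C.σ θ) ≤ 1 := by rw [h.av_σ]; exact h1
  have hs2 : av w (C.σ (C.σ θ)) ≤ 1 := by rw [h.av_σ]; exact hs1
  have hA : av w (θ - C.σ θ) = 1 := by rw [← (av w).map_neg, neg_sub]; exact h2
  have hB : av w (θ - C.σ (C.σ θ)) = 1 := by
    have : C.σ (θ - C.σ (C.σ θ)) = C.σ θ - θ := by rw [map_sub, C.cube]
    rw [← h.av_σ, this, h2]
  have hA0 : θ - C.σ θ ≠ 0 := by
    intro h0; rw [h0, map_zero] at hA; exact zero_ne_one hA
  have hB0 : θ - C.σ (C.σ θ) ≠ 0 := by
    intro h0; rw [h0, map_zero] at hB; exact zero_ne_one hB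
  obtain ⟨s, hs⟩ : ∃ s, s = C.σ θ := ⟨_, rfl⟩
  obtain ⟨t, ht⟩ : ∃ t, t = C.σ s := ⟨_, rfl⟩
  have ht3 : C.σ t = θ := by rw [ht, hs, C.cube]
  rw [← hs] at hs1 hs2 hA hA0 hB hB0
  rw [← ht] at hs2 hB hB0
  obtain ⟨E, hE⟩ : ∃ E, E = ((θ - s) * (θ - t))⁻¹ := ⟨_, rfl⟩
  have hE1 : (θ - s) * (θ - t) * E = 1 := by
    rw [hE]; exact mul_inv_cancel₀ (mul_ne_zero hA0 hB0)
  have hD : av w E = 1 := by
    rw [hE, map_inv₀, map_mul, hA, hB]; norm_num
  have a1 : av w (s * t * E) ≤ 1 := by
    rw [map_mul, hD, mul_one, map_mul]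
    exact mul_le_one₀ hs1 ((av w).nonneg _) hs2
  have a2 : av w (-(s + t) * E) ≤ 1 := by
    rw [map_mul, hD, mul_one, (av w).map_neg]
    exact (av_add_le w _ _).trans (max_le hs1 hs2)
  have a3 : av w (θ ^ 2) ≤ 1 := by
    rw [map_pow]
    exact pow_le_one₀ ((av w).nonneg _) h1
  have s2 : C.σ (θ ^ 2) = s ^ 2 := by rw [map_pow, hs]
  have s3 : C.σ (s ^ 2) = t ^ 2 := by rw [map_pow, ht]
  refine ⟨![1, θ, θ ^ 2], ![s * t * E, -(s + t) * E, E], ?_, ?_, ?_, ?_, ?_⟩
  · intro i
    match i with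
    | 0 => exact (map_one (av w)).le
    | 1 => exact h1
    | 2 => exact a3
  · intro i
    match i with
    | 0 => exact a1
    | 1 => exact a2
    | 2 => exact hD.le
  · rw [Fin.sum_univ_three]
    change s * t * E * 1 + -(s + t) * E * θ + E * θ ^ 2 = 1
    linear_combination hE1
  · rw [Fin.sum_univ_three]
    change s * t * E * C.σ 1 + -(s + t) * E * C.σ θ + E * C.σ (θ ^ 2) = 0
    rw [s2, ← hs, map_one]
    ring
  · rw [Fin.sum_univ_three]
    change s * t * E * C.σ (C.σ 1) + -(s + t) * E * C.σ (C.σ θ) + E * C.σ (C.σ (θ ^ 2)) = 0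
    rw [s2, ← hs, ← ht, s3, map_one, map_one]
    ring

/-- the trace of `L/K`, as an element of `L` -/
theorem Unr.exists_av_eq (h : Unr C w) {x : L} (hx : x ≠ 0) :
    ∃ y : K, y ≠ 0 ∧ av w (algebraMap K L y) = av w x := by
  obtain ⟨c, d, hc, hd, e0, e1, e2⟩ := h.exists_dual
  set T : Fin 3 → L := fun i => c i * x + C.σ (c i * x) + C.σ (C.σ (c i * x)) with hT
  have hTK : ∀ i, ∃ y : K, algebraMap K L y = T i := by
    intro i
    apply C.fixed
    simp only [hT, map_add, C.cube]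
    ring
  have hsum : ∑ i, d i * T i = x := by
    have : ∑ i, d i * T i = (∑ i, d i * c i) * x + (∑ i, d i * C.σ (c i)) * C.σ x +
        (∑ i, d i * C.σ (C.σ (c i))) * C.σ (C.σ x) := by
      simp only [hT, map_mul, Finset.sum_mul, ← Finset.sum_add_distrib]
      exact Finset.sum_congr rfl fun i _ => by ring
    rw [this, e0, e1, e2]
    ring
  have hle : ∀ i, av w (T i) ≤ av w x := by
    intro i
    have hcx : av w (c i * x) ≤ av w x := by
      rw [map_mul]
      exact mul_le_of_le_one_left ((av w).nonneg _) (hc i)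
    refine (av_add_le w _ _).trans (max_le ((av_add_le w _ _).trans (max_le hcx ?_)) ?_)
    · rw [h.av_σ]; exact hcx
    · rw [h.av_σ, h.av_σ]; exact hcx
  have hge : ∃ i, av w x ≤ av w (T i) := by
    by_contra hcon
    push Not at hcon
    have : av w x < av w x := by
      have hlt : ∀ i, av w (d i * T i) < av w x := by
        intro i
        rw [map_mul]
        exact (mul_le_of_le_one_left ((av w).nonneg _) (hd i)).trans_lt (hcon i)
      calc av w x = av w (d 0 * T 0 + d 1 * T 1 + d 2 * T 2) := by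
            rw [← Fin.sum_univ_three (fun i => d i * T i), hsum]
        _ ≤ max (max (av w (d 0 * T 0)) (av w (d 1 * T 1))) (av w (d 2 * T 2)) :=
            (av_add_le w _ _).trans (max_le_max (av_add_le w _ _) le_rfl)
        _ < av w x := max_lt (max_lt (hlt 0) (hlt 1)) (hlt 2)
    exact lt_irrefl _ this
  obtain ⟨i, hi⟩ := hge
  obtain ⟨y, hy⟩ := hTK i
  refine ⟨y, ?_, ?_⟩
  · rintro rfl
    rw [map_zero] at hy
    rw [← hy, map_zero] at hi
    exact hx ((av w).eq_zero.mp (le_antisymm hi ((av w).nonneg _)))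
  · rw [hy]; exact le_antisymm (hle i) hi

variable (C)

/-- The resolvent `c + h σ(c) + h σ(h) σ²(c)`. -/
def res (h : Matrix (Fin 2) (Fin 2) L) (c : L) : Matrix (Fin 2) (Fin 2) L :=
  c • (1 : Matrix (Fin 2) (Fin 2) L) + C.σ c • h + C.σ (C.σ c) • (h * C.s h)

theorem res_add (h : Matrix (Fin 2) (Fin 2) L) (c c' : L) :
    res C h (c + c') = res C h c + res C h c' := by
  simp only [res, map_add, add_smul]
  abel

theorem mul_s_res (h : Matrix (Fin 2) (Fin 2) L) (c : L) :
    h * C.s (res C h c) = res C h c + c • (C.nm h - 1) := by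
  simp only [res, map_add, C.s_smul, map_one, map_mul, C.cube, mul_add, Matrix.mul_smul, mul_one,
    Cub.nm, smul_sub]
  rw [← mul_assoc]
  abel

theorem det_comb (a b c : L) (A B D : Matrix (Fin 2) (Fin 2) L) :
    (a • A + b • B + c • D).det = a ^ 2 * A.det + b ^ 2 * B.det + c ^ 2 * D.det +
      a * b * ((A + B).det - A.det - B.det) + a * c * ((A + D).det - A.det - D.det) +
      b * c * ((B + D).det - B.det - D.det) := by
  simp only [Matrix.det_fin_two, Matrix.add_apply, Matrix.smul_apply, smul_eq_mul]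
  ring

variable {C}

/-- Some resolvent has determinant of absolute value at least one. -/
theorem Unr.exists_res (h : Unr C w) (g : Matrix (Fin 2) (Fin 2) L) :
    ∃ c : L, av w c ≤ 1 ∧ 1 ≤ av w (res C g c).det := by
  by_contra hcon
  push Not at hcon
  obtain ⟨c, d, hc, hd, e0, e1, e2⟩ := h.exists_dual
  have hsum : d 0 • res C g (c 0) + d 1 • res C g (c 1) + d 2 • res C g (c 2) = 1 := by
    have : d 0 • res C g (c 0) + d 1 • res C g (c 1) + d 2 • res C g (c 2) =
        (∑ i, d i * c i) • (1 : Matrix (Fin 2) (Fin 2) L) + (∑ i, d i * C.σ (c i)) • g +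
        (∑ i, d i * C.σ (C.σ (c i))) • (g * C.s g) := by
      simp only [res, Fin.sum_univ_three, add_smul, smul_add, smul_smul]
      abel
    rw [this, e0, e1, e2, one_smul, zero_smul, zero_smul, add_zero, add_zero]
  have hlt : ∀ i, av w (res C g (c i)).det < 1 := fun i => hcon _ (hc i)
  have hlt2 : ∀ i j, av w ((res C g (c i) + res C g (c j)).det - (res C g (c i)).det -
      (res C g (c j)).det) < 1 := by
    intro i j
    rw [← res_add]
    have h1 : av w (res C g (c i + c j)).det < 1 :=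
      hcon _ ((av_add_le w _ _).trans (max_le (hc i) (hc j)))
    exact (E.av_sub_le w _ _).trans_lt (max_lt ((E.av_sub_le w _ _).trans_lt
      (max_lt h1 (hlt i))) (hlt j))
  have hm : ∀ i j (x : L), av w x < 1 → av w (d i * d j * x) < 1 := by
    intro i j x hx
    rw [map_mul, map_mul]
    exact (mul_le_of_le_one_left ((av w).nonneg _)
      (mul_le_one₀ (hd i) ((av w).nonneg _) (hd j))).trans_lt hx
  have hdet := congrArg Matrix.det hsum
  rw [det_comb, Matrix.det_one] at hdet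
  have hadd : ∀ x y : L, av w x < 1 → av w y < 1 → av w (x + y) < 1 := fun x y hx hy =>
    (av_add_le w _ _).trans_lt (max_lt hx hy)
  have : av w (1 : L) < 1 := by
    rw [← hdet]
    refine hadd _ _ (hadd _ _ (hadd _ _ (hadd _ _ (hadd _ _ ?_ ?_) ?_) ?_) ?_) ?_
    · rw [sq]; exact hm _ _ _ (hlt 0)
    · rw [sq]; exact hm _ _ _ (hlt 1)
    · rw [sq]; exact hm _ _ _ (hlt 2)
    · exact hm _ _ _ (hlt2 0 1)
    · exact hm _ _ _ (hlt2 0 2)
    · exact hm _ _ _ (hlt2 1 2)
  rw [map_one] at this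
  exact lt_irrefl _ this

end

end Fermat.LT
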