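import Fermat.Agent.LT.Defs
import Fermat.Agent.LT.D.PGL

/-!
# LT, geometric side: set-up

* `Cub.pl` : action of `σ` on the finite places of `L`;
* `TwDatum` : a datum for `L` on which `σ` acts; `σX`;
* `Above`, `Split`, `Inert`, `Ram` : local hypothesis packages at a place `v` of `K` and a place
  `w` of `L` above it;
* `Pure` : pure tensor test functions and their kernels.
-/

set_option autoImplicit false
set_option linter.unusedSectionVars false

open NumberField IsDedekindDomain Matrix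
open Fermat.Agent.LT.D

namespace Fermat.LT

section places

variable {K L : Type} [Field K] [NumberField K] [Field L] [NumberField L] [Algebra K L]

/-- ring isomorphisms act on finite places -/
noncomputable def plEquiv {F F' : Type} [Field F] [NumberField F] [Field F'] [NumberField F']
    (e : F ≃+* F') : Pl F ≃ Pl F' :=
  HeightOneSpectrum.equivOfRingEquiv (RingOfIntegers.mapRingEquiv e)

theorem mem_plEquiv {F F' : Type} [Field F] [NumberField F] [Field F'] [NumberField F']
    (e : F ≃+* F') (w : Pl F) (x : 𝓞 F) :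
    RingOfIntegers.mapRingEquiv e x ∈ (plEquiv e w).asIdeal ↔ x ∈ w.asIdeal := by
  change (RingOfIntegers.mapRingEquiv e).symm (RingOfIntegers.mapRingEquiv e x) ∈ w.asIdeal ↔ _
  rw [RingEquiv.symm_apply_apply]

/-- The action of `σ` on the finite places of `L`. -/
noncomputable def pl (C : Cub K L) : Equiv.Perm (Pl L) := plEquiv (C.σ : L ≃+* L)

/-- the place `w` of `L` lies above the place `v` of `K` -/
def Above (v : Pl K) (w : Pl L) : Prop :=
  ∀ x : 𝓞 K, x ∈ v.asIdeal ↔ algebraMap (𝓞 K) (𝓞 L) x ∈ w.asIdeal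

/-- `v` splits completely in `L`, `w` is above `v`. -/
structure Split (C : Cub K L) (v : Pl K) (w : Pl L) : Prop where
  above : Above v w
  ne : pl C w ≠ w
  av_eq : ∀ x : K, av w (algebraMap K L x) = av v x
  q_eq : qv w = qv v
  dense : ∀ x : L, ∀ ε : ℝ, 0 < ε → ∃ y : K, av w (x - algebraMap K L y) < ε

/-- `v` is inert (unramified) in `L`, `w` is above `v`. -/
structure Inert (C : Cub K L) (v : Pl K) (w : Pl L) : Prop where
  above : Above v w
  fix : pl C w = w
  av_eq : ∀ x : K, av w (algebraMap K L x) = av v x ^ 3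
  q_eq : qv w = qv v ^ 3
  gen : ∃ θ : L, av w θ ≤ 1 ∧ av w (C.σ θ - θ) = 1

/-- `v` is totally ramified in `L`, `w` is above `v`. -/
structure Ram (C : Cub K L) (v : Pl K) (w : Pl L) : Prop where
  above : Above v w
  fix : pl C w = w
  av_eq : ∀ x : K, av w (algebraMap K L x) = av v x ^ 3
  q_eq : qv w = qv v

end places

section twisted

variable {K L : Type} [Field K] [NumberField K] [Field L] [NumberField L] [Algebra K L]

/-- A datum for `L` on which `σ` acts. -/
structure TwDatum (C : Cub K L) extends Datum L where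
  /-- `σ` on the complex places -/
  perm : Equiv.Perm I
  emb_perm : ∀ i x, emb (perm i) x = emb i (C.σ x)
  H_pl : ∀ w g, C.S g ∈ H (pl C w) ↔ g ∈ H w

namespace TwDatum

variable {C : Cub K L} (D : TwDatum C)

theorem H_pl' {w w' : Pl L} (h : pl C w = w') (g : G2 L) : C.S g ∈ D.H w' ↔ g ∈ D.H w := by
  subst h; exact D.H_pl w g

/-- `σ : G2 L ⧸ H_w → G2 L ⧸ H_{w'}`, `w' = σ w`. -/
noncomputable def σl {w w' : Pl L} (h : pl C w = w') :
    Yl D.toLevel w → Yl D.toLevel w' :=
  Quotient.map' C.S (by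
    intro a b hab
    rw [QuotientGroup.leftRel_apply] at hab ⊢
    rw [← map_inv, ← map_mul]
    exact (D.H_pl' h _).mpr hab)

@[simp] theorem σl_mk {w w' : Pl L} (h : pl C w = w') (g : G2 L) :
    D.σl h (g : Yl D.toLevel w) = ((C.S g : G2 L) : Yl D.toLevel w') := rfl

theorem σl_smul {w w' : Pl L} (h : pl C w = w') (g : G2 L) (y : Yl D.toLevel w) :
    D.σl h (g • y) = C.S g • D.σl h y := by
  obtain ⟨y, rfl⟩ := QuotientGroup.mk_surjective y
  change D.σl h ((g * y : G2 L) : Yl D.toLevel w) = ((C.S g * C.S y : G2 L) : Yl D.toLevel w')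
  rw [σl_mk, map_mul]

theorem σl_injective {w w' : Pl L} (h : pl C w = w') : Function.Injective (D.σl h) := by
  intro a b hab
  obtain ⟨a, rfl⟩ := QuotientGroup.mk_surjective a
  obtain ⟨b, rfl⟩ := QuotientGroup.mk_surjective b
  rw [σl_mk, σl_mk, QuotientGroup.eq, ← map_inv, ← map_mul] at hab
  exact QuotientGroup.eq.mpr ((D.H_pl' h _).mp hab)

/-- `(σ y)_w = σ (y_{σ⁻¹ w})` -/
noncomputable def σY (y : Y D.toLevel) : Y D.toLevel where
  val w := D.σl ((pl C).apply_symm_apply w) (y ((pl C).symm w))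
  fin := by
    refine (y.fin.preimage ((pl C).symm.injective.injOn)).subset ?_
    intro w hw
    simp only [Set.mem_preimage, Set.mem_ofPred_eq] at hw ⊢
    intro h
    apply hw
    rw [h, σl_mk, map_one]

theorem σY_apply (y : Y D.toLevel) (w : Pl L) :
    D.σY y w = D.σl ((pl C).apply_symm_apply w) (y ((pl C).symm w)) := rfl

theorem σY_apply' (y : Y D.toLevel) {w w' : Pl L} (h : pl C w = w') :
    D.σY y w' = D.σl h (y w) := by
  subst h
  rw [σY_apply]
  congr! 1
  all_goals rw [Equiv.symm_apply_apply]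

theorem σY_smul (g : G2 L) (y : Y D.toLevel) : D.σY (g • y) = C.S g • D.σY y := by
  refine Y.ext' fun w => ?_
  rw [σY_apply, G2_smul_apply, G2_smul_apply, σY_apply, σl_smul]

theorem σY_injective : Function.Injective D.σY := by
  intro y z h
  refine Y.ext' fun w => ?_
  have h1 : D.σY y (pl C w) = D.σY z (pl C w) := by rw [h]
  rw [D.σY_apply' y rfl, D.σY_apply' z rfl] at h1
  exact D.σl_injective rfl h1

theorem pl_cube (w : Pl L) : pl C (pl C (pl C w)) = w := by
  apply HeightOneSpectrum.ext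
  ext x
  have h : ∀ (w : Pl L) (x : 𝓞 L), RingOfIntegers.mapRingEquiv (C.σ : L ≃+* L) x ∈ (pl C w).asIdeal
      ↔ x ∈ w.asIdeal := fun w x => mem_plEquiv _ w x
  rw [← h w x, ← h (pl C w), ← h (pl C (pl C w))]
  have e : RingOfIntegers.mapRingEquiv (C.σ : L ≃+* L) (RingOfIntegers.mapRingEquiv
      (C.σ : L ≃+* L) (RingOfIntegers.mapRingEquiv (C.σ : L ≃+* L) x)) = x := by
    apply RingOfIntegers.ext
    exact C.cube x
  rw [e]

theorem σY_cube (y : Y D.toLevel) : D.σY (D.σY (D.σY y)) = y := by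
  refine Y.ext' fun w => ?_
  have h3 := pl_cube (C := C) w
  rw [D.σY_apply' (D.σY (D.σY y)) (w := pl C (pl C w)) h3, D.σY_apply' (D.σY y) (w := pl C w) rfl,
    D.σY_apply' y rfl]
  obtain ⟨g, hg⟩ := QuotientGroup.mk_surjective (y w)
  rw [← hg]
  change ((C.S (C.S (C.S g)) : G2 L) : Yl D.toLevel w) = _
  rw [C.S_cube]

/-- `(σ x)_i = x_{perm i}` -/
def σI (x : XI D.toArch) : XI D.toArch := fun i => x (D.perm i)

theorem σI_apply (x : XI D.toArch) (i : D.I) : D.σI x i = x (D.perm i) := rfl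

theorem σI_smul (g : G2 L) (x : XI D.toArch) : D.σI (g • x) = C.S g • D.σI x := by
  funext i
  rw [σI_apply, XI_smul_apply, XI_smul_apply, σI_apply]
  congr 1
  ext a b
  exact D.emb_perm i (g a b)

theorem perm_cube (i : D.I) : D.perm (D.perm (D.perm i)) = i := by
  apply D.bij.1
  change InfinitePlace.mk _ = InfinitePlace.mk _
  congr 1
  ext x
  rw [D.emb_perm, D.emb_perm, D.emb_perm, C.cube]

theorem σI_cube (x : XI D.toArch) : D.σI (D.σI (D.σI x)) = x := by
  funext i
  rw [σI_apply, σI_apply, σI_apply, perm_cube]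

/-- The action of `σ` on the space `X`. -/
noncomputable def σX (x : X D.toDatum) : X D.toDatum := (D.σI x.1, D.σY x.2)

theorem σX_smul (g : G2 L) (x : X D.toDatum) : D.σX (g • x) = C.S g • D.σX x :=
  Prod.ext (D.σI_smul g x.1) (D.σY_smul g x.2)

theorem σX_cube (x : X D.toDatum) : D.σX (D.σX (D.σX x)) = x :=
  Prod.ext (D.σI_cube x.1) (D.σY_cube x.2)

theorem σX_smul_pg (g : PG L) (x : X D.toDatum) : D.σX (g • x) = C.pS g • D.σX x := by
  obtain ⟨g, rfl⟩ := Matrix.ProjGenLinGroup.mk_surjective g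
  exact D.σX_smul g x

/-- `σ` as a permutation of `X` -/
noncomputable def σXe : X D.toDatum ≃ X D.toDatum where
  toFun := D.σX
  invFun x := D.σX (D.σX x)
  left_inv x := D.σX_cube x
  right_inv x := D.σX_cube x

/-- The twisted action of `δ σ`. -/
noncomputable def tw (δ : PG L) (x : X D.toDatum) : X D.toDatum := δ • D.σX x

end TwDatum

end twisted

section kernels

variable {F : Type} [Field F]

/-- the kernel on `G ⧸ H` attached to a bi-`H`-invariant function on `G = GL₂(F)` -/
noncomputable def kw (H : Subgroup (G2 F)) (f : G2 F → ℂ) (a b : G2 F ⧸ H) : ℂ :=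
  f (a.out⁻¹ * b.out)

/-- bi-invariance -/
def BiInv (H : Subgroup (G2 F)) (f : G2 F → ℂ) : Prop :=
  ∀ h ∈ H, ∀ h' ∈ H, ∀ g, f (h * g * h') = f g

theorem kw_mk {H : Subgroup (G2 F)} {f : G2 F → ℂ} (hf : BiInv H f) (a b : G2 F) :
    kw H f (a : G2 F ⧸ H) (b : G2 F ⧸ H) = f (a⁻¹ * b) := by
  obtain ⟨h, hh⟩ := QuotientGroup.mk_out_eq_mul H a
  obtain ⟨h', hh'⟩ := QuotientGroup.mk_out_eq_mul H b
  rw [kw, hh, hh', ← hf (h : G2 F)⁻¹ (inv_mem h.2) h' h'.2 (a⁻¹ * b)]
  congr 1
  group

theorem kw_smul {H : Subgroup (G2 F)} {f : G2 F → ℂ} (hf : BiInv H f) (g : G2 F)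
    (a b : G2 F ⧸ H) : kw H f (g • a) (g • b) = kw H f a b := by
  obtain ⟨a, rfl⟩ := QuotientGroup.mk_surjective a
  obtain ⟨b, rfl⟩ := QuotientGroup.mk_surjective b
  change kw H f ((g * a : G2 F) : G2 F ⧸ H) ((g * b : G2 F) : G2 F ⧸ H) = _
  rw [kw_mk hf, kw_mk hf]
  congr 1
  group

open Classical in
/-- the unit function -/
noncomputable def unitF (H : Subgroup (G2 F)) (g : G2 F) : ℂ := if g ∈ H then 1 else 0

theorem biInv_unitF (H : Subgroup (G2 F)) : BiInv H (unitF H) := by
  intro h hh h' hh' g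
  unfold unitF
  congr 1
  rw [eq_iff_iff]
  constructor
  · intro hg
    have := mul_mem (mul_mem (inv_mem hh) hg) (inv_mem hh')
    simpa [mul_assoc] using this
  · intro hg
    exact mul_mem (mul_mem hh hg) hh'

open Classical in
theorem kw_unitF (H : Subgroup (G2 F)) (a b : G2 F ⧸ H) :
    kw H (unitF H) a b = if a = b then 1 else 0 := by
  obtain ⟨a, rfl⟩ := QuotientGroup.mk_surjective a
  obtain ⟨b, rfl⟩ := QuotientGroup.mk_surjective b
  rw [kw_mk (biInv_unitF H), unitF]
  simp only [QuotientGroup.eq]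

variable [NumberField F]

/-- Pure tensor test functions on `X D`. -/
structure Pure (D : Datum F) where
  /-- archimedean components: point pair invariants on `H3` -/
  a : D.I → H3 → H3 → ℂ
  /-- finite components -/
  f : Pl F → G2 F → ℂ
  a_inv : ∀ i (g : GL (Fin 2) ℂ) P Q, a i (g • P) (g • Q) = a i P Q
  a_cont : ∀ i, Continuous fun p : H3 × H3 => a i p.1 p.2
  a_supp : ∃ R : ℝ, ∀ i P Q, a i P Q ≠ 0 → H3.ch P Q ≤ R
  f_bi : ∀ w, BiInv (D.H w) (f w)
  f_fin : ∀ w, {c : G2 F ⧸ D.H w | f w c.out ≠ 0}.Finite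
  f_one : {w | f w ≠ unitF (D.H w)}.Finite

namespace Pure

variable {D : Datum F} (k : Pure D)

/-- archimedean kernel -/
noncomputable def kerI (x y : XI D.toArch) : ℂ := ∏ i, k.a i (x i) (y i)

/-- finite kernel -/
noncomputable def kerY (x y : Y D.toLevel) : ℂ := ∏ᶠ w, kw (D.H w) (k.f w) (x w) (y w)

/-- the kernel -/
noncomputable def ker (x y : X D) : ℂ := k.kerI x.1 y.1 * k.kerY x.2 y.2

theorem kerI_smul (g : G2 F) (x y : XI D.toArch) : k.kerI (g • x) (g • y) = k.kerI x y := by
  unfold kerI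
  exact Finset.prod_congr rfl fun i _ => k.a_inv i _ _ _

theorem kerY_smul (g : G2 F) (x y : Y D.toLevel) : k.kerY (g • x) (g • y) = k.kerY x y := by
  unfold kerY
  exact finprod_congr fun w => by rw [G2_smul_apply, G2_smul_apply, kw_smul (k.f_bi w)]

theorem ker_smul (g : G2 F) (x y : X D) : k.ker (g • x) (g • y) = k.ker x y := by
  unfold ker
  change k.kerI (g • x.1) (g • y.1) * k.kerY (g • x.2) (g • y.2) = _
  rw [kerI_smul, kerY_smul]

end Pure

end kernels

end Fermat.LT
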