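import Fermat.Agent.LT.Geo.ConvF
import Fermat.Agent.LT.Geo.RP

/-!
# Sums over the restricted product `Y U` of product functions (LT, PMUL)
-/

set_option autoImplicit false
set_option linter.unusedSectionVars false

open NumberField IsDedekindDomain Matrix

namespace Fermat.LT

variable {F : Type} [Field F] [NumberField F]

/-- the base point of a local factor -/
abbrev bs (U : Level F) (w : Pl F) : Yl U w := ((1 : G2 F) : Yl U w)

theorem mulSupport_Y {U : Level F} {f : ∀ w, Yl U w → ℂ}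
    (h1 : {w | ¬ (f w (bs U w) = 1 ∧ ∀ y, f w y ≠ 0 → y = bs U w)}.Finite) (y : Y U) :
    (Function.mulSupport fun w => f w (y w)).Finite := by
  refine (h1.union y.fin).subset ?_
  intro w hw
  by_contra hc
  simp only [Set.mem_union, Set.mem_ofPred_eq, not_or, not_not] at hc
  apply hw
  change f w (y w) = 1
  rw [hc.2, hc.1.1]

/-- **Fubini for restricted products.** -/
theorem finsum_Y {U : Level F} (f : ∀ w, Yl U w → ℂ) (hfin : ∀ w, {y | f w y ≠ 0}.Finite)
    (h1 : {w | ¬ (f w (bs U w) = 1 ∧ ∀ y, f w y ≠ 0 → y = bs U w)}.Finite) :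
    {y : Y U | ∏ᶠ w, f w (y w) ≠ 0}.Finite ∧
      ∑ᶠ y : Y U, ∏ᶠ w, f w (y w) = ∏ᶠ w, ∑ᶠ y, f w y := by
  classical
  let P : ∀ w, Yl U w → Unit := fun _ _ => ()
  let G : ∀ w : Pl F, Unit → ℂ := fun w _ => ∑ᶠ y, f w y
  have hl : ∀ w, RP.Loc P f G w := by
    intro w
    refine ⟨fun z => (hfin w).subset fun y hy => hy.2, fun z => ?_⟩
    change ∑ᶠ y ∈ {y | P w y = z ∧ f w y ≠ 0}, f w y = ∑ᶠ y, f w y
    have : {y | P w y = z ∧ f w y ≠ 0} = Function.support (f w) := by
      ext y
      constructor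
      · exact fun h => h.2
      · exact fun h => ⟨rfl, h⟩
    rw [this, finsum_mem_support]
  have hg : {w | ¬ RP.Good (fun w => bs U w) (fun _ => ()) P f w}.Finite := by
    refine h1.subset ?_
    intro w hw hc
    exact hw ⟨rfl, hc.1, fun y hy _ => hc.2 y hy⟩
  have hz : {w : Pl F | (fun _ : Pl F => ()) w ≠ (fun _ : Pl F => ()) w}.Finite := by
    simp
  obtain ⟨hF, hS⟩ := RP.sum_fib hl hg hz
  -- the fibre
  set Fb := RP.Fib (fun w => bs U w) P f (fun _ => ()) with hFb
  have hinj : Function.Injective (fun y : Y U => fun w => y w) := fun y y' h =>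
    Y.ext' fun w => congrFun h w
  have hne : ∀ y : Y U, ∏ᶠ w, f w (y w) ≠ 0 → (fun w => y w) ∈ Fb := by
    intro y hy
    refine ⟨y.fin, fun w => rfl, fun w hw => ?_⟩
    apply hy
    exact finprod_eq_zero _ w hw (mulSupport_Y h1 y)
  refine ⟨?_, ?_⟩
  · exact Set.Finite.of_finite_image (hF.subset (by
      rintro _ ⟨y, hy, rfl⟩
      exact hne y hy)) hinj.injOn
  · rw [← hS]
    have e : Fb = (fun y : Y U => fun w => y w) '' {y | (fun w => y w) ∈ Fb} := by
      ext a
      constructor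
      · intro ha
        exact ⟨⟨a, ha.1⟩, ha, rfl⟩
      · rintro ⟨y, hy, rfl⟩
        exact hy
    rw [e, finsum_mem_image hinj.injOn]
    refine finsum_congr fun y => ?_
    by_cases hy : (fun w => y w) ∈ Fb
    · rw [finsum_eq_single _ (show y ∈ {y : Y U | (fun w => y w) ∈ Fb} from hy)
        (fun h hne => absurd rfl hne)]
    · have h0 : ∏ᶠ w, f w (y w) = 0 := by
        by_contra h
        exact hy (hne y h)
      rw [h0]
      exact finsum_zero.symm

section pure

variable {D : Datum F} (k k' : Pure D)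

theorem Pure.f_bi' (w : Pl F) : BiInv (D.H w) (k.f w) := k.f_bi w

theorem Pure.finS (w : Pl F) : FinS (D.H w) (k.f w) := k.f_fin w

/-- almost everywhere the local kernel is the unit kernel -/
theorem Pure.kw_eq_unitK {w : Pl F} (h : k.f w = unitF (D.H w)) :
    kw (D.H w) (k.f w) = unitK := by
  rw [h, unitK_eq_kw]

theorem Pure.kerY_mulSupport (x y : Y D.toLevel) :
    (Function.mulSupport fun w => kw (D.H w) (k.f w) (x w) (y w)).Finite := by
  refine ((x.fin.union y.fin).union k.f_one).subset ?_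
  intro w hw
  by_contra hc
  simp only [Set.mem_union, Set.mem_ofPred_eq, not_or, not_not] at hc
  apply hw
  change kw (D.H w) (k.f w) (x w) (y w) = 1
  rw [k.kw_eq_unitK hc.2, hc.1.1, hc.1.2, unitK_self]

/-- composition of the finite kernels -/
theorem Pure.kerY_comp (x y : Y D.toLevel) :
    {z | k.kerY x z * k'.kerY z y ≠ 0}.Finite ∧
      ∑ᶠ z : Y D.toLevel, k.kerY x z * k'.kerY z y =
      ∏ᶠ w, kcomp (kw (D.H w) (k.f w)) (kw (D.H w) (k'.f w)) (x w) (y w) := by
  have h1 : {w | ¬ (kw (D.H w) (k.f w) (x w) (bs D.toLevel w) *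
      kw (D.H w) (k'.f w) (bs D.toLevel w) (y w) = 1 ∧
      ∀ z, kw (D.H w) (k.f w) (x w) z * kw (D.H w) (k'.f w) z (y w) ≠ 0 →
        z = bs D.toLevel w)}.Finite := by
    refine (((x.fin.union y.fin).union k.f_one).union k'.f_one).subset ?_
    intro w hw
    by_contra hc
    simp only [Set.mem_union, Set.mem_ofPred_eq, not_or, not_not] at hc
    apply hw
    rw [k.kw_eq_unitK hc.1.2, k'.kw_eq_unitK hc.2, hc.1.1.1, hc.1.1.2]
    refine ⟨by rw [unitK_self, one_mul], fun z hz => ?_⟩
    by_contra hne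
    exact hz (by rw [unitK_ne (fun h => hne h.symm), zero_mul])
  obtain ⟨hf, hs⟩ := finsum_Y (fun w z => kw (D.H w) (k.f w) (x w) z *
    kw (D.H w) (k'.f w) z (y w)) (fun w => (rowFin_kw (k.f_bi w) (k.f_fin w) (x w)).subset
      fun z hz => left_ne_zero_of_mul hz) h1
  have e : ∀ z : Y D.toLevel, k.kerY x z * k'.kerY z y =
      ∏ᶠ w, kw (D.H w) (k.f w) (x w) (z w) * kw (D.H w) (k'.f w) (z w) (y w) := fun z =>
    (finprod_mul_distrib (k.kerY_mulSupport x z) (k'.kerY_mulSupport z y)).symm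
  refine ⟨?_, ?_⟩
  · simp only [e]
    exact hf
  · simp only [e]
    exact hs

end pure

end Fermat.LT
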