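import Fermat.Agent.LT.A.Fin

/-!
# LT, geometric side: the tree `GL₂(F) ⧸ stdH w`, distances and twisted translations

`dd w g = ‖g‖ ‖g⁻¹‖ = q ^ d(o, g o)`.
-/

set_option autoImplicit false
set_option linter.unusedSectionVars false
set_option linter.unusedVariables false

open NumberField IsDedekindDomain Matrix

namespace Fermat.LT.Tr

section value
variable {F : Type} [Field F] [NumberField F] (w : Pl F)

/-- values are powers of `q` -/
theorem av_zpow {x : F} (hx : x ≠ 0) : ∃ n : ℤ, av w x = qv w ^ n := by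
  have hv : w.valuation F x ≠ 0 := (map_ne_zero _).mpr hx
  refine ⟨(WithZero.unzero hv).toAdd, ?_⟩
  rw [av, qv, NumberField.HeightOneSpectrum.adicAbv_def,
    WithZeroMulInt.toNNReal_neg_apply _ hv]
  push_cast
  rfl

theorem exists_unif : ∃ x : F, x ≠ 0 ∧ av w x = (qv w)⁻¹ := by
  obtain ⟨x, hx⟩ := w.valuation_exists_uniformizer F
  have hv : w.valuation F x ≠ 0 := by rw [hx]; exact WithZero.coe_ne_zero
  have hx0 : x ≠ 0 := (map_ne_zero (w.valuation F)).mp hv
  refine ⟨x, hx0, ?_⟩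
  rw [av, qv, NumberField.HeightOneSpectrum.adicAbv_def,
    WithZeroMulInt.toNNReal_neg_apply _ hv]
  have h1 : (WithZero.unzero hv).toAdd = -1 := by
    have : WithZero.unzero hv = Multiplicative.ofAdd (-1 : ℤ) := by
      apply WithZero.coe_injective
      rw [WithZero.coe_unzero, hx]
      rfl
    rw [this]; rfl
  rw [h1]
  push_cast
  rw [_root_.zpow_neg, zpow_one]

theorem exists_av_zpow (n : ℤ) : ∃ c : Fˣ, av w (c : F) = qv w ^ n := by
  obtain ⟨x, hx0, hx⟩ := exists_unif w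
  refine ⟨(Units.mk0 x hx0) ^ (-n), ?_⟩
  rw [Units.val_zpow_eq_zpow_val, Units.val_mk0, map_zpow₀, hx, _root_.inv_zpow, _root_.zpow_neg,
    inv_inv]

theorem qzpow_lt {m n : ℤ} : qv w ^ m < qv w ^ n ↔ m < n :=
  zpow_lt_zpow_iff_right₀ (one_lt_qv w)

theorem qzpow_le {m n : ℤ} : qv w ^ m ≤ qv w ^ n ↔ m ≤ n :=
  zpow_le_zpow_iff_right₀ (one_lt_qv w)

theorem qzpow_inj {m n : ℤ} (h : qv w ^ m = qv w ^ n) : m = n :=
  le_antisymm ((qzpow_le w).mp h.le) ((qzpow_le w).mp h.ge)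

theorem qzpow_pos (n : ℤ) : 0 < qv w ^ n := zpow_pos (qv_pos w) n

theorem av_le_of_lt {x : F} {n : ℤ} (h : av w x < qv w ^ n) : av w x ≤ qv w ^ (n - 1) := by
  by_cases hx : x = 0
  · rw [hx, map_zero]; exact (qzpow_pos w _).le
  · obtain ⟨m, hm⟩ := av_zpow w hx
    rw [hm] at h ⊢
    rw [qzpow_lt] at h
    rw [qzpow_le]
    omega

theorem av_le_inv {x : F} (h : av w x < 1) : av w x ≤ (qv w)⁻¹ := by
  have h1 : av w x < qv w ^ (0 : ℤ) := by rwa [zpow_zero]
  have h2 := av_le_of_lt w h1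
  rwa [zero_sub, _root_.zpow_neg_one] at h2

theorem qinv_lt_one : (qv w)⁻¹ < 1 := inv_lt_one_of_one_lt₀ (one_lt_qv w)

theorem qinv_pos : 0 < (qv w)⁻¹ := inv_pos.mpr (qv_pos w)

theorem exists_entry (A : Matrix (Fin 2) (Fin 2) F) : ∃ i j, nm w A = av w (A i j) := by
  rcases max_choice (max (av w (A 0 0)) (av w (A 0 1)))
    (max (av w (A 1 0)) (av w (A 1 1))) with h | h <;> rw [nm, h]
  · rcases max_choice (av w (A 0 0)) (av w (A 0 1)) with h | h <;> rw [h]
    exacts [⟨0, 0, rfl⟩, ⟨0, 1, rfl⟩]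
  · rcases max_choice (av w (A 1 0)) (av w (A 1 1)) with h | h <;> rw [h]
    exacts [⟨1, 0, rfl⟩, ⟨1, 1, rfl⟩]

theorem nm_lt_iff (A : Matrix (Fin 2) (Fin 2) F) (r : ℝ) :
    nm w A < r ↔ ∀ i j, av w (A i j) < r := by
  constructor
  · intro h i j; exact (av_le_nm w A i j).trans_lt h
  · intro h
    obtain ⟨i, j, hij⟩ := exists_entry w A
    rw [hij]; exact h i j

theorem nm_le_inv {A : Matrix (Fin 2) (Fin 2) F} (h : nm w A < 1) : nm w A ≤ (qv w)⁻¹ := by
  rw [nm_le_iff]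
  intro i j
  exact av_le_inv w ((av_le_nm w A i j).trans_lt h)

theorem nm_sub_le (A B : Matrix (Fin 2) (Fin 2) F) : nm w (A - B) ≤ max (nm w A) (nm w B) := by
  rw [sub_eq_add_neg]
  refine (nm_add_le w _ _).trans ?_
  rw [nm_neg]

theorem av_sub_le (x y : F) : av w (x - y) ≤ max (av w x) (av w y) := by
  rw [sub_eq_add_neg]
  refine (av_add_le w _ _).trans ?_
  rw [(av w).map_neg]

theorem av_add_lt {x y : F} {r : ℝ} (hx : av w x < r) (hy : av w y < r) : av w (x + y) < r :=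
  (av_add_le w x y).trans_lt (max_lt hx hy)

theorem av_sub_lt {x y : F} {r : ℝ} (hx : av w x < r) (hy : av w y < r) : av w (x - y) < r :=
  (av_sub_le w x y).trans_lt (max_lt hx hy)

theorem nm_add_lt {x y : Matrix (Fin 2) (Fin 2) F} {r : ℝ} (hx : nm w x < r) (hy : nm w y < r) :
    nm w (x + y) < r := (nm_add_le w x y).trans_lt (max_lt hx hy)

theorem nm_sub_lt {x y : Matrix (Fin 2) (Fin 2) F} {r : ℝ} (hx : nm w x < r) (hy : nm w y < r) :
    nm w (x - y) < r := (nm_sub_le w x y).trans_lt (max_lt hx hy)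

theorem av_eq_of_sub_lt {x y : F} (h : av w (x - y) < av w y) : av w x = av w y := by
  apply le_antisymm
  · have : x = (x - y) + y := by ring
    rw [this]
    exact (av_add_le w _ _).trans (max_le h.le le_rfl)
  · by_contra hlt
    push Not at hlt
    have h1 : av w y < av w y := by
      have : y = x - (x - y) := by ring
      conv_lhs => rw [this]
      exact av_sub_lt w hlt h
    exact lt_irrefl _ h1

theorem nm_eq_of_sub_lt {x y : Matrix (Fin 2) (Fin 2) F} (h : nm w (x - y) < nm w y) :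
    nm w x = nm w y := by
  apply le_antisymm
  · have : x = (x - y) + y := by abel
    rw [this]
    exact (nm_add_le w _ _).trans (max_le h.le le_rfl)
  · by_contra hlt
    push Not at hlt
    have h1 : nm w y < nm w y := by
      have : y = x - (x - y) := by abel
      conv_lhs => rw [this]
      exact nm_sub_lt w hlt h
    exact lt_irrefl _ h1

theorem av_trace_le (A : Matrix (Fin 2) (Fin 2) F) : av w A.trace ≤ nm w A := by
  rw [Matrix.trace_fin_two]
  exact (av_add_le w _ _).trans (max_le (av_le_nm w A 0 0) (av_le_nm w A 1 1))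

end value

section dd
variable {F : Type} [Field F] [NumberField F] (w : Pl F)

/-- `q ^ d(o, g o)` -/
noncomputable def dd (g : G2 F) : ℝ := nm w g.1 * nm w (g⁻¹).1

theorem det_ne (g : G2 F) : g.1.det ≠ 0 := ((Matrix.isUnit_iff_isUnit_det _).mp g.isUnit).ne_zero

theorem av_det_pos' (g : G2 F) : 0 < av w g.1.det := (av w).pos (det_ne g)

theorem inv_eq_smul_adj (g : G2 F) : (g⁻¹).1 = (g.1.det)⁻¹ • g.1.adjugate := by
  rw [Matrix.coe_units_inv, Matrix.inv_def, Ring.inverse_eq_inv']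

theorem nm_inv_eq (g : G2 F) : nm w (g⁻¹).1 = nm w g.1 / av w g.1.det := by
  rw [inv_eq_smul_adj, nm_smul, nm_adjugate, map_inv₀, div_eq_inv_mul]

theorem dd_eq (g : G2 F) : dd w g = nm w g.1 ^ 2 / av w g.1.det := by
  rw [dd, nm_inv_eq]; ring

theorem one_le_dd (g : G2 F) : 1 ≤ dd w g := nm_mul_inv_ge w g

theorem dd_eq_one_iff (g : G2 F) : dd w g = 1 ↔ g ∈ stdH w := by
  rw [mem_stdH]
  exact ⟨fun h => h.le, fun h => le_antisymm h (one_le_dd w g)⟩

theorem dd_mul_le (g h : G2 F) : dd w (g * h) ≤ dd w g * dd w h := by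
  unfold dd
  rw [_root_.mul_inv_rev]
  calc nm w (g * h).1 * nm w (h⁻¹ * g⁻¹).1
      ≤ (nm w g.1 * nm w h.1) * (nm w (h⁻¹).1 * nm w (g⁻¹).1) :=
        mul_le_mul (nm_mul_le w _ _) (nm_mul_le w _ _) (nm_nonneg w _)
          (mul_nonneg (nm_nonneg w _) (nm_nonneg w _))
    _ = _ := by ring

theorem dd_nonneg (g : G2 F) : 0 ≤ dd w g := zero_le_one.trans (one_le_dd w g)

theorem dd_mul_mem (g : G2 F) {h : G2 F} (hh : h ∈ stdH w) : dd w (g * h) = dd w g := by
  apply le_antisymm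
  · refine (dd_mul_le w g h).trans ?_
    rw [(dd_eq_one_iff w h).mpr hh, mul_one]
  · have h1 := dd_mul_le w (g * h) h⁻¹
    rwa [mul_inv_cancel_right, (dd_eq_one_iff w _).mpr (inv_mem hh), mul_one] at h1

theorem dd_mem_mul (g : G2 F) {h : G2 F} (hh : h ∈ stdH w) : dd w (h * g) = dd w g := by
  apply le_antisymm
  · refine (dd_mul_le w h g).trans ?_
    rw [(dd_eq_one_iff w h).mpr hh, one_mul]
  · have h1 := dd_mul_le w h⁻¹ (h * g)
    rwa [inv_mul_cancel_left, (dd_eq_one_iff w _).mpr (inv_mem hh), one_mul] at h1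

theorem dd_inv (g : G2 F) : dd w g⁻¹ = dd w g := by
  unfold dd
  rw [inv_inv, mul_comm]

theorem dd_sc_mul (c : Fˣ) (g : G2 F) : dd w (sc c * g) = dd w g :=
  dd_mem_mul w g (scal_le_stdH w (sc_mem c))

theorem exists_dd (g : G2 F) : ∃ m : ℕ, dd w g = qv w ^ m := by
  obtain ⟨c, hc⟩ := exists_nm_eq w g
  obtain ⟨a, ha⟩ := av_zpow w c.ne_zero
  obtain ⟨b, hb⟩ := av_zpow w (det_ne g)
  have h1 : dd w g = qv w ^ (2 * a - b) := by
    rw [dd_eq, hc, ha, hb, zpow_sub₀ (qv_pos w).ne', mul_comm 2 a, _root_.zpow_mul]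
    norm_cast
  have h2 := one_le_dd w g
  rw [h1, ← zpow_zero (qv w), qzpow_le] at h2
  obtain ⟨m, hm⟩ := Int.eq_ofNat_of_zero_le h2
  refine ⟨m, ?_⟩
  rw [h1, hm, zpow_natCast]

/-- normalisation -/
theorem exists_sc_nm (g : G2 F) : ∃ c : Fˣ, nm w (sc c * g).1 = 1 := by
  obtain ⟨c, hc⟩ := exists_nm_eq w g
  refine ⟨c⁻¹, ?_⟩
  rw [sc_mul_val, nm_smul, hc, Units.val_inv_eq_inv_val, map_inv₀,
    inv_mul_cancel₀ ((av w).ne_zero c.ne_zero)]

theorem av_det_of_nm {g : G2 F} (h : nm w g.1 = 1) : av w g.1.det = (dd w g)⁻¹ := by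
  rw [dd_eq, h, one_pow, one_div, inv_inv]

/-- `nm` and `det` up to `det` -/
theorem adj_mul_eq (g A : G2 F) (B : Matrix (Fin 2) (Fin 2) F) (h : g.1 * B = A.1) :
    g.1.adjugate * A.1 = g.1.det • B := by
  rw [← h, ← mul_assoc, Matrix.adjugate_mul, Matrix.smul_mul, one_mul]

/-- the distance (exponentiated) of two vertices -/
noncomputable def dq : G2 F ⧸ stdH w → G2 F ⧸ stdH w → ℝ :=
  Quotient.lift₂ (fun g h => dd w (g⁻¹ * h)) (by
    intro a b a' b' ha hb
    have h1 : a⁻¹ * a' ∈ stdH w := QuotientGroup.leftRel_apply.mp ha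
    have h2 : b⁻¹ * b' ∈ stdH w := QuotientGroup.leftRel_apply.mp hb
    show dd w (a⁻¹ * b) = dd w (a'⁻¹ * b')
    have h3 : a'⁻¹ * b' = (a⁻¹ * a')⁻¹ * (a⁻¹ * b * (b⁻¹ * b')) := by group
    rw [h3, dd_mem_mul w _ (inv_mem h1), dd_mul_mem w _ h2])

theorem dq_mk (g h : G2 F) : dq w (g : G2 F ⧸ stdH w) (h : G2 F ⧸ stdH w) = dd w (g⁻¹ * h) := rfl

theorem dq_comm (y z : G2 F ⧸ stdH w) : dq w y z = dq w z y := by
  obtain ⟨g, rfl⟩ := QuotientGroup.mk_surjective y
  obtain ⟨h, rfl⟩ := QuotientGroup.mk_surjective z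
  rw [dq_mk, dq_mk, ← dd_inv, _root_.mul_inv_rev, inv_inv]

theorem dq_smul (a : G2 F) (y z : G2 F ⧸ stdH w) : dq w (a • y) (a • z) = dq w y z := by
  obtain ⟨g, rfl⟩ := QuotientGroup.mk_surjective y
  obtain ⟨h, rfl⟩ := QuotientGroup.mk_surjective z
  change dd w ((a * g)⁻¹ * (a * h)) = dd w (g⁻¹ * h)
  congr 1
  group

theorem dq_eq_one_iff (y z : G2 F ⧸ stdH w) : dq w y z = 1 ↔ y = z := by
  obtain ⟨g, rfl⟩ := QuotientGroup.mk_surjective y
  obtain ⟨h, rfl⟩ := QuotientGroup.mk_surjective z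
  rw [dq_mk, dd_eq_one_iff, QuotientGroup.eq]

theorem one_le_dq (y z : G2 F ⧸ stdH w) : 1 ≤ dq w y z := by
  obtain ⟨g, rfl⟩ := QuotientGroup.mk_surjective y
  obtain ⟨h, rfl⟩ := QuotientGroup.mk_surjective z
  exact one_le_dd w _

theorem exists_dq (y z : G2 F ⧸ stdH w) : ∃ m : ℕ, dq w y z = qv w ^ m := by
  obtain ⟨g, rfl⟩ := QuotientGroup.mk_surjective y
  obtain ⟨h, rfl⟩ := QuotientGroup.mk_surjective z
  exact exists_dd w _

end dd

section key
variable {F : Type} [Field F] [NumberField F] (w : Pl F)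

/-- **Key lemma** (rank one matrices): if `s`, `g` are integral, `det s ≡ 0` and
`adj(g) s g ≡ 0` then `s g ≡ 0` or `adj(s) g ≡ 0`. -/
theorem nm_dichotomy {s g : Matrix (Fin 2) (Fin 2) F} (hs : nm w s ≤ 1) (hg : nm w g ≤ 1)
    (hd : av w s.det < 1) (he : nm w (g.adjugate * s * g) < 1) :
    nm w (s * g) < 1 ∨ nm w (s.adjugate * g) < 1 := by
  have hs' : ∀ i j, av w (s i j) ≤ 1 := fun i j => (av_le_nm w s i j).trans hs
  have hg' : ∀ i j, av w (g i j) ≤ 1 := fun i j => (av_le_nm w g i j).trans hg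
  have hsm : ∀ x y : F, av w x < 1 → av w y ≤ 1 → av w (x * y) < 1 := by
    intro x y hx hy
    rw [map_mul]
    exact mul_lt_one_of_nonneg_of_lt_one_left ((av w).nonneg _) hx hy
  have hsm' : ∀ x y : F, av w x ≤ 1 → av w y < 1 → av w (x * y) < 1 := by
    intro x y hx hy
    rw [mul_comm]; exact hsm y x hy hx
  have hE : ∀ j l, av w (g 0 j * (s * g) 1 l - g 1 j * (s * g) 0 l) < 1 := by
    intro j l
    fin_cases j
    · have h1 := (av_le_nm w (g.adjugate * s * g) 1 l).trans_lt he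
      have h2 : (g.adjugate * s * g) 1 l = g 0 0 * (s * g) 1 l - g 1 0 * (s * g) 0 l := by
        rw [Matrix.mul_assoc, Matrix.mul_apply, Fin.sum_univ_two, Matrix.adjugate_fin_two]
        simp
        ring
      rw [h2] at h1
      exact h1
    · have h1 := (av_le_nm w (g.adjugate * s * g) 0 l).trans_lt he
      have h2 : (g.adjugate * s * g) 0 l = -(g 0 1 * (s * g) 1 l - g 1 1 * (s * g) 0 l) := by
        rw [Matrix.mul_assoc, Matrix.mul_apply, Fin.sum_univ_two, Matrix.adjugate_fin_two]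
        simp
        ring
      rw [h2, (av w).map_neg] at h1
      exact h1
  -- polarised identity
  have hpol : ∀ a c j l : Fin 2, ∃ k : F, av w k ≤ 1 ∧
      ((s * g) a j * (s.adjugate * g) c l + (s * g) a l * (s.adjugate * g) c j =
        s.det * (g a j * g c l + g a l * g c j) +
        k * (((g 0 j * (s * g) 1 l - g 1 j * (s * g) 0 l)) +
          (g 0 l * (s * g) 1 j - g 1 l * (s * g) 0 j))) := by
    intro a c j l
    fin_cases a <;> fin_cases c
    · refine ⟨s 0 1, hs' 0 1, ?_⟩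
      simp [Matrix.mul_apply, Fin.sum_univ_two, Matrix.adjugate_fin_two, Matrix.det_fin_two]
      ring
    · refine ⟨-s 0 0, by rw [(av w).map_neg]; exact hs' 0 0, ?_⟩
      simp [Matrix.mul_apply, Fin.sum_univ_two, Matrix.adjugate_fin_two, Matrix.det_fin_two]
      ring
    · refine ⟨s 1 1, hs' 1 1, ?_⟩
      simp [Matrix.mul_apply, Fin.sum_univ_two, Matrix.adjugate_fin_two, Matrix.det_fin_two]
      ring
    · refine ⟨-s 1 0, by rw [(av w).map_neg]; exact hs' 1 0, ?_⟩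
      simp [Matrix.mul_apply, Fin.sum_univ_two, Matrix.adjugate_fin_two, Matrix.det_fin_two]
      ring
  have hdia : ∀ a c j : Fin 2, ∃ k : F, av w k ≤ 1 ∧
      ((s * g) a j * (s.adjugate * g) c j =
        s.det * (g a j * g c j) + k * (g 0 j * (s * g) 1 j - g 1 j * (s * g) 0 j)) := by
    intro a c j
    fin_cases a <;> fin_cases c
    · refine ⟨s 0 1, hs' 0 1, ?_⟩
      simp [Matrix.mul_apply, Fin.sum_univ_two, Matrix.adjugate_fin_two, Matrix.det_fin_two]
      ring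
    · refine ⟨-s 0 0, by rw [(av w).map_neg]; exact hs' 0 0, ?_⟩
      simp [Matrix.mul_apply, Fin.sum_univ_two, Matrix.adjugate_fin_two, Matrix.det_fin_two]
      ring
    · refine ⟨s 1 1, hs' 1 1, ?_⟩
      simp [Matrix.mul_apply, Fin.sum_univ_two, Matrix.adjugate_fin_two, Matrix.det_fin_two]
      ring
    · refine ⟨-s 1 0, by rw [(av w).map_neg]; exact hs' 1 0, ?_⟩
      simp [Matrix.mul_apply, Fin.sum_univ_two, Matrix.adjugate_fin_two, Matrix.det_fin_two]
      ring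
  have hgg : ∀ x y : F, av w x ≤ 1 → av w y ≤ 1 → av w (x * y) ≤ 1 := by
    intro x y hx hy
    rw [map_mul]
    exact mul_le_one₀ hx ((av w).nonneg _) hy
  have hadd1 : ∀ x y : F, av w x ≤ 1 → av w y ≤ 1 → av w (x + y) ≤ 1 := fun x y hx hy =>
    (av_add_le w x y).trans (max_le hx hy)
  have hpol' : ∀ a c j l : Fin 2,
      av w ((s * g) a j * (s.adjugate * g) c l + (s * g) a l * (s.adjugate * g) c j) < 1 := by
    intro a c j l
    obtain ⟨k, hk, he⟩ := hpol a c j l
    rw [he]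
    refine av_add_lt w (hsm _ _ hd ?_) (hsm' _ _ hk (av_add_lt w (hE j l) (hE l j)))
    exact hadd1 _ _ (hgg _ _ (hg' _ _) (hg' _ _)) (hgg _ _ (hg' _ _) (hg' _ _))
  have hdia' : ∀ a c j : Fin 2, av w ((s * g) a j * (s.adjugate * g) c j) < 1 := by
    intro a c j
    obtain ⟨k, hk, he⟩ := hdia a c j
    rw [he]
    exact av_add_lt w (hsm _ _ hd (hgg _ _ (hg' _ _) (hg' _ _))) (hsm' _ _ hk (hE j j))
  by_contra hcon
  push Not at hcon
  obtain ⟨h1, h2⟩ := hcon
  obtain ⟨a, b, hab⟩ := exists_entry w (s * g)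
  rw [hab] at h1
  have hsg : ∀ i j, av w ((s * g) i j) ≤ 1 := fun i j =>
    (av_le_nm w _ i j).trans ((nm_mul_le w s g).trans (mul_le_one₀ hs (nm_nonneg w _) hg))
  have h3 : ∀ c, av w ((s.adjugate * g) c b) < 1 := by
    intro c
    have := hdia' a c b
    rw [map_mul] at this
    by_contra hc
    push Not at hc
    have : 1 ≤ av w ((s * g) a b) * av w ((s.adjugate * g) c b) := one_le_mul_of_one_le_of_one_le h1 hc
    linarith
  have h4 : ∀ c d, av w ((s.adjugate * g) c d) < 1 := by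
    intro c d
    have e1 := hpol' a c b d
    have e2 : av w ((s * g) a d * (s.adjugate * g) c b) < 1 := hsm' _ _ (hsg _ _) (h3 c)
    have e3 : av w ((s * g) a b * (s.adjugate * g) c d) < 1 := by
      have : (s * g) a b * (s.adjugate * g) c d =
        ((s * g) a b * (s.adjugate * g) c d + (s * g) a d * (s.adjugate * g) c b) -
        (s * g) a d * (s.adjugate * g) c b := by ring
      rw [this]
      exact av_sub_lt w e1 e2
    rw [map_mul] at e3
    by_contra hc
    push Not at hc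
    have : 1 ≤ av w ((s * g) a b) * av w ((s.adjugate * g) c d) := one_le_mul_of_one_le_of_one_le h1 hc
    linarith
  exact absurd ((nm_lt_iff w _ _).mpr h4) (not_lt.mpr h2)

end key

end Fermat.LT.Tr
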