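import Fermat.Agent.LT.Geo.Tree
import Fermat.Agent.LT.D.Classes

/-!
# LT, geometric side: twisted translations of length one of the tree

`T y = s · f(y)`, `f` a residually trivial isometric automorphism of `F`:
`{y | d(y, T y) = 1}` is one orbit of `T`.
-/

set_option autoImplicit false
set_option linter.unusedSectionVars false
set_option linter.unusedVariables false

open NumberField IsDedekindDomain Matrix

namespace Fermat.LT.Tr

section twist

variable {F : Type} [Field F] [NumberField F] (w : Pl F)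

/-- isometric, residually trivial automorphism -/
structure RTriv (f : F ≃+* F) : Prop where
  av_eq : ∀ x, av w (f x) = av w x
  res : ∀ x, av w x ≤ 1 → av w (f x - x) < 1

/-- entrywise action -/
abbrev fG (f : F ≃+* F) : G2 F →* G2 F := Matrix.GeneralLinearGroup.map (f : F →+* F)

omit [NumberField F] in
theorem fG_apply (f : F ≃+* F) (g : G2 F) (i j : Fin 2) : (fG f g).1 i j = f (g.1 i j) := rfl

omit [NumberField F] in
theorem fG_symm (f : F ≃+* F) (g : G2 F) : fG f (fG f.symm g) = g := by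
  ext i j
  exact f.apply_symm_apply _

omit [NumberField F] in
theorem fG_symm' (f : F ≃+* F) (g : G2 F) : fG f.symm (fG f g) = g := by
  ext i j
  exact f.symm_apply_apply _

theorem RTriv.refl : RTriv w (RingEquiv.refl F) where
  av_eq _ := rfl
  res x _ := by
    rw [RingEquiv.refl_apply, sub_self, map_zero]
    exact zero_lt_one

variable {w} {f : F ≃+* F} (hf : RTriv w f)
include hf

theorem RTriv.nm_eq (A : Matrix (Fin 2) (Fin 2) F) (B : Matrix (Fin 2) (Fin 2) F)
    (h : ∀ i j, B i j = f (A i j)) : nm w B = nm w A := by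
  unfold nm
  simp only [h, hf.av_eq]

theorem RTriv.nm_fG (g : G2 F) : nm w (fG f g).1 = nm w g.1 :=
  hf.nm_eq _ _ fun i j => rfl

theorem RTriv.dd_fG (g : G2 F) : dd w (fG f g) = dd w g := by
  unfold dd
  rw [← map_inv, hf.nm_fG, hf.nm_fG]

theorem RTriv.mem (g : G2 F) : fG f g ∈ stdH w ↔ g ∈ stdH w := by
  rw [← dd_eq_one_iff, ← dd_eq_one_iff, hf.dd_fG]

theorem RTriv.symm : RTriv w f.symm where
  av_eq x := by
    conv_rhs => rw [← f.apply_symm_apply x, hf.av_eq]
  res x hx := by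
    have h1 : av w (f.symm x) = av w x := by
      conv_rhs => rw [← f.apply_symm_apply x, hf.av_eq]
    have h2 := hf.res (f.symm x) (by rw [h1]; exact hx)
    rw [f.apply_symm_apply, ← (av w).map_neg, neg_sub] at h2
    exact h2

theorem RTriv.av_det (g : G2 F) : av w (fG f g).1.det = av w g.1.det := by
  have : (fG f g).1.det = f g.1.det := (RingHom.map_det (f : F →+* F) g.1).symm
  rw [this, hf.av_eq]

/-- `f(g) ≡ g` -/
theorem RTriv.nm_sub {g : G2 F} (hg : nm w g.1 ≤ 1) : nm w ((fG f g).1 - g.1) < 1 := by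
  rw [nm_lt_iff]
  intro i j
  exact hf.res _ ((av_le_nm w g.1 i j).trans hg)

/-- the twisted translation `y ↦ s f(y)` -/
noncomputable def twp (s : G2 F) : Equiv.Perm (G2 F ⧸ stdH w) where
  toFun := Quotient.map' (fun g => s * fG f g) (by
    intro a b hab
    rw [QuotientGroup.leftRel_apply] at hab ⊢
    have : (s * fG f a)⁻¹ * (s * fG f b) = fG f (a⁻¹ * b) := by
      rw [map_mul, map_inv]; group
    rw [this]
    exact (hf.mem _).mpr hab)
  invFun := Quotient.map' (fun g => fG f.symm (s⁻¹ * g)) (by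
    intro a b hab
    rw [QuotientGroup.leftRel_apply] at hab ⊢
    have : (fG f.symm (s⁻¹ * a))⁻¹ * (fG f.symm (s⁻¹ * b)) = fG f.symm (a⁻¹ * b) := by
      rw [← map_inv, ← map_mul]; congr 1; group
    rw [this]
    exact (hf.symm.mem _).mpr hab)
  left_inv y := by
    obtain ⟨g, rfl⟩ := QuotientGroup.mk_surjective y
    change ((fG f.symm (s⁻¹ * (s * fG f g)) : G2 F) : G2 F ⧸ stdH w) = (g : G2 F ⧸ stdH w)
    rw [inv_mul_cancel_left, fG_symm']
  right_inv y := by
    obtain ⟨g, rfl⟩ := QuotientGroup.mk_surjective y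
    change ((s * fG f (fG f.symm (s⁻¹ * g)) : G2 F) : G2 F ⧸ stdH w) = (g : G2 F ⧸ stdH w)
    rw [fG_symm, mul_inv_cancel_left]

theorem twp_mk (s g : G2 F) :
    twp hf s (g : G2 F ⧸ stdH w) = ((s * fG f g : G2 F) : G2 F ⧸ stdH w) := rfl

theorem dq_twp (s : G2 F) (y z : G2 F ⧸ stdH w) :
    dq w (twp hf s y) (twp hf s z) = dq w y z := by
  obtain ⟨g, rfl⟩ := QuotientGroup.mk_surjective y
  obtain ⟨h, rfl⟩ := QuotientGroup.mk_surjective z
  rw [twp_mk, twp_mk, dq_mk, dq_mk]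
  have : (s * fG f g)⁻¹ * (s * fG f h) = fG f (g⁻¹ * h) := by
    rw [map_mul, map_inv]; group
  rw [this, hf.dd_fG]

/-- contraction, matrix form -/
theorem contract_mat {s g : G2 F} (hs : nm w s.1 = 1) (hg : nm w g.1 = 1) (hds : dd w s = qv w)
    (hgs : dd w (g⁻¹ * s * fG f g) = qv w) (hg1 : dd w g ≠ 1) :
    dd w (s * fG f g) < dd w g ∨ dd w (g⁻¹ * s) < dd w g := by
  have hq := qv_pos w
  have hq1 := one_lt_qv w
  have hdg : 1 < dd w g := lt_of_le_of_ne (one_le_dd w g) (Ne.symm hg1)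
  have hdets : av w s.1.det = (qv w)⁻¹ := by rw [av_det_of_nm w hs, hds]
  have hdetg : av w g.1.det = (dd w g)⁻¹ := av_det_of_nm w hg
  have hdetg1 : av w g.1.det < 1 := by
    rw [hdetg]; exact inv_lt_one_of_one_lt₀ hdg
  have hdetg0 := av_det_pos' w g
  -- the norm of `g⁻¹ s f(g)`
  have hdet : av w (g⁻¹ * s * fG f g).1.det = (qv w)⁻¹ := by
    have h1 : (g⁻¹ * s * fG f g).1.det = (g⁻¹).1.det * s.1.det * (fG f g).1.det := by
      rw [Units.val_mul, Units.val_mul, Matrix.det_mul, Matrix.det_mul]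
    have h2 : (g⁻¹).1.det * g.1.det = 1 := by
      rw [← Matrix.det_mul, ← Units.val_mul, inv_mul_cancel, Units.val_one, Matrix.det_one]
    have h3 : av w (g⁻¹).1.det * av w g.1.det = 1 := by rw [← map_mul, h2, map_one]
    rw [h1, map_mul, map_mul, hf.av_det, hdets]
    linear_combination (qv w)⁻¹ * h3
  have hnm1 : nm w (g⁻¹ * s * fG f g).1 = 1 := by
    rw [dd_eq, hdet, div_inv_eq_mul] at hgs
    have h1 : nm w (g⁻¹ * s * fG f g).1 ^ 2 = 1 := by
      have := mul_right_cancel₀ hq.ne' (hgs.trans (one_mul _).symm)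
      exact this
    have h2 := nm_nonneg w (g⁻¹ * s * fG f g).1
    nlinarith
  have hadj : g.1.adjugate * s.1 * (fG f g).1 = g.1.det • (g⁻¹ * s * fG f g).1 := by
    rw [Units.val_mul, Units.val_mul, inv_eq_smul_adj, Matrix.smul_mul, Matrix.smul_mul, smul_smul,
      mul_inv_cancel₀ (det_ne g), one_smul]
  have h1 : nm w (g.1.adjugate * s.1 * (fG f g).1) < 1 := by
    rw [hadj, nm_smul, hnm1, mul_one]; exact hdetg1
  have hsub := hf.nm_sub hg.le
  have hint : nm w (g.1.adjugate * s.1) ≤ 1 := by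
    refine (nm_mul_le w _ _).trans ?_
    rw [nm_adjugate, hg, hs, one_mul]
  have h2 : nm w (g.1.adjugate * s.1 * g.1) < 1 := by
    have e : g.1.adjugate * s.1 * g.1 = g.1.adjugate * s.1 * (fG f g).1 -
        g.1.adjugate * s.1 * ((fG f g).1 - g.1) := by
      rw [Matrix.mul_sub]; abel
    rw [e]
    refine nm_sub_lt w h1 ?_
    refine (nm_mul_le w _ _).trans_lt ?_
    calc nm w (g.1.adjugate * s.1) * nm w ((fG f g).1 - g.1)
        ≤ 1 * nm w ((fG f g).1 - g.1) := mul_le_mul_of_nonneg_right hint (nm_nonneg w _)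
      _ < 1 := by rw [one_mul]; exact hsub
  -- bound for `dd`
  have hbd : ∀ X : G2 F, nm w X.1 < 1 → av w X.1.det = (qv w)⁻¹ * av w g.1.det →
      dd w X < dd w g := by
    intro X hX hdX
    have h3 := nm_le_inv w hX
    have h4 : nm w X.1 ^ 2 ≤ (qv w)⁻¹ ^ 2 := by
      have := nm_nonneg w X.1
      exact pow_le_pow_left₀ this h3 2
    rw [dd_eq, dd_eq, hdX, hg, one_pow]
    rw [div_lt_div_iff₀ (by positivity) hdetg0]
    have h5 : (qv w)⁻¹ ^ 2 < (qv w)⁻¹ := by
      have h6 := qinv_lt_one w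
      have h7 := qinv_pos w
      nlinarith
    calc nm w X.1 ^ 2 * av w g.1.det ≤ (qv w)⁻¹ ^ 2 * av w g.1.det :=
          mul_le_mul_of_nonneg_right h4 hdetg0.le
      _ < (qv w)⁻¹ * av w g.1.det := mul_lt_mul_of_pos_right h5 hdetg0
      _ = 1 * ((qv w)⁻¹ * av w g.1.det) := (one_mul _).symm
  rcases nm_dichotomy w hs.le hg.le (by rw [hdets]; exact qinv_lt_one w) h2 with h3 | h3
  · left
    apply hbd
    · have e : (s * fG f g).1 = s.1 * g.1 + s.1 * ((fG f g).1 - g.1) := by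
        rw [Matrix.mul_sub, Units.val_mul]; abel
      rw [e]
      refine nm_add_lt w h3 ?_
      refine (nm_mul_le w _ _).trans_lt ?_
      rw [hs, one_mul]; exact hsub
    · rw [Units.val_mul, Matrix.det_mul, map_mul, hf.av_det, hdets]
  · right
    have e1 : dd w (g⁻¹ * s) = dd w (sc (Units.mk0 _ (det_ne s)) * (s⁻¹ * g)) := by
      rw [dd_sc_mul, ← dd_inv, _root_.mul_inv_rev, inv_inv]
    rw [e1]
    have e2 : (sc (Units.mk0 _ (det_ne s)) * (s⁻¹ * g)).1 = s.1.adjugate * g.1 := by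
      rw [sc_mul_val, Units.val_mul, inv_eq_smul_adj, Matrix.smul_mul, smul_smul, Units.val_mk0,
        mul_inv_cancel₀ (det_ne s), one_smul]
    apply hbd
    · rw [e2]; exact h3
    · rw [e2, Matrix.det_mul, Matrix.det_adjugate, map_mul, Fintype.card_fin, map_pow, hdets]
      norm_num

omit hf in
theorem mk_mul_sc (w : Pl F) (c : Fˣ) (g : G2 F) :
    ((g * sc c : G2 F) : G2 F ⧸ stdH w) = (g : G2 F ⧸ stdH w) := by
  rw [QuotientGroup.eq, _root_.mul_inv_rev, mul_assoc, inv_mul_cancel, mul_one]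
  exact inv_mem (scal_le_stdH w (sc_mem c))

theorem twp_sc (c : Fˣ) (s : G2 F) : twp hf (sc c * s) = twp hf s := by
  ext y
  obtain ⟨g, rfl⟩ := QuotientGroup.mk_surjective y
  rw [twp_mk, twp_mk, mul_assoc, sc_comm]
  exact mk_mul_sc w c _

/-- contraction -/
theorem contract {s : G2 F} {y₀ y : G2 F ⧸ stdH w} (h0 : dq w y₀ (twp hf s y₀) = qv w)
    (h1 : dq w y (twp hf s y) = qv w) (hne : y ≠ y₀) :
    dq w (twp hf s y) y₀ < dq w y y₀ ∨ dq w y (twp hf s y₀) < dq w y y₀ := by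
  obtain ⟨a, rfl⟩ := QuotientGroup.mk_surjective y₀
  obtain ⟨b, rfl⟩ := QuotientGroup.mk_surjective y
  obtain ⟨c, hc⟩ := exists_sc_nm w (a⁻¹ * b)
  obtain ⟨c', hc'⟩ := exists_sc_nm w (a⁻¹ * s * fG f a)
  rw [← twp_sc hf c' s] at h0 h1 ⊢
  have eb : (b : G2 F ⧸ stdH w) = ((b * sc c : G2 F) : G2 F ⧸ stdH w) := (mk_mul_sc w c b).symm
  rw [eb] at h1 hne ⊢
  have hc2 : nm w (a⁻¹ * (b * sc c)).1 = 1 := by
    rw [← mul_assoc, ← sc_comm]; exact hc
  have hc2' : nm w (a⁻¹ * (sc c' * s) * fG f a).1 = 1 := by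
    rw [← mul_assoc a⁻¹, ← sc_comm, mul_assoc (sc c'), mul_assoc (sc c')]; exact hc'
  generalize b * sc c = b' at *
  generalize sc c' * s = s' at *
  rw [twp_mk, dq_mk] at h0 h1
  have g1 : dq w (twp hf s' (b' : G2 F ⧸ stdH w)) (a : G2 F ⧸ stdH w) =
      dd w (a⁻¹ * (s' * fG f b')) := by rw [dq_comm]; rfl
  have g2 : dq w (b' : G2 F ⧸ stdH w) (twp hf s' (a : G2 F ⧸ stdH w)) =
      dd w (b'⁻¹ * (s' * fG f a)) := rfl
  have g3 : dq w (b' : G2 F ⧸ stdH w) (a : G2 F ⧸ stdH w) = dd w (a⁻¹ * b') := by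
    rw [dq_comm]; rfl
  rw [g1, g2, g3]
  have key := contract_mat hf hc2' hc2 (by rw [mul_assoc]; exact h0) (by
    have e : (a⁻¹ * b')⁻¹ * (a⁻¹ * s' * fG f a) * fG f (a⁻¹ * b') = b'⁻¹ * (s' * fG f b') := by
      rw [map_mul, map_inv]; group
    rw [e]; exact h1) (by
    rw [Ne, dd_eq_one_iff, ← QuotientGroup.eq]
    exact fun h => hne h.symm)
  have e1 : a⁻¹ * s' * fG f a * fG f (a⁻¹ * b') = a⁻¹ * (s' * fG f b') := by
    rw [map_mul, map_inv]; group
  have e2 : (a⁻¹ * b')⁻¹ * (a⁻¹ * s' * fG f a) = b'⁻¹ * (s' * fG f a) := by group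
  rw [e1, e2] at key
  exact key

/-- `{y | d(y, T y) = 1}` is a single orbit. -/
theorem orbit {s : G2 F} {y₀ : G2 F ⧸ stdH w} (h0 : dq w y₀ (twp hf s y₀) = qv w)
    (y : G2 F ⧸ stdH w) (h1 : dq w y (twp hf s y) = qv w) : ∃ k : ℤ, y = (twp hf s ^ k) y₀ := by
  obtain ⟨m, hm⟩ := exists_dq w y y₀
  induction m using Nat.strong_induction_on generalizing y with
  | _ m ih =>
    by_cases hne : y = y₀
    · exact ⟨0, by rw [zpow_zero]; exact hne⟩
    have hq1 := one_lt_qv w
    rcases contract hf h0 h1 hne with h | h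
    · obtain ⟨m', hm'⟩ := exists_dq w (twp hf s y) y₀
      have hlt : m' < m := by
        rw [hm, hm'] at h
        exact (pow_lt_pow_iff_right₀ hq1).mp h
      obtain ⟨k, hk⟩ := ih m' hlt (twp hf s y) (by rw [dq_twp]; exact h1) hm'
      refine ⟨-1 + k, ?_⟩
      rw [_root_.zpow_add, Equiv.Perm.mul_apply, ← hk, ← Equiv.Perm.mul_apply, _root_.zpow_neg_one,
        inv_mul_cancel, Equiv.Perm.one_apply]
    · have e : dq w ((twp hf s)⁻¹ y) y₀ = dq w y (twp hf s y₀) := by
        rw [← dq_twp hf s, ← Equiv.Perm.mul_apply, mul_inv_cancel, Equiv.Perm.one_apply]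
      obtain ⟨m', hm'⟩ := exists_dq w ((twp hf s)⁻¹ y) y₀
      have hlt : m' < m := by
        rw [hm, ← e, hm'] at h
        exact (pow_lt_pow_iff_right₀ hq1).mp h
      obtain ⟨k, hk⟩ := ih m' hlt ((twp hf s)⁻¹ y) (by
        rw [← Equiv.Perm.mul_apply, mul_inv_cancel, Equiv.Perm.one_apply, dq_comm,
          ← dq_twp hf s, ← Equiv.Perm.mul_apply (twp hf s) (twp hf s)⁻¹, mul_inv_cancel,
          Equiv.Perm.one_apply]
        rw [dq_comm]; exact h1) hm'
      refine ⟨1 + k, ?_⟩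
      rw [_root_.zpow_add, Equiv.Perm.mul_apply, ← hk, zpow_one, ← Equiv.Perm.mul_apply, mul_inv_cancel,
        Equiv.Perm.one_apply]

end twist

section aux

variable {F : Type} [Field F] [NumberField F] (w : Pl F)

theorem dq_triangle (x y z : G2 F ⧸ stdH w) : dq w x z ≤ dq w x y * dq w y z := by
  obtain ⟨a, rfl⟩ := QuotientGroup.mk_surjective x
  obtain ⟨b, rfl⟩ := QuotientGroup.mk_surjective y
  obtain ⟨c, rfl⟩ := QuotientGroup.mk_surjective z
  rw [dq_mk, dq_mk, dq_mk]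
  have : a⁻¹ * c = (a⁻¹ * b) * (b⁻¹ * c) := by group
  rw [this]
  exact dd_mul_le w _ _

omit [NumberField F] in
/-- Cayley-Hamilton -/
theorem CH2 (A : Matrix (Fin 2) (Fin 2) F) :
    A * A = A.trace • A - A.det • (1 : Matrix (Fin 2) (Fin 2) F) := by
  rw [Matrix.trace_fin_two, Matrix.det_fin_two]
  ext i j
  fin_cases i <;> fin_cases j <;> simp [Matrix.mul_apply, Fin.sum_univ_two] <;> ring

omit [NumberField F] in
theorem trace_pow_rec (A : Matrix (Fin 2) (Fin 2) F) (k : ℕ) :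
    (A ^ (k + 2)).trace = A.trace * (A ^ (k + 1)).trace - A.det * (A ^ k).trace := by
  have : A ^ (k + 2) = A.trace • A ^ (k + 1) - A.det • A ^ k := by
    rw [pow_add, pow_two, CH2, Matrix.mul_sub, Matrix.mul_smul, Matrix.mul_smul, Matrix.mul_one,
      ← pow_succ]
  rw [this, Matrix.trace_sub, Matrix.trace_smul, Matrix.trace_smul, smul_eq_mul, smul_eq_mul]

theorem av_trace_pow {A : Matrix (Fin 2) (Fin 2) F} (h : av w A.det < av w A.trace ^ 2) (k : ℕ) :
    av w (A ^ k).trace ≤ av w A.trace ^ k ∧ av w (A ^ (k + 1)).trace = av w A.trace ^ (k + 1) := by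
  have h0 : 0 < av w A.trace ^ 2 := ((av w).nonneg _).trans_lt h
  have ht : 0 < av w A.trace := by
    by_contra hc
    have : av w A.trace = 0 := le_antisymm (not_lt.mp hc) ((av w).nonneg _)
    rw [this] at h0
    norm_num at h0
  induction k with
  | zero =>
    constructor
    · rw [pow_zero, pow_zero, Matrix.trace_one, Fintype.card_fin, Nat.cast_ofNat]
      have : (2 : F) = 1 + 1 := by norm_num
      rw [this]
      refine (av_add_le w 1 1).trans ?_
      rw [map_one, max_self]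
    · rw [zero_add, pow_one, pow_one]
  | succ k ih =>
    refine ⟨ih.2.le, ?_⟩
    rw [trace_pow_rec]
    have h1 : av w (A.trace * (A ^ (k + 1)).trace) = av w A.trace ^ (k + 1 + 1) := by
      rw [map_mul, ih.2]; ring
    rw [← h1]
    apply av_eq_of_sub_lt
    rw [sub_sub_cancel_left, (av w).map_neg, h1, map_mul]
    calc av w A.det * av w (A ^ k).trace ≤ av w A.det * av w A.trace ^ k :=
          mul_le_mul_of_nonneg_left ih.1 ((av w).nonneg _)
      _ < av w A.trace ^ 2 * av w A.trace ^ k := mul_lt_mul_of_pos_right h (pow_pos ht k)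
      _ = av w A.trace ^ (k + 1 + 1) := by ring

omit [NumberField F] in
theorem trace_conj (a g : G2 F) : (a⁻¹ * g * a).1.trace = g.1.trace := by
  rw [Units.val_mul, Units.val_mul, Matrix.trace_mul_comm, ← mul_assoc, ← Units.val_mul,
    mul_inv_cancel, Units.val_one, one_mul]

omit [NumberField F] in
theorem det_conj (a g : G2 F) : (a⁻¹ * g * a).1.det = g.1.det := by
  have h : (a⁻¹).1.det * a.1.det = 1 := by
    rw [← Matrix.det_mul, ← Units.val_mul, inv_mul_cancel, Units.val_one, Matrix.det_one]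
  rw [Units.val_mul, Units.val_mul, Matrix.det_mul, Matrix.det_mul]
  linear_combination g.1.det * h

/-- hyperbolic elements have no periodic points -/
theorem not_mem_of_trace {g : G2 F} (h : av w g.1.det < av w g.1.trace ^ 2) (k : ℕ) (a : G2 F) :
    a⁻¹ * g ^ (k + 1) * a ∉ stdH w := by
  intro hm
  have h1 := av_det_of_mem w hm
  have h2 := av_trace_le w (a⁻¹ * g ^ (k + 1) * a).1
  rw [trace_conj, Units.val_pow_eq_pow_val, (av_trace_pow w h k).2] at h2
  rw [det_conj, Units.val_pow_eq_pow_val, Matrix.det_pow, map_pow] at h1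
  have h3 : av w g.1.det ^ (k + 1) < (av w g.1.trace ^ 2) ^ (k + 1) :=
    pow_lt_pow_left₀ h ((av w).nonneg _) (Nat.succ_ne_zero k)
  have h4 : (av w g.1.trace ^ 2) ^ (k + 1) = (av w g.1.trace ^ (k + 1)) ^ 2 := by
    rw [← pow_mul, ← pow_mul, mul_comm]
  have h5 : (av w g.1.trace ^ (k + 1)) ^ 2 ≤ nm w (a⁻¹ * g ^ (k + 1) * a).1 ^ 2 :=
    pow_le_pow_left₀ (pow_nonneg ((av w).nonneg _) _) h2 2
  rw [h1, h4] at h3
  exact absurd h3 (not_lt.mpr h5)

/-- existence of a vertex moved by distance one -/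
theorem exists_axis {γ : G2 F} (hγ : ¬ Fermat.Agent.LT.D.IsSc γ.1) (c : Fˣ)
    (hd : av w γ.1.det = (qv w)⁻¹ * av w (c : F) ^ 2) (ht : av w γ.1.trace ≤ av w (c : F)) :
    ∃ z : G2 F, dd w (z⁻¹ * γ * z) = qv w ∧
      (z⁻¹ * γ * z).1 = (c : F) • !![0, -(γ.1.det / (c : F) ^ 2); 1, γ.1.trace / c] := by
  obtain ⟨g, hg⟩ := Fermat.Agent.LT.D.exists_conj_comp hγ
  have hc := c.ne_zero
  have hcp : 0 < av w (c : F) := (av w).pos hc
  have h1 : (g⁻¹ * γ * g).1 = Fermat.Agent.LT.D.comp γ.1.trace γ.1.det := by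
    rw [Units.val_mul, Units.val_mul, mul_assoc, hg, ← mul_assoc, ← Units.val_mul, inv_mul_cancel,
      Units.val_one, one_mul]
  let D : G2 F := Matrix.GeneralLinearGroup.mkOfDetNeZero !![1, 0; 0, (c : F)⁻¹] (by simp)
  have hD : D.1 = !![1, 0; 0, (c : F)⁻¹] := rfl
  have hDi : (D⁻¹).1 = !![1, 0; 0, (c : F)] := by
    rw [inv_eq_smul_adj, hD]
    ext i j
    fin_cases i <;> fin_cases j <;> simp [Matrix.adjugate_fin_two, Matrix.det_fin_two, hc]
  have h2 : ((g * D)⁻¹ * γ * (g * D)).1 =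
      (c : F) • !![0, -(γ.1.det / (c : F) ^ 2); 1, γ.1.trace / c] := by
    have e : (g * D)⁻¹ * γ * (g * D) = D⁻¹ * (g⁻¹ * γ * g) * D := by group
    rw [e, Units.val_mul, Units.val_mul, h1, hD, hDi]
    ext i j
    fin_cases i <;> fin_cases j <;>
      simp [Fermat.Agent.LT.D.comp, Matrix.mul_apply, Fin.sum_univ_two] <;> field_simp
  refine ⟨g * D, ?_, h2⟩
  rw [dd_eq, det_conj, h2, hd, nm_smul]
  have h3 : nm w !![0, -(γ.1.det / (c : F) ^ 2); 1, γ.1.trace / (c : F)] = 1 := by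
    apply le_antisymm
    · rw [nm_le_iff]
      intro i j
      fin_cases i <;> fin_cases j
      · simp
      · simp only [Fin.zero_eta, Fin.mk_one, Matrix.of_apply, Matrix.cons_val', Matrix.cons_val_one,
          Matrix.cons_val_fin_one, Matrix.cons_val_zero]
        rw [(av w).map_neg, map_div₀, hd, map_pow, mul_div_assoc, div_self (by positivity), mul_one]
        exact (qinv_lt_one w).le
      · simp
      · simp only [Fin.mk_one, Matrix.of_apply, Matrix.cons_val', Matrix.cons_val_one,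
          Matrix.cons_val_fin_one]
        rw [map_div₀]
        exact (div_le_one hcp).mpr ht
    · have := av_le_nm w !![0, -(γ.1.det / (c : F) ^ 2); 1, γ.1.trace / (c : F)] 1 0
      simpa using this
  rw [h3, mul_one]
  have hq := qv_pos w
  field_simp

/-- converse -/
theorem good_of_dd {γ : G2 F} {z : G2 F} (h : dd w (z⁻¹ * γ * z) = qv w) :
    ∃ c : Fˣ, nm w (z⁻¹ * γ * z).1 = av w (c : F) ∧
      av w γ.1.det = (qv w)⁻¹ * av w (c : F) ^ 2 ∧ av w γ.1.trace ≤ av w (c : F) := by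
  obtain ⟨c, hc⟩ := exists_nm_eq w (z⁻¹ * γ * z)
  refine ⟨c, hc, ?_, ?_⟩
  · rw [dd_eq, det_conj, hc] at h
    have h1 := av_det_pos' w γ
    have hq := qv_pos w
    rw [div_eq_iff h1.ne'] at h
    rw [h]
    field_simp
  · rw [← hc, ← trace_conj z γ]
    exact av_trace_le w _

variable {w} {f : F ≃+* F} (hf : RTriv w f)
include hf

theorem RTriv.tw2 {s : G2 F} (hs : nm w s.1 ≤ 1) (hd : av w s.1.det < 1) :
    nm w ((s * fG f s).1 - s.1.trace • s.1) < 1 := by
  have e : (s * fG f s).1 - s.1.trace • s.1 =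
      s.1 * ((fG f s).1 - s.1) - s.1.det • (1 : Matrix (Fin 2) (Fin 2) F) := by
    rw [Matrix.mul_sub, Units.val_mul, CH2]; abel
  rw [e]
  refine nm_sub_lt w ?_ ?_
  · refine (nm_mul_le w _ _).trans_lt ?_
    calc nm w s.1 * nm w ((fG f s).1 - s.1) ≤ 1 * nm w ((fG f s).1 - s.1) :=
          mul_le_mul_of_nonneg_right hs (nm_nonneg w _)
      _ < 1 := by rw [one_mul]; exact hf.nm_sub hs
  · rw [nm_smul, nm_one, mul_one]; exact hd

theorem RTriv.tw3 {s : G2 F} (hs : nm w s.1 ≤ 1) (hd : av w s.1.det < 1) :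
    nm w ((s * fG f s * fG f (fG f s)).1 - (s.1.trace ^ 2) • s.1) < 1 := by
  have hs1 : nm w (fG f s).1 ≤ 1 := by rw [hf.nm_fG]; exact hs
  have hs2 : nm w (fG f (fG f s)).1 ≤ 1 := by rw [hf.nm_fG]; exact hs1
  have ht : av w s.1.trace ≤ 1 := (av_trace_le w _).trans hs
  have e : (s * fG f s * fG f (fG f s)).1 - (s.1.trace ^ 2) • s.1 =
      ((s * fG f s).1 - s.1.trace • s.1) * (fG f (fG f s)).1 +
      s.1.trace • (s.1 * ((fG f (fG f s)).1 - (fG f s).1)) +
      s.1.trace • ((s * fG f s).1 - s.1.trace • s.1) := by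
    simp only [Units.val_mul, Matrix.sub_mul, Matrix.mul_sub, smul_sub, Matrix.smul_mul,
      smul_smul, sq]
    abel
  have h2 := hf.tw2 hs hd
  rw [e]
  refine nm_add_lt w (nm_add_lt w ?_ ?_) ?_
  · refine (nm_mul_le w _ _).trans_lt ?_
    calc nm w ((s * fG f s).1 - s.1.trace • s.1) * nm w (fG f (fG f s)).1
        ≤ nm w ((s * fG f s).1 - s.1.trace • s.1) * 1 :=
          mul_le_mul_of_nonneg_left hs2 (nm_nonneg w _)
      _ < 1 := by rw [mul_one]; exact h2
  · rw [nm_smul]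
    have h3 : nm w (s.1 * ((fG f (fG f s)).1 - (fG f s).1)) < 1 := by
      refine (nm_mul_le w _ _).trans_lt ?_
      calc nm w s.1 * nm w ((fG f (fG f s)).1 - (fG f s).1)
          ≤ 1 * nm w ((fG f (fG f s)).1 - (fG f s).1) :=
            mul_le_mul_of_nonneg_right hs (nm_nonneg w _)
        _ < 1 := by rw [one_mul]; exact hf.nm_sub hs1
    calc av w s.1.trace * nm w (s.1 * ((fG f (fG f s)).1 - (fG f s).1))
        ≤ 1 * nm w (s.1 * ((fG f (fG f s)).1 - (fG f s).1)) :=
          mul_le_mul_of_nonneg_right ht (nm_nonneg w _)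
      _ < 1 := by rw [one_mul]; exact h3
  · rw [nm_smul]
    calc av w s.1.trace * nm w ((s * fG f s).1 - s.1.trace • s.1)
        ≤ 1 * nm w ((s * fG f s).1 - s.1.trace • s.1) :=
          mul_le_mul_of_nonneg_right ht (nm_nonneg w _)
      _ < 1 := by rw [one_mul]; exact h2

/-- if `|tr s| < 1` then `T² y = y` -/
theorem RTriv.sq_mem {s : G2 F} (hs : nm w s.1 = 1) (hds : dd w s = qv w)
    (ht : av w s.1.trace < 1) : s * fG f s ∈ stdH w := by
  have hdets : av w s.1.det = (qv w)⁻¹ := by rw [av_det_of_nm w hs, hds]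
  have hd1 : av w s.1.det < 1 := by rw [hdets]; exact qinv_lt_one w
  have h1 := hf.tw2 hs.le hd1
  have h2 : nm w (s * fG f s).1 < 1 := by
    have e : (s * fG f s).1 = ((s * fG f s).1 - s.1.trace • s.1) + s.1.trace • s.1 := by abel
    rw [e]
    refine nm_add_lt w h1 ?_
    rw [nm_smul, hs, mul_one]; exact ht
  have h3 := nm_le_inv w h2
  rw [← dd_eq_one_iff]
  apply le_antisymm _ (one_le_dd w _)
  rw [dd_eq, Units.val_mul, Matrix.det_mul, map_mul, hf.av_det, hdets, ← Units.val_mul]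
  have hq := qinv_pos w
  rw [div_le_one (by positivity), ← sq]
  exact pow_le_pow_left₀ (nm_nonneg w _) h3 2

end aux

end Fermat.LT.Tr
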